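import Fermat.Agent.LT.I.Co
import Fermat.Agent.LT.H.Defs

/-!
# LT, piece I: extension of a function from the unit coset at `S`

`S` a finite set of places, `U = princ n hn` with `n` supported on `S`, `f : XI A → Y U → ℂ`
invariant under `un b`, `lo c`, `dg a` with `b, c, a - 1` small at `S`.

* `Ext.mem_congGL_of` : `‖g - 1‖ ≤ q^{-n}`, `n ≥ 1` implies `g ∈ congGL w n`;
* `Ext.exists_gamma` (E1) : every `y : Y U` can be moved to the unit coset at all places of `S`;
* `Ext.inv_of_mem` (E2) : `f` is invariant under every `δ` in `⋂_{w ∈ S} H_w`;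
* `Ext.exists_ext` (E3) : the `PG F`-invariant extension `φ`;
* `Ext.decomp` (E4) : `γ = β * lo c * un b`, `β` upper triangular, `b, c` integral at `S`.
(E5): see `Level.proj`, `projX` in `LT/Geo/DeepQ.lean`.
-/

set_option autoImplicit false
set_option linter.unusedSectionVars false

open NumberField IsDedekindDomain WithZero Module Matrix

namespace Fermat.Agent.LT.I

open Fermat.LT Fermat.Agent.CFT Fermat.Agent.LT.H

variable {F : Type} [Field F] [NumberField F]

namespace Ext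

section local_lemmas

variable (w : Pl F)

theorem av_eq_one_of {x : F} (h : av w (x - 1) < 1) : av w x = 1 := by
  apply le_antisymm
  · have h1 := av_add_le w (x - 1) 1
    rw [sub_add_cancel, map_one] at h1
    exact h1.trans (max_le h.le le_rfl)
  · have h1 := av_add_le w (-(x - 1)) x
    rw [(av w).map_neg] at h1
    have e : -(x - 1) + x = 1 := by ring
    rw [e, map_one] at h1
    rcases le_max_iff.1 h1 with h2 | h2
    · exact absurd h2 (not_le.2 h)
    · exact h2

theorem qinv_lt_one {n : ℕ} (hn : 1 ≤ n) : (qv w)⁻¹ ^ n < 1 :=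
  pow_lt_one₀ (inv_nonneg.2 (qv_pos w).le) (inv_lt_one_of_one_lt₀ (one_lt_qv w)) (by omega)

theorem qinv_pos (n : ℕ) : 0 < (qv w)⁻¹ ^ n := pow_pos (inv_pos.2 (qv_pos w)) n

theorem av_entry_sub_le {M : Matrix (Fin 2) (Fin 2) F} {r : ℝ} (h : nm w (M - 1) ≤ r) (i j : Fin 2) :
    av w (M i j - (1 : Matrix (Fin 2) (Fin 2) F) i j) ≤ r :=
  (av_le_nm w (M - 1) i j).trans h

theorem nm_le_one_of {M : Matrix (Fin 2) (Fin 2) F} {r : ℝ} (hr : r ≤ 1) (h : nm w (M - 1) ≤ r) :
    nm w M ≤ 1 := by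
  have e : M = (M - 1) + 1 := by abel
  rw [e]
  refine (nm_add_le w _ _).trans (max_le (h.trans hr) ?_)
  rw [nm_one]

theorem av_det_sub_one_le {M : Matrix (Fin 2) (Fin 2) F} {r : ℝ} (hr : r ≤ 1)
    (h : nm w (M - 1) ≤ r) : av w (M.det - 1) ≤ r := by
  have h0 : 0 ≤ r := (nm_nonneg w _).trans h
  have h00 : av w (M 0 0 - 1) ≤ r := by simpa using av_entry_sub_le w h 0 0
  have h11 : av w (M 1 1 - 1) ≤ r := by simpa using av_entry_sub_le w h 1 1
  have h01 : av w (M 0 1) ≤ r := by simpa using av_entry_sub_le w h 0 1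
  have h10 : av w (M 1 0) ≤ r := by simpa using av_entry_sub_le w h 1 0
  have m11 : av w (M 1 1) ≤ 1 := (av_le_nm w M 1 1).trans (nm_le_one_of w hr h)
  have e : M.det - 1 = ((M 0 0 - 1) * M 1 1 + (M 1 1 - 1)) + -(M 0 1 * M 1 0) := by
    rw [Matrix.det_fin_two]; ring
  rw [e]
  refine (av_add_le w _ _).trans (max_le ((av_add_le w _ _).trans (max_le ?_ h11)) ?_)
  · rw [map_mul]
    calc av w (M 0 0 - 1) * av w (M 1 1) ≤ r * 1 := mul_le_mul h00 m11 ((av w).nonneg _) h0
      _ = r := mul_one r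
  · rw [(av w).map_neg, map_mul]
    calc av w (M 0 1) * av w (M 1 0) ≤ r * 1 := mul_le_mul h01 (h10.trans hr) ((av w).nonneg _) h0
      _ = r := mul_one r

/-- an element close to `1` lies in the congruence subgroup -/
theorem mem_congGL_of {n : ℕ} (hn : 1 ≤ n) {g : G2 F} (h : nm w (g.1 - 1) ≤ (qv w)⁻¹ ^ n) :
    g ∈ congGL w n := by
  have h1 := (qinv_lt_one w hn)
  have h2 : nm w g.1 ≤ 1 := nm_le_one_of w h1.le h
  have h3 : av w g.1.det = 1 :=
    av_eq_one_of w ((av_det_sub_one_le w h1.le h).trans_lt h1)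
  refine ⟨⟨h2, ?_⟩, h⟩
  rw [inv_val, nm_smul, nm_adjugate, map_inv₀, h3, inv_one, one_mul]
  exact h2

theorem mem_congGL_iff {n : ℕ} (hn : 1 ≤ n) {g : G2 F} :
    g ∈ congGL w n ↔ nm w (g.1 - 1) ≤ (qv w)⁻¹ ^ n :=
  ⟨fun h => h.2, mem_congGL_of w hn⟩

theorem val_le_iff (n : ℕ) (x : F) : w.valuation F x ≤ exp (-(n : ℤ)) ↔ av w x ≤ (qv w)⁻¹ ^ n := by
  rw [← av_le_zpow_iff, _root_.zpow_neg, zpow_natCast, inv_pow]

theorem exists_exp' {r : ℝ} (hr : 0 < r) : ∃ e : ℕ, (qv w)⁻¹ ^ e ≤ r := by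
  obtain ⟨e, he⟩ := exists_pow_lt_of_lt_one hr (inv_lt_one_of_one_lt₀ (one_lt_qv w))
  exact ⟨e, he.le⟩

end local_lemmas

/-- real form of strong approximation -/
theorem approx (T : Finset (Pl F)) (x : Pl F → F) (ε : Pl F → ℝ) (hε : ∀ w ∈ T, 0 < ε w) :
    ∃ u : F, ∀ w ∈ T, av w (u - x w) ≤ ε w := by
  classical
  have h1 : ∀ w, ∃ e : ℕ, w ∈ T → (qv w)⁻¹ ^ e ≤ ε w := by
    intro w
    by_cases hw : w ∈ T
    · obtain ⟨e, he⟩ := exists_exp' w (hε w hw)
      exact ⟨e, fun _ => he⟩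
    · exact ⟨0, fun h => absurd h hw⟩
  choose e he using h1
  obtain ⟨u, hu, -⟩ := strong_approx T x (fun w => (e w : ℤ)) 0
  exact ⟨u, fun w hw => ((val_le_iff w _ _).1 (hu w hw)).trans (he w hw)⟩

variable {n : Pl F → ℕ} {hn : {w | n w ≠ 0}.Finite} {S : Finset (Pl F)}

/-- (E1) every point can be moved to the unit coset at all places of `S` -/
theorem exists_gamma (h1 : ∀ w ∈ S, 1 ≤ n w) (y : Y (princ n hn)) :
    ∃ γ : G2 F, ∀ w ∈ S, (γ⁻¹ • y) w = ((1 : G2 F) : Yl (princ n hn) w) := by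
  classical
  rcases S.eq_empty_or_nonempty with rfl | ⟨w0, hw0⟩
  · exact ⟨1, fun w hw => absurd hw (Finset.notMem_empty w)⟩
  have hrep : ∀ w, ∃ g : G2 F, (g : Yl (princ n hn) w) = y w := fun w =>
    QuotientGroup.mk_surjective (y w)
  choose g hg using hrep
  set ε : Pl F → ℝ := fun w => (qv w)⁻¹ ^ (n w) / nm w ((g w)⁻¹).1 with hε
  have hε0 : ∀ w ∈ S, 0 < ε w := fun w _ => div_pos (qinv_pos w _) (nm_pos w _)
  have h2 : ∀ i j : Fin 2, ∃ u : F, ∀ w ∈ S, av w (u - (g w).1 i j) ≤ ε w := fun i j =>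
    approx S (fun w => (g w).1 i j) ε hε0
  choose u hu using h2
  set M : Matrix (Fin 2) (Fin 2) F := Matrix.of u with hM
  have key : ∀ w ∈ S, nm w (((g w)⁻¹).1 * M - 1) ≤ (qv w)⁻¹ ^ (n w) := by
    intro w hw
    have e : ((g w)⁻¹).1 * M - 1 = ((g w)⁻¹).1 * (M - (g w).1) := by
      rw [mul_sub, ← Units.val_mul, inv_mul_cancel, Units.val_one]
    rw [e]
    have h3 : nm w (M - (g w).1) ≤ ε w := by
      rw [nm_le_iff]
      intro i j
      exact hu i j w hw
    calc nm w (((g w)⁻¹).1 * (M - (g w).1)) ≤ nm w ((g w)⁻¹).1 * nm w (M - (g w).1) :=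
          nm_mul_le w _ _
      _ ≤ nm w ((g w)⁻¹).1 * ε w := mul_le_mul_of_nonneg_left h3 (nm_nonneg w _)
      _ = (qv w)⁻¹ ^ (n w) := by
          rw [hε]
          have := (nm_pos w (g w)⁻¹).ne'
          field_simp
  have hdet : M.det ≠ 0 := by
    intro h0
    have hlt := qinv_lt_one w0 (h1 w0 hw0)
    have h3 := av_eq_one_of w0 ((av_det_sub_one_le w0 hlt.le (key w0 hw0)).trans_lt hlt)
    rw [Matrix.det_mul, h0, mul_zero, map_zero] at h3
    exact zero_ne_one h3
  refine ⟨Matrix.GeneralLinearGroup.mkOfDetNeZero M hdet, fun w hw => ?_⟩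
  set γ : G2 F := Matrix.GeneralLinearGroup.mkOfDetNeZero M hdet with hγ
  have h4 : (g w)⁻¹ * γ ∈ congGL w (n w) := by
    apply mem_congGL_of w (h1 w hw)
    rw [Units.val_mul]
    exact key w hw
  rw [G2_smul_apply, ← hg w]
  change ((γ⁻¹ * g w : G2 F) : Yl (princ n hn) w) = _
  rw [eq_comm, QuotientGroup.eq, inv_one, one_mul]
  have h5 : γ⁻¹ * g w = ((g w)⁻¹ * γ)⁻¹ := by group
  rw [h5]
  exact (princ n hn).cong_le w (inv_mem h4)

section inv

variable {A : Arch F} {U : Level F} {f : XI A → Y U → ℂ}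

/-- the group of elements under which `f` is invariant -/
def Inv (f : XI A → Y U → ℂ) : Subgroup (G2 F) where
  carrier := {g | ∀ P y, f (g • P) (g • y) = f P y}
  mul_mem' := by
    intro g h hg hh P y
    rw [mul_smul, mul_smul, hg, hh]
  one_mem' := by
    intro P y
    rw [one_smul, one_smul]
  inv_mem' := by
    intro g hg P y
    have := hg (g⁻¹ • P) (g⁻¹ • y)
    rw [smul_inv_smul, smul_inv_smul] at this
    exact this.symm

theorem mem_Inv {g : G2 F} : g ∈ Inv f ↔ ∀ P y, f (g • P) (g • y) = f P y := Iff.rfl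

theorem sc_mem_Inv (c : Fˣ) : sc c ∈ Inv f := by
  intro P y
  rw [sc_smul_XI, sc_smul_Y]

set_option linter.unusedSimpArgs false in
/-- LU decomposition -/
theorem lu (g : G2 F) (h : g.1 0 0 ≠ 0) : g = lo (g.1 1 0 / g.1 0 0) *
    sc (Units.mk0 (g.1.det / g.1 0 0) (div_ne_zero (det_ne_zero' g) h)) *
    dg (Units.mk0 (g.1 0 0 ^ 2 / g.1.det) (div_ne_zero (pow_ne_zero 2 h) (det_ne_zero' g))) *
    un (g.1 0 1 / g.1 0 0) := by
  have hd : g.1.det ≠ 0 := det_ne_zero' g
  have hdet : g.1.det = g.1 0 0 * g.1 1 1 - g.1 0 1 * g.1 1 0 := det_eq g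
  have e1 : g.1 1 1 = (g.1.det + g.1 0 1 * g.1 1 0) / g.1 0 0 := by
    rw [hdet, eq_div_iff h]; ring
  apply G2_ext'
  · simp only [mul00, mul01, mul10, mul11, un00, un01, un10, un11, dg00, dg01,
        dg10, dg11, sc00, sc01, sc10, sc11, lo00, lo01, lo10, lo11, Units.val_mk0]
    generalize g.1.det = d at hd ⊢
    field_simp
    try ring
  · simp only [mul00, mul01, mul10, mul11, un00, un01, un10, un11, dg00, dg01,
        dg10, dg11, sc00, sc01, sc10, sc11, lo00, lo01, lo10, lo11, Units.val_mk0]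
    generalize g.1.det = d at hd ⊢
    field_simp
    try ring
  · simp only [mul00, mul01, mul10, mul11, un00, un01, un10, un11, dg00, dg01,
        dg10, dg11, sc00, sc01, sc10, sc11, lo00, lo01, lo10, lo11, Units.val_mk0]
    generalize g.1.det = d at hd ⊢
    field_simp
    try ring
  · rw [e1]
    simp only [mul00, mul01, mul10, mul11, un00, un01, un10, un11, dg00, dg01,
        dg10, dg11, sc00, sc01, sc10, sc11, lo00, lo01, lo10, lo11, Units.val_mk0]
    generalize g.1.det = d at hd ⊢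
    field_simp
    try ring

end inv

section E2

variable {A : Arch F} {f : XI A → Y (princ n hn) → ℂ} {k : ℕ}

/-- (E2) `f` is invariant under every `δ` which fixes the unit coset at all `w ∈ S`. -/
theorem inv_of_mem (h1 : ∀ w ∈ S, 1 ≤ n w) (hk : ∀ w ∈ S, k ≤ n w)
    (i1 : ∀ b : F, (∀ w ∈ S, w.valuation F b ≤ exp (-(k : ℤ))) → ∀ P y, f (un b • P) (un b • y) = f P y)
    (i2 : ∀ c : F, (∀ w ∈ S, w.valuation F c ≤ exp (-(k : ℤ))) → ∀ P y, f (lo c • P) (lo c • y) = f P y)
    (i3 : ∀ a : Fˣ, (∀ w ∈ S, w.valuation F ((a : F) - 1) ≤ exp (-(k : ℤ))) →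
      ∀ P y, f (dg a • P) (dg a • y) = f P y)
    {δ : G2 F} (hδ : ∀ w ∈ S, δ ∈ (princ n hn).H w) : ∀ P y, f (δ • P) (δ • y) = f P y := by
  classical
  change δ ∈ Inv f
  have hkn : ∀ w ∈ S, (qv w)⁻¹ ^ (n w) ≤ (qv w)⁻¹ ^ k := fun w hw =>
    pow_le_pow_of_le_one (inv_nonneg.2 (qv_pos w).le) (inv_le_one_of_one_le₀ (one_lt_qv w).le)
      (hk w hw)
  -- the core case
  have core : ∀ g : G2 F, g.1 0 0 ≠ 0 → (∀ w ∈ S, nm w (g.1 - 1) ≤ (qv w)⁻¹ ^ (n w)) →
      g ∈ Inv f := by
    intro g h00 hg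
    have hav : ∀ w ∈ S, av w (g.1 0 0) = 1 := by
      intro w hw
      have hlt := qinv_lt_one w (h1 w hw)
      apply av_eq_one_of
      have := av_entry_sub_le w (hg w hw) 0 0
      rw [Matrix.one_apply_eq] at this
      exact this.trans_lt hlt
    have hdv : ∀ w ∈ S, av w (g.1.det - 1) ≤ (qv w)⁻¹ ^ (n w) := fun w hw =>
      av_det_sub_one_le w (qinv_lt_one w (h1 w hw)).le (hg w hw)
    have hdv1 : ∀ w ∈ S, av w g.1.det = 1 := fun w hw =>
      av_eq_one_of w ((hdv w hw).trans_lt (qinv_lt_one w (h1 w hw)))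
    rw [lu g h00]
    refine mul_mem (mul_mem (mul_mem ?_ (sc_mem_Inv _)) ?_) ?_
    · refine i2 _ fun w hw => ?_
      rw [val_le_iff, map_div₀, hav w hw, div_one]
      have := av_entry_sub_le w (hg w hw) 1 0
      rw [Matrix.one_apply_ne (by decide), sub_zero] at this
      exact this.trans (hkn w hw)
    · refine i3 _ fun w hw => ?_
      rw [val_le_iff, Units.val_mk0]
      have e : g.1 0 0 ^ 2 / g.1.det - 1 =
          ((g.1 0 0 - 1) * (g.1 0 0 + 1) + -(g.1.det - 1)) / g.1.det := by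
        have := det_ne_zero' g
        field_simp
        ring
      rw [e, map_div₀, hdv1 w hw, div_one]
      refine (av_add_le w _ _).trans (max_le ?_ ?_)
      · have h3 := av_entry_sub_le w (hg w hw) 0 0
        rw [Matrix.one_apply_eq] at h3
        have h4 : av w (g.1 0 0 + 1) ≤ 1 := by
          refine (av_add_le w _ _).trans (max_le (hav w hw).le ?_)
          rw [map_one]
        rw [map_mul]
        calc av w (g.1 0 0 - 1) * av w (g.1 0 0 + 1) ≤ (qv w)⁻¹ ^ (n w) * 1 :=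
              mul_le_mul h3 h4 ((av w).nonneg _) (qinv_pos w _).le
          _ ≤ (qv w)⁻¹ ^ k := by rw [mul_one]; exact hkn w hw
      · rw [(av w).map_neg]
        exact (hdv w hw).trans (hkn w hw)
    · refine i1 _ fun w hw => ?_
      rw [val_le_iff, map_div₀, hav w hw, div_one]
      have := av_entry_sub_le w (hg w hw) 0 1
      rw [Matrix.one_apply_ne (by decide), sub_zero] at this
      exact this.trans (hkn w hw)
  rcases S.eq_empty_or_nonempty with hS | ⟨w0, hw0⟩
  · -- no condition at all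
    have hno : ∀ w ∈ S, ∀ p : Prop, p := fun w hw => absurd hw (by rw [hS]; exact Finset.notMem_empty w)
    by_cases h00 : δ.1 0 0 = 0
    · have h2 : un 1 * δ ∈ Inv f := by
        apply core _ _ (fun w hw => hno w hw _)
        rw [mul00, un00, un01, h00, one_mul, one_mul, zero_add]
        intro h10
        have := det_ne_zero'' δ
        rw [h00, h10] at this
        simp at this
      have h3 : un 1 ∈ Inv f := i1 1 fun w hw => hno w hw _
      have := mul_mem (inv_mem h3) h2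
      rwa [inv_mul_cancel_left] at this
    · exact core δ h00 (fun w hw => hno w hw _)
  · -- choose a global scalar
    have h2 : ∀ w, ∃ c : Fˣ, w ∈ S → ∃ κ ∈ congGL w (n w), δ = sc c * κ := by
      intro w
      by_cases hw : w ∈ S
      · obtain ⟨c, κ, hκ, e⟩ := mem_princ_H.1 (hδ w hw)
        exact ⟨c, fun _ => ⟨κ, hκ, e⟩⟩
      · exact ⟨1, fun h => absurd h hw⟩
    choose c hc using h2
    obtain ⟨d, hd⟩ := approx S (fun w => (c w : F)) (fun w => (qv w)⁻¹ ^ (n w) * av w (c w : F))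
      (fun w _ => mul_pos (qinv_pos w _) ((av w).pos (c w).ne_zero))
    have hd1 : ∀ w ∈ S, av w (d / c w - 1) ≤ (qv w)⁻¹ ^ (n w) := by
      intro w hw
      have hcw : 0 < av w (c w : F) := (av w).pos (c w).ne_zero
      have e : d / c w - 1 = (d - c w) / c w := by
        have := (c w).ne_zero
        field_simp
      rw [e, map_div₀, div_le_iff₀ hcw]
      exact hd w hw
    have hd2 : ∀ w ∈ S, av w (d / c w) = 1 := fun w hw =>
      av_eq_one_of w ((hd1 w hw).trans_lt (qinv_lt_one w (h1 w hw)))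
    have hd0 : d ≠ 0 := by
      rintro rfl
      have := hd2 w0 hw0
      rw [zero_div, map_zero] at this
      exact zero_ne_one this
    set g : G2 F := sc (Units.mk0 d hd0)⁻¹ * δ with hg
    have hg1 : ∀ w ∈ S, nm w (g.1 - 1) ≤ (qv w)⁻¹ ^ (n w) := by
      intro w hw
      obtain ⟨κ, hκ, e⟩ := hc w hw
      have e1 : g.1 = ((c w : F) / d) • κ.1 := by
        rw [hg, sc_mul_val, e, sc_mul_val, smul_smul, Units.val_inv_eq_inv_val, Units.val_mk0,
          inv_mul_eq_div]
      have e2 : g.1 - 1 = ((c w : F) / d) • (κ.1 - 1) + ((c w : F) / d - 1) •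
          (1 : Matrix (Fin 2) (Fin 2) F) := by
        rw [e1, smul_sub, sub_smul, one_smul]; abel
      have e3 : av w ((c w : F) / d) = 1 := by
        have := hd2 w hw
        rw [map_div₀] at this ⊢
        rw [← inv_div, this, inv_one]
      have e4 : av w ((c w : F) / d - 1) ≤ (qv w)⁻¹ ^ (n w) := by
        have e5 : (c w : F) / d - 1 = -((d / c w - 1) * ((c w : F) / d)) := by
          have := (c w).ne_zero
          field_simp
          ring
        rw [e5, (av w).map_neg, map_mul, e3, mul_one]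
        exact hd1 w hw
      rw [e2]
      refine (nm_add_le w _ _).trans (max_le ?_ ?_)
      · rw [nm_smul, e3, one_mul]; exact hκ.2
      · rw [nm_smul, nm_one, mul_one]; exact e4
    have h00 : g.1 0 0 ≠ 0 := by
      intro h0
      have h3 := av_entry_sub_le w0 (hg1 w0 hw0) 0 0
      rw [Matrix.one_apply_eq, h0, zero_sub, (av w0).map_neg, map_one] at h3
      exact absurd h3 (not_le.2 (qinv_lt_one w0 (h1 w0 hw0)))
    have h5 := mul_mem (sc_mem_Inv (f := f) (Units.mk0 d hd0)) (core g h00 hg1)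
    rwa [hg, ← mul_assoc, ← sc_inv, mul_inv_cancel, one_mul] at h5

theorem mem_H_of_smul_one {U : Level F} {w : Pl F} {δ : G2 F}
    (h : δ • ((1 : G2 F) : Yl U w) = ((1 : G2 F) : Yl U w)) : δ ∈ U.H w := by
  change ((δ * 1 : G2 F) : Yl U w) = _ at h
  rw [mul_one, eq_comm, QuotientGroup.eq, inv_one, one_mul] at h
  exact h

/-- (E3) **The invariant extension.** -/
theorem exists_ext (h1 : ∀ w ∈ S, 1 ≤ n w) (hk : ∀ w ∈ S, k ≤ n w)
    (i1 : ∀ b : F, (∀ w ∈ S, w.valuation F b ≤ exp (-(k : ℤ))) → ∀ P y, f (un b • P) (un b • y) = f P y)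
    (i2 : ∀ c : F, (∀ w ∈ S, w.valuation F c ≤ exp (-(k : ℤ))) → ∀ P y, f (lo c • P) (lo c • y) = f P y)
    (i3 : ∀ a : Fˣ, (∀ w ∈ S, w.valuation F ((a : F) - 1) ≤ exp (-(k : ℤ))) →
      ∀ P y, f (dg a • P) (dg a • y) = f P y) :
    ∃ φ : X (⟨A, princ n hn⟩ : Datum F) → ℂ, (∀ (g : PG F) x, φ (g • x) = φ x) ∧
      ∀ (P : XI A) (y : Y (princ n hn)) (γ : G2 F),
        (∀ w ∈ S, (γ⁻¹ • y) w = ((1 : G2 F) : Yl (princ n hn) w)) →
        φ (P, y) = f (γ⁻¹ • P) (γ⁻¹ • y) := by
  have hE1 := exists_gamma (hn := hn) h1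
  choose γ hγ using hE1
  have hmain : ∀ (P : XI A) (y : Y (princ n hn)) (g g' : G2 F),
      (∀ w ∈ S, (g⁻¹ • y) w = ((1 : G2 F) : Yl (princ n hn) w)) →
      (∀ w ∈ S, (g'⁻¹ • y) w = ((1 : G2 F) : Yl (princ n hn) w)) →
      f (g⁻¹ • P) (g⁻¹ • y) = f (g'⁻¹ • P) (g'⁻¹ • y) := by
    intro P y g g' hg hg'
    have hδ : ∀ w ∈ S, g⁻¹ * g' ∈ (princ n hn).H w := by
      intro w hw
      apply mem_H_of_smul_one
      have a : g'⁻¹ • y w = ((1 : G2 F) : Yl (princ n hn) w) := hg' w hw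
      have b : g⁻¹ • y w = ((1 : G2 F) : Yl (princ n hn) w) := hg w hw
      conv_lhs => rw [← a]
      rw [smul_smul, mul_assoc, mul_inv_cancel, mul_one, b]
    have h2 := inv_of_mem h1 hk i1 i2 i3 hδ (g'⁻¹ • P) (g'⁻¹ • y)
    rw [smul_smul, smul_smul, mul_assoc, mul_inv_cancel, mul_one] at h2
    exact h2
  refine ⟨fun x => f ((γ x.2)⁻¹ • x.1) ((γ x.2)⁻¹ • x.2), fun g x => ?_, fun P y g hg => ?_⟩
  · obtain ⟨g, rfl⟩ := Matrix.ProjGenLinGroup.mk_surjective g
    change f ((γ (g • x.2))⁻¹ • (g • x.1)) ((γ (g • x.2))⁻¹ • (g • x.2)) = _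
    have h3 : ∀ w ∈ S, ((g * γ x.2)⁻¹ • (g • x.2)) w = ((1 : G2 F) : Yl (princ n hn) w) := by
      intro w hw
      rw [smul_smul, _root_.mul_inv_rev, inv_mul_cancel_right]
      exact hγ x.2 w hw
    rw [hmain (g • x.1) (g • x.2) _ _ (hγ (g • x.2)) h3, smul_smul, smul_smul,
      _root_.mul_inv_rev, inv_mul_cancel_right]
  · exact hmain P y _ _ (hγ y) hg

end E2

/-- (E4) every `γ` is `β * lo c * un b` with `β` upper triangular and `b`, `c` integral at `S` -/
theorem decomp (S : Finset (Pl F)) (γ : G2 F) : ∃ (β : G2 F) (c b : F), β.1 1 0 = 0 ∧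
    γ = β * lo c * un b ∧ (∀ w ∈ S, w.valuation F c ≤ 1) ∧ ∀ w ∈ S, w.valuation F b ≤ 1 := by
  classical
  set r : F := γ.1 1 0 with hr
  set s : F := γ.1 1 1 with hs
  have hrs : r ≠ 0 ∨ s ≠ 0 := by
    by_contra h
    push Not at h
    have := det_ne_zero'' γ
    rw [← hr, ← hs, h.1, h.2] at this
    simp at this
  -- it suffices to find `b`
  suffices H : ∃ b : F, s - r * b ≠ 0 ∧ ∀ w ∈ S, av w r ≤ av w (s - r * b) ∧ av w b ≤ 1 by
    obtain ⟨b, hb0, hb⟩ := H
    refine ⟨γ * (lo (r / (s - r * b)) * un b)⁻¹, r / (s - r * b), b, ?_, ?_, fun w hw => ?_,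
      fun w hw => ?_⟩
    · have e : (lo (r / (s - r * b)) * un b)⁻¹ = un (-b) * lo (-(r / (s - r * b))) := by
        rw [_root_.mul_inv_rev, un_neg, lo_neg]
      rw [e, mul10, mul00, mul10, un00, un01, un10, un11, lo00, lo10, ← hr, ← hs]
      field_simp
      ring
    · rw [mul_assoc, inv_mul_cancel_right]
    · rw [← av_le_one_iff', map_div₀]
      have h1 : 0 < av w (s - r * b) := (av w).pos hb0
      rw [div_le_one h1]
      exact (hb w hw).1
    · rw [← av_le_one_iff']; exact (hb w hw).2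
  -- local choices
  set bw : Pl F → F := fun w => if av w r ≤ av w s then 0 else 1 with hbw
  have hloc : ∀ w, av w r ≤ av w (s - r * bw w) ∧ av w (bw w) ≤ 1 := by
    intro w
    by_cases h : av w r ≤ av w s
    · simp only [hbw, if_pos h, mul_zero, sub_zero, map_zero]
      exact ⟨h, zero_le_one⟩
    · simp only [hbw, if_neg h, mul_one, map_one]
      refine ⟨?_, le_rfl⟩
      have h2 := av_add_le w (-(s - r)) s
      rw [(av w).map_neg] at h2
      have e : -(s - r) + s = r := by ring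
      rw [e] at h2
      rcases le_max_iff.1 h2 with h3 | h3
      · exact h3
      · exact absurd h3 h
  rcases S.eq_empty_or_nonempty with rfl | ⟨w0, hw0⟩
  · by_cases h : s = 0
    · refine ⟨1, ?_, fun w hw => absurd hw (Finset.notMem_empty w)⟩
      rw [h, mul_one, zero_sub, neg_ne_zero]
      exact hrs.resolve_right fun h' => h' h
    · exact ⟨0, by rwa [mul_zero, sub_zero], fun w hw => absurd hw (Finset.notMem_empty w)⟩
  obtain ⟨b, hb⟩ := approx S bw (fun w => (qv w)⁻¹) (fun w _ => inv_pos.2 (qv_pos w))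
  have hq : ∀ w : Pl F, (qv w)⁻¹ < 1 := fun w => inv_lt_one_of_one_lt₀ (one_lt_qv w)
  have hpos : ∀ w, 0 < av w (s - r * bw w) := by
    intro w
    rcases hrs with h | h
    · exact ((av w).pos h).trans_le (hloc w).1
    · by_cases h0 : r = 0
      · rw [h0, zero_mul, sub_zero]; exact (av w).pos h
      · exact ((av w).pos h0).trans_le (hloc w).1
  have hlow : ∀ w ∈ S, av w (s - r * bw w) ≤ av w (s - r * b) := by
    intro w hw
    have h2 := av_add_le w (s - r * b) (r * (b - bw w))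
    have e : s - r * b + r * (b - bw w) = s - r * bw w := by ring
    rw [e] at h2
    rcases le_max_iff.1 h2 with h3 | h3
    · exact h3
    · exfalso
      rw [map_mul] at h3
      have h4 : av w r * av w (b - bw w) ≤ av w (s - r * bw w) * (qv w)⁻¹ :=
        mul_le_mul (hloc w).1 (hb w hw) ((av w).nonneg _) (hpos w).le
      have h5 : av w (s - r * bw w) * (qv w)⁻¹ < av w (s - r * bw w) * 1 :=
        mul_lt_mul_of_pos_left (hq w) (hpos w)
      linarith
  refine ⟨b, ?_, fun w hw => ⟨(hloc w).1.trans (hlow w hw), ?_⟩⟩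
  · intro h0
    have := hlow w0 hw0
    rw [h0, map_zero] at this
    exact absurd this (not_le.2 (hpos w0))
  · have e : b = (b - bw w) + bw w := by ring
    rw [e]
    exact (av_add_le w _ _).trans (max_le ((hb w hw).trans (hq w).le) (hloc w).2)

end Ext

end Fermat.Agent.LT.I
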