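import Fermat.Agent.LT.CArch.OnH3
import Fermat.Agent.LT.H.Bessel

/-!
# The Whittaker function `t K₀(4π|β|t) e(β z)` is an eigenfunction
-/

set_option autoImplicit false

open MeasureTheory Set Filter Topology
open scoped Real ContDiff

noncomputable section

namespace Fermat.Agent.LT.I

open Fermat.LT Fermat.Agent.LT.CArch Fermat.Agent.LT.H.Bessel

theorem contDiffOn_Mo (n : ℕ) : ContDiffOn ℝ ∞ (Mo n) (Ioi 0) := by
  rw [contDiffOn_infty]
  intro k
  induction k generalizing n with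
  | zero =>
    rw [Nat.cast_zero, contDiffOn_zero]
    exact fun x hx => (hasDerivAt_Mo n hx).continuousAt.continuousWithinAt
  | succ k ih =>
    rw [Nat.cast_add, Nat.cast_one, contDiffOn_succ_iff_derivWithin (uniqueDiffOn_Ioi 0)]
    refine ⟨fun x hx => (hasDerivAt_Mo n hx).differentiableAt.differentiableWithinAt, by simp, ?_⟩
    refine (ih (n + 1)).neg.congr fun x hx => ?_
    exact (hasDerivAt_Mo n hx).hasDerivWithinAt.derivWithin (uniqueDiffOn_Ioi 0 x hx)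

theorem contDiffOn_K0 : ContDiffOn ℝ ∞ K0 (Ioi 0) :=
  (contDiffOn_Mo 0).congr fun x _ => K0_eq_Mo x

theorem contDiffOn_Wh {c : ℝ} (hc : 0 < c) : ContDiffOn ℝ ∞ (Wh c) (Ioi 0) := by
  unfold Wh
  refine contDiffOn_id.mul (contDiffOn_K0.comp (contDiffOn_const.mul contDiffOn_id) fun x hx => ?_)
  exact mul_pos hc hx

/-- The phase. -/
def ph (β z : ℂ) : ℂ := Complex.exp (((4 * π * (β * z).re : ℝ) : ℂ) * Complex.I)

theorem norm_ph (β z : ℂ) : ‖ph β z‖ = 1 := by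
  unfold ph; rw [Complex.norm_exp_ofReal_mul_I]

theorem ph_add (β z w : ℂ) : ph β (z + w) = ph β z * ph β w := by
  unfold ph
  rw [← Complex.exp_add, mul_add, Complex.add_re]
  congr 1; push_cast; ring

theorem contDiff_ph (β : ℂ) : ContDiff ℝ ∞ (ph β) := by
  have h1 : ContDiff ℝ ∞ fun z : ℂ => (4 * π * (β * z).re : ℝ) := by
    have : (fun z : ℂ => (4 * π * (β * z).re : ℝ)) =
        fun z => 4 * π * (Complex.reCLM ((ContinuousLinearMap.mul ℝ ℂ β) z)) := rfl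
    rw [this]
    exact contDiff_const.mul ((Complex.reCLM.comp (ContinuousLinearMap.mul ℝ ℂ β)).contDiff)
  have h2 : ContDiff ℝ ∞ fun z : ℂ => ((4 * π * (β * z).re : ℝ) : ℂ) * Complex.I :=
    (Complex.ofRealCLM.contDiff.comp h1).mul contDiff_const
  exact Complex.contDiff_exp.comp h2

/-- The function `f(t) ph β z`. -/
def wf (f : ℝ → ℂ) (β : ℂ) (q : ℂ × ℝ) : ℂ := f q.2 * ph β q.1

theorem hasDerivAt_ph (β z w : ℂ) :
    HasDerivAt (fun s : ℝ => ph β (z + s • w)) (((4 * π * (β * w).re : ℝ) : ℂ) * Complex.I * ph β z) 0 := by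
  have h1 : HasDerivAt (fun s : ℝ => (4 * π * (β * (z + s • w)).re : ℝ)) (4 * π * (β * w).re) 0 := by
    have h2 : (fun s : ℝ => (4 * π * (β * (z + s • w)).re : ℝ)) =
        fun s => 4 * π * (β * z).re + s * (4 * π * (β * w).re) := by
      funext s
      have : β * (z + s • w) = β * z + (s : ℂ) * (β * w) := by
        rw [Complex.real_smul]; ring
      rw [this, Complex.add_re, Complex.re_ofReal_mul]
      ring
    rw [h2]
    simpa using ((hasDerivAt_id (0:ℝ)).mul_const (4 * π * (β * w).re)).const_add (4 * π * (β * z).re)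
  have h3 : HasDerivAt (fun s : ℝ => ((4 * π * (β * (z + s • w)).re : ℝ) : ℂ) * Complex.I)
      (((4 * π * (β * w).re : ℝ) : ℂ) * Complex.I) 0 :=
    h1.ofReal_comp.mul_const _
  have h4 := h3.cexp
  unfold ph
  refine h4.congr_deriv ?_
  simp only [zero_smul, add_zero]
  ring

theorem pd_z (f : ℝ → ℂ) (β w : ℂ) (q : ℂ × ℝ) :
    pd (w, 0) (wf f β) q = wf (fun t => ((4 * π * (β * w).re : ℝ) : ℂ) * Complex.I * f t) β q := by
  have h1 : HasLineDerivAt ℝ (wf f β) (f q.2 * (((4 * π * (β * w).re : ℝ) : ℂ) * Complex.I * ph β q.1))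
      q (w, 0) := by
    have h2 := (hasDerivAt_ph β q.1 w).const_mul (f q.2)
    unfold HasLineDerivAt
    refine h2.congr_of_eventuallyEq (Eventually.of_forall fun s => ?_)
    simp [wf]
  unfold pd
  rw [h1.lineDeriv]
  unfold wf
  ring

theorem pd_t {f f' : ℝ → ℂ} (β : ℂ) {q : ℂ × ℝ} (h : HasDerivAt f (f' q.2) q.2) :
    pd e3 (wf f β) q = wf f' β q := by
  have h1 : HasLineDerivAt ℝ (wf f β) (f' q.2 * ph β q.1) q e3 := by
    have h0 : HasDerivAt (fun s : ℝ => q.2 + s) 1 0 := by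
      simpa using (hasDerivAt_id (0:ℝ)).const_add q.2
    have h2 : HasDerivAt (fun s : ℝ => f (q.2 + s)) (f' q.2) 0 := by
      have h3 : HasDerivAt f (f' q.2) (q.2 + 0) := by rw [add_zero]; exact h
      have h5 := h3.scomp (0:ℝ) h0
      rw [one_smul] at h5
      exact h5
    have h4 := h2.mul_const (ph β q.1)
    unfold HasLineDerivAt
    refine h4.congr_of_eventuallyEq (Eventually.of_forall fun s => ?_)
    simp [wf, e3]
  unfold pd
  rw [h1.lineDeriv]
  rfl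

/-- The Laplacian of `f(t) ph β z`. -/
theorem lap_wf {f f' f'' : ℝ → ℂ} (β : ℂ) (h : ∀ t, 0 < t → HasDerivAt f (f' t) t)
    (h' : ∀ t, 0 < t → HasDerivAt f' (f'' t) t) {q : ℂ × ℝ} (hq : q ∈ hs) :
    lap (wf f β) q = wf (fun t => ((t ^ 2 : ℝ) : ℂ) * (f'' t - (((4 * π * ‖β‖) ^ 2 : ℝ) : ℂ) * f t)
      - (t : ℂ) * f' t) β q := by
  unfold lap
  have h1 : ∀ w : ℂ, pd (w, 0) (wf f β) = wf (fun t => ((4 * π * (β * w).re : ℝ) : ℂ) * Complex.I * f t) β :=
    fun w => funext fun q => pd_z f β w q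
  have h3 : EqOn (pd e3 (wf f β)) (wf f' β) hs := fun q hq => pd_t β (h q.2 hq)
  have e1' : e1 = ((1 : ℂ), (0 : ℝ)) := rfl
  have e2' : e2 = (Complex.I, (0 : ℝ)) := rfl
  rw [e1', e2', h1, h1, pd_z, pd_z, pd_congr h3 hq, h3 hq, pd_t β (h' q.2 hq)]
  unfold wf
  simp only [mul_one, Complex.real_smul]
  have h5 : (β * Complex.I).re = -β.im := by simp
  have h6 : ‖β‖ ^ 2 = β.re ^ 2 + β.im ^ 2 := by
    rw [← Complex.normSq_eq_norm_sq, Complex.normSq_apply]; ring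
  rw [h5, mul_pow (4 * π), h6]
  push_cast
  linear_combination (((q.2 : ℂ) ^ 2) * (16 * π ^ 2 * (β.re ^ 2 + β.im ^ 2)) * f q.2 * ph β q.1) * Complex.I_sq

/-- The Whittaker function on `H3`. -/
def whit (β : ℂ) (P : H3) : ℂ := (Wh (4 * π * ‖β‖) P.t : ℂ) * ph β P.z

theorem ext0_whit (β : ℂ) : EqOn (ext0 (whit β)) (wf (fun t => (Wh (4 * π * ‖β‖) t : ℂ)) β) hs := by
  intro q hq
  rw [ext0_of_mem _ hq]
  rfl

theorem smoothH_whit {β : ℂ} (hβ : β ≠ 0) : SmoothH (whit β) := by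
  have hc : 0 < 4 * π * ‖β‖ := by have := norm_pos_iff.mpr hβ; positivity
  refine ContDiffOn.congr ?_ (ext0_whit β)
  have h1 : ContDiffOn ℝ ∞ (fun q : ℂ × ℝ => (Wh (4 * π * ‖β‖) q.2 : ℂ)) hs :=
    Complex.ofRealCLM.contDiff.comp_contDiffOn
      ((contDiffOn_Wh hc).comp contDiff_snd.contDiffOn fun q hq => hq)
  exact h1.mul ((contDiff_ph β).comp contDiff_fst).contDiffOn

theorem lapH_whit {β : ℂ} (hβ : β ≠ 0) (P : H3) : lapH (whit β) P = -whit β P := by
  have hc : 0 < 4 * π * ‖β‖ := by have := norm_pos_iff.mpr hβ; positivity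
  have hP : (P.z, P.t) ∈ hs := P.t_pos
  unfold lapH
  rw [lap_congr (ext0_whit β) hP, lap_wf β (f' := fun t => (Wh' (4 * π * ‖β‖) t : ℂ))
    (f'' := fun t => (Wh'' (4 * π * ‖β‖) t : ℂ)) (fun t ht => (hasDerivAt_Wh hc ht).ofReal_comp)
    (fun t ht => (hasDerivAt_Wh' hc ht).ofReal_comp) hP]
  have h := Wh_ode hc P.t_pos
  have h' : ((P.t ^ 2 * Wh'' (4 * π * ‖β‖) P.t - P.t * Wh' (4 * π * ‖β‖) P.t +
      (1 - (4 * π * ‖β‖) ^ 2 * P.t ^ 2) * Wh (4 * π * ‖β‖) P.t : ℝ) : ℂ) = 0 := by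
    rw [h]; simp
  unfold wf whit
  push_cast at h' ⊢
  linear_combination (ph β P.z) * h'

/-- **The Whittaker function is an eigenfunction with parameter `0`.** -/
theorem kopH_whit {β : ℂ} (hβ : β ≠ 0) {g : ℝ → ℂ} (hg : IsTest g) (P : H3) :
    kopH g (whit β) P = hat g 0 * whit β P := by
  refine kopH_of_lapH ((smoothH_whit hβ).of_le two_le_infty) (fun P => ?_) hg P
  rw [lapH_whit hβ]; ring

end Fermat.Agent.LT.I
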