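import Fermat.Agent.LT.I.Torus

/-!
# Unfolding of theta series into Bessel series
-/

set_option autoImplicit false

open NumberField Module MeasureTheory Set
open scoped Real

namespace Fermat.Agent.LT.I

variable {M : Type*} [Field M] [NumberField M] {I : Type*} [Fintype I]

instance instCountableUnits : Countable Mˣ := by
  have h : Countable M := (Module.finBasis ℚ M).equivFun.toEquiv.injective.countable
  exact (Units.val_injective (α := M)).countable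

namespace QArch

variable (Q : QArch M I)

/-- The archimedean part of the theta series at a point `k = exp v` of the torus. -/
noncomputable def ga (z : I → ℂ) (t : I → ℝ) (v : I → ℝ) (ξ : M) : ℂ :=
  gsI z t (fun i => Real.exp (v i)) (Q.pt ξ)

theorem ga_zero (z : I → ℂ) (t v : I → ℝ) : Q.ga z t v 0 = 1 := by
  unfold ga gsI pt gs
  simp

theorem norm_ga (z : I → ℂ) (t : I → ℝ) (v : I → ℝ) (ξ : M) :
    ‖Q.ga z t v ξ‖ = Real.exp (-(∑ i, 2 * π * t i * (Real.exp (v i) * Q.w1 i ξ ^ 2 +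
      Q.w2 i ξ ^ 2 / Real.exp (v i)))) := norm_gsI z t _ _

theorem sum_places (f : InfinitePlace M → ℝ) : ∑ w, f w = ∑ i, (f (Q.w1 i) + f (Q.w2 i)) := by
  rw [← Q.eqv.sum_comp, Fintype.sum_sum_type, ← Finset.sum_add_distrib]
  rfl

/-- uniform bound on bounded sets of the torus -/
theorem norm_ga_le (z : I → ℂ) {t : I → ℝ} {a R : ℝ} (ha : 0 < a) (hat : ∀ i, a ≤ t i)
    {v : I → ℝ} (hv : ∀ i, |v i| ≤ R) (ξ : M) :
    ‖Q.ga z t v ξ‖ ≤ Real.exp (-(2 * π * a * Real.exp (-R) * ∑ w : InfinitePlace M, w ξ ^ 2)) := by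
  rw [norm_ga, Real.exp_le_exp, neg_le_neg_iff, Q.sum_places, Finset.mul_sum]
  refine Finset.sum_le_sum fun i _ => ?_
  have h1 : Real.exp (-R) ≤ Real.exp (v i) := by
    rw [Real.exp_le_exp]; linarith [neg_abs_le (v i), hv i]
  have h2 : Real.exp (-R) ≤ (Real.exp (v i))⁻¹ := by
    rw [← Real.exp_neg, Real.exp_le_exp]; linarith [le_abs_self (v i), hv i]
  have h3 : 2 * π * a ≤ 2 * π * t i := by
    have := hat i
    have := Real.pi_pos
    nlinarith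
  have h4 : Real.exp (-R) * (Q.w1 i ξ ^ 2 + Q.w2 i ξ ^ 2) ≤
      Real.exp (v i) * Q.w1 i ξ ^ 2 + Q.w2 i ξ ^ 2 / Real.exp (v i) := by
    rw [mul_add, div_eq_mul_inv, mul_comm (Q.w2 i ξ ^ 2)]
    exact add_le_add (mul_le_mul_of_nonneg_right h1 (sq_nonneg _))
      (mul_le_mul_of_nonneg_right h2 (sq_nonneg _))
  have h5 : 0 ≤ Real.exp (-R) * (Q.w1 i ξ ^ 2 + Q.w2 i ξ ^ 2) := by positivity
  calc 2 * π * a * Real.exp (-R) * (Q.w1 i ξ ^ 2 + Q.w2 i ξ ^ 2)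
      = 2 * π * a * (Real.exp (-R) * (Q.w1 i ξ ^ 2 + Q.w2 i ξ ^ 2)) := by ring
    _ ≤ 2 * π * t i * (Real.exp (-R) * (Q.w1 i ξ ^ 2 + Q.w2 i ξ ^ 2)) :=
        mul_le_mul_of_nonneg_right h3 h5
    _ ≤ _ := mul_le_mul_of_nonneg_left h4 (by
        have := ha.trans_le (hat i); positivity)

theorem continuous_ga (z : I → ℂ) (t : I → ℝ) (ξ : M) : Continuous fun v => Q.ga z t v ξ := by
  unfold ga gsI
  refine continuous_finsetProd _ fun i _ => ?_
  simp_rw [gs_exp]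
  refine continuous_const.mul ?_
  refine Complex.continuous_ofReal.comp ?_
  refine Real.continuous_exp.comp ?_
  refine Continuous.neg ?_
  refine Continuous.add (by fun_prop) ?_
  exact Continuous.div (by fun_prop) (by fun_prop) fun v => (Real.exp_pos _).ne'

/-- The Bessel factor attached to `α ∈ M` (in the applications `α ∈ L`). -/
noncomputable def bes (z : I → ℂ) (t : I → ℝ) (α : M) : ℂ :=
  ∏ i, (Complex.exp (((4 * π * (z i * Q.e i α).re : ℝ) : ℂ) * Complex.I) *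
    ((2 * kz (4 * π * t i * ‖Q.e i α‖) : ℝ) : ℂ))

theorem integrable_ga (z : I → ℂ) {t : I → ℝ} (ht : ∀ i, 0 < t i) {ξ : M} (hξ : ξ ≠ 0) :
    Integrable fun v => Q.ga z t v ξ :=
  integrable_gsI z ht (fun _ => (map_ne_zero _).mpr hξ)
    fun _ => (map_ne_zero _).mpr ((map_ne_zero _).mpr hξ)

theorem integral_ga (z : I → ℂ) {t : I → ℝ} (ht : ∀ i, 0 < t i) {ξ : M} (hξ : ξ ≠ 0) :
    ∫ v, Q.ga z t v ξ = Q.bes z t (ξ * Q.c ξ) := by
  unfold ga
  rw [integral_gsI z ht (fun _ => (map_ne_zero _).mpr hξ)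
    fun _ => (map_ne_zero _).mpr ((map_ne_zero _).mpr hξ)]
  unfold bes chz pt
  refine Finset.prod_congr rfl fun i _ => ?_
  simp only [map_mul, mul_assoc]

theorem ga_mul (z : I → ℂ) (t v : I → ℝ) {x : M} (hx : x * Q.c x = 1) (ξ : M) :
    Q.ga z t (Q.lg x + v) ξ = Q.ga z t v (ξ * x) := by
  have hx0 : x ≠ 0 := by
    rintro rfl; simp at hx
  unfold ga gsI
  refine Finset.prod_congr rfl fun i _ => ?_
  have h1 : Real.exp ((Q.lg x + v) i) = ‖Q.e i x‖ ^ 2 * Real.exp (v i) := by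
    rw [Pi.add_apply, Real.exp_add]
    congr 1
    unfold lg
    rw [mul_comm, Real.exp_mul, Real.exp_log (norm_pos_iff.mpr ((map_ne_zero _).mpr hx0))]
    norm_cast
  simp only
  rw [h1, gs_smul _ _ _ ((map_ne_zero _).mpr hx0)]
  unfold pt
  have h2 : Q.e i (Q.c x) = (Q.e i x)⁻¹ := by
    rw [← map_inv₀]; congr 1
    exact eq_inv_of_mul_eq_one_right hx
  simp only [map_mul, h2]

end QArch

namespace Tor

variable {Q : QArch M I} (T : Tor Q)

theorem exists_bound : ∃ R : ℝ, ∀ v ∈ T.D, ∀ i, |v i| ≤ R := by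
  obtain ⟨R, hR⟩ := (ZSpan.fundamentalDomain_isBounded T.b).subset_closedBall 0
  refine ⟨R, fun v hv i => ?_⟩
  have h := hR hv
  rw [mem_closedBall_zero_iff] at h
  exact (norm_le_pi_norm v i).trans h

theorem measurableSet_D : MeasurableSet T.D := ZSpan.fundamentalDomain_measurableSet T.b

theorem volume_D_lt_top : volume T.D < ⊤ :=
  (ZSpan.fundamentalDomain_isBounded T.b).measure_lt_top

/-- the theta series converges on the fundamental domain -/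
theorem exists_summable_bound {φ : M → ℂ} (hφ : Bdd φ) (z : I → ℂ) {t : I → ℝ} (ht : ∀ i, 0 < t i) :
    ∃ B : M → ℝ, Summable B ∧ ∀ v ∈ T.D, ∀ ξ, ‖φ ξ * Q.ga z t v ξ‖ ≤ B ξ := by
  obtain ⟨R, hR⟩ := T.exists_bound
  obtain ⟨a, ha, hat⟩ : ∃ a : ℝ, 0 < a ∧ ∀ i, a ≤ t i := by
    rcases isEmpty_or_nonempty I with h | h
    · exact ⟨1, one_pos, fun i => (h.false i).elim⟩
    · refine ⟨Finset.univ.inf' Finset.univ_nonempty t, ?_, fun i => Finset.inf'_le _ (Finset.mem_univ i)⟩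
      rw [Finset.lt_inf'_iff]
      exact fun i _ => ht i
  refine ⟨_, hφ.summable (c := 2 * π * a * Real.exp (-R)) (by positivity), fun v hv ξ => ?_⟩
  rw [norm_mul]
  exact mul_le_mul_of_nonneg_left (Q.norm_ga_le z ha hat (hR v hv) ξ) (norm_nonneg _)

/-- **Unfolding**: the integral over the torus of the theta series (without the term `ξ = 0`) is
the sum of the Bessel series over `Mˣ` modulo units. -/
theorem unfold {φ : M → ℂ} (hφ : Bdd φ) (hφE : ∀ j ξ, φ (ξ * T.η j) = φ ξ) (z : I → ℂ)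
    {t : I → ℝ} (ht : ∀ i, 0 < t i) :
    HasSum (fun q : Mˣ ⧸ T.E0 => φ (q.out : M) * Q.bes z t ((q.out : M) * Q.c (q.out : M)))
      (∫ v in T.D, ∑' ξ : Mˣ, φ ξ * Q.ga z t v ξ) := by
  have hφE' : ∀ x ∈ T.E0, ∀ ξ, φ (ξ * x) = φ ξ := by
    intro x hx
    refine T.E0_induction (P := fun x => ∀ ξ, φ (ξ * (x : M)) = φ ξ) ?_ ?_ ?_ ?_ hx
    · intro ξ; simp
    · intro x y hx hy ξ
      rw [Units.val_mul, ← mul_assoc, hy, hx]
    · intro x hx ξ
      rw [← hx (ξ * ((x⁻¹ : Mˣ) : M)), mul_assoc, ← Units.val_mul, inv_mul_cancel, Units.val_one, mul_one]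
    · intro j ξ; exact hφE j ξ
  obtain ⟨B, hB, hB'⟩ := T.exists_summable_bound hφ z ht
  have h := unfold_abstract (μ := (volume : Measure (I → ℝ))) T.isFund T.E0 T.ℓ
    (fun v (ξ : Mˣ) => φ ξ * Q.ga z t v ξ) ?_ ?_ ?_
  · refine h.congr_fun fun q => ?_
    rw [integral_const_mul, Q.integral_ga z ht q.out.ne_zero]
  · intro e v ξ
    rw [T.ℓ_apply, Q.ga_mul z t v (T.E0_norm e.2), Units.val_mul, hφE' _ e.2]
  · intro ξ
    exact (Q.integrable_ga z ht ξ.ne_zero).const_mul _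
  · refine Summable.of_nonneg_of_le (fun _ => integral_nonneg fun _ => norm_nonneg _) (fun ξ => ?_)
      ((hB.comp_injective Units.val_injective).mul_right (volume T.D).toReal)
    have h1 : ‖∫ v in T.D, ‖φ ξ * Q.ga z t v ξ‖‖ ≤ B ξ * (volume T.D).toReal := by
      refine norm_setIntegral_le_of_norm_le_const T.volume_D_lt_top fun v hv => ?_
      rw [norm_norm]
      exact hB' v hv ξ
    exact (le_abs_self _).trans h1

/-- The theta series converges (uniformly) on the fundamental domain. -/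
theorem summable_theta {φ : M → ℂ} (hφ : Bdd φ) (z : I → ℂ) {t : I → ℝ} (ht : ∀ i, 0 < t i)
    {v : I → ℝ} (hv : v ∈ T.D) : Summable fun ξ : M => φ ξ * Q.ga z t v ξ := by
  obtain ⟨B, hB, hB'⟩ := T.exists_summable_bound hφ z ht
  exact Summable.of_norm_bounded hB (hB' v hv)

end Tor

/-- A sum over a field is the sum over the units plus the term at `0`. -/
theorem hasSum_units {f : M → ℂ} {s : ℂ} (h : HasSum f s) : HasSum (fun ξ : Mˣ => f ξ) (s - f 0) := by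
  classical
  have h1 : HasSum (fun ξ : M => if ξ = 0 then 0 else f ξ) (s - f 0) := by
    have h2 := h.update 0 0
    rw [zero_sub, neg_add_eq_sub] at h2
    refine h2.congr_fun fun ξ => ?_
    by_cases hξ : ξ = 0
    · subst hξ; simp
    · simp [hξ]
  rw [← (Units.val_injective (α := M)).hasSum_iff] at h1
  · refine h1.congr_fun fun ξ => ?_
    simp
  · intro x hx
    by_cases h0 : x = 0
    · simp [h0]
    · exact absurd ⟨Units.mk0 x h0, rfl⟩ hx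

namespace Tor

variable {Q : QArch M I} (T : Tor Q)

theorem tsum_units_eq {φ : M → ℂ} (hφ : Bdd φ) (z : I → ℂ) {t : I → ℝ} (ht : ∀ i, 0 < t i)
    {v : I → ℝ} (hv : v ∈ T.D) :
    ∑' ξ : Mˣ, φ ξ * Q.ga z t v ξ = ∑' ξ : M, φ ξ * Q.ga z t v ξ - φ 0 := by
  have h := hasSum_units (T.summable_theta hφ z ht hv).hasSum
  rw [Q.ga_zero, mul_one] at h
  exact h.tsum_eq

theorem integrableOn_theta {φ : M → ℂ} (hφ : Bdd φ) (z : I → ℂ) {t : I → ℝ} (ht : ∀ i, 0 < t i) :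
    IntegrableOn (fun v => ∑' ξ : M, φ ξ * Q.ga z t v ξ) T.D := by
  obtain ⟨B, hB, hB'⟩ := T.exists_summable_bound hφ z ht
  have hc : Countable M := (Module.finBasis ℚ M).equivFun.toEquiv.injective.countable
  have hmeas : AEStronglyMeasurable (fun v => ∑' ξ : M, φ ξ * Q.ga z t v ξ) (volume.restrict T.D) := by
    have h1 : ContinuousOn (fun v => ∑' ξ : M, φ ξ * Q.ga z t v ξ) T.D :=
      continuousOn_tsum (fun ξ => ((Q.continuous_ga z t ξ).const_mul _).continuousOn) hB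
        fun ξ v hv => hB' v hv ξ
    exact h1.aestronglyMeasurable T.measurableSet_D
  have : IsFiniteMeasure ((volume : Measure (I → ℝ)).restrict T.D) :=
    isFiniteMeasure_restrict.mpr T.volume_D_lt_top.ne
  refine Integrable.of_bound hmeas (∑' ξ, B ξ) ?_
  refine (ae_restrict_iff' T.measurableSet_D).mpr (Filter.Eventually.of_forall fun v hv => ?_)
  exact tsum_of_norm_bounded hB.hasSum (hB' v hv)

/-- **Unfolding**, with the term `ξ = 0`. -/
theorem unfold' {φ : M → ℂ} (hφ : Bdd φ) (hφE : ∀ j ξ, φ (ξ * T.η j) = φ ξ) (z : I → ℂ)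
    {t : I → ℝ} (ht : ∀ i, 0 < t i) :
    HasSum (fun q : Mˣ ⧸ T.E0 => φ (q.out : M) * Q.bes z t ((q.out : M) * Q.c (q.out : M)))
      ((∫ v in T.D, ∑' ξ : M, φ ξ * Q.ga z t v ξ) - (volume T.D).toReal * φ 0) := by
  have h := T.unfold hφ hφE z ht
  have h1 : ∫ v in T.D, ∑' ξ : Mˣ, φ ξ * Q.ga z t v ξ =
      ∫ v in T.D, (∑' ξ : M, φ ξ * Q.ga z t v ξ - φ 0) :=
    setIntegral_congr_fun T.measurableSet_D fun v hv => T.tsum_units_eq hφ z ht hv
  rw [h1, integral_sub (T.integrableOn_theta hφ z ht) (integrableOn_const T.volume_D_lt_top.ne),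
    setIntegral_const] at h
  rw [Complex.real_smul] at h
  exact h

end Tor

namespace QArch

variable (Q : QArch M I)

/-- The group of units of norm one congruent to `1` modulo `𝔣`. -/
def N1 (𝔣 : Ideal (𝓞 M)) : Subgroup Mˣ where
  carrier := {x | x * Q.c (x : M) = (1 : M) ∧ ∃ u : (𝓞 M)ˣ, (x : M) = ((u : 𝓞 M) : M) ∧ (u : 𝓞 M) - 1 ∈ 𝔣}
  one_mem' := ⟨by simp, 1, by simp, by simp⟩
  mul_mem' := by
    rintro x y ⟨hx, u, hu, hu'⟩ ⟨hy, v, hv, hv'⟩
    refine ⟨?_, u * v, ?_, ?_⟩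
    · rw [Units.val_mul, map_mul, mul_mul_mul_comm, hx, hy, one_mul]
    · rw [Units.val_mul, hu, hv]; rfl
    · have : ((u * v : (𝓞 M)ˣ) : 𝓞 M) - 1 = (v : 𝓞 M) * ((u : 𝓞 M) - 1) + ((v : 𝓞 M) - 1) := by
        rw [Units.val_mul]; ring
      rw [this]
      exact 𝔣.add_mem (𝔣.mul_mem_left _ hu') hv'
  inv_mem' := by
    rintro x ⟨hx, u, hu, hu'⟩
    refine ⟨?_, u⁻¹, ?_, ?_⟩
    · rw [Units.val_inv_eq_inv_val, map_inv₀, ← mul_inv, hx, inv_one]
    · have hu' : x = Units.map (algebraMap (𝓞 M) M : 𝓞 M →* M) u := Units.ext hu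
      rw [hu', ← map_inv]; rfl
    · have : ((u⁻¹ : (𝓞 M)ˣ) : 𝓞 M) - 1 = -((u⁻¹ : (𝓞 M)ˣ) : 𝓞 M) * ((u : 𝓞 M) - 1) := by
        have := Units.inv_mul u
        linear_combination this
      rw [this]
      exact 𝔣.mul_mem_left _ hu'

omit [Fintype I] in
theorem finite_N1 (𝔣 : Ideal (𝓞 M)) (R : ℝ) :
    {x : Mˣ | x ∈ Q.N1 𝔣 ∧ ∀ i, |Q.lg (x : M) i| ≤ R}.Finite := by
  refine Set.Finite.of_finite_image ?_ (Units.val_injective (α := M)).injOn
  refine (Embeddings.finite_of_norm_le M ℂ (Real.exp R)).subset ?_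
  rintro _ ⟨x, ⟨⟨hx, u, hu, _⟩, hR⟩, rfl⟩
  refine ⟨?_, fun φ => ?_⟩
  · rw [hu]; exact (u : 𝓞 M).isIntegral_coe
  · have hx0 := x.ne_zero
    have key : ∀ i, ‖Q.e i (x : M)‖ ≤ Real.exp R ∧ ‖Q.e i (Q.c (x : M))‖ ≤ Real.exp R := by
      intro i
      have h1 := hR i
      unfold lg at h1
      have hpos : 0 < ‖Q.e i (x : M)‖ := norm_pos_iff.mpr ((map_ne_zero _).mpr hx0)
      have h0 : 0 ≤ R := (abs_nonneg _).trans h1
      have h2 : ‖Q.e i (Q.c (x : M))‖ = ‖Q.e i (x : M)‖⁻¹ := by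
        rw [← norm_inv, ← map_inv₀, eq_inv_of_mul_eq_one_right hx]
      rw [h2]
      rw [abs_le] at h1
      constructor
      · rw [← Real.exp_log hpos, Real.exp_le_exp]; linarith
      · rw [← Real.exp_log hpos, ← Real.exp_neg, Real.exp_le_exp]; linarith
    obtain ⟨w, hw⟩ := Q.eqv.surjective (InfinitePlace.mk φ)
    have h3 : ‖φ (x : M)‖ = InfinitePlace.mk φ (x : M) := rfl
    rw [h3, ← hw]
    rcases w with i | i
    · exact (key i).1
    · exact (key i).2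

end QArch

namespace Tor

variable {Q : QArch M I} (T : Tor Q)

theorem E0_le {𝔣 : Ideal (𝓞 M)} (h : ∀ j, (T.ε j : 𝓞 M) - 1 ∈ 𝔣) : T.E0 ≤ Q.N1 𝔣 := by
  intro x hx
  exact ⟨T.E0_norm hx, T.E0_congr h hx⟩

theorem relIndex_ne_zero {𝔣 : Ideal (𝓞 M)} (h : ∀ j, (T.ε j : 𝓞 M) - 1 ∈ 𝔣) :
    T.E0.relIndex (Q.N1 𝔣) ≠ 0 := by
  obtain ⟨R, hR⟩ := T.exists_bound
  have hfin := Q.finite_N1 𝔣 R
  rw [Subgroup.relIndex, Subgroup.index]
  have hF : Finite {x : Mˣ | x ∈ Q.N1 𝔣 ∧ ∀ i, |Q.lg (x : M) i| ≤ R} := hfin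
  have : Finite (Q.N1 𝔣 ⧸ T.E0.subgroupOf (Q.N1 𝔣)) := by
    refine Finite.of_surjective
      (fun x : {x : Mˣ | x ∈ Q.N1 𝔣 ∧ ∀ i, |Q.lg (x : M) i| ≤ R} =>
        ((⟨x.1, x.2.1⟩ : Q.N1 𝔣) : Q.N1 𝔣 ⧸ T.E0.subgroupOf (Q.N1 𝔣))) ?_
    intro q
    obtain ⟨x, rfl⟩ := QuotientGroup.mk_surjective q
    obtain ⟨y, hy, -⟩ := ZSpan.exist_unique_vadd_mem_fundamentalDomain T.b (Q.lg ((x : Mˣ) : M))
    obtain ⟨e, he⟩ := T.ℓ.surjective ⟨y.1, y.2⟩
    have he' : Q.lg ((e : Mˣ) : M) = y.1 := congrArg Subtype.val he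
    have hmem : (x : Mˣ) * (e : Mˣ) ∈ Q.N1 𝔣 := mul_mem x.2 (T.E0_le h e.2)
    refine ⟨⟨(x : Mˣ) * (e : Mˣ), hmem, fun i => ?_⟩, ?_⟩
    · refine hR _ ?_ i
      rw [Units.val_mul, Q.lg_mul (Units.ne_zero _) (Units.ne_zero _), he', add_comm]
      exact hy
    · rw [QuotientGroup.eq, Subgroup.mem_subgroupOf]
      have : ((⟨(x : Mˣ) * (e : Mˣ), hmem⟩ : Q.N1 𝔣)⁻¹ * x : Q.N1 𝔣) = ((e : Mˣ)⁻¹ : Mˣ) := by
        push_cast
        rw [mul_inv, mul_comm, ← mul_assoc, mul_inv_cancel, one_mul]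
      rw [this]
      exact inv_mem e.2
  exact Nat.card_pos.ne'

/-- **Unfolding**, in terms of `Mˣ` modulo all norm one units congruent to `1` modulo `𝔣`. -/
theorem unfold_N1 {𝔣 : Ideal (𝓞 M)} (h : ∀ j, (T.ε j : 𝓞 M) - 1 ∈ 𝔣) {φ : M → ℂ} (hφ : Bdd φ)
    (hφE : ∀ x ∈ Q.N1 𝔣, ∀ ξ, φ (ξ * x) = φ ξ) (z : I → ℂ) {t : I → ℝ} (ht : ∀ i, 0 < t i) :
    HasSum (fun q : Mˣ ⧸ Q.N1 𝔣 => (T.E0.relIndex (Q.N1 𝔣) : ℂ) *
        (φ (q.out : M) * Q.bes z t ((q.out : M) * Q.c (q.out : M))))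
      ((∫ v in T.D, ∑' ξ : M, φ ξ * Q.ga z t v ξ) - (volume T.D).toReal * φ 0) := by
  have h1 := T.unfold' hφ (fun j ξ => hφE _ (T.E0_le h (T.η_mem j)) ξ) z ht
  refine hasSum_quot_le (T.E0_le h) (T.relIndex_ne_zero h)
    (f := fun ξ : Mˣ => φ (ξ : M) * Q.bes z t ((ξ : M) * Q.c (ξ : M))) ?_ h1
  intro g x hx
  simp only [Units.val_mul]
  rw [hφE x hx, map_mul, mul_mul_mul_comm, hx.1, mul_one]

end Tor

end Fermat.Agent.LT.I
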