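import Fermat.Agent.LT.I.Base
import Fermat.Agent.LT.I.Unfold
import Fermat.Agent.LT.I.Spherical

/-!
# The theta integral over the torus for a quadratic extension
-/

set_option autoImplicit false

open NumberField Module MeasureTheory Set
open scoped Real

namespace Fermat.Agent.LT.I

open Fermat.LT Fermat.Agent.LT.CArch Fermat.Agent.LT.H.Bessel

section

variable {F M : Type} [Field F] [NumberField F] [Field M] [NumberField M] [Algebra F M]
  (Q : Quad F M)

theorem Quad.emb_comp (i : Q.A.I) : (Q.emb i).comp (algebraMap F M) = Q.A.emb i :=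
  RingHom.ext fun x => Q.emb_alg i x

theorem Quad.emb_c_comp (i : Q.A.I) :
    ((Q.emb i).comp ((Q.c : M ≃+* M) : M →+* M)).comp (algebraMap F M) = Q.A.emb i :=
  RingHom.ext fun x => by
    change Q.emb i (Q.c (algebraMap F M x)) = _
    rw [AlgEquiv.commutes, Q.emb_alg]

theorem Quad.comap_w1 (i : Q.A.I) :
    (InfinitePlace.mk (Q.emb i)).comap (algebraMap F M) = InfinitePlace.mk (Q.A.emb i) := by
  rw [InfinitePlace.comap_mk, Q.emb_comp]

theorem Quad.comap_w2 (i : Q.A.I) :
    (InfinitePlace.mk ((Q.emb i).comp ((Q.c : M ≃+* M) : M →+* M))).comap (algebraMap F M) =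
      InfinitePlace.mk (Q.A.emb i) := by
  rw [InfinitePlace.comap_mk, Q.emb_c_comp]

theorem Quad.w1_ne_w2 (i : Q.A.I) :
    InfinitePlace.mk (Q.emb i) ≠ InfinitePlace.mk ((Q.emb i).comp ((Q.c : M ≃+* M) : M →+* M)) := by
  intro h
  rw [InfinitePlace.mk_eq_iff] at h
  rcases h with h | h
  · apply Q.c_ne
    ext x
    have h1 : Q.emb i x = Q.emb i (Q.c x) := RingHom.congr_fun h x
    exact ((Q.emb i).injective h1).symm
  · apply Q.A.cx i
    rw [ComplexEmbedding.isReal_iff]
    refine RingHom.ext fun x => ?_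
    have h1 := RingHom.congr_fun h (algebraMap F M x)
    rw [ComplexEmbedding.conjugate_coe_eq] at h1 ⊢
    rw [Q.emb_alg] at h1
    rw [h1]
    exact RingHom.congr_fun (Q.emb_c_comp i) x

/-- The archimedean data of `M`. -/
noncomputable def Quad.qa : QArch M Q.A.I where
  c := (Q.c : M ≃+* M)
  cc := Q.c_c
  e := Q.emb
  bij := by
    have := Q.isGalois
    constructor
    · intro x y hxy
      have key : ∀ z : Q.A.I ⊕ Q.A.I, (Sum.elim (fun i => InfinitePlace.mk (Q.emb i))
          (fun i => InfinitePlace.mk ((Q.emb i).comp ((Q.c : M ≃+* M) : M →+* M))) z).comap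
            (algebraMap F M) = InfinitePlace.mk (Q.A.emb (Sum.elim id id z)) := by
        rintro (i | i)
        · exact Q.comap_w1 i
        · exact Q.comap_w2 i
      have h1 := key x
      rw [hxy, key y] at h1
      have h2 := Q.A.bij.injective h1
      rcases x with i | i <;> rcases y with j | j
      · simp only [Sum.elim_inl, id] at h2; rw [h2]
      · simp only [Sum.elim_inl, Sum.elim_inr, id] at h2
        subst h2
        exact absurd hxy (Q.w1_ne_w2 _)
      · simp only [Sum.elim_inl, Sum.elim_inr, id] at h2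
        subst h2
        exact absurd hxy.symm (Q.w1_ne_w2 _)
      · simp only [Sum.elim_inr, id] at h2; rw [h2]
    · intro w
      obtain ⟨i, hi⟩ := Q.A.bij.surjective (w.comap (algebraMap F M))
      have h1 : (InfinitePlace.mk (Q.emb i)).comap (algebraMap F M) = w.comap (algebraMap F M) := by
        rw [Q.comap_w1]; exact hi
      obtain ⟨σ, hσ⟩ := InfinitePlace.exists_smul_eq_of_comap_eq h1
      rcases Q.eq_one_or σ with rfl | rfl
      · rw [one_smul] at hσ
        exact ⟨Sum.inl i, hσ⟩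
      · refine ⟨Sum.inr i, ?_⟩
        rw [← hσ, InfinitePlace.smul_mk]
        simp only [Sum.elim_inr]
        congr 1
        have h3 : (Q.c : M ≃ₐ[F] M).symm = Q.c := by
          ext x
          rw [AlgEquiv.symm_apply_eq, Q.c_c]
        refine RingHom.ext fun x => ?_
        change Q.emb i (Q.c x) = Q.emb i ((Q.c : M ≃ₐ[F] M).symm x)
        rw [h3]
  cx := fun i h => Q.A.cx i (by
    rw [← Q.emb_comp]
    exact h.comp _)

/-- `kz` is the Bessel function `K0` -/
theorem kz_eq_K0 : kz = K0 := rfl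

/-- The Whittaker function on `XI`. -/
noncomputable def wI {A : Arch F} (α : F) (P : XI A) : ℂ := ∏ i, whit (A.emb i α) (P i)

theorem Quad.bes_eq (α : F) (P : XI Q.A) :
    ((∏ i, (P i).t : ℝ) : ℂ) * Q.qa.bes (fun i => (P i).z) (fun i => (P i).t) (algebraMap F M α) =
      2 ^ Fintype.card Q.A.I * wI α P := by
  unfold QArch.bes wI
  rw [Complex.ofReal_prod, ← Finset.prod_mul_distrib, ← Finset.card_univ, ← Finset.prod_const,
    ← Finset.prod_mul_distrib]
  refine Finset.prod_congr rfl fun i _ => ?_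
  change ((P i).t : ℂ) * (Complex.exp (((4 * π * ((P i).z * Q.emb i (algebraMap F M α)).re : ℝ) : ℂ) * Complex.I) *
    ((2 * kz (4 * π * (P i).t * ‖Q.emb i (algebraMap F M α)‖) : ℝ) : ℂ)) = 2 * whit (Q.A.emb i α) (P i)
  rw [Q.emb_alg]
  unfold whit ph Wh
  rw [kz_eq_K0, mul_comm (P i).z, show 4 * π * (P i).t * ‖Q.A.emb i α‖ =
    4 * π * ‖Q.A.emb i α‖ * (P i).t by ring]
  push_cast
  ring

/-- The theta integral over the torus. -/
noncomputable def Quad.Psi (T : Tor Q.qa) (f : M → ℂ) (P : XI Q.A) : ℂ :=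
  ((∏ i, (P i).t : ℝ) : ℂ) *
    ∫ v in T.D, ∑' ξ : M, f ξ * Q.qa.ga (fun i => (P i).z) (fun i => (P i).t) v ξ

/-- **Unfolding of the theta integral.** -/
theorem Quad.unfold (T : Tor Q.qa) {𝔣 : Ideal (𝓞 M)} (h : ∀ j, (T.ε j : 𝓞 M) - 1 ∈ 𝔣) {f : M → ℂ}
    (hf : Bdd f) (hfE : ∀ x ∈ Q.qa.N1 𝔣, ∀ ξ, f (ξ * x) = f ξ) (P : XI Q.A) :
    HasSum (fun q : Mˣ ⧸ Q.qa.N1 𝔣 => ((T.E0.relIndex (Q.qa.N1 𝔣) : ℂ) * 2 ^ Fintype.card Q.A.I) *
        (f (q.out : M) * wI (nrm (q.out : M)) P))
      (Q.Psi T f P - (volume T.D).toReal * (∏ i, (P i).t : ℝ) * f 0) := by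
  have h1 := (T.unfold_N1 h hf hfE (fun i => (P i).z) (t := fun i => (P i).t)
    (fun i => (P i).t_pos)).mul_left ((∏ i, (P i).t : ℝ) : ℂ)
  have h2 : ((∏ i, (P i).t : ℝ) : ℂ) * ((∫ v in T.D, ∑' ξ : M, f ξ *
      Q.qa.ga (fun i => (P i).z) (fun i => (P i).t) v ξ) - (volume T.D).toReal * f 0) =
      Q.Psi T f P - (volume T.D).toReal * (∏ i, (P i).t : ℝ) * f 0 := by
    unfold Quad.Psi; ring
  rw [h2] at h1
  refine h1.congr_fun fun q => ?_
  have h3 : (q.out : M) * Q.qa.c (q.out : M) = algebraMap F M (nrm (q.out : M)) :=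
    (Q.alg_nrm _).symm
  rw [h3]
  linear_combination (-(T.E0.relIndex (Q.qa.N1 𝔣) : ℂ) * f (q.out : M)) * Q.bes_eq (nrm (q.out : M)) P

end

end Fermat.Agent.LT.I
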