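import Fermat.Agent.LT.I.Data
import Fermat.Agent.LT.I.Theta
import Fermat.Agent.LT.H.Lattice

/-!
# LT, piece I: sums of Whittaker functions over lattices

* `norm_W_le` : the bound `‖W A α P‖ ≤ (∏ ‖α_i‖)⁻¹ exp (- 2π ∑ t_i ‖α_i‖)`;
* `Cf A c` : coefficients supported in a lattice and of polynomial growth;
* `Cf.dom` : domination of `c α * W A α P`, uniformly for `t_i ≥ a`.
-/

set_option autoImplicit false
set_option linter.unusedSectionVars false

open NumberField IsDedekindDomain Matrix WithZero Module MeasureTheory Set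
open scoped Real

namespace Fermat.Agent.LT.I

open Fermat.LT Fermat.Agent.LT.CArch Fermat.Agent.LT.H Fermat.Agent.LT.H.Bessel

theorem kz_pos {x : ℝ} (hx : 0 < x) : 0 < kz x := by
  rw [kz_eq_K0]; exact K0_pos hx

theorem mul_kz_le {x : ℝ} (hx : 0 < x) : x * kz x ≤ 2 * Real.exp (-(x / 2)) := by
  have h1 : kz x ≤ Real.exp (-x) * (√(π / (x / 4)) / 2) := by
    rw [← integral_gaussian_Ioi, ← integral_const_mul]
    unfold kz
    refine setIntegral_mono_on (integrable_exp_neg_cosh hx).integrableOn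
      ((integrable_exp_neg_mul_sq (by positivity)).integrableOn.const_mul _) measurableSet_Ioi
      fun u _ => ?_
    rw [← Real.exp_add, Real.exp_le_exp]
    have := one_add_sq_div_four_le_cosh u
    nlinarith
  have h2 : x * (√(π / (x / 4)) / 2) ≤ 2 * Real.exp (x / 2) := by
    refine le_of_sq_le_sq ?_ (by positivity)
    have h3 : √(π / (x / 4)) ^ 2 = π / (x / 4) := Real.sq_sqrt (by positivity)
    have h4 : (x * (√(π / (x / 4)) / 2)) ^ 2 = π * x := by
      rw [mul_pow, div_pow, h3]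
      field_simp
      ring
    have h5 : (2 * Real.exp (x / 2)) ^ 2 = 4 * Real.exp x := by
      rw [mul_pow, ← Real.exp_nat_mul]
      norm_num
      ring
    rw [h4, h5]
    have h6 := Real.add_one_le_exp x
    have h7 := Real.pi_lt_four
    nlinarith
  calc x * kz x ≤ x * (Real.exp (-x) * (√(π / (x / 4)) / 2)) := by gcongr
    _ = Real.exp (-x) * (x * (√(π / (x / 4)) / 2)) := by ring
    _ ≤ Real.exp (-x) * (2 * Real.exp (x / 2)) := by gcongr
    _ = 2 * Real.exp (-(x / 2)) := by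
      rw [mul_left_comm, ← Real.exp_add]
      congr 2
      ring

variable {F : Type} [Field F] [NumberField F] {A : Arch F}

theorem W_eq_wI (α : F) (P : XI A) : W A α P = wI α P := by
  unfold W wI
  refine Finset.prod_congr rfl fun i _ => ?_
  unfold whit ph Wh
  rw [kz_eq_K0, show 4 * π * (P i).t * ‖A.emb i α‖ = 4 * π * ‖A.emb i α‖ * (P i).t by ring]

theorem norm_W (α : F) (P : XI A) :
    ‖W A α P‖ = ∏ i, (P i).t * kz (4 * π * (P i).t * ‖A.emb i α‖) := by
  unfold W
  rw [norm_prod]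
  refine Finset.prod_congr rfl fun i _ => ?_
  rw [norm_mul, Complex.norm_exp_ofReal_mul_I, mul_one, Complex.norm_real, Real.norm_of_nonneg]
  exact mul_nonneg (P i).t_pos.le (kz_nonneg _)

theorem emb_ne_zero {α : F} (hα : α ≠ 0) (i : A.I) : A.emb i α ≠ 0 := (map_ne_zero _).2 hα

theorem W_ne_zero {α : F} (hα : α ≠ 0) (P : XI A) : W A α P ≠ 0 := by
  rw [← norm_pos_iff, norm_W]
  refine Finset.prod_pos fun i _ => mul_pos (P i).t_pos (kz_pos ?_)
  have := norm_pos_iff.2 (emb_ne_zero (A := A) hα i)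
  have := (P i).t_pos
  positivity

theorem norm_W_le {α : F} (hα : α ≠ 0) (P : XI A) :
    ‖W A α P‖ ≤ (∏ i, ‖A.emb i α‖)⁻¹ * Real.exp (-(2 * π * ∑ i, (P i).t * ‖A.emb i α‖)) := by
  rw [norm_W, Finset.mul_sum, ← Finset.sum_neg_distrib, Real.exp_sum, ← Finset.prod_inv_distrib,
    ← Finset.prod_mul_distrib]
  refine Finset.prod_le_prod (fun i _ => mul_nonneg (P i).t_pos.le (kz_nonneg _)) fun i _ => ?_
  have h1 := norm_pos_iff.2 (emb_ne_zero (A := A) hα i)
  have h2 := (P i).t_pos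
  have h3 : 0 < 4 * π * (P i).t * ‖A.emb i α‖ := by positivity
  have h4 := mul_kz_le h3
  have h5 : 4 * π * (P i).t * ‖A.emb i α‖ / 2 = 2 * π * ((P i).t * ‖A.emb i α‖) := by ring
  rw [h5] at h4
  rw [inv_mul_eq_div, le_div_iff₀ h1]
  have h6 : (4 * π) * ((P i).t * kz (4 * π * (P i).t * ‖A.emb i α‖) * ‖A.emb i α‖) ≤
      (4 * π) * Real.exp (-(2 * π * ((P i).t * ‖A.emb i α‖))) := by
    calc (4 * π) * ((P i).t * kz (4 * π * (P i).t * ‖A.emb i α‖) * ‖A.emb i α‖)
        = 4 * π * (P i).t * ‖A.emb i α‖ * kz (4 * π * (P i).t * ‖A.emb i α‖) := by ring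
      _ ≤ _ := h4
      _ ≤ _ := by
        gcongr
        have := Real.pi_gt_three
        linarith
  exact le_of_mul_le_mul_left h6 (by positivity)

/-- the sum of the absolute values -/
noncomputable def sg (A : Arch F) (α : F) : ℝ := ∑ i, ‖A.emb i α‖

/-- the product of the absolute values -/
noncomputable def pg (A : Arch F) (α : F) : ℝ := ∏ i, ‖A.emb i α‖

theorem sg_nonneg (α : F) : 0 ≤ sg A α := Finset.sum_nonneg fun _ _ => norm_nonneg _

theorem pg_nonneg (α : F) : 0 ≤ pg A α := Finset.prod_nonneg fun _ _ => norm_nonneg _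

theorem pg_pos {α : F} (hα : α ≠ 0) : 0 < pg A α :=
  Finset.prod_pos fun i _ => norm_pos_iff.2 (emb_ne_zero hα i)

theorem pg_le (α : F) : pg A α ≤ sg A α ^ Fintype.card A.I := by
  unfold pg
  rw [← Finset.card_univ, ← Finset.prod_const]
  refine Finset.prod_le_prod (fun _ _ => norm_nonneg _) fun i _ => ?_
  exact Finset.single_le_sum (f := fun i => ‖A.emb i α‖) (fun _ _ => norm_nonneg _) (Finset.mem_univ i)


theorem sg_eq (α : F) : sg A α = ∑ w : InfinitePlace F, w α := by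
  unfold sg
  refine Fintype.sum_equiv A.equiv _ _ fun i => ?_
  exact (A.pl_apply i α).symm

theorem pg_sq (α : F) : pg A α ^ 2 = |((Algebra.norm ℚ α : ℚ) : ℝ)| := by
  have h := InfinitePlace.prod_eq_abs_norm α
  rw [Rat.cast_abs] at h
  rw [← h, pg, ← Finset.prod_pow]
  refine Fintype.prod_equiv A.equiv _ _ fun i => ?_
  have h1 : (A.equiv i) = A.pl i := rfl
  have h2 : (A.pl i).mult = 2 := InfinitePlace.mult_isComplex ⟨_, A.isComplex i⟩
  rw [h1, h2, A.pl_apply]

theorem one_le_pg {α : F} (hα : α ≠ 0) (hi : IsIntegral ℤ α) : 1 ≤ pg A α := by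
  have h1 : (1 : ℝ) ≤ pg A α ^ 2 := by
    rw [pg_sq]
    obtain ⟨n, hn⟩ : ∃ n : ℤ, (n : ℚ) = Algebra.norm ℚ α :=
      IsIntegrallyClosed.isIntegral_iff.mp (Algebra.isIntegral_norm ℚ hi)
    have hn0 : n ≠ 0 := by
      rintro rfl
      rw [Int.cast_zero] at hn
      exact hα (Algebra.norm_eq_zero_iff.1 hn.symm)
    rw [← hn, Rat.cast_intCast, ← Int.cast_abs]
    exact_mod_cast Int.one_le_abs hn0
  have h2 := pg_nonneg (A := A) α
  nlinarith

theorem pg_mul (α β : F) : pg A (α * β) = pg A α * pg A β := by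
  unfold pg
  rw [← Finset.prod_mul_distrib]
  exact Finset.prod_congr rfl fun i _ => by rw [map_mul, norm_mul]

theorem pg_natCast (N : ℕ) : pg A (N : F) = (N : ℝ) ^ Fintype.card A.I := by
  unfold pg
  rw [← Finset.card_univ, ← Finset.prod_const]
  exact Finset.prod_congr rfl fun i _ => by rw [map_natCast, Complex.norm_natCast]

theorem sg_natCast_mul (N : ℕ) (α : F) : sg A (N * α) = N * sg A α := by
  unfold sg
  rw [Finset.mul_sum]
  exact Finset.sum_congr rfl fun i _ => by rw [map_mul, norm_mul, map_natCast, Complex.norm_natCast]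

theorem exists_den_InL (d : Dv F) : ∃ N : ℕ, N ≠ 0 ∧ ∀ x ∈ InL d, IsIntegral ℤ ((N : F) * x) := by
  obtain ⟨a, ha, h⟩ := (fid d).isFractional
  have ha0 : a ≠ 0 := nonZeroDivisors.ne_zero ha
  refine ⟨Ideal.absNorm (Ideal.span {a}), ?_, fun x hx => ?_⟩
  · rw [Ne, Ideal.absNorm_eq_zero_iff, Ideal.span_singleton_eq_bot]; exact ha0
  obtain ⟨r, hr⟩ := Ideal.mem_span_singleton.1 (Ideal.absNorm_mem (Ideal.span {a}))
  obtain ⟨b, hb⟩ := h x (mem_fid.2 hx)
  have h2 : ((Ideal.absNorm (Ideal.span {a}) : ℕ) : F) = (a : F) * r := by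
    have := congrArg (algebraMap (𝓞 F) F) hr
    rw [map_mul, map_natCast] at this
    exact this
  have h3 : ((Ideal.absNorm (Ideal.span {a}) : ℕ) : F) * x = ((r * b : 𝓞 F) : F) := by
    have h4 : ((r * b : 𝓞 F) : F) = (r : F) * algebraMap (𝓞 F) F b := map_mul (algebraMap (𝓞 F) F) r b
    rw [h2, h4, hb, Algebra.smul_def]
    ring
  rw [h3]
  exact (r * b).isIntegral_coe

theorem exists_lower (A : Arch F) (d : Dv F) : ∃ s : ℝ, 0 < s ∧ ∀ α : F, α ≠ 0 → α ∈ InL d →
    s ≤ pg A α ∧ s ≤ sg A α := by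
  obtain ⟨N, hN, hden⟩ := exists_den_InL d
  set r := Fintype.card A.I with hr
  have hN1 : (1 : ℝ) ≤ N := by exact_mod_cast Nat.one_le_iff_ne_zero.2 hN
  have hr0 : r ≠ 0 := by
    rw [hr]
    obtain ⟨w⟩ : Nonempty (InfinitePlace F) := inferInstance
    have : Nonempty A.I := ⟨A.equiv.symm w⟩
    exact Fintype.card_ne_zero
  refine ⟨((N : ℝ) ^ r)⁻¹, by positivity, fun α hα hd => ?_⟩
  have h0 : (N : F) * α ≠ 0 := mul_ne_zero (by exact_mod_cast hN) hα
  have h1 : 1 ≤ pg A ((N : F) * α) := one_le_pg h0 (hden α hd)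
  constructor
  · rw [pg_mul, pg_natCast] at h1
    rw [inv_le_iff_one_le_mul₀ (by positivity)]
    rw [mul_comm]; exact h1
  · have h2 : 1 ≤ sg A ((N : F) * α) := by
      by_contra hcon
      rw [not_le] at hcon
      have h3 := pg_le (A := A) ((N : F) * α)
      have h4 : sg A ((N : F) * α) ^ r < 1 := pow_lt_one₀ (sg_nonneg _) hcon hr0
      linarith
    rw [sg_natCast_mul] at h2
    rw [inv_le_iff_one_le_mul₀ (by positivity)]
    calc (1 : ℝ) ≤ N * sg A α := h2
      _ ≤ (N : ℝ) ^ r * sg A α := by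
        have := sg_nonneg (A := A) α
        gcongr
        exact le_self_pow₀ hN1 hr0
      _ = _ := mul_comm _ _

theorem summable_exp_places {c : ℝ} (hc : 0 < c) :
    Summable fun x : 𝓞 F => Real.exp (-(c * ∑ w : InfinitePlace F, w (x : F))) := by
  classical
  set L := mixedEmbedding.integerLattice F with hL
  set n := finrank ℤ L + 1 with hn
  have h1 : Summable fun z : L => ‖z‖⁻¹ ^ n :=
    ZLattice.summable_norm_pow_inv L n (by omega)
  have h2 : Summable fun z : L => (n.factorial * c⁻¹ ^ n) * ‖z‖⁻¹ ^ n +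
      (if z = 0 then (1 : ℝ) else 0) :=
    (h1.mul_left _).add (hasSum_ite_eq 0 (1:ℝ)).summable
  let j : 𝓞 F → L := fun x => ⟨mixedEmbedding F (x : F), by
    refine ⟨x, ?_⟩
    rfl⟩
  have hj : Function.Injective j := by
    intro x y hxy
    have := congrArg Subtype.val hxy
    exact RingOfIntegers.ext ((mixedEmbedding_injective F) this)
  refine (h2.comp_injective hj).of_nonneg_of_le (fun _ => (Real.exp_pos _).le) fun x => ?_
  simp only [Function.comp_apply]
  have hj00 : j 0 = 0 := by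
    apply Subtype.ext
    change mixedEmbedding F ((0 : 𝓞 F) : F) = 0
    simp
  by_cases hx : x = 0
  · subst hx
    rw [hj00]
    simp [hn]
  · have hj0 : j x ≠ 0 := by
      intro h
      apply hx
      apply hj
      rw [h, hj00]
    rw [if_neg hj0, add_zero]
    have hpos : 0 < ‖j x‖ := norm_pos_iff.mpr hj0
    have h3 : ‖j x‖ ≤ ∑ w : InfinitePlace F, w (x : F) := by
      have h4 : ‖j x‖ = ‖mixedEmbedding F (x : F)‖ := rfl
      rw [h4, mixedEmbedding.norm_eq_sup'_normAtPlace]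
      obtain ⟨w, _, hw⟩ := Finset.exists_mem_eq_sup' (Finset.univ_nonempty (α := InfinitePlace F))
        (fun w => mixedEmbedding.normAtPlace w (mixedEmbedding F (x : F)))
      rw [hw, mixedEmbedding.normAtPlace_apply]
      exact Finset.single_le_sum (f := fun w : InfinitePlace F => w (x : F))
        (fun _ _ => apply_nonneg _ _) (Finset.mem_univ w)
    calc Real.exp (-(c * ∑ w : InfinitePlace F, w (x : F)))
        ≤ Real.exp (-(c * ‖j x‖)) := by
          rw [Real.exp_le_exp]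
          have := mul_le_mul_of_nonneg_left h3 hc.le
          linarith
      _ ≤ n.factorial * (c * ‖j x‖)⁻¹ ^ n := exp_neg_le (by positivity) n
      _ = (n.factorial * c⁻¹ ^ n) * ‖j x‖⁻¹ ^ n := by
          rw [mul_inv, mul_pow, mul_assoc]

theorem summable_exp_sg (A : Arch F) (d : Dv F) {c : ℝ} (hc : 0 < c) :
    Summable fun α : Fˣ => Set.indicator {α : Fˣ | (α : F) ∈ InL d}
      (fun α : Fˣ => Real.exp (-(c * sg A (α : F)))) α := by
  classical
  obtain ⟨N, hN, hden⟩ := exists_den_InL d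
  have hNF : (N : F) ≠ 0 := by exact_mod_cast hN
  have hNR : (N : ℝ) ≠ 0 := by exact_mod_cast hN
  set S : Set Fˣ := {α : Fˣ | (α : F) ∈ InL d} with hS
  let j : S → 𝓞 F := fun α => ⟨(N : F) * ((α : Fˣ) : F), hden _ α.2⟩
  have hj : Function.Injective j := by
    intro x y hxy
    have h1 : (N : F) * ((x : Fˣ) : F) = (N : F) * ((y : Fˣ) : F) := congrArg Subtype.val hxy
    exact Subtype.ext (Units.ext (mul_left_cancel₀ hNF h1))
  have h1 := (summable_exp_places (F := F) (c := c / N) (by positivity)).comp_injective hj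
  rw [← summable_subtype_iff_indicator]
  refine h1.congr fun α => ?_
  simp only [Function.comp_apply]
  rw [← sg_eq (A := A)]
  have h2 : ((j α : 𝓞 F) : F) = (N : F) * ((α : Fˣ) : F) := rfl
  rw [h2, sg_natCast_mul]
  congr 2
  field_simp

/-- coefficients supported in a lattice and of polynomial growth -/
structure Cf (A : Arch F) (c : Fˣ → ℂ) : Prop where
  lat : ∃ d : Dv F, ∀ α, c α ≠ 0 → (α : F) ∈ InL d
  bd : ∃ (C : ℝ) (K : ℕ), ∀ α, ‖c α‖ ≤ C * (∏ i, ‖A.emb i (α : F)‖) ^ K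

/-- **Domination of the terms of a Whittaker series**. -/
theorem Cf.dom {c : Fˣ → ℂ} (h : Cf A c) {a : ℝ} (ha : 0 < a) :
    ∃ (u : Fˣ → ℝ) (κ : ℝ), Summable u ∧ (∀ α, 0 ≤ u α) ∧ 0 < κ ∧ ∀ (α : Fˣ) (P : XI A) (b : ℝ),
      a ≤ b → (∀ i, b ≤ (P i).t) → ‖c α * W A α P‖ ≤ u α * Real.exp (-(κ * b)) := by
  obtain ⟨d, hd⟩ := h.lat
  obtain ⟨C, K, hC⟩ := h.bd
  obtain ⟨s, hs, hlow⟩ := exists_lower A d
  set r := Fintype.card A.I with hr
  have hC0 : 0 ≤ C := by
    by_contra hcon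
    rw [not_le] at hcon
    have h1 := (norm_nonneg _).trans (hC 1)
    simp only [Units.val_one, map_one, norm_one, Finset.prod_const_one, one_pow, mul_one] at h1
    linarith
  obtain ⟨B, hB0, hB⟩ := pow_mul_exp_le (r * K) (a := π * a / 2) (by positivity)
  refine ⟨fun α => C * s⁻¹ * B * Set.indicator {α : Fˣ | (α : F) ∈ InL d}
      (fun α : Fˣ => Real.exp (-(π * a / 2 * sg A (α : F)))) α, π * s,
    (summable_exp_sg A d (by positivity)).mul_left _, fun α => ?_, by positivity, ?_⟩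
  · have : 0 ≤ Set.indicator {α : Fˣ | (α : F) ∈ InL d}
        (fun α : Fˣ => Real.exp (-(π * a / 2 * sg A (α : F)))) α :=
      Set.indicator_nonneg (fun _ _ => (Real.exp_pos _).le) _
    positivity
  intro α P b hab hb
  simp only
  by_cases hα : (α : F) ∈ InL d
  swap
  · have h0 : c α = 0 := by
      by_contra h0
      exact hα (hd α h0)
    rw [Set.indicator_of_notMem (by exact hα), h0]
    simp
  rw [Set.indicator_of_mem (by exact hα)]
  obtain ⟨hl1, hl2⟩ := hlow α α.ne_zero hα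
  set σ := sg A (α : F) with hσ
  set p := pg A (α : F) with hp
  have hp0 : 0 < p := pg_pos α.ne_zero
  have hσ0 : 0 < σ := hs.trans_le hl2
  have hb0 : 0 < b := ha.trans_le hab
  have h1 : ‖W A (α : F) P‖ ≤ p⁻¹ * Real.exp (-(2 * π * (b * σ))) := by
    refine (norm_W_le α.ne_zero P).trans ?_
    refine mul_le_mul_of_nonneg_left ?_ (inv_nonneg.2 hp0.le)
    rw [Real.exp_le_exp, neg_le_neg_iff]
    refine mul_le_mul_of_nonneg_left ?_ (by positivity)
    rw [hσ, sg, Finset.mul_sum]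
    exact Finset.sum_le_sum fun i _ => mul_le_mul_of_nonneg_right (hb i) (norm_nonneg _)
  have h2 : p⁻¹ ≤ s⁻¹ := inv_anti₀ hs hl1
  have h3 : p ^ K ≤ σ ^ (r * K) := by
    rw [pow_mul]
    exact pow_le_pow_left₀ hp0.le (pg_le _) K
  have h4 : σ ^ (r * K) * Real.exp (-(π * a / 2 * σ)) ≤ B := hB σ hσ0.le
  have h5 : Real.exp (-(2 * π * (b * σ))) ≤ Real.exp (-(π * a / 2 * σ)) *
      Real.exp (-(π * a / 2 * σ)) * Real.exp (-(π * s * b)) := by
    rw [← Real.exp_add, ← Real.exp_add, Real.exp_le_exp]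
    have e1 : a * σ ≤ b * σ := mul_le_mul_of_nonneg_right hab hσ0.le
    have e2 : s * b ≤ b * σ := by
      rw [mul_comm b σ]
      exact mul_le_mul_of_nonneg_right hl2 hb0.le
    have e3 := mul_le_mul_of_nonneg_left e1 Real.pi_pos.le
    have e4 := mul_le_mul_of_nonneg_left e2 Real.pi_pos.le
    nlinarith
  have hE := Real.exp_pos (-(π * a / 2 * σ))
  have hE2 := Real.exp_pos (-(π * s * b))
  rw [norm_mul]
  calc ‖c α‖ * ‖W A (α : F) P‖ ≤ (C * p ^ K) * (p⁻¹ * Real.exp (-(2 * π * (b * σ)))) :=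
        mul_le_mul (hC α) h1 (norm_nonneg _) (by positivity)
    _ ≤ (C * σ ^ (r * K)) * (s⁻¹ * (Real.exp (-(π * a / 2 * σ)) *
      Real.exp (-(π * a / 2 * σ)) * Real.exp (-(π * s * b)))) := by gcongr
    _ = C * s⁻¹ * (σ ^ (r * K) * Real.exp (-(π * a / 2 * σ))) *
      Real.exp (-(π * a / 2 * σ)) * Real.exp (-(π * s * b)) := by ring
    _ ≤ C * s⁻¹ * B * Real.exp (-(π * a / 2 * σ)) * Real.exp (-(π * s * b)) := by gcongr

end Fermat.Agent.LT.I
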