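import Fermat.Agent.LT.I.Co
import Fermat.Agent.LT.I.WhitSum

/-!
# LT, piece I: the Whittaker coefficients satisfy `Cf`

* closure properties of `Cf`;
* `Cf.summable`;
* `Setup.cf_cS`, `Setup.cf_bdd`.
(helper31)
-/

set_option autoImplicit false
set_option linter.unusedSectionVars false

open NumberField IsDedekindDomain Matrix WithZero Module MeasureTheory Set
open scoped Real

namespace Fermat.Agent.LT.I

open Fermat.LT Fermat.Agent.CFT

section Cf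

variable {F : Type} [Field F] [NumberField F] {A : Arch F}

theorem Cf.zero : Cf A fun _ : Fˣ => (0 : ℂ) :=
  ⟨⟨0, fun _ h => absurd rfl h⟩, ⟨0, 0, fun _ => by simp⟩⟩

theorem Cf.const_mul {c : Fˣ → ℂ} (h : Cf A c) (k : ℂ) : Cf A fun α => k * c α := by
  obtain ⟨d, hd⟩ := h.lat
  obtain ⟨C, K, hC⟩ := h.bd
  refine ⟨⟨d, fun α hα => hd α (right_ne_zero_of_mul hα)⟩, ⟨‖k‖ * C, K, fun α => ?_⟩⟩
  rw [norm_mul, mul_assoc]
  exact mul_le_mul_of_nonneg_left (hC α) (norm_nonneg _)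

theorem Cf.mul_unimod {c : Fˣ → ℂ} (h : Cf A c) (g : Fˣ → ℂ) (hg : ∀ α, ‖g α‖ ≤ 1) :
    Cf A fun α => c α * g α := by
  obtain ⟨d, hd⟩ := h.lat
  obtain ⟨C, K, hC⟩ := h.bd
  refine ⟨⟨d, fun α hα => hd α (left_ne_zero_of_mul hα)⟩, ⟨C, K, fun α => ?_⟩⟩
  rw [norm_mul]
  exact (mul_le_of_le_one_right (norm_nonneg _) (hg α)).trans (hC α)

theorem Cf.comp_mul {c : Fˣ → ℂ} (h : Cf A c) (a : Fˣ) : Cf A fun α => c (a * α) := by
  obtain ⟨d, hd⟩ := h.lat
  obtain ⟨C, K, hC⟩ := h.bd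
  refine ⟨⟨d - dv (a : F), fun α hα => ?_⟩, ⟨C * pg A (a : F) ^ K, K, fun α => ?_⟩⟩
  · have h1 := hd _ hα
    rw [Units.val_mul] at h1
    have h2 : d = dv (a : F) + (d - dv (a : F)) := by abel
    rw [h2, smul_mem_InL_iff a.ne_zero] at h1
    exact h1
  · have h1 := hC (a * α)
    have h2 : ∏ i, ‖A.emb i ((a * α : Fˣ) : F)‖ = pg A (a : F) * ∏ i, ‖A.emb i (α : F)‖ := by
      rw [Units.val_mul]
      exact pg_mul (A := A) (a : F) (α : F)
    rw [h2, mul_pow, ← mul_assoc] at h1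
    exact h1

theorem Cf.nonneg_of_bd {c : Fˣ → ℂ} {C : ℝ} {K : ℕ}
    (hC : ∀ α, ‖c α‖ ≤ C * (∏ i, ‖A.emb i (α : F)‖) ^ K) : 0 ≤ C := by
  by_contra hcon
  rw [not_le] at hcon
  have h1 := (norm_nonneg _).trans (hC 1)
  simp only [Units.val_one, map_one, norm_one, Finset.prod_const_one, one_pow, mul_one] at h1
  linarith

/-- the exponent can be enlarged -/
theorem Cf.bd_add {c : Fˣ → ℂ} {d : Dv F} (hd : ∀ α, c α ≠ 0 → (α : F) ∈ InL d) {C : ℝ} {K : ℕ}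
    (hC : ∀ α, ‖c α‖ ≤ C * (∏ i, ‖A.emb i (α : F)‖) ^ K) (K' : ℕ) :
    ∃ C' : ℝ, 0 ≤ C' ∧ ∀ α, ‖c α‖ ≤ C' * (∏ i, ‖A.emb i (α : F)‖) ^ (K + K') := by
  obtain ⟨s, hs, hlow⟩ := exists_lower A d
  have hC0 : 0 ≤ C := Cf.nonneg_of_bd hC
  refine ⟨C * (s⁻¹) ^ K', by positivity, fun α => ?_⟩
  by_cases h0 : c α = 0
  · rw [h0, norm_zero]
    have : 0 ≤ ∏ i, ‖A.emb i (α : F)‖ := Finset.prod_nonneg fun _ _ => norm_nonneg _
    positivity
  · obtain ⟨h1, -⟩ := hlow α α.ne_zero (hd α h0)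
    set p := ∏ i, ‖A.emb i (α : F)‖ with hp
    have h1' : s ≤ p := h1
    have hp0 : 0 < p := hs.trans_le h1'
    have h2 : 1 ≤ (s⁻¹ * p) ^ K' := by
      refine one_le_pow₀ ?_
      rw [le_inv_mul_iff₀ hs, mul_one]
      exact h1'
    calc ‖c α‖ ≤ C * p ^ K := hC α
      _ = C * p ^ K * 1 := (mul_one _).symm
      _ ≤ C * p ^ K * (s⁻¹ * p) ^ K' := mul_le_mul_of_nonneg_left h2 (by positivity)
      _ = C * s⁻¹ ^ K' * p ^ (K + K') := by rw [mul_pow, pow_add]; ring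

theorem Cf.add {c c' : Fˣ → ℂ} (h : Cf A c) (h' : Cf A c') : Cf A fun α => c α + c' α := by
  obtain ⟨d, hd⟩ := h.lat
  obtain ⟨C, K, hC⟩ := h.bd
  obtain ⟨d', hd'⟩ := h'.lat
  obtain ⟨C', K', hC'⟩ := h'.bd
  obtain ⟨C1, hC10, hC1⟩ := Cf.bd_add hd hC K'
  obtain ⟨C2, hC20, hC2⟩ := Cf.bd_add hd' hC' K
  refine ⟨⟨d ⊓ d', fun α hα => ?_⟩, ⟨C1 + C2, K + K', fun α => ?_⟩⟩
  · by_cases h0 : c α = 0
    · have h1 : c' α ≠ 0 := by
        intro h1
        exact hα (by rw [h0, h1, add_zero])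
      exact InL_mono inf_le_right (hd' α h1)
    · exact InL_mono inf_le_left (hd α h0)
  · refine (norm_add_le _ _).trans ?_
    rw [add_mul]
    refine add_le_add (hC1 α) ?_
    have := hC2 α
    rwa [add_comm K' K] at this

theorem Cf.sum {ι : Type*} (T : Finset ι) (c : ι → Fˣ → ℂ) (h : ∀ i ∈ T, Cf A (c i)) :
    Cf A fun α => ∑ i ∈ T, c i α := by
  classical
  induction T using Finset.induction_on with
  | empty => simpa using Cf.zero
  | insert i T hi ih =>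
    have h1 := (h i (Finset.mem_insert_self _ _)).add
      (ih fun j hj => h j (Finset.mem_insert_of_mem hj))
    simpa [Finset.sum_insert hi] using h1

theorem exists_t_ge (P : XI A) : ∃ a : ℝ, 0 < a ∧ ∀ i, a ≤ (P i).t := by
  classical
  rcases isEmpty_or_nonempty A.I with hI | hI
  · exact ⟨1, one_pos, fun i => (hI.false i).elim⟩
  · obtain ⟨i0, -, hi0⟩ := Finset.exists_min_image (Finset.univ : Finset A.I) (fun i => (P i).t)
      Finset.univ_nonempty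
    exact ⟨(P i0).t, (P i0).t_pos, fun i => hi0 i (Finset.mem_univ _)⟩

theorem Cf.summable {c : Fˣ → ℂ} (h : Cf A c) (P : XI A) :
    Summable fun α : Fˣ => c α * W A α P := by
  obtain ⟨a, ha, hP⟩ := exists_t_ge P
  obtain ⟨u, κ, hu, hu0, hκ, hdom⟩ := h.dom ha
  exact Summable.of_norm_bounded (hu.mul_right (Real.exp (-(κ * a))))
    fun α => hdom α P a le_rfl hP

end Cf

section absN

variable {F : Type} [Field F] [NumberField F]

theorem one_le_absN {l : Dv F} (h : 0 ≤ l) : 1 ≤ absN l := by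
  unfold absN Finsupp.prod
  refine Finset.prod_induction _ (fun x : ℝ => 1 ≤ x)
    (fun a b ha hb => one_le_mul_of_one_le_of_one_le ha hb) le_rfl fun w _ => ?_
  exact one_le_zpow₀ (one_lt_qv w).le (h w)

theorem absN_mono {l l' : Dv F} (h : l ≤ l') : absN l ≤ absN l' := by
  have h1 : l' = l + (l' - l) := by abel
  rw [h1, absN_add]
  refine le_mul_of_one_le_right (absN_pos l).le (one_le_absN ?_)
  exact sub_nonneg.2 h

theorem absN_single_zpow (w : Pl F) (n : ℤ) : absN (Finsupp.single w n) = qv w ^ n :=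
  Finsupp.prod_single_index (by simp)

theorem zpow_le_absN {l : Dv F} (h : 0 ≤ l) (w : Pl F) : qv w ^ l w ≤ absN l := by
  rw [← absN_single_zpow]
  refine absN_mono fun v => ?_
  classical
  rw [Finsupp.single_apply]
  split_ifs with hv
  · rw [hv]
  · exact h v

theorem absN_dv_pg (A : Arch F) {x : F} (hx : x ≠ 0) : absN (dv x) = pg A x ^ 2 :=
  (prod_norm_sq A hx).symm

end absN

variable {F M : Type} [Field F] [NumberField F] [Field M] [NumberField M] [Algebra F M]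
variable (Z : Setup F M)

namespace Setup

open Classical in
/-- lower bound of the divisors of the arguments of the Whittaker coefficients -/
noncomputable def lowD (ν : Dv F) : Dv F :=
  Finsupp.ofSupportFinite (fun w => if w ∈ Z.S then -(Z.N1 : ℤ) else -(ν w) - dF F w) (by
    refine ((Z.S.finite_toSet.union ν.support.finite_toSet).union
      (dF F).support.finite_toSet).subset fun w hw => ?_
    by_cases h1 : w ∈ Z.S
    · exact Or.inl (Or.inl h1)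
    · by_cases h2 : ν w = 0
      · refine Or.inr ?_
        rw [Finset.mem_coe, Finsupp.mem_support_iff]
        intro h3
        apply hw
        simp only
        rw [if_neg h1, h2, h3]
        ring
      · exact Or.inl (Or.inr (by rw [Finset.mem_coe, Finsupp.mem_support_iff]; exact h2)))

theorem lowD_of_mem (ν : Dv F) {w : Pl F} (hw : w ∈ Z.S) : Z.lowD ν w = -(Z.N1 : ℤ) :=
  if_pos hw

theorem lowD_of_not_mem (ν : Dv F) {w : Pl F} (hw : w ∉ Z.S) : Z.lowD ν w = -(ν w) - dF F w :=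
  if_neg hw

theorem lowD_le {κ : F → ℂ} (hκ : Z.IsKap κ) {ν : Dv F} {u : F} {α : Fˣ}
    (h : Z.coefK κ ν u α ≠ 0) : Z.lowD ν ≤ dv (α : F) := by
  obtain ⟨h1, h2⟩ := Z.coefK_supp hκ h
  intro w
  by_cases hw : w ∈ Z.S
  · rw [Z.lowD_of_mem ν hw, dv_apply]; exact h1 w hw
  · rw [Z.lowD_of_not_mem ν hw, dv_apply]; exact h2 w hw

theorem absN_off_le (ν : Dv F) {α : F} (h : Z.lowD ν ≤ dv α) :
    absN (Z.off (dv α)) ≤ absN (dv α) * absN (∑ w ∈ Z.S, Finsupp.single w (Z.N1 : ℤ)) := by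
  classical
  rw [← absN_add]
  refine absN_mono fun w => ?_
  rw [Finsupp.add_apply, Finsupp.finsetSum_apply]
  have h0 : ∀ v ∈ Z.S, 0 ≤ (Finsupp.single v (Z.N1 : ℤ) : Dv F) w := by
    intro v _
    rw [Finsupp.single_apply]
    split_ifs <;> simp
  by_cases hw : w ∈ Z.S
  · rw [Z.off_of_mem _ hw]
    have h1 := h w
    rw [Z.lowD_of_mem ν hw] at h1
    have h2 : (Finsupp.single w (Z.N1 : ℤ) : Dv F) w ≤ ∑ v ∈ Z.S, (Finsupp.single v (Z.N1 : ℤ) : Dv F) w :=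
      Finset.single_le_sum (f := fun v => (Finsupp.single v (Z.N1 : ℤ) : Dv F) w) h0 hw
    rw [Finsupp.single_eq_same] at h2
    omega
  · rw [Z.off_of_not_mem _ hw]
    have h2 := Finset.sum_nonneg h0
    omega

theorem cf_of_bound {κ : F → ℂ} (hκ : Z.IsKap κ) (ν : Dv F) (u : F) {C : ℝ} {K : ℕ} (hC0 : 0 ≤ C)
    (hC : ∀ α : F, α ≠ 0 → Z.lowD ν ≤ dv α → ‖κ α‖ ≤ C * pg Z.A α ^ K) :
    Cf Z.A (fun α : Fˣ => Z.coefK κ ν u α) := by
  refine ⟨⟨Z.lowD ν, fun α hα => ?_⟩, ?_⟩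
  · rw [mem_InL_iff α.ne_zero]
    intro w
    have := Z.lowD_le hκ hα w
    rwa [dv_apply] at this
  · set C1 : ℝ := absN (∑ w ∈ Z.S, Finsupp.single w (Z.N1 : ℤ)) with hC1
    have hC10 : 0 < C1 := absN_pos _
    refine ⟨(√(absN ν))⁻¹ * (C * (C1 * absN (ν + Z.δ))), K + 2, fun α => ?_⟩
    have hpos : 0 < pg Z.A (α : F) := pg_pos α.ne_zero
    have hN0 := absN_pos (ν + Z.δ)
    have hs0 : 0 ≤ (√(absN ν))⁻¹ := inv_nonneg.2 (Real.sqrt_nonneg _)
    change ‖Z.coefK κ ν u α‖ ≤ (√(absN ν))⁻¹ * (C * (C1 * absN (ν + Z.δ))) * pg Z.A (α : F) ^ (K + 2)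
    by_cases h0 : Z.coefK κ ν u α = 0
    · rw [h0, norm_zero]
      positivity
    have hlow := Z.lowD_le hκ h0
    have h1 := hC α α.ne_zero hlow
    have h2 := Z.norm_aψ_le (Z.off (dv (α : F)) + ν + Z.δ)
    have h3 : absN (Z.off (dv (α : F)) + ν + Z.δ) ≤ pg Z.A (α : F) ^ 2 * C1 * absN (ν + Z.δ) := by
      rw [add_assoc, absN_add, ← absN_dv_pg Z.A α.ne_zero]
      exact mul_le_mul_of_nonneg_right (Z.absN_off_le ν hlow) hN0.le
    unfold coefK
    rw [norm_mul, norm_mul, norm_mul, normEf, mul_one, Complex.norm_real, Real.norm_of_nonneg hs0]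
    calc (√(absN ν))⁻¹ * (‖κ (α : F)‖ * ‖Z.aψ (Z.off (dv (α : F)) + ν + Z.δ)‖)
        ≤ (√(absN ν))⁻¹ * ((C * pg Z.A (α : F) ^ K) * (pg Z.A (α : F) ^ 2 * C1 * absN (ν + Z.δ))) := by
          gcongr
          exact h2.trans h3
      _ = _ := by rw [pow_add]; ring

theorem cf_bdd {κ : F → ℂ} (hκ : Z.IsKap κ) (hb : ∀ α, ‖κ α‖ ≤ 1) (ν : Dv F) (u : F) :
    Cf Z.A (fun α : Fˣ => Z.coefK κ ν u α) :=
  Z.cf_of_bound hκ ν u (C := 1) (K := 0) zero_le_one fun α _ _ => by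
    rw [pow_zero, mul_one]; exact hb α

theorem cf_two_le_qv {K : Type} [Field K] [NumberField K] (w : Pl K) : 2 ≤ qv w := by
  rw [qv]
  have h5 : 1 < Ideal.absNorm w.asIdeal := NumberField.HeightOneSpectrum.one_lt_absNorm w
  exact_mod_cast h5

theorem exists_exp_le (T : Finset (Pl M)) : ∃ k : ℕ, ∀ P ∈ T, qv P ≤ 2 ^ k := by
  obtain ⟨k, hk⟩ := pow_unbounded_of_one_lt (∑ P ∈ T, qv P) (by norm_num : (1 : ℝ) < 2)
  refine ⟨k, fun P hP => ?_⟩
  exact (Finset.single_le_sum (f := fun P => qv P) (fun P _ => (qv_pos P).le) hP).trans hk.le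

theorem cf_cS {s : M → ℂ} (hs : Z.IsSch s) (ν : Dv F) (u : F) :
    Cf Z.A (fun α : Fˣ => Z.coefK (Z.cS s) ν u α) := by
  classical
  obtain ⟨C, hC0, hC⟩ := Z.norm_cS_le hs
  obtain ⟨k, hk⟩ := exists_exp_le Z.SM
  set n0 : ℕ := 2 * Z.N + Z.N2 with hn0
  -- the constant
  set B0 : ℝ := absN (-(Z.lowD ν)) with hB0
  have hB0p : 0 < B0 := absN_pos _
  set m : ℕ := Z.SM.card with hm
  refine Z.cf_of_bound (Z.isKap_cS hs) ν u (C := C * (((2 : ℝ) ^ k) ^ n0 * B0 ^ (2 * k)) ^ m)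
    (K := 2 * (2 * k) * m) (by positivity) fun α hα hlow => ?_
  refine (hC α).trans ?_
  have hp0 : 0 < pg Z.A α := pg_pos hα
  -- `absN (dv α - lowD)`
  have hB : absN (dv α - Z.lowD ν) = pg Z.A α ^ 2 * B0 := by
    rw [sub_eq_add_neg, absN_add, absN_dv_pg Z.A hα]
  have h0 : (0 : Dv F) ≤ dv α - Z.lowD ν := sub_nonneg.2 hlow
  have hB1 : 1 ≤ pg Z.A α ^ 2 * B0 := by rw [← hB]; exact one_le_absN h0
  have key : ∀ P ∈ Z.SM, qv P ^ (ov P (algebraMap F M α) + 2 * Z.N + Z.N2).toNat ≤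
      ((2 : ℝ) ^ k) ^ n0 * (pg Z.A α ^ 2 * B0) ^ (2 * k) := by
    intro P hP
    have hw : SUH.below F P ∈ Z.S := Z.mem_SM.1 hP
    set w := SUH.below F P with hwdef
    obtain ⟨e, he1, he2, he⟩ := Z.exists_ov P
    have hx : 0 ≤ ov w α + Z.N1 := by
      have := hlow w
      rw [Z.lowD_of_mem ν hw, dv_apply] at this
      omega
    obtain ⟨x, hxx⟩ := Int.eq_ofNat_of_zero_le hx
    have h1 : (ov P (algebraMap F M α) + 2 * Z.N + Z.N2).toNat ≤ 2 * x + n0 := by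
      rw [he]
      have h2 : ov w α = x - Z.N1 := by omega
      rw [← hwdef, h2]
      have h3 : e * ((x : ℤ) - Z.N1) ≤ 2 * x := by
        rcases (by omega : e = 1 ∨ e = 2) with rfl | rfl <;> omega
      omega
    have hq1 : 1 ≤ qv P := (one_lt_qv P).le
    have hqk : qv P ≤ 2 ^ k := hk P hP
    have h4 : qv w ^ x ≤ pg Z.A α ^ 2 * B0 := by
      rw [← hB]
      have h5 := zpow_le_absN h0 w
      rw [Finsupp.sub_apply, dv_apply, Z.lowD_of_mem ν hw, sub_neg_eq_add, hxx] at h5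
      rw [← zpow_natCast]
      exact h5
    calc qv P ^ (ov P (algebraMap F M α) + 2 * Z.N + Z.N2).toNat
        ≤ qv P ^ (2 * x + n0) := pow_le_pow_right₀ hq1 h1
      _ = qv P ^ n0 * (qv P ^ x) ^ 2 := by rw [← pow_mul, ← pow_add]; congr 1; ring
      _ ≤ (2 ^ k) ^ n0 * ((qv w ^ k) ^ x) ^ 2 := by
          have h6 : qv P ≤ qv w ^ k := hqk.trans (pow_le_pow_left₀ (by norm_num) (cf_two_le_qv w) k)
          have h7 : (0 : ℝ) ≤ qv P := (qv_pos P).le
          gcongr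
      _ = (2 ^ k) ^ n0 * (qv w ^ x) ^ (2 * k) := by
          congr 1
          rw [← pow_mul, ← pow_mul, ← pow_mul]
          congr 1
          ring
      _ ≤ _ := by
          have h7 : (0 : ℝ) ≤ qv w := (qv_pos w).le
          gcongr
  rw [mul_assoc]
  refine mul_le_mul_of_nonneg_left ?_ hC0
  calc ∏ P ∈ Z.SM, qv P ^ (ov P (algebraMap F M α) + 2 * Z.N + Z.N2).toNat
      ≤ ∏ _P ∈ Z.SM, (((2 : ℝ) ^ k) ^ n0 * (pg Z.A α ^ 2 * B0) ^ (2 * k)) :=
        Finset.prod_le_prod (fun P _ => pow_nonneg (qv_pos P).le _) key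
    _ = (((2 : ℝ) ^ k) ^ n0 * (pg Z.A α ^ 2 * B0) ^ (2 * k)) ^ m := by
        rw [Finset.prod_const]
    _ = _ := by
        rw [mul_pow (pg Z.A α ^ 2) B0, ← pow_mul, mul_pow, mul_pow, mul_pow, ← pow_mul]
        ring

end Setup

end Fermat.Agent.LT.I
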