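import Fermat.Agent.LT.I.Conorm

/-!
# LT, piece I: the Hecke recursion for `aψ`
-/

set_option autoImplicit false
set_option linter.unusedSectionVars false

open NumberField IsDedekindDomain Matrix WithZero Module
open scoped Real nonZeroDivisors

namespace Fermat.Agent.LT.I

open Fermat.LT Fermat.Agent.CFT

variable {F M : Type} [Field F] [NumberField F] [Field M] [NumberField M] [Algebra F M]
variable (Z : Setup F M)

namespace Setup

/-- the finite set of effective divisors of norm `m` -/
noncomputable def EF (m : Dv F) : Finset (Dv M) := (Z.Eff_card m).1.toFinset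

theorem mem_EF {m : Dv F} {b : Dv M} :
    b ∈ Z.EF m ↔ 0 ≤ b ∧ (∀ P, Z.Bad P → b P = 0) ∧ Z.Nm b = m := by
  rw [EF, Set.Finite.mem_toFinset]; rfl

theorem aψ_eq_sum (m : Dv F) : Z.aψ m = ∑ b ∈ Z.EF m, Z.psi b := by
  unfold aψ
  rw [finsum_set_coe_eq_finsum_mem (Z.Eff m) (f := Z.psi)]
  exact finsum_mem_eq_finite_toFinset_sum _ (Z.Eff_card m).1

open Classical in
theorem Nm_single (P : Pl M) (n : ℤ) : Z.Nm (Finsupp.single P n) =
    Finsupp.single (SUH.below F P) (if Z.cP P = P then n + n else n) := by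
  classical
  ext w
  obtain ⟨P', rfl⟩ := SUH.exists_above (F := M) w
  rw [Quad.Nm_below, Finsupp.single_apply, Finsupp.single_apply, Finsupp.single_apply]
  by_cases h : SUH.below F P = SUH.below F P'
  · rw [if_pos h]
    rcases Z.eq_or_eq_cP h with h1 | h1
    · subst h1
      rw [if_pos rfl]
      by_cases h2 : Z.cP P' = P'
      · rw [if_pos h2, if_pos h2.symm]
      · rw [if_neg h2, if_neg fun h => h2 h.symm, add_zero]
    · subst h1
      rw [Z.cP_cP, if_pos rfl]
      by_cases h2 : Z.cP P = P
      · rw [if_pos h2, if_pos h2.symm]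
      · rw [if_neg h2, if_neg fun h => h2 h.symm, zero_add]
  · rw [if_neg h, if_neg, if_neg, add_zero]
    · rintro rfl
      exact h (Z.below_cP P')
    · rintro rfl
      exact h rfl

open Classical in
/-- effective divisors `≥ P` -/
theorem sum_ge (P : Pl M) (hP : ¬ Z.Bad P) (m : Dv F) :
    ∑ b ∈ (Z.EF (m + Z.Nm (Finsupp.single P 1))).filter (fun b => 1 ≤ b P), Z.psi b =
      (Z.ψ P : ℂ) * Z.aψ m := by
  rw [Z.aψ_eq_sum, Finset.mul_sum]
  symm
  refine Finset.sum_bij (fun b _ => b + Finsupp.single P 1) ?_ ?_ ?_ ?_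
  · intro b hb
    rw [mem_EF] at hb
    rw [Finset.mem_filter, mem_EF]
    refine ⟨⟨?_, ?_, ?_⟩, ?_⟩
    · exact add_nonneg hb.1 (by intro Q; rw [Finsupp.single_apply]; split_ifs <;> simp)
    · intro Q hQ
      rw [Finsupp.add_apply, hb.2.1 Q hQ, Finsupp.single_apply, if_neg, add_zero]
      rintro rfl; exact hP hQ
    · rw [map_add, hb.2.2]
    · rw [Finsupp.add_apply, Finsupp.single_eq_same]
      have := hb.1 P
      simp only [Finsupp.coe_zero, Pi.zero_apply] at this
      omega
  · intro b _ b' _ h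
    exact add_right_cancel h
  · intro b hb
    rw [Finset.mem_filter, mem_EF] at hb
    obtain ⟨⟨h1, h2, h3⟩, h4⟩ := hb
    refine ⟨b - Finsupp.single P 1, ?_, sub_add_cancel _ _⟩
    rw [mem_EF]
    refine ⟨?_, ?_, ?_⟩
    · intro Q
      rw [Finsupp.sub_apply, Finsupp.single_apply]
      have := h1 Q
      simp only [Finsupp.coe_zero, Pi.zero_apply] at this ⊢
      split_ifs with h
      · subst h; omega
      · omega
    · intro Q hQ
      rw [Finsupp.sub_apply, h2 Q hQ, Finsupp.single_apply, if_neg, sub_zero]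
      rintro rfl; exact hP hQ
    · rw [map_sub, h3, add_sub_cancel_right]
  · intro b _
    rw [Z.psi_add, Z.psi_single, zpow_one, mul_comm]

/-- the eigenvalue of `T_w` -/
noncomputable def lamZ (w : Pl F) : ℂ := by
  classical
  exact if Z.Inert w then 0 else (Z.ψ (up M w) : ℂ) + (Z.ψ (Z.cP (up M w)) : ℂ)

/-- **Hecke recursion** -/
theorem aψ_rec (w : Pl F) (hw : w ∉ Z.S) (m : Dv F) (hm : 0 ≤ m w) :
    Z.aψ (m - Finsupp.single w 1) + Z.aψ (m + Finsupp.single w 1) = Z.lamZ w * Z.aψ m := by
  classical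
  set P := up M w with hPdef
  have hPw : SUH.below F P = w := below_up w
  have hP : ¬ Z.Bad P := by unfold Bad; rw [hPw]; exact hw
  have hP' : ¬ Z.Bad (Z.cP P) := by rw [Z.bad_cP]; exact hP
  by_cases h : Z.Inert w
  · have hc : Z.cP P = P := h
    have hN : Z.Nm (Finsupp.single P 1) = Finsupp.single w 2 := by
      rw [Z.Nm_single, if_pos hc, hPw]; norm_num
    have h1 := Z.sum_ge P hP (m - Finsupp.single w 1)
    have e1 : m - Finsupp.single w 1 + Z.Nm (Finsupp.single P 1) = m + Finsupp.single w 1 := by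
      rw [hN]
      have : (Finsupp.single w (2 : ℤ)) = Finsupp.single w 1 + Finsupp.single w 1 := by
        rw [← Finsupp.single_add]; norm_num
      rw [this]; abel
    rw [e1] at h1
    have h2 : (Z.EF (m + Finsupp.single w 1)).filter (fun b => 1 ≤ b P) = Z.EF (m + Finsupp.single w 1) := by
      refine Finset.filter_true_of_mem fun b hb => ?_
      rw [mem_EF] at hb
      have h3 := DFunLike.congr_fun hb.2.2 w
      rw [← hPw, Quad.Nm_below, hc, hPw, Finsupp.add_apply, Finsupp.single_eq_same] at h3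
      omega
    rw [h2, ← Z.aψ_eq_sum, Z.ψ_inert P hP hc] at h1
    unfold lamZ
    rw [if_pos h, h1]
    simp
  · have hc : Z.cP P ≠ P := h
    have hN : Z.Nm (Finsupp.single P 1) = Finsupp.single w 1 := by
      rw [Z.Nm_single, if_neg hc, hPw]
    have hN' : Z.Nm (Finsupp.single (Z.cP P) 1) = Finsupp.single w 1 := by
      have h0 : ¬ Z.cP (Z.cP P) = Z.cP P := by rw [Z.cP_cP]; exact fun h => hc h.symm
      rw [Z.Nm_single, if_neg h0, Z.below_cP, hPw]
    have h1 := Z.sum_ge P hP m
    have h2 := Z.sum_ge (Z.cP P) hP' m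
    rw [hN] at h1
    rw [hN'] at h2
    set E := Z.EF (m + Finsupp.single w 1) with hE
    -- inclusion-exclusion
    have h3 : ∑ b ∈ E.filter (fun b => 1 ≤ b P), Z.psi b +
        ∑ b ∈ E.filter (fun b => 1 ≤ b (Z.cP P)), Z.psi b =
        ∑ b ∈ E, Z.psi b + ∑ b ∈ E.filter (fun b => 1 ≤ b P ∧ 1 ≤ b (Z.cP P)), Z.psi b := by
      rw [Finset.sum_filter, Finset.sum_filter, Finset.sum_filter, ← Finset.sum_add_distrib,
        ← Finset.sum_add_distrib]
      refine Finset.sum_congr rfl fun b hb => ?_
      rw [hE, mem_EF] at hb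
      have h4 := DFunLike.congr_fun hb.2.2 w
      rw [← hPw, Quad.Nm_below, hPw, Finsupp.add_apply, Finsupp.single_eq_same] at h4
      by_cases h5 : 1 ≤ b P <;> by_cases h6 : 1 ≤ b (Z.cP P)
      · simp [h5, h6]
      · simp [h5, h6]
      · simp [h5, h6]
      · omega
    have h4 : ∑ b ∈ E.filter (fun b => 1 ≤ b P ∧ 1 ≤ b (Z.cP P)), Z.psi b =
        Z.aψ (m - Finsupp.single w 1) := by
      have h5 := Z.sum_ge (Z.cP P) hP' (m - Finsupp.single w 1)
      rw [hN', sub_add_cancel] at h5
      have h6 : ∑ b ∈ E.filter (fun b => 1 ≤ b P ∧ 1 ≤ b (Z.cP P)), Z.psi b =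
          (Z.ψ P : ℂ) * ∑ b ∈ (Z.EF m).filter (fun b => 1 ≤ b (Z.cP P)), Z.psi b := by
        rw [Finset.mul_sum]
        symm
        refine Finset.sum_bij (fun b _ => b + Finsupp.single P 1) ?_ ?_ ?_ ?_
        · intro b hb
          rw [Finset.mem_filter, mem_EF] at hb
          obtain ⟨⟨g1, g2, g3⟩, g4⟩ := hb
          rw [Finset.mem_filter, hE, mem_EF]
          refine ⟨⟨?_, ?_, ?_⟩, ?_, ?_⟩
          · exact add_nonneg g1 (by intro Q; rw [Finsupp.single_apply]; split_ifs <;> simp)
          · intro Q hQ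
            rw [Finsupp.add_apply, g2 Q hQ, Finsupp.single_apply, if_neg, add_zero]
            rintro rfl; exact hP hQ
          · rw [map_add, g3, hN]
          · rw [Finsupp.add_apply, Finsupp.single_eq_same]
            have := g1 P
            simp only [Finsupp.coe_zero, Pi.zero_apply] at this
            omega
          · rw [Finsupp.add_apply, Finsupp.single_eq_of_ne hc, add_zero]; exact g4
        · intro b _ b' _ h
          exact add_right_cancel h
        · intro b hb
          rw [Finset.mem_filter, hE, mem_EF] at hb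
          obtain ⟨⟨g1, g2, g3⟩, g4, g5⟩ := hb
          refine ⟨b - Finsupp.single P 1, ?_, sub_add_cancel _ _⟩
          rw [Finset.mem_filter, mem_EF]
          refine ⟨⟨?_, ?_, ?_⟩, ?_⟩
          · intro Q
            rw [Finsupp.sub_apply, Finsupp.single_apply]
            have := g1 Q
            simp only [Finsupp.coe_zero, Pi.zero_apply] at this ⊢
            split_ifs with h
            · subst h; omega
            · omega
          · intro Q hQ
            rw [Finsupp.sub_apply, g2 Q hQ, Finsupp.single_apply, if_neg, sub_zero]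
            rintro rfl; exact hP hQ
          · rw [map_sub, g3, hN, add_sub_cancel_right]
          · rw [Finsupp.sub_apply, Finsupp.single_eq_of_ne hc, sub_zero]; exact g5
        · intro b _
          rw [Z.psi_add, Z.psi_single, zpow_one, mul_comm]
      rw [h6, h5, ← mul_assoc, ← Units.val_mul, Z.ψ_cP P hP]
      simp
    rw [h1, h2, h4, hE, ← Z.aψ_eq_sum] at h3
    unfold lamZ
    rw [if_neg h]
    linear_combination -h3

end Setup

end Fermat.Agent.LT.I
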