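import Fermat.Agent.LT.I.Co
import Fermat.Agent.LT.I.Rec
import Fermat.Agent.LT.B.Cusp

/-!
# LT, piece I: the Hecke relation `T_w Φ_κ = √q_w λ_w Φ_κ` for `w ∉ S`
-/

set_option autoImplicit false
set_option linter.unusedSectionVars false

open NumberField IsDedekindDomain Matrix WithZero Module
open scoped Real nonZeroDivisors

namespace Fermat.Agent.LT.I

open Fermat.LT Fermat.Agent.CFT Fermat.Agent.LT.CTree Fermat.Agent.LT.B

section duality

variable {F : Type} [Field F] [NumberField F]

theorem ef_eq_one_iff {x : F} : ef x = 1 ↔ ∃ n : ℤ, Algebra.trace ℚ F x = n := by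
  constructor
  · intro h
    rw [ef, Complex.exp_eq_one_iff] at h
    obtain ⟨n, hn⟩ := h
    refine ⟨n, ?_⟩
    have h2 : (2 * (π : ℂ) * Complex.I) ≠ 0 := by
      simp [Real.pi_ne_zero]
    have h3 : (((Algebra.trace ℚ F x : ℚ) : ℝ) : ℂ) = (n : ℂ) := by
      apply mul_left_cancel₀ h2
      rw [hn]; ring
    have h4 : ((Algebra.trace ℚ F x : ℚ) : ℝ) = (n : ℝ) := by exact_mod_cast h3
    exact_mod_cast h4
  · rintro ⟨n, hn⟩
    rw [ef, hn]
    have : 2 * (π : ℂ) * Complex.I * ((((n : ℚ) : ℝ)) : ℂ) = (n : ℂ) * (2 * π * Complex.I) := by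
      push_cast; ring
    rw [this]
    exact Complex.exp_int_mul_two_pi_mul_I n

/-- If `e(Tr (α x)) = 1` for all `x` in the lattice `InL l` then `v(α) ≥ -l - δ`. -/
theorem dual_InL {α : F} (hα : α ≠ 0) {l : Dv F} (h : ∀ x ∈ InL l, ef (α * x) = 1) (w : Pl F) :
    -(l w) - dF F w ≤ ov w α := by
  obtain ⟨a, ha⟩ : ∃ a : F, a ≠ 0 ∧ w.valuation F a = exp (-(l w)) := by
    obtain ⟨d, hd0, hd⟩ := exists_ov_eq {w} l
    exact ⟨d, hd0, hd w (Finset.mem_singleton_self w)⟩
  obtain ⟨x, hx1, hx2⟩ := strong_approx {w} (fun _ => a) (fun _ => l w + 1) l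
  have hxw : w.valuation F x = exp (-(l w)) := by
    have h1 := hx1 w (Finset.mem_singleton_self w)
    have h2 : w.valuation F (x - a) < w.valuation F a := by
      refine lt_of_le_of_lt h1 ?_
      rw [ha.2, WithZero.exp_lt_exp]; omega
    have h3 : x = (x - a) + a := by ring
    rw [h3, Valuation.map_add_eq_of_lt_right _ h2, ha.2]
  have hxL : x ∈ InL l := by
    intro w'
    by_cases hw : w' = w
    · subst hw; rw [hxw]
    · exact hx2 w' (by simpa using hw)
  have hx0 : x ≠ 0 := by
    rintro rfl
    rw [map_zero] at hxw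
    exact WithZero.exp_ne_zero hxw.symm
  have h4 : α * x ∈ InL (-dF F) := by
    rw [mem_InL_neg_dF]
    intro y
    have h5 : x * y ∈ InL l := by
      have := mul_mem_InL (l := l) (l' := 0) hxL (y := (y : F)) (fun w' => by
        simpa using w'.valuation_le_one y)
      rwa [add_zero] at this
    have h6 := h _ h5
    rw [← mul_assoc] at h6
    exact ef_eq_one_iff.1 h6
  have h5 := h4 w
  rw [le_exp_iff w (mul_ne_zero hα hx0), Finsupp.neg_apply, ov_mul w hα hx0, ov_of_val w hxw] at h5
  omega

end duality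

variable {F M : Type} [Field F] [NumberField F] [Field M] [NumberField M] [Algebra F M]
variable (Z : Setup F M)

namespace Setup

theorem exists_vc (ν : Dv F) {w : Pl F} (hw : w ∉ Z.S) (x : F) : ∃ v : F,
    w.valuation F (v - x) ≤ exp (-(ν w + 1)) ∧
    (∀ w' ∉ Z.S, w' ≠ w → w'.valuation F v ≤ exp (-(ν w'))) ∧
    (∀ w' ∈ Z.S, w'.valuation F v ≤ exp (-(Z.N1 : ℤ))) := by
  classical
  obtain ⟨v, hv1, hv2⟩ := strong_approx (insert w Z.S) (fun w' => if w' = w then x else 0)
    (fun w' => if w' = w then ν w + 1 else (Z.N1 : ℤ)) ν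
  refine ⟨v, ?_, fun w' h1 h2 => ?_, fun w' h1 => ?_⟩
  · simpa using hv1 w (Finset.mem_insert_self _ _)
  · exact hv2 w' (by rw [Finset.mem_insert, not_or]; exact ⟨h2, h1⟩)
  · have hne : w' ≠ w := by rintro rfl; exact hw h1
    simpa [hne] using hv1 w' (Finset.mem_insert_of_mem h1)

theorem ov_unif (w : Pl F) : ov w ((unif w : Fˣ) : F) = 1 := by
  have h := lv_unif w
  unfold lv at h
  rw [ov, h]; rfl

theorem Co.nb_none {U : Level F} {y : Y U} {ν : Dv F} {u : F} (h : Z.Co y ν u)
    {w : Pl F} (hw : w ∉ Z.S) {a : Fˣ} (ha : ov w (a : F) = ν w) :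
    Z.Co (upd y w (nb w (tri a u) none)) (ν - Finsupp.single w 1) u := by
  classical
  refine ⟨fun w' hw' => ?_, h.uS, fun w' hw' => ?_⟩
  · have : w ≠ w' := by rintro rfl; exact hw hw'
    rw [Finsupp.sub_apply, h.nu w' hw', Finsupp.single_eq_of_ne this.symm, sub_zero]
  · by_cases hww : w' = w
    · subst hww
      refine ⟨a * (unif w')⁻¹, ?_, ?_⟩
      · rw [Units.val_mul, Units.val_inv_eq_inv_val, ov_mul _ a.ne_zero (inv_ne_zero (Units.ne_zero _)),
          ov_inv, ov_unif, ha, Finsupp.sub_apply, Finsupp.single_eq_same]; ring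
      · change Function.update y.val w' _ w' = _
        rw [Function.update_self, nb, CTree.nu, tri_mul, mul_zero, zero_add]
        rfl
    · obtain ⟨a', ha', hy⟩ := h.loc w' hw'
      refine ⟨a', ?_, ?_⟩
      · rw [Finsupp.sub_apply, Finsupp.single_eq_of_ne hww, sub_zero, ha']
      · change Function.update y.val w _ w' = _
        rw [Function.update_of_ne hww]; exact hy

theorem Co.nb_some {U : Level F} (hU : Z.Good U) {y : Y U} {ν : Dv F} {u : F} (h : Z.Co y ν u)
    {w : Pl F} (hw : w ∉ Z.S) {a : Fˣ} (ha : ov w (a : F) = ν w) (c : 𝓞 F ⧸ w.asIdeal) {v : F}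
    (h1 : w.valuation F (v - a * rep w c) ≤ exp (-(ν w + 1)))
    (h2 : ∀ w' ∉ Z.S, w' ≠ w → w'.valuation F v ≤ exp (-(ν w')))
    (h3 : ∀ w' ∈ Z.S, w'.valuation F v ≤ exp (-(Z.N1 : ℤ))) :
    Z.Co (upd y w (nb w (tri a u) (some c))) (ν + Finsupp.single w 1) (u + v) := by
  classical
  refine ⟨fun w' hw' => ?_, fun w' hw' => ?_, fun w' hw' => ?_⟩
  · have : w ≠ w' := by rintro rfl; exact hw hw'
    rw [Finsupp.add_apply, h.nu w' hw', Finsupp.single_eq_of_ne this.symm, add_zero]
  · exact ((w'.valuation F).map_add _ _).trans (max_le (h.uS w' hw') (h3 w' hw'))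
  · by_cases hww : w' = w
    · subst hww
      refine ⟨a * unif w', ?_, ?_⟩
      · rw [Units.val_mul, ov_mul _ a.ne_zero (Units.ne_zero _), ov_unif, ha, Finsupp.add_apply,
          Finsupp.single_eq_same]
      · change Function.update y.val w' _ w' = _
        rw [Function.update_self, nb, CTree.nu, tri_mul]
        unfold tri
        rw [mk_eq_mk_iff (hU w' hw'), tri_rel]
        refine ⟨rfl, ?_⟩
        have e : u + v - ((a : F) * rep w' c + u) = v - a * rep w' c := by ring
        rw [e, Units.val_mul, ov_mul _ a.ne_zero (Units.ne_zero _), ov_unif, ha]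
        exact h1
    · obtain ⟨a', ha', hy⟩ := h.loc w' hw'
      refine ⟨a', ?_, ?_⟩
      · rw [Finsupp.add_apply, Finsupp.single_eq_of_ne hww, add_zero, ha']
      · change Function.update y.val w _ w' = _
        rw [Function.update_of_ne hww]
        refine hy.trans ?_
        rw [mk_eq_mk_iff (hU w' hw'), tri_rel]
        refine ⟨rfl, ?_⟩
        rw [add_sub_cancel_left, ha']
        exact h2 w' hw' hww

open Classical in
/-- the character sum -/
theorem sum_vc {ν : Dv F} {w : Pl F} (hw : w ∉ Z.S) {a : Fˣ} (ha : ov w (a : F) = ν w)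
    {v : 𝓞 F ⧸ w.asIdeal → F}
    (h1 : ∀ c, w.valuation F (v c - a * rep w c) ≤ exp (-(ν w + 1)))
    (h2 : ∀ c, ∀ w' ∉ Z.S, w' ≠ w → w'.valuation F (v c) ≤ exp (-(ν w')))
    (h3 : ∀ c, ∀ w' ∈ Z.S, w'.valuation F (v c) ≤ exp (-(Z.N1 : ℤ)))
    {α : F} (hα : α ≠ 0) (hS : ∀ w' ∈ Z.S, -(Z.N1 : ℤ) ≤ ov w' α)
    (hoff : ∀ w' ∉ Z.S, -(ν w') - (if w' = w then 1 else 0) - dF F w' ≤ ov w' α) :
    ∑ c, ef (-(α * v c)) = if -(ν w) - dF F w ≤ ov w α then (qn w : ℂ) else 0 := by
  classical
  have hvw : ∀ c, w.valuation F (v c) ≤ exp (-(ν w)) := by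
    intro c
    have e : v c = (v c - a * rep w c) + a * rep w c := by ring
    rw [e]
    refine ((w.valuation F).map_add _ _).trans (max_le ((h1 c).trans ?_) ?_)
    · rw [WithZero.exp_le_exp]; omega
    · rw [map_mul, val_eq w a.ne_zero, ha]
      have := w.valuation_le_one (K := F) c.out
      calc exp (-(ν w)) * w.valuation F (rep w c) ≤ exp (-(ν w)) * 1 := mul_le_mul_right this _
        _ = _ := mul_one _
  -- general membership
  have hmem : ∀ x : F, (∀ w' ∈ Z.S, w'.valuation F x ≤ exp (-(Z.N1 : ℤ))) →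
      (∀ w' ∉ Z.S, w' ≠ w → w'.valuation F x ≤ exp (-(ν w'))) →
      w.valuation F (α * x) ≤ exp (dF F w) → α * x ∈ InL (-dF F) := by
    intro x g1 g2 g3 w'
    rw [Finsupp.neg_apply, neg_neg]
    by_cases hw' : w' ∈ Z.S
    · rw [map_mul, val_eq w' hα]
      calc _ ≤ exp (-(ov w' α)) * exp (-(Z.N1 : ℤ)) := mul_le_mul_right (g1 w' hw') _
        _ ≤ _ := by
          rw [← WithZero.exp_add, WithZero.exp_le_exp]
          have := hS w' hw'
          have := dF_apply_nonneg (F := F) w'
          omega
    · by_cases hww : w' = w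
      · subst hww; exact g3
      · rw [map_mul, val_eq w' hα]
        calc _ ≤ exp (-(ov w' α)) * exp (-(ν w')) := mul_le_mul_right (g2 w' hw' hww) _
          _ ≤ _ := by
            rw [← WithZero.exp_add, WithZero.exp_le_exp]
            have := hoff w' hw'
            rw [if_neg hww] at this
            omega
  split_ifs with hc
  · have hone : ∀ c, ef (-(α * v c)) = 1 := by
      intro c
      rw [← mul_neg]
      refine ef_eq_one (hmem _ (fun w' hw' => ?_) (fun w' hw' hne => ?_) ?_)
      · rw [Valuation.map_neg]; exact h3 c w' hw'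
      · rw [Valuation.map_neg]; exact h2 c w' hw' hne
      · rw [mul_neg, Valuation.map_neg, map_mul, val_eq w hα]
        calc _ ≤ exp (-(ov w α)) * exp (-(ν w)) := mul_le_mul_right (hvw c) _
          _ ≤ _ := by
            rw [← WithZero.exp_add, WithZero.exp_le_exp]
            omega
    rw [Finset.sum_congr rfl fun c _ => hone c, Finset.sum_const, Finset.card_univ, nsmul_eq_mul,
      mul_one, card_res']
  · have hlow := hoff w hw
    rw [if_pos rfl] at hlow
    -- multiplicativity
    have hmul : ∀ c d, ef (-(α * v (c + d))) = ef (-(α * v c)) * ef (-(α * v d)) := by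
      intro c d
      rw [← efAdd]
      refine ef_congr ?_
      have e : -(α * v (c + d)) - (-(α * v c) + -(α * v d)) = α * (v c + v d - v (c + d)) := by ring
      rw [e]
      refine hmem _ (fun w' hw' => ?_) (fun w' hw' hne => ?_) ?_
      · exact ((w'.valuation F).map_sub _ _).trans (max_le
          (((w'.valuation F).map_add _ _).trans (max_le (h3 c w' hw') (h3 d w' hw'))) (h3 _ w' hw'))
      · exact ((w'.valuation F).map_sub _ _).trans (max_le
          (((w'.valuation F).map_add _ _).trans (max_le (h2 c w' hw' hne) (h2 d w' hw' hne)))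
          (h2 _ w' hw' hne))
      · have hsmall : w.valuation F (v c + v d - v (c + d)) ≤ exp (-(ν w + 1)) := by
          have e1 : v c + v d - v (c + d) = (v c - a * rep w c) + (v d - a * rep w d) -
              (v (c + d) - a * rep w (c + d)) - a * (rep w (c + d) - rep w c - rep w d) := by ring
          rw [e1]
          refine ((w.valuation F).map_sub _ _).trans (max_le
            (((w.valuation F).map_sub _ _).trans (max_le
              (((w.valuation F).map_add _ _).trans (max_le (h1 c) (h1 d))) (h1 _))) ?_)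
          have h5 : (c + d).out - c.out - d.out ∈ w.asIdeal := by
            rw [← Ideal.Quotient.eq_zero_iff_mem, map_sub, map_sub]
            have h : ∀ c : 𝓞 F ⧸ w.asIdeal, Ideal.Quotient.mk w.asIdeal c.out = c := fun c ↦
              Quotient.out_eq' c
            rw [h, h, h]; ring
          have h6 : w.valuation F (rep w (c + d) - rep w c - rep w d) ≤ exp (-1 : ℤ) := by
            have h7 : rep w (c + d) - rep w c - rep w d =
              algebraMap (𝓞 F) F ((c + d).out - c.out - d.out) := by
              unfold rep; simp only [map_sub]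
            rw [h7, HeightOneSpectrum.valuation_of_algebraMap]
            have := (w.intValuation_le_pow_iff_mem ((c + d).out - c.out - d.out) 1).2
              (by rwa [pow_one])
            simpa using this
          rw [map_mul, val_eq w a.ne_zero, ha]
          calc exp (-(ν w)) * w.valuation F (rep w (c + d) - rep w c - rep w d)
              ≤ exp (-(ν w)) * exp (-1 : ℤ) := mul_le_mul_right h6 _
            _ ≤ _ := by rw [← WithZero.exp_add, WithZero.exp_le_exp]; omega
        rw [map_mul, val_eq w hα]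
        calc _ ≤ exp (-(ov w α)) * exp (-(ν w + 1)) := mul_le_mul_right hsmall _
          _ ≤ _ := by
            rw [← WithZero.exp_add, WithZero.exp_le_exp]
            omega
    -- nontriviality
    have hnt : ∃ c, ef (-(α * v c)) ≠ 1 := by
      by_contra hcon
      push Not at hcon
      apply hc
      set l0 : Dv F := ν + ∑ w' ∈ Z.S, Finsupp.single w' ((Z.N1 : ℤ) - ν w') with hl0
      have hl0S : ∀ w' ∈ Z.S, l0 w' = Z.N1 := by
        intro w' hw'
        rw [hl0, Finsupp.add_apply, Finsupp.finsetSum_apply, Finset.sum_eq_single w']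
        · rw [Finsupp.single_eq_same]; ring
        · intro b _ hb; exact Finsupp.single_eq_of_ne hb.symm
        · intro h; exact absurd hw' h
      have hl0off : ∀ w' ∉ Z.S, l0 w' = ν w' := by
        intro w' hw'
        rw [hl0, Finsupp.add_apply, Finsupp.finsetSum_apply, Finset.sum_eq_zero, add_zero]
        intro b hb
        exact Finsupp.single_eq_of_ne (by rintro rfl; exact hw' hb)
      have h5 := dual_InL hα (l := l0) (fun x hx => ?_) w
      · rwa [hl0off w hw] at h5
      · -- approximate `x / a` by an integral element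
        have hxw := hx w
        rw [hl0off w hw] at hxw
        have hxa : w.valuation F (x / a) ≤ 1 := by
          rw [map_div₀, val_eq w a.ne_zero, ha, div_eq_mul_inv, ← WithZero.exp_neg, neg_neg]
          calc _ ≤ exp (-(ν w)) * exp (ν w) := mul_le_mul_left hxw _
            _ = 1 := by rw [← WithZero.exp_add]; simp
        obtain ⟨z, hz1, hz2⟩ := strong_approx {w} (fun _ => x / a) (fun _ => 1) 0
        have hz1' := hz1 w (Finset.mem_singleton_self w)
        have hzint : ∀ w' : Pl F, w'.valuation F z ≤ 1 := by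
          intro w'
          by_cases hww : w' = w
          · subst hww
            have e : z = (z - x / a) + x / a := by ring
            rw [e]
            refine ((w'.valuation F).map_add _ _).trans (max_le (hz1'.trans ?_) hxa)
            rw [← WithZero.exp_zero, WithZero.exp_le_exp]; omega
          · simpa using hz2 w' (by simpa using hww)
        obtain ⟨z', hz'⟩ := HeightOneSpectrum.mem_integers_of_valuation_le_one F z hzint
        set c : 𝓞 F ⧸ w.asIdeal := Ideal.Quotient.mk _ z' with hcdef
        have h6 : w.valuation F (rep w c - z) ≤ exp (-1 : ℤ) := by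
          have h8 : c.out - z' ∈ w.asIdeal := by
            rw [← Ideal.Quotient.eq_zero_iff_mem, map_sub]
            have h : Ideal.Quotient.mk w.asIdeal c.out = c := Quotient.out_eq' c
            rw [h, hcdef, sub_self]
          have h7 : rep w c - z = algebraMap (𝓞 F) F (c.out - z') := by
            unfold rep; rw [map_sub, ← hz']
          rw [h7, HeightOneSpectrum.valuation_of_algebraMap]
          have := (w.intValuation_le_pow_iff_mem (c.out - z') 1).2 (by rwa [pow_one])
          simpa using this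
        have h9 : ef (α * x) = (ef (-(α * v c)))⁻¹ := by
          rw [← efNeg, neg_neg]
          refine ef_congr ?_
          have e : α * x - α * v c = α * (x - v c) := by ring
          rw [e]
          refine hmem _ (fun w' hw' => ?_) (fun w' hw' hne => ?_) ?_
          · have := hx w'
            rw [hl0S w' hw'] at this
            exact ((w'.valuation F).map_sub _ _).trans (max_le this (h3 c w' hw'))
          · have := hx w'
            rw [hl0off w' hw'] at this
            exact ((w'.valuation F).map_sub _ _).trans (max_le this (h2 c w' hw' hne))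
          · have hsmall : w.valuation F (x - v c) ≤ exp (-(ν w + 1)) := by
              have e1 : x - v c = -(v c - a * rep w c) - a * (rep w c - z) - a * (z - x / a) := by
                have := a.ne_zero
                field_simp
                ring
              rw [e1]
              have hA : ∀ t : F, w.valuation F t ≤ exp (-1 : ℤ) →
                  w.valuation F (a * t) ≤ exp (-(ν w + 1)) := by
                intro t ht
                rw [map_mul, val_eq w a.ne_zero, ha]
                calc _ ≤ exp (-(ν w)) * exp (-1 : ℤ) := mul_le_mul_right ht _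
                  _ ≤ _ := by rw [← WithZero.exp_add, WithZero.exp_le_exp]; omega
              refine ((w.valuation F).map_sub _ _).trans (max_le
                (((w.valuation F).map_sub _ _).trans (max_le ?_ (hA _ h6))) (hA _ hz1'))
              rw [Valuation.map_neg]; exact h1 c
            rw [map_mul, val_eq w hα]
            calc _ ≤ exp (-(ov w α)) * exp (-(ν w + 1)) := mul_le_mul_right hsmall _
              _ ≤ _ := by
                rw [← WithZero.exp_add, WithZero.exp_le_exp]
                omega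
        rw [h9, hcon c, inv_one]
    obtain ⟨c0, hc0⟩ := hnt
    have h5 : ef (-(α * v c0)) * ∑ c, ef (-(α * v c)) = ∑ c, ef (-(α * v c)) := by
      rw [Finset.mul_sum]
      simp_rw [← hmul]
      exact Fintype.sum_equiv (Equiv.addLeft c0) _ _ fun c => rfl
    have h6 : (ef (-(α * v c0)) - 1) * ∑ c, ef (-(α * v c)) = 0 := by
      rw [sub_mul, h5, one_mul, sub_self]
    rcases mul_eq_zero.1 h6 with h7 | h7
    · exact absurd (sub_eq_zero.1 h7) hc0
    · exact h7

/-- **(2) Hecke relation** -/
theorem fn_hecke {U : Level F} (hU : Z.Good U) {κ : F → ℂ} (hκ : Z.IsKap κ) (P : XI Z.A)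
    (hsum : ∀ (ν : Dv F) (u : F), Summable fun α : Fˣ => Z.coefK κ ν u α * W Z.A α P)
    {w : Pl F} (hw : w ∉ Z.S) (y : Y U) :
    TY w (fun y => Z.fn hU κ P y) y = (sq w : ℂ) * Z.lamZ w * Z.fn hU κ P y := by
  classical
  obtain ⟨ν, u, h⟩ := Z.exists_Co hU y
  obtain ⟨a, ha, hya⟩ := h.loc w hw
  choose v hv1 hv2 hv3 using fun c : 𝓞 F ⧸ w.asIdeal => Z.exists_vc ν hw (a * rep w c)
  unfold TY
  rw [hya]
  change Tl w δ₁ _ ((tri a u : G2 F) : Yl U w) = _
  rw [Tl_one (hU w hw), Fintype.sum_option]
  simp only []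
  rw [Z.fn_eq hU hκ P (fun _ _ => rfl) (h.nb_none Z hw ha)]
  have hs : ∀ c, Z.fn hU κ P (upd y w (nb w (tri a u) (some c))) =
      Z.PhiK κ (ν + Finsupp.single w 1) (u + v c) P := fun c =>
    Z.fn_eq hU hκ P (fun _ _ => rfl) (h.nb_some Z hU hw ha c (hv1 c) (hv2 c) (hv3 c))
  rw [Finset.sum_congr rfl fun c _ => hs c, Z.fn_eq hU hκ P (fun _ _ => rfl) h]
  unfold PhiK
  rw [← Summable.tsum_finsetSum (fun c _ => hsum _ _), ← Summable.tsum_add (hsum _ _)
    (summable_sum fun c _ => hsum _ _), ← tsum_mul_left]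
  refine tsum_congr fun α => ?_
  rw [← Finset.sum_mul, ← add_mul, ← mul_assoc]
  congr 1
  -- termwise
  set m : Dv F := Z.off (dv (α : F)) + ν + Z.δ with hm
  have hmw : m w = ov w (α : F) + ν w + dF F w := by
    rw [hm, Finsupp.add_apply, Finsupp.add_apply, Z.off_of_not_mem _ hw, δ, Z.off_of_not_mem _ hw]
    rfl
  have hsq : (sq w : ℝ) ^ 2 = qv w := sq_sq w
  have hsp : 0 < sq w := sq_pos w
  have hq1 : absN (Finsupp.single w 1) = qv w := by
    rw [absN, Finsupp.prod_single_index (by simp)]; simp
  have hN : 0 < √(absN ν) := Real.sqrt_pos.2 (absN_pos ν)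
  have hsqrt : √(qv w) = sq w := rfl
  have e1 : (√(absN (ν - Finsupp.single w 1)))⁻¹ = sq w * (√(absN ν))⁻¹ := by
    rw [sub_eq_add_neg, absN_add, absN_neg, hq1, Real.sqrt_mul (absN_pos ν).le, Real.sqrt_inv, hsqrt]
    field_simp
  have e2 : (√(absN (ν + Finsupp.single w 1)))⁻¹ = (sq w)⁻¹ * (√(absN ν))⁻¹ := by
    rw [absN_add, hq1, Real.sqrt_mul (absN_pos ν).le, hsqrt, mul_inv, mul_comm]
  have m1 : Z.off (dv (α : F)) + (ν - Finsupp.single w 1) + Z.δ = m - Finsupp.single w 1 := by
    rw [hm]; abel
  have m2 : Z.off (dv (α : F)) + (ν + Finsupp.single w 1) + Z.δ = m + Finsupp.single w 1 := by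
    rw [hm]; abel
  -- the sum over the characters
  have hsumc : ∑ c, Z.coefK κ (ν + Finsupp.single w 1) (u + v c) α =
      (((sq w)⁻¹ * (√(absN ν))⁻¹ : ℝ) : ℂ) * (κ α * Z.aψ (m + Finsupp.single w 1) *
        ef (-((α : F) * u))) * ∑ c, ef (-((α : F) * v c)) := by
    rw [Finset.mul_sum]
    refine Finset.sum_congr rfl fun c _ => ?_
    unfold coefK
    have e3 : -((α : F) * (u + v c)) = -((α : F) * u) + -((α : F) * v c) := by ring
    rw [m2, e2, e3, efAdd]
    ring
  rw [hsumc]
  unfold coefK
  rw [m1, e1, ← hm]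
  have hq2 : (qn w : ℂ) = (sq w : ℂ) * (sq w : ℂ) := by
    have h8 : (qv w : ℂ) = (sq w : ℂ) ^ 2 := by rw [← hsq]; push_cast; rfl
    rw [← _root_.sq, ← h8]; rfl
  have hsc : (sq w : ℂ) ≠ 0 := by exact_mod_cast hsp.ne'
  by_cases h0 : κ (α : F) = 0
  · rw [h0]; ring
  by_cases hmpos : 0 ≤ m w
  · have hrec := Z.aψ_rec w hw m hmpos
    by_cases h1 : Z.aψ (m + Finsupp.single w 1) = 0
    · rw [h1] at hrec ⊢
      rw [add_zero] at hrec
      rw [hrec]
      push_cast
      ring
    · have hoff : ∀ w' ∉ Z.S, -(ν w') - (if w' = w then 1 else 0) - dF F w' ≤ ov w' (α : F) := by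
        intro w' hw'
        have h3 := Z.aψ_ne_zero h1 w'
        rw [hm, Finsupp.add_apply, Finsupp.add_apply, Finsupp.add_apply, Z.off_of_not_mem _ hw', δ,
          Z.off_of_not_mem _ hw', Finsupp.single_apply] at h3
        simp only [Finsupp.coe_zero, Pi.zero_apply, dv_apply] at h3
        by_cases hww : w' = w
        · rw [if_pos hww.symm] at h3; rw [if_pos hww]; omega
        · rw [if_neg fun h => hww h.symm] at h3; rw [if_neg hww]; omega
      rw [Z.sum_vc hw ha hv1 hv2 hv3 α.ne_zero (fun w' hw' => hκ _ α.ne_zero h0 w' hw') hoff,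
        if_pos (by omega), hq2]
      push_cast
      have hii : (sq w : ℂ)⁻¹ * (sq w : ℂ) = 1 := inv_mul_cancel₀ hsc
      linear_combination ((sq w : ℂ) * (√(absN ν) : ℂ)⁻¹ * κ (α : F) * ef (-((α : F) * u))) * hrec +
        ((√(absN ν) : ℂ)⁻¹ * κ (α : F) * Z.aψ (m + Finsupp.single w 1) * ef (-((α : F) * u)) *
          (sq w : ℂ)) * hii
  · have hn : ∀ m' : Dv F, m' w < 0 → Z.aψ m' = 0 := by
      intro m' h5
      by_contra hc
      have := Z.aψ_ne_zero hc w
      simp only [Finsupp.coe_zero, Pi.zero_apply] at this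
      omega
    rw [hn m (by omega), hn (m - Finsupp.single w 1) (by
      rw [Finsupp.sub_apply, Finsupp.single_eq_same]; omega)]
    by_cases h1 : Z.aψ (m + Finsupp.single w 1) = 0
    · rw [h1]; ring
    · have hoff : ∀ w' ∉ Z.S, -(ν w') - (if w' = w then 1 else 0) - dF F w' ≤ ov w' (α : F) := by
        intro w' hw'
        have h3 := Z.aψ_ne_zero h1 w'
        rw [hm, Finsupp.add_apply, Finsupp.add_apply, Finsupp.add_apply, Z.off_of_not_mem _ hw', δ,
          Z.off_of_not_mem _ hw', Finsupp.single_apply] at h3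
        simp only [Finsupp.coe_zero, Pi.zero_apply, dv_apply] at h3
        by_cases hww : w' = w
        · rw [if_pos hww.symm] at h3; rw [if_pos hww]; omega
        · rw [if_neg fun h => hww h.symm] at h3; rw [if_neg hww]; omega
      rw [Z.sum_vc hw ha hv1 hv2 hv3 α.ne_zero (fun w' hw' => hκ _ α.ne_zero h0 w' hw') hoff,
        if_neg (by omega)]
      ring

end Setup

end Fermat.Agent.LT.I
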