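import Fermat.Agent.LT.I.CS

/-!
# LT, piece I: the indicator of the units at `S` as a combination of the `cS`
-/

set_option autoImplicit false
set_option linter.unusedSectionVars false

open NumberField IsDedekindDomain Matrix WithZero Module
open scoped Real nonZeroDivisors

namespace Fermat.Agent.LT.I

open Fermat.LT Fermat.Agent.CFT

variable {F M : Type} [Field F] [NumberField F] [Field M] [NumberField M] [Algebra F M]
variable (Z : Setup F M)

namespace Setup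

open Classical in
/-- the indicator function of `1 + S^e` -/
noncomputable def s0 (e : ℕ) (ξ : M) : ℂ :=
  if ∀ P, Z.Bad P → P.valuation M (ξ - 1) ≤ exp (-(e : ℤ)) then 1 else 0

theorem isSch_s0 {e : ℕ} (h : ∀ P, Z.Bad P → (e : ℤ) + dF M P ≤ Z.N) : Z.IsSch (Z.s0 e) where
  supp ξ hξ := by
    classical
    unfold s0 at hξ
    have h1 : ∀ P, Z.Bad P → P.valuation M (ξ - 1) ≤ exp (-(e : ℤ)) := by
      by_contra hc
      exact hξ (if_neg hc)
    intro P hP
    have h2 : ξ = (ξ - 1) + 1 := by ring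
    rw [h2]
    refine ((P.valuation M).map_add _ _).trans (max_le ((h1 P hP).trans ?_) ?_)
    · rw [WithZero.exp_le_exp]; omega
    · rw [map_one, ← WithZero.exp_zero, WithZero.exp_le_exp]; omega
  per ξ η hη := by
    classical
    unfold s0
    have h1 : ∀ P, Z.Bad P → P.valuation M η ≤ exp (-(e : ℤ)) := by
      intro P hP
      refine (hη P hP).trans ?_
      rw [WithZero.exp_le_exp]
      have := h P hP
      omega
    have h2 : (∀ P, Z.Bad P → P.valuation M (ξ + η - 1) ≤ exp (-(e : ℤ))) ↔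
        ∀ P, Z.Bad P → P.valuation M (ξ - 1) ≤ exp (-(e : ℤ)) := by
      refine forall_congr' fun P => forall_congr' fun hP => ?_
      constructor
      · intro h3
        have h4 : ξ - 1 = (ξ + η - 1) - η := by ring
        rw [h4]
        exact ((P.valuation M).map_sub _ _).trans (max_le h3 (h1 P hP))
      · intro h3
        have h4 : ξ + η - 1 = (ξ - 1) + η := by ring
        rw [h4]
        exact ((P.valuation M).map_add _ _).trans (max_le h3 (h1 P hP))
    simp only [h2]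

open Classical in
/-- the indicator function of the units at `S` -/
noncomputable def κ1 (α : F) : ℂ := if ∀ w ∈ Z.S, w.valuation F α = 1 then 1 else 0

/-- the units at `S` -/
def UF : Subgroup Fˣ where
  carrier := {a | ∀ w ∈ Z.S, w.valuation F (a : F) = 1}
  one_mem' := fun w _ => by simp
  mul_mem' := by
    intro a b ha hb w hw
    rw [Units.val_mul, map_mul, ha w hw, hb w hw, one_mul]
  inv_mem' := by
    intro a ha w hw
    rw [Units.val_inv_eq_inv_val, map_inv₀, ha w hw, inv_one]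

/-- the group of `a ≡ 1 mod S^{N1}` -/
def NF : Subgroup Fˣ where
  carrier := {a | Z.Near1 (a : F)}
  one_mem' := by
    change Z.Near1 ((1 : Fˣ) : F)
    rw [Units.val_one]; exact Z.near1_one
  mul_mem' := by
    intro a b ha hb
    change Z.Near1 ((a * b : Fˣ) : F)
    rw [Units.val_mul]; exact Near1.mul Z ha hb
  inv_mem' := by
    intro a ha
    change Z.Near1 ((a⁻¹ : Fˣ) : F)
    rw [Units.val_inv_eq_inv_val]; exact Near1.inv Z ha

theorem mem_NF {a : Fˣ} : a ∈ Z.NF ↔ Z.Near1 (a : F) := Iff.rfl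

theorem finite_UF : Finite (Z.UF ⧸ Z.NF.subgroupOf Z.UF) := by
  classical
  obtain ⟨R, hR, r, -, hr⟩ := exists_finQuot Z.S (fun _ => 0) (fun _ => (Z.N1 : ℤ))
  refine Finite.of_injective (fun κ : Z.UF ⧸ Z.NF.subgroupOf Z.UF => r (((κ.out : Z.UF) : Fˣ) : F)) ?_
  intro κ κ' h
  have hmem : ∀ a : Z.UF, ∀ w ∈ Z.S, w.valuation F (((a : Fˣ)) : F) ≤ exp (-(0 : ℤ)) := by
    intro a w hw
    rw [a.2 w hw, neg_zero, WithZero.exp_zero]
  have h1 := hr _ _ (hmem κ'.out) (hmem κ.out) h.symm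
  rw [← QuotientGroup.out_eq' κ, ← QuotientGroup.out_eq' κ', QuotientGroup.eq,
    Subgroup.mem_subgroupOf]
  intro w hw
  have h2 := h1 w hw
  have h3 : ((((κ.out)⁻¹ * κ'.out : Z.UF) : Fˣ) : F) - 1 =
      ((((κ.out : Z.UF) : Fˣ) : F))⁻¹ * ((((κ'.out : Z.UF) : Fˣ) : F) - (((κ.out : Z.UF) : Fˣ) : F)) := by
    rw [Subgroup.coe_mul, Subgroup.coe_inv, Units.val_mul, Units.val_inv_eq_inv_val, mul_sub,
      inv_mul_cancel₀ (Units.ne_zero _)]
  rw [h3, map_mul, map_inv₀, (κ.out : Z.UF).2 w hw, inv_one, one_mul]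
  exact h2

/-- the norm of a unit at `S` is a unit at `S` -/
theorem val_nrm_eq_one {ξ : M} (h : ∀ P, Z.Bad P → P.valuation M ξ = 1) {w : Pl F} (hw : w ∈ Z.S) :
    w.valuation F (nrm ξ) = 1 := by
  obtain ⟨P, rfl⟩ := SUH.exists_above (F := M) w
  obtain ⟨e, he, -, h2⟩ := Z.exists_ram P
  have h3 := h2 (nrm ξ)
  rw [Z.alg_nrm, map_mul, h P hw, ← Z.val_cP, h _ (Z.bad_cP.2 hw), one_mul] at h3
  exact (pow_eq_one_iff_of_nonneg zero_le (by omega)).1 h3.symm

/-- the classes `q` with `q ≡ 1 mod S^e` -/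
def Tq (e : ℕ) : Set (Mˣ ⧸ Z.US) :=
  {q | ∀ P, Z.Bad P → P.valuation M ((q.out : M) - 1) ≤ exp (-(e : ℤ))}

theorem finite_Tq {e : ℕ} (he : 1 ≤ e) : (Z.Tq e).Finite := by
  classical
  obtain ⟨R, hR, r, -, hr⟩ := exists_finQuot Z.SM (fun _ => 0) (fun _ => (Z.N2 : ℤ))
  have hval : ∀ q ∈ Z.Tq e, ∀ P, Z.Bad P → P.valuation M (q.out : M) = 1 := fun q hq P hP =>
    val_eq_one_of_near P he (hq P hP)
  have hinj : Function.Injective (fun q : Z.Tq e => r ((q : Mˣ ⧸ Z.US).out : M)) := by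
    intro q q' h
    have hmem : ∀ a : Z.Tq e, ∀ P ∈ Z.SM, P.valuation M ((a : Mˣ ⧸ Z.US).out : M) ≤ exp (-(0 : ℤ)) := by
      intro a P hP
      rw [hval _ a.2 P (Z.mem_SM.1 hP), neg_zero, WithZero.exp_zero]
    have h1 := hr _ _ (hmem q') (hmem q) h.symm
    apply Subtype.ext
    rw [← QuotientGroup.out_eq' (q : Mˣ ⧸ Z.US), ← QuotientGroup.out_eq' (q' : Mˣ ⧸ Z.US),
      QuotientGroup.eq]
    intro P hP
    have h2 := h1 P (Z.mem_SM.2 hP)
    have h3 : ((((q : Mˣ ⧸ Z.US).out)⁻¹ * (q' : Mˣ ⧸ Z.US).out : Mˣ) : M) - 1 =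
        (((q : Mˣ ⧸ Z.US).out : M))⁻¹ * (((q' : Mˣ ⧸ Z.US).out : M) - ((q : Mˣ ⧸ Z.US).out : M)) := by
      rw [Units.val_mul, Units.val_inv_eq_inv_val, mul_sub, inv_mul_cancel₀ (Units.ne_zero _)]
    constructor
    · rw [Units.val_mul, Units.val_inv_eq_inv_val, map_mul, map_inv₀, hval _ q.2 P hP,
        hval _ q'.2 P hP, inv_one, one_mul]
    · rw [h3, map_mul, map_inv₀, hval _ q.2 P hP, inv_one, one_mul]
      exact h2
  exact Set.finite_coe_iff.1 (Finite.of_injective _ hinj)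


theorem one_mem_Tq {e : ℕ} (he : e ≤ Z.N2) : ((1 : Mˣ) : Mˣ ⧸ Z.US) ∈ Z.Tq e := by
  intro P hP
  obtain ⟨m, hm⟩ := QuotientGroup.mk_out_eq_mul Z.US (1 : Mˣ)
  rw [hm, one_mul]
  refine (m.2 P hP).2.trans ?_
  rw [WithZero.exp_le_exp]
  omega

theorem psi_of_Tq {e : ℕ} (he : Z.e0 ≤ e) {q : Mˣ ⧸ Z.US} (hq : q ∈ Z.Tq e) :
    Z.psi (dv (q.out : M)) = 1 := by
  unfold psi
  rw [Z.ψ_dv q.out (fun P hP => (hq P hP).trans (by rw [WithZero.exp_le_exp]; omega))]
  rfl

theorem cS_s0 {e : ℕ} (he1 : 1 ≤ e) (he : Z.e0 ≤ e) (β : F) :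
    Z.cS (Z.s0 e) β = ∑ q ∈ (Z.finite_Tq he1).toFinset,
      (by classical exact if Z.Near1 (β / nrm (q.out : M)) then (1 : ℂ) else 0) := by
  classical
  rw [cS_eq, finsum_eq_sum_of_support_subset (s := (Z.finite_Tq he1).toFinset)]
  · refine Finset.sum_congr rfl fun q hq => ?_
    rw [Set.Finite.mem_toFinset] at hq
    have hq' : ∀ P, Z.Bad P → P.valuation M ((q.out : M) - 1) ≤ exp (-(e : ℤ)) := hq
    unfold cterm s0
    rw [if_pos hq', Z.psi_of_Tq he hq, inv_one, mul_one]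
  · intro q hq
    rw [Function.mem_support] at hq
    rw [Set.Finite.coe_toFinset]
    unfold cterm s0 at hq
    by_contra hc
    apply hq
    have hc' : ¬ ∀ P, Z.Bad P → P.valuation M ((q.out : M) - 1) ≤ exp (-(e : ℤ)) := hc
    rw [if_neg hc', zero_mul]
    split_ifs <;> rfl

/-- the indicator function of the units at `S` as a linear combination of `cS`-functions -/
theorem exists_ind {e : ℕ} (he1 : 1 ≤ e) (he : Z.e0 ≤ e) (hN : e ≤ Z.N) :
    ∃ (ι : Type) (_ : Fintype ι) (a : ι → Fˣ) (C : ℂ), C ≠ 0 ∧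
      (∀ i, ∀ w ∈ Z.S, w.valuation F (a i : F) = 1) ∧
      ∀ α : F, α ≠ 0 → ∑ i, Z.cS (Z.s0 e) (((a i : Fˣ) : F)⁻¹ * α) = C * Z.κ1 α := by
  classical
  have hfin := Z.finite_UF
  let hft : Fintype (Z.UF ⧸ Z.NF.subgroupOf Z.UF) := Fintype.ofFinite _
  have hN2 : e ≤ Z.N2 := by have := Z.hN1; have := Z.hN2; omega
  have hcard : (Z.finite_Tq he1).toFinset.card ≠ 0 := by
    rw [Finset.card_ne_zero]
    exact ⟨_, (Set.Finite.mem_toFinset _).2 (Z.one_mem_Tq hN2)⟩
  refine ⟨Z.UF ⧸ Z.NF.subgroupOf Z.UF, hft, fun κ => ((κ.out : Z.UF) : Fˣ),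
    ((Z.finite_Tq he1).toFinset.card : ℂ), by exact_mod_cast hcard, fun κ => (κ.out : Z.UF).2, ?_⟩
  intro α hα
  simp_rw [Z.cS_s0 he1 he]
  rw [Finset.sum_comm]
  have hval : ∀ q ∈ Z.Tq e, ∀ w ∈ Z.S, w.valuation F (nrm (q.out : M)) = 1 := fun q hq w hw =>
    Z.val_nrm_eq_one (fun P hP => val_eq_one_of_near P he1 (hq P hP)) hw
  have key : ∀ q ∈ (Z.finite_Tq he1).toFinset, (∑ κ : Z.UF ⧸ Z.NF.subgroupOf Z.UF,
      (if Z.Near1 ((((κ.out : Z.UF) : Fˣ) : F)⁻¹ * α / nrm (q.out : M)) then (1 : ℂ) else 0)) = Z.κ1 α := by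
    intro q hq
    rw [Set.Finite.mem_toFinset] at hq
    have hn0 : nrm (F := F) (q.out : M) ≠ 0 := nrm_ne_zero (Units.ne_zero _)
    unfold κ1
    by_cases h1 : ∀ w ∈ Z.S, w.valuation F α = 1
    · rw [if_pos h1]
      have h2 : Units.mk0 (α / nrm (q.out : M)) (div_ne_zero hα hn0) ∈ Z.UF := by
        intro w hw
        rw [Units.val_mk0, map_div₀, h1 w hw, hval q hq w hw, div_one]
      rw [Finset.sum_eq_single (QuotientGroup.mk ⟨_, h2⟩)]
      · rw [if_pos]
        set κ : Z.UF ⧸ Z.NF.subgroupOf Z.UF := QuotientGroup.mk ⟨_, h2⟩ with hκ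
        have h3 : QuotientGroup.mk (κ.out : Z.UF) = (QuotientGroup.mk ⟨_, h2⟩ :
          Z.UF ⧸ Z.NF.subgroupOf Z.UF) := QuotientGroup.out_eq' κ
        rw [QuotientGroup.eq, Subgroup.mem_subgroupOf, mem_NF] at h3
        rw [Subgroup.coe_mul, Subgroup.coe_inv, Units.val_mul, Units.val_inv_eq_inv_val,
          Units.val_mk0] at h3
        rw [mul_div_assoc]
        exact h3
      · intro κ _ hκ
        rw [if_neg]
        intro h3
        apply hκ
        rw [← QuotientGroup.out_eq' κ, QuotientGroup.eq, Subgroup.mem_subgroupOf, mem_NF]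
        rw [mul_div_assoc] at h3
        rw [Subgroup.coe_mul, Subgroup.coe_inv, Units.val_mul, Units.val_inv_eq_inv_val,
          Units.val_mk0]
        exact h3
      · intro h; exact absurd (Finset.mem_univ _) h
    · rw [if_neg h1]
      refine Finset.sum_eq_zero fun κ _ => ?_
      rw [if_neg]
      intro h2
      apply h1
      intro w hw
      have h3 := h2.val Z hw
      rw [map_div₀, map_mul, map_inv₀, (κ.out : Z.UF).2 w hw, inv_one, one_mul, hval q hq w hw,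
        div_one] at h3
      exact h3
  rw [Finset.sum_congr rfl key, Finset.sum_const, nsmul_eq_mul]

end Setup

end Fermat.Agent.LT.I
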