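import Fermat.Agent.LT.I.TrLoc

/-!
# LT, piece I: the Fourier transform of `s · 1_L · e(-Tr u N ξ)`, `s` a Schwartz function at `S`
-/

set_option autoImplicit false
set_option linter.unusedSectionVars false

open NumberField IsDedekindDomain Matrix WithZero Module MeasureTheory
open scoped Real ComplexConjugate nonZeroDivisors

namespace Fermat.Agent.LT.I

open Fermat.LT Fermat.Agent.CFT

variable {F M : Type} [Field F] [NumberField F] [Field M] [NumberField M] [Algebra F M]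

namespace Setup

variable (Z : Setup F M)

theorem finite_Lam_quot : Finite (Z.Lam ⧸ Z.LamD.addSubgroupOf Z.Lam) := by
  classical
  obtain ⟨R, hR, r, -, hr⟩ := exists_finQuot Z.SM (fun _ => -(Z.N : ℤ)) (fun P => Z.N - dF M P)
  refine Finite.of_injective (fun κ : Z.Lam ⧸ Z.LamD.addSubgroupOf Z.Lam => r (κ.out : M)) ?_
  intro κ κ' h
  have hmem : ∀ ξ : Z.Lam, ∀ P ∈ Z.SM, P.valuation M (ξ : M) ≤ exp (-(-(Z.N : ℤ))) := by
    intro ξ P hP
    rw [neg_neg]
    exact ξ.2 P (Z.mem_SM.1 hP)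
  have h1 := hr _ _ (hmem κ'.out) (hmem κ.out) h.symm
  rw [← QuotientAddGroup.out_eq' κ, ← QuotientAddGroup.out_eq' κ', QuotientAddGroup.eq,
    AddSubgroup.mem_addSubgroupOf]
  intro P hP
  have h2 := h1 P (Z.mem_SM.2 hP)
  have h3 : (((-κ.out + κ'.out : Z.Lam)) : M) = ((κ'.out : Z.Lam) : M) - ((κ.out : Z.Lam) : M) := by
    rw [AddSubgroup.coe_add, AddSubgroup.coe_neg]; ring
  rw [h3]
  exact h2

/-- the divisor of `LamD` at the bad places -/
noncomputable def bD : Dv M := by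
  classical
  exact Finsupp.ofSupportFinite (fun P => if P ∈ Z.SM then (Z.N : ℤ) - dF M P else 0)
    (Z.SM.finite_toSet.subset fun P hP => by
      by_contra h
      exact hP (if_neg h))

theorem bD_bad {P : Pl M} (hP : Z.Bad P) : Z.bD P = Z.N - dF M P := by
  classical
  change (if P ∈ Z.SM then (Z.N : ℤ) - dF M P else 0) = _
  rw [if_pos (Z.mem_SM.2 hP)]

theorem bD_good {P : Pl M} (hP : ¬ Z.Bad P) : Z.bD P = 0 := by
  classical
  change (if P ∈ Z.SM then (Z.N : ℤ) - dF M P else 0) = _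
  rw [if_neg fun h => hP (Z.mem_SM.1 h)]

/-- representatives, deep outside `S` -/
theorem exists_rep (x : M) (m : Dv M) : ∃ y : M, y - x ∈ Z.LamD ∧
    ∀ P, ¬ Z.Bad P → P.valuation M y ≤ exp (-(m P)) := by
  obtain ⟨y, h1, h2⟩ := strong_approx Z.SM (fun _ => x) (fun P => Z.N - dF M P) m
  exact ⟨y, fun P hP => h1 P (Z.mem_SM.2 hP), fun P hP => h2 P fun h => hP (Z.mem_SM.1 h)⟩

/-- the chosen representative of a class -/
noncomputable def rep (m : Dv M) (κ : Z.Lam ⧸ Z.LamD.addSubgroupOf Z.Lam) : M :=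
  (Z.exists_rep ((κ.out : Z.Lam) : M) m).choose

theorem rep_spec (m : Dv M) (κ : Z.Lam ⧸ Z.LamD.addSubgroupOf Z.Lam) :
    Z.rep m κ - ((κ.out : Z.Lam) : M) ∈ Z.LamD := (Z.exists_rep _ m).choose_spec.1

theorem rep_good (m : Dv M) (κ : Z.Lam ⧸ Z.LamD.addSubgroupOf Z.Lam) {P : Pl M} (hP : ¬ Z.Bad P) :
    P.valuation M (Z.rep m κ) ≤ exp (-(m P)) := (Z.exists_rep _ m).choose_spec.2 P hP

theorem rep_mem (m : Dv M) (κ : Z.Lam ⧸ Z.LamD.addSubgroupOf Z.Lam) : Z.rep m κ ∈ Z.Lam := by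
  have h1 : Z.rep m κ = (Z.rep m κ - ((κ.out : Z.Lam) : M)) + ((κ.out : Z.Lam) : M) := by ring
  rw [h1]
  exact add_mem (Z.LamD_le (Z.rep_spec m κ)) (κ.out : Z.Lam).2

open Classical in
/-- the test function -/
noncomputable def tf (s : M → ℂ) (l : Dv M) (u : F) (ξ : M) : ℂ :=
  s ξ * (if ∀ P, ¬ Z.Bad P → P.valuation M ξ ≤ exp (-(l P)) then 1 else 0) * ef (-(u * nrm ξ))

theorem mem_lt {l : Dv M} (hl : ∀ P, Z.Bad P → l P = 0) {ξ : M} : ξ ∈ InL (l + Z.bD) ↔
    ξ ∈ Z.LamD ∧ ∀ P, ¬ Z.Bad P → P.valuation M ξ ≤ exp (-(l P)) := by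
  constructor
  · intro h
    refine ⟨fun P hP => ?_, fun P hP => ?_⟩
    · have := h P
      rwa [Finsupp.add_apply, hl P hP, zero_add, Z.bD_bad hP] at this
    · have := h P
      rwa [Finsupp.add_apply, Z.bD_good hP, add_zero] at this
  · rintro ⟨h1, h2⟩ P
    by_cases hP : Z.Bad P
    · rw [Finsupp.add_apply, hl P hP, zero_add, Z.bD_bad hP]; exact h1 P hP
    · rw [Finsupp.add_apply, Z.bD_good hP, add_zero]; exact h2 P hP

/-- decomposition of the test function into cosets -/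
theorem tf_eq {s : M → ℂ} (hs : Z.IsSch s) {l m : Dv M} (hl : ∀ P, Z.Bad P → l P = 0) (hlm : l ≤ m)
    (u : F) [Fintype (Z.Lam ⧸ Z.LamD.addSubgroupOf Z.Lam)] :
    Z.tf s l u = fun ξ => ∑ κ : Z.Lam ⧸ Z.LamD.addSubgroupOf Z.Lam,
      s ((κ.out : Z.Lam) : M) * SHyp.cf (l + Z.bD) (Z.rep m κ) u ξ := by
  classical
  funext ξ
  unfold tf SHyp.cf
  have hrep : ∀ κ, ∀ P, ¬ Z.Bad P → P.valuation M (Z.rep m κ) ≤ exp (-(l P)) := fun κ P hP =>
    (Z.rep_good m κ hP).trans (by rw [WithZero.exp_le_exp]; exact neg_le_neg (hlm P))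
  by_cases h1 : ξ ∈ Z.Lam
  swap
  · have h2 : s ξ = 0 := by by_contra hc; exact h1 (hs.supp ξ hc)
    rw [h2, zero_mul, zero_mul]
    symm
    refine Finset.sum_eq_zero fun κ _ => ?_
    rw [if_neg, mul_zero]
    intro h3
    apply h1
    have h4 : ξ = (ξ - Z.rep m κ) + Z.rep m κ := by ring
    rw [h4]
    exact add_mem (Z.LamD_le ((Z.mem_lt hl).1 h3).1) (Z.rep_mem m κ)
  by_cases h2 : ∀ P, ¬ Z.Bad P → P.valuation M ξ ≤ exp (-(l P))
  swap
  · rw [if_neg h2, mul_zero, zero_mul]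
    symm
    refine Finset.sum_eq_zero fun κ _ => ?_
    rw [if_neg, mul_zero]
    intro h3
    apply h2
    intro P hP
    have h4 : ξ = (ξ - Z.rep m κ) + Z.rep m κ := by ring
    rw [h4]
    exact ((P.valuation M).map_add _ _).trans
      (max_le (((Z.mem_lt hl).1 h3).2 P hP) (hrep κ P hP))
  rw [if_pos h2, mul_one, Finset.sum_eq_single (QuotientAddGroup.mk ⟨ξ, h1⟩)]
  · set κ : Z.Lam ⧸ Z.LamD.addSubgroupOf Z.Lam := QuotientAddGroup.mk ⟨ξ, h1⟩ with hκ
    have h3 : ξ - ((κ.out : Z.Lam) : M) ∈ Z.LamD := by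
      have h4 : QuotientAddGroup.mk (κ.out : Z.Lam) = (QuotientAddGroup.mk ⟨ξ, h1⟩ :
        Z.Lam ⧸ Z.LamD.addSubgroupOf Z.Lam) := QuotientAddGroup.out_eq' κ
      rw [QuotientAddGroup.eq, AddSubgroup.mem_addSubgroupOf] at h4
      have h5 : (((-κ.out + ⟨ξ, h1⟩ : Z.Lam)) : M) = ξ - ((κ.out : Z.Lam) : M) := by
        rw [AddSubgroup.coe_add, AddSubgroup.coe_neg]; ring
      rwa [h5] at h4
    have h4 : s ξ = s ((κ.out : Z.Lam) : M) := by
      have h5 := hs.per ((κ.out : Z.Lam) : M) _ h3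
      rwa [add_sub_cancel] at h5
    rw [if_pos, h4]
    rw [Z.mem_lt hl]
    refine ⟨?_, fun P hP => ((P.valuation M).map_sub _ _).trans (max_le (h2 P hP) (hrep κ P hP))⟩
    have h5 : ξ - Z.rep m κ = (ξ - ((κ.out : Z.Lam) : M)) - (Z.rep m κ - ((κ.out : Z.Lam) : M)) := by ring
    rw [h5]
    exact sub_mem h3 (Z.rep_spec m κ)
  · intro κ _ hκ
    rw [if_neg, mul_zero]
    intro h3
    apply hκ
    rw [← QuotientAddGroup.out_eq' κ]
    have h4 : QuotientAddGroup.mk (κ.out : Z.Lam) = (QuotientAddGroup.mk ⟨ξ, h1⟩ :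
        Z.Lam ⧸ Z.LamD.addSubgroupOf Z.Lam) := by
      rw [QuotientAddGroup.eq, AddSubgroup.mem_addSubgroupOf]
      have h5 : (((-κ.out + ⟨ξ, h1⟩ : Z.Lam)) : M) =
          (ξ - Z.rep m κ) + (Z.rep m κ - ((κ.out : Z.Lam) : M)) := by
        rw [AddSubgroup.coe_add, AddSubgroup.coe_neg]; ring
      rw [h5]
      exact add_mem ((Z.mem_lt hl).1 h3).1 (Z.rep_spec m κ)
    exact h4
  · intro h; exact absurd (Finset.mem_univ _) h


/-- the hypotheses of `ft_sch` -/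
structure Hyp (l : Dv M) (μ q : Dv F) (u u' : F) : Prop where
  hl : ∀ P, Z.Bad P → l P = 0
  hμ : ∀ w ∈ Z.S, μ w = 0
  hqS : ∀ w ∈ Z.S, q w = 0
  hq : 0 ≤ q
  hN : Z.Nm l + μ + Z.δ = 0
  h1 : ∀ w ∉ Z.S, w.valuation F u ≤ exp (-(μ w - q w))
  h1' : ∀ w ∉ Z.S, q w = 0 ∨ w.valuation F u = exp (-(μ w - q w))
  h2 : ∀ w ∉ Z.S, w.valuation F u' ≤ exp (-(q w - μ w))
  h3 : ∀ w ∉ Z.S, w.valuation F (1 + u * u') ≤ exp (-(q w))
  h4 : ∀ w ∈ Z.S, w.valuation F u ≤ exp (-(Z.N1 : ℤ))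
  h5 : ∀ w ∈ Z.S, w.valuation F u' ≤ exp (-(Z.N1 : ℤ))

variable {Z}

theorem nrm_off {l : Dv M} {ξ : M} (h : ∀ P, ¬ Z.Bad P → P.valuation M ξ ≤ exp (-(l P))) {P : Pl M}
    (hP : ¬ Z.Bad P) : (SUH.below F P).valuation F (nrm ξ) ≤ exp (-(l P + l (Z.cP P))) := by
  by_cases hξ : ξ = 0
  · rw [hξ, nrm_zero, map_zero]; exact zero_le
  have h1 := h P hP
  have h2 := h (Z.cP P) (fun hb => hP (Z.bad_cP.1 hb))
  rw [le_exp_iff _ hξ] at h1 h2
  rw [le_exp_iff _ (nrm_ne_zero hξ), Z.ov_nrm (Z.unr _ hP) hξ]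
  omega

theorem val_bad {u : F} (h4 : ∀ w ∈ Z.S, w.valuation F u ≤ exp (-(Z.N1 : ℤ))) {ξ : M}
    (hξ : ξ ∈ Z.Lam) {w : Pl F} (hw : w ∈ Z.S) : w.valuation F (u * nrm ξ) ≤ 1 := by
  rw [map_mul]
  calc _ ≤ exp (-(Z.N1 : ℤ)) * exp (2 * Z.N : ℤ) := mul_le_mul' (h4 w hw) (Z.val_nrm_le hξ hw)
    _ ≤ 1 := by
      rw [← WithZero.exp_add, ← WithZero.exp_zero, WithZero.exp_le_exp]
      have := Z.hN1
      omega

theorem one_le_exp_dF (w : Pl F) : (1 : WithZero (Multiplicative ℤ)) ≤ exp (dF F w) := by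
  rw [← WithZero.exp_zero, WithZero.exp_le_exp]
  exact dF_apply_nonneg w

theorem dF_good {P : Pl M} (hP : ¬ Z.Bad P) : dF M P = dF F (SUH.below F P) :=
  Z.toQuad.dF_unr P (Z.unr _ hP)

namespace Hyp

variable {l : Dv M} {μ q : Dv F} {u u' : F}

theorem eqN (H : Z.Hyp l μ q u u') {P : Pl M} (hP : ¬ Z.Bad P) :
    l P + l (Z.cP P) + μ (SUH.below F P) + dF F (SUH.below F P) = 0 := by
  have h1 := DFunLike.congr_fun H.hN (SUH.below F P)
  rw [Finsupp.add_apply, Finsupp.add_apply, Quad.Nm_below, δ, Z.off_of_not_mem _ hP,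
    Finsupp.zero_apply] at h1
  exact h1

theorem mem_dul_iff (H : Z.Hyp l μ q u u') {η : M} : η ∈ InL (Z.dul (l + Z.bD + con M q)) ↔
    η ∈ Z.Lam ∧ ∀ P, ¬ Z.Bad P → P.valuation M η ≤ exp (-((l + con M (μ - q)) P)) := by
  have hbad : ∀ P, Z.Bad P → (Z.dul (l + Z.bD + con M q)) P = -(Z.N : ℤ) := by
    intro P hP
    have hc : Z.Bad (Z.cP P) := Z.bad_cP.2 hP
    rw [Quad.dul_apply, Finsupp.add_apply, Finsupp.add_apply, H.hl _ hc, Z.bD_bad hc, con_apply,
      Z.below_cP, H.hqS _ hP, Z.dF_cP]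
    ring
  have hgood : ∀ P, ¬ Z.Bad P → (Z.dul (l + Z.bD + con M q)) P = (l + con M (μ - q)) P := by
    intro P hP
    have hc : ¬ Z.Bad (Z.cP P) := fun h => hP (Z.bad_cP.1 h)
    have h1 := H.eqN hP
    rw [Quad.dul_apply, Finsupp.add_apply, Finsupp.add_apply, Z.bD_good hc, con_apply,
      Z.below_cP, Finsupp.add_apply, con_apply, Finsupp.sub_apply, dF_good hP]
    omega
  constructor
  · intro h
    refine ⟨fun P hP => ?_, fun P hP => ?_⟩
    · have := h P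
      rwa [hbad P hP, neg_neg] at this
    · have := h P
      rwa [hgood P hP] at this
  · rintro ⟨h1, h2⟩ P
    by_cases hP : Z.Bad P
    · rw [hbad P hP, neg_neg]; exact h1 P hP
    · rw [hgood P hP]; exact h2 P hP

theorem mem_dul_iff' (H : Z.Hyp l μ q u u') {η : M} : η ∈ InL (Z.dul (l + Z.bD)) ↔
    η ∈ Z.Lam ∧ ∀ P, ¬ Z.Bad P → P.valuation M η ≤ exp (-((l + con M μ) P)) := by
  have hbad : ∀ P, Z.Bad P → (Z.dul (l + Z.bD)) P = -(Z.N : ℤ) := by
    intro P hP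
    have hc : Z.Bad (Z.cP P) := Z.bad_cP.2 hP
    rw [Quad.dul_apply, Finsupp.add_apply, H.hl _ hc, Z.bD_bad hc, Z.dF_cP]
    ring
  have hgood : ∀ P, ¬ Z.Bad P → (Z.dul (l + Z.bD)) P = (l + con M μ) P := by
    intro P hP
    have hc : ¬ Z.Bad (Z.cP P) := fun h => hP (Z.bad_cP.1 h)
    have h1 := H.eqN hP
    rw [Quad.dul_apply, Finsupp.add_apply, Z.bD_good hc, Finsupp.add_apply, con_apply, dF_good hP]
    omega
  constructor
  · intro h
    refine ⟨fun P hP => ?_, fun P hP => ?_⟩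
    · have := h P
      rwa [hbad P hP, neg_neg] at this
    · have := h P
      rwa [hgood P hP] at this
  · rintro ⟨h1, h2⟩ P
    by_cases hP : Z.Bad P
    · rw [hbad P hP, neg_neg]; exact h1 P hP
    · rw [hgood P hP]; exact h2 P hP

theorem unr (H : Z.Hyp l μ q u u') {w : Pl F} (hw : 0 < q w) : w ∉ Z.S := fun h => by
  have := H.hqS w h
  omega

theorem sHyp (H : Z.Hyp l μ q u u') (κ : Z.Lam ⧸ Z.LamD.addSubgroupOf Z.Lam) :
    SHyp Z.toQuad (l + Z.bD) (Z.rep (l + con M q) κ) u u' q where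
  q0 := H.hq
  unr w hw := Z.unr w (H.unr hw)
  cond w hw := by
    have hwS := H.unr hw
    obtain ⟨P, rfl⟩ := SUH.exists_above (F := M) w
    have hP : ¬ Z.Bad P := hwS
    have hc : ¬ Z.Bad (Z.cP P) := fun h => hP (Z.bad_cP.1 h)
    have h1 := H.eqN hP
    rcases H.h1' _ hwS with h2 | h2
    · omega
    · rw [h2, WithZero.exp_inj, Quad.Nm_below, Finsupp.add_apply, Finsupp.add_apply, Z.bD_good hP,
        Z.bD_good hc]
      omega
  int ξ hξ w := by
    rw [Z.mem_lt H.hl] at hξ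
    by_cases hw : w ∈ Z.S
    · rw [H.hqS w hw, add_zero]
      exact (val_bad H.h4 (Z.LamD_le hξ.1) hw).trans (one_le_exp_dF w)
    · obtain ⟨P, rfl⟩ := SUH.exists_above (F := M) w
      have h1 := H.eqN (P := P) hw
      rw [map_mul]
      refine (mul_le_mul' (H.h1 _ hw) (nrm_off hξ.2 hw)).trans ?_
      rw [← WithZero.exp_add, WithZero.exp_le_exp]
      omega
  intM P := by
    by_cases hP : Z.Bad P
    · have hc : Z.Bad (Z.cP P) := Z.bad_cP.2 hP
      refine (val_alg_le P (Int.natCast_nonneg _) (H.h4 _ hP)).trans ?_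
      rw [WithZero.exp_le_exp, Finsupp.add_apply, Finsupp.add_apply, H.hl _ hP, H.hl _ hc, Z.bD_bad hP,
        Z.bD_bad hc, Z.dF_cP, H.hqS _ hP]
      have := Z.dM_le P hP
      omega
    · have hc : ¬ Z.Bad (Z.cP P) := fun h => hP (Z.bad_cP.1 h)
      rw [Z.unr _ hP P rfl]
      refine (H.h1 _ hP).trans ?_
      have h1 := H.eqN hP
      rw [WithZero.exp_le_exp, Finsupp.add_apply, Finsupp.add_apply, Z.bD_good hP, Z.bD_good hc,
        dF_good hP]
      omega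
  x1 := by
    apply ef_eq_one
    intro w
    rw [Finsupp.neg_apply, neg_neg]
    by_cases hw : w ∈ Z.S
    · exact (val_bad H.h4 (Z.rep_mem _ κ) hw).trans (one_le_exp_dF w)
    · obtain ⟨P, rfl⟩ := SUH.exists_above (F := M) w
      have h1 := H.eqN (P := P) hw
      have h2 := H.hq (SUH.below F P)
      rw [Finsupp.zero_apply] at h2
      rw [map_mul]
      refine (mul_le_mul' (H.h1 _ hw) (nrm_off (fun P hP => Z.rep_good _ κ hP) hw)).trans ?_
      rw [← WithZero.exp_add, WithZero.exp_le_exp, Finsupp.add_apply, Finsupp.add_apply, con_apply,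
        con_apply, Z.below_cP]
      omega
  x2 := by
    rw [H.mem_dul_iff']
    constructor
    · intro P hP
      rw [map_mul]
      refine (mul_le_mul' (val_alg_le P (Int.natCast_nonneg _) (H.h4 _ hP)) (Z.rep_mem _ κ P hP)).trans ?_
      rw [← WithZero.exp_add, WithZero.exp_le_exp]
      omega
    · intro P hP
      rw [map_mul, Z.unr _ hP P rfl]
      refine (mul_le_mul' (H.h1 _ hP) (Z.rep_good _ κ hP)).trans ?_
      rw [← WithZero.exp_add, WithZero.exp_le_exp, Finsupp.add_apply, Finsupp.add_apply, con_apply,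
        con_apply]
      omega
  uu w := by
    by_cases hw : w ∈ Z.S
    · rw [H.hqS w hw, neg_zero, WithZero.exp_zero]
      refine ((w.valuation F).map_add _ _).trans (max_le (by rw [map_one]) ?_)
      rw [map_mul]
      refine (mul_le_mul' (H.h4 w hw) (H.h5 w hw)).trans ?_
      rw [← WithZero.exp_add, ← WithZero.exp_zero, WithZero.exp_le_exp]
      omega
    · exact H.h3 w hw
  u'1 η hη w := by
    rw [H.mem_dul_iff'] at hη
    by_cases hw : w ∈ Z.S
    · exact (val_bad H.h5 hη.1 hw).trans (one_le_exp_dF w)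
    · obtain ⟨P, rfl⟩ := SUH.exists_above (F := M) w
      have h1 := H.eqN (P := P) hw
      have h2 := H.hq (SUH.below F P)
      rw [Finsupp.zero_apply] at h2
      rw [map_mul]
      refine (mul_le_mul' (H.h2 _ hw) (nrm_off hη.2 hw)).trans ?_
      rw [← WithZero.exp_add, WithZero.exp_le_exp, Finsupp.add_apply, Finsupp.add_apply, con_apply,
        con_apply, Z.below_cP]
      omega

end Hyp

theorem psi_con (q : Dv F) (hq : ∀ w ∈ Z.S, q w = 0) : Z.psi (con M q) = Z.chiD q := by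
  classical
  induction q using Finsupp.induction with
  | zero => rw [map_zero, psi_zero, Quad.chiD, Finsupp.prod_zero_index]
  | single_add w n l hwl hn ih =>
    have hw : w ∉ Z.S := by
      intro hw
      have h1 := hq w hw
      rw [Finsupp.add_apply, Finsupp.single_eq_same, Finsupp.notMem_support_iff.1 hwl, add_zero] at h1
      exact hn h1
    have hl' : ∀ v ∈ Z.S, l v = 0 := by
      intro v hv
      have h1 := hq v hv
      rwa [Finsupp.add_apply, Finsupp.single_eq_of_ne (by rintro rfl; exact hw hv), zero_add] at h1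
    rw [map_add, Z.psi_add, Quad.chiD_add, ih hl', Z.psi_con_single w hw]
    congr 1
    rw [Quad.chiD, Finsupp.prod_single_index (by simp)]

variable (Z) in
/-- the constant of the Fourier transform -/
noncomputable def κ0 : ℂ := Z.C * ((absN Z.δ : ℝ) : ℂ) * ((absN Z.bD : ℝ) : ℂ)⁻¹

theorem κ0_ne_zero : Z.κ0 ≠ 0 := by
  unfold κ0
  refine mul_ne_zero (mul_ne_zero ?_ ?_) (inv_ne_zero ?_)
  · exact_mod_cast Z.C_pos.ne'
  · exact_mod_cast (absN_pos _).ne'
  · exact_mod_cast (absN_pos _).ne'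

theorem Hyp.absN_l {l : Dv M} {μ q : Dv F} {u u' : F} (H : Z.Hyp l μ q u u') :
    (absN l)⁻¹ = absN μ * absN Z.δ := by
  have h1 : absN (Z.Nm l) = absN l := Z.toQuad.absN_Nm l fun P hP => Z.unr _ fun hb => hP (H.hl P hb)
  have h2 : Z.Nm l = -(μ + Z.δ) := by
    have := H.hN
    rw [add_assoc] at this
    exact eq_neg_of_add_eq_zero_left this
  rw [← h1, h2, absN_neg, inv_inv, absN_add]

open Classical in
/-- **The Fourier transform of the test functions.** -/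
theorem Hyp.ft_tf {l : Dv M} {μ q : Dv F} {u u' : F} (H : Z.Hyp l μ q u u') {s : M → ℂ}
    (hs : Z.IsSch s) (η : M) :
    Z.toQuad.ft (Z.tf s l u) η = Z.κ0 * Z.psi (con M q) * ((absN q : ℝ) : ℂ)⁻¹ * ((absN μ : ℝ) : ℂ) *
      (Z.FT s η * (if ∀ P, ¬ Z.Bad P → P.valuation M η ≤ exp (-((l + con M (μ - q)) P)) then 1 else 0) *
        ef (-(u' * nrm η))) := by
  have := Z.finite_Lam_quot
  have : Fintype (Z.Lam ⧸ Z.LamD.addSubgroupOf Z.Lam) := Fintype.ofFinite _
  have hlm : l ≤ l + con M q := by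
    intro P
    have := H.hq (SUH.below F P)
    rw [Finsupp.zero_apply] at this
    rw [Finsupp.add_apply, con_apply]
    omega
  rw [Z.tf_eq hs H.hl hlm u, Quad.ft_sum _ _ _ (fun κ _ => SHyp.FSch_cf (Q := Z.toQuad) _ _ _) η]
  have h1 : ∀ κ, Z.ft (SHyp.cf (l + Z.bD) (Z.rep (l + con M q) κ) u) η = _ := fun κ =>
    (H.sHyp κ).ft_coset η
  simp_rw [h1]
  have hc : ((absN (l + Z.bD) : ℝ) : ℂ)⁻¹ = ((absN μ : ℝ) : ℂ) * ((absN Z.δ : ℝ) : ℂ) *
      ((absN Z.bD : ℝ) : ℂ)⁻¹ := by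
    rw [absN_add]
    have := congrArg (fun x : ℝ => (x : ℂ)) H.absN_l
    push_cast at this ⊢
    rw [mul_inv, this]
  rw [hc, ← psi_con q H.hqS]
  by_cases hη : η ∈ InL (Z.dul (l + Z.bD + con M q))
  · obtain ⟨h2, h3⟩ := H.mem_dul_iff.1 hη
    simp_rw [if_pos hη]
    rw [if_pos h3, mul_one, FT, if_pos h2, finsum_eq_sum_of_fintype, Finset.sum_mul, Finset.mul_sum]
    refine Finset.sum_congr rfl fun κ _ => ?_
    have h4 : Z.eS (Z.BF ((κ.out : Z.Lam) : M) η) = eQ (Z.B (Z.rep (l + con M q) κ) η) := by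
      have h5 : eQ (Z.B (Z.rep (l + con M q) κ) η) = ef (Z.BF (Z.rep (l + con M q) κ) η) := by
        rw [ef_eq, BF, Algebra.trace_trace]; rfl
      rw [h5]
      refine Z.eS_eq (fun w hw => ?_) fun w hw => ?_
      · have h6 : Z.BF (Z.rep (l + con M q) κ) η - Z.BF ((κ.out : Z.Lam) : M) η =
            Algebra.trace F M ((Z.rep (l + con M q) κ - ((κ.out : Z.Lam) : M)) * Z.c η) := by
          unfold BF
          rw [← map_sub, sub_mul]
        rw [h6]
        refine val_trace_le fun P hP => ?_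
        subst hP
        have h7 := Z.rep_spec (l + con M q) κ P hw
        have h8 := h2 (Z.cP P) (Z.bad_cP.2 hw)
        rw [Z.val_cP] at h8
        rw [map_mul]
        refine (mul_le_mul' h7 h8).trans ?_
        rw [← WithZero.exp_add, WithZero.exp_le_exp]
        omega
      · refine val_trace_le fun P hP => ?_
        subst hP
        have h7 := Z.rep_good (l + con M q) κ (P := P) hw
        have h8 := h3 (Z.cP P) (fun h => hw (Z.bad_cP.1 h))
        rw [Z.val_cP] at h8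
        have h9 := H.eqN (P := P) hw
        rw [map_mul]
        refine (mul_le_mul' h7 h8).trans ?_
        rw [← WithZero.exp_add, WithZero.exp_le_exp, Finsupp.add_apply, Finsupp.add_apply, con_apply,
          con_apply, Z.below_cP, Finsupp.sub_apply, dF_good hw]
        omega
    rw [h4, κ0]
    ring
  · simp_rw [if_neg hη]
    simp only [mul_zero, Finset.sum_const_zero]
    by_cases h2 : η ∈ Z.Lam
    · rw [if_neg fun h3 => hη (H.mem_dul_iff.2 ⟨h2, h3⟩)]; ring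
    · rw [FT, if_neg h2]; ring


/-- the test functions are finite Schwartz functions -/
theorem FSch_tf {s : M → ℂ} (hs : Z.IsSch s) {l : Dv M} (hl : ∀ P, Z.Bad P → l P = 0) (u : F) :
    FSch (Z.tf s l u) := by
  classical
  have := Z.finite_Lam_quot
  have : Fintype (Z.Lam ⧸ Z.LamD.addSubgroupOf Z.Lam) := Fintype.ofFinite _
  rw [Z.tf_eq hs hl le_rfl u]
  exact FSch.sum _ fun κ _ => (SHyp.FSch_cf (Q := Z.toQuad) _ _ _).const_mul _

theorem val_BF {ξ η : M} (h : ∀ P, Z.Bad P → P.valuation M (ξ * Z.c η) ≤ exp (dF M P)) {w : Pl F}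
    (hw : w ∈ Z.S) : w.valuation F (Z.BF ξ η) ≤ exp (dF F w) :=
  val_trace_le fun P hP => h P (by unfold Bad; rw [hP]; exact hw)

/-- the Fourier transform at `S` is again a Schwartz function of depth `N` -/
theorem isSch_FT (s : M → ℂ) : Z.IsSch (Z.FT s) where
  supp η hη := by
    by_contra h
    exact hη (by rw [FT, if_neg h])
  per η η' hη' := by
    classical
    have := Z.finite_Lam_quot
    have : Fintype (Z.Lam ⧸ Z.LamD.addSubgroupOf Z.Lam) := Fintype.ofFinite _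
    have h1 : η + η' ∈ Z.Lam ↔ η ∈ Z.Lam :=
      ⟨fun h => by simpa using sub_mem h (Z.LamD_le hη'), fun h => add_mem h (Z.LamD_le hη')⟩
    by_cases h2 : η ∈ Z.Lam
    · rw [FT, FT, if_pos h2, if_pos (h1.2 h2), finsum_eq_sum_of_fintype, finsum_eq_sum_of_fintype]
      refine Finset.sum_congr rfl fun κ _ => ?_
      congr 1
      have h3 : Z.BF ((κ.out : Z.Lam) : M) (η + η') =
          Z.BF ((κ.out : Z.Lam) : M) η + Z.BF ((κ.out : Z.Lam) : M) η' := by
        unfold BF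
        rw [map_add, mul_add, map_add]
      rw [h3, Z.eS_add, Z.eS_of_S (x := Z.BF ((κ.out : Z.Lam) : M) η') fun w hw => ?_, mul_one]
      refine val_BF (fun P hP => ?_) hw
      have h4 := (κ.out : Z.Lam).2 P hP
      have h5 := hη' (Z.cP P) (Z.bad_cP.2 hP)
      rw [Z.val_cP, Z.dF_cP] at h5
      rw [map_mul]
      refine (mul_le_mul' h4 h5).trans ?_
      rw [← WithZero.exp_add, WithZero.exp_le_exp]
      omega
    · rw [FT, FT, if_neg h2, if_neg fun h => h2 (h1.1 h)]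

open Classical in
/-- **The Fourier transform of the test functions**, explicit form. -/
theorem ft_sch {s : M → ℂ} (hs : Z.IsSch s) (l : Dv M) (hl : ∀ P, Z.Bad P → l P = 0) (μ q : Dv F)
    (hμ : ∀ w ∈ Z.S, μ w = 0) (hqS : ∀ w ∈ Z.S, q w = 0) (hq : 0 ≤ q)
    (hN : Z.Nm l + μ + Z.δ = 0) (u u' : F)
    (h1 : ∀ w ∉ Z.S, w.valuation F u ≤ exp (-(μ w - q w)))
    (h1' : ∀ w ∉ Z.S, q w = 0 ∨ w.valuation F u = exp (-(μ w - q w)))
    (h2 : ∀ w ∉ Z.S, w.valuation F u' ≤ exp (-(q w - μ w)))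
    (h3 : ∀ w ∉ Z.S, w.valuation F (1 + u * u') ≤ exp (-(q w)))
    (h4 : ∀ w ∈ Z.S, w.valuation F u ≤ exp (-(Z.N1 : ℤ)))
    (h5 : ∀ w ∈ Z.S, w.valuation F u' ≤ exp (-(Z.N1 : ℤ))) (η : M) :
    Z.toQuad.ft (fun ξ => s ξ * (if ∀ P, ¬ Z.Bad P → P.valuation M ξ ≤ exp (-(l P)) then 1 else 0) *
      ef (-(u * nrm ξ))) η =
    Z.κ0 * Z.psi (con M q) * ((absN q : ℝ) : ℂ)⁻¹ * ((absN μ : ℝ) : ℂ) *
      (Z.FT s η * (if ∀ P, ¬ Z.Bad P → P.valuation M η ≤ exp (-((l + con M (μ - q)) P)) then 1 else 0) *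
        ef (-(u' * nrm η))) :=
  Hyp.ft_tf (⟨hl, hμ, hqS, hq, hN, h1, h1', h2, h3, h4, h5⟩ : Z.Hyp l μ q u u') hs η

end Setup

end Fermat.Agent.LT.I
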