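import Fermat.Agent.LT.I.Co

/-!
# LT, piece I: coordinates of `J y`
-/

set_option autoImplicit false
set_option linter.unusedSectionVars false
set_option linter.unusedSimpArgs false

open NumberField IsDedekindDomain Matrix WithZero Module
open scoped Real nonZeroDivisors

namespace Fermat.Agent.LT.I

open Fermat.LT Fermat.Agent.CFT

variable {F : Type} [Field F] [NumberField F]

/-- In `stdH w` the valuation of the determinant is even and all entries are bounded by it. -/
theorem exists_half (w : Pl F) {g : G2 F} (hg : g ∈ stdH w) :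
    ∃ m : ℤ, ov w g.1.det = 2 * m ∧ ∀ i j, w.valuation F (g.1 i j) ≤ exp (-m) := by
  obtain ⟨c, hc⟩ := exists_nm_eq w g
  have h1 := av_det_of_mem w hg
  have h2 : ov w g.1.det = 2 * ov w (c : F) := by
    have h3 : av w g.1.det = av w ((c : F) ^ 2) := by rw [h1, hc, map_pow]
    rw [av_eq_av_iff w (det_ne_zero' g) (pow_ne_zero 2 c.ne_zero), ov_pow] at h3
    exact_mod_cast h3
  refine ⟨ov w (c : F), h2, fun i j => ?_⟩
  have h4 := (mem_stdH_iff_av w g).1 hg i j
  exact (av_sq_le_iff w (det_ne_zero' g) _ h2).1 h4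

theorem val_eq_one_iff_ov (w : Pl F) {x : F} (hx : x ≠ 0) : w.valuation F x = 1 ↔ ov w x = 0 := by
  rw [val_eq w hx, ← WithZero.exp_zero, WithZero.exp_inj]
  constructor <;> intro h <;> omega

/-- local analysis of the action of `J0` -/
theorem J_local (w : Pl F) {u uJ : F} {a aJ : Fˣ}
    (h : (un uJ * dg aJ)⁻¹ * (J0 * (un u * dg a)) ∈ stdH w) :
    ∃ q : ℤ, 0 ≤ q ∧ ov w (a : F) + ov w (aJ : F) = 2 * q ∧
      w.valuation F u ≤ exp (-(ov w (a : F) - q)) ∧
      w.valuation F uJ ≤ exp (-(ov w (aJ : F) - q)) ∧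
      w.valuation F (1 + uJ * u) ≤ exp (-q) ∧
      (q = 0 ∨ w.valuation F uJ = exp (-(ov w (aJ : F) - q))) := by
  obtain ⟨m, hm, hb⟩ := exists_half w h
  have ha := a.ne_zero
  have haJ := aJ.ne_zero
  have hg : ((un uJ * dg aJ)⁻¹ * (J0 * (un u * dg a))).1 =
      !![-(uJ * a / aJ), -((1 + uJ * u) / aJ); (a : F), u] := by
    have h1 : (un uJ * dg aJ)⁻¹ = dg aJ⁻¹ * un (-uJ) := by
      rw [_root_.mul_inv_rev, dg_inv, un_neg]
    rw [h1]
    ext i j
    fin_cases i <;> fin_cases j
    · show (dg aJ⁻¹ * un (-uJ) * (J0 * (un u * dg a))).1 0 0 = -(uJ * a / aJ)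
      simp only [mul00, mul01, mul10, mul11, un00, un01, un10, un11, dg00, dg01, dg10, dg11, J000,
        J001, J010, J011, Units.val_inv_eq_inv_val]
      field_simp; ring
    · show (dg aJ⁻¹ * un (-uJ) * (J0 * (un u * dg a))).1 0 1 = -((1 + uJ * u) / aJ)
      simp only [mul00, mul01, mul10, mul11, un00, un01, un10, un11, dg00, dg01, dg10, dg11, J000,
        J001, J010, J011, Units.val_inv_eq_inv_val]
      field_simp; ring
    · show (dg aJ⁻¹ * un (-uJ) * (J0 * (un u * dg a))).1 1 0 = (a : F)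
      simp only [mul00, mul01, mul10, mul11, un00, un01, un10, un11, dg00, dg01, dg10, dg11, J000,
        J001, J010, J011, Units.val_inv_eq_inv_val]
      field_simp; ring
    · show (dg aJ⁻¹ * un (-uJ) * (J0 * (un u * dg a))).1 1 1 = u
      simp only [mul00, mul01, mul10, mul11, un00, un01, un10, un11, dg00, dg01, dg10, dg11, J000,
        J001, J010, J011, Units.val_inv_eq_inv_val]
      field_simp; ring
  have h00 := hb 0 0
  have h01 := hb 0 1
  have h10 := hb 1 0
  have h11 := hb 1 1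
  rw [hg] at h00 h01 h10 h11
  simp only [Matrix.of_apply, Matrix.cons_val', Matrix.cons_val_zero, Matrix.cons_val_one,
    Matrix.cons_val_fin_one, Valuation.map_neg] at h00 h01 h10 h11
  have hdet : ((un uJ * dg aJ)⁻¹ * (J0 * (un u * dg a))).1.det = (a : F) / aJ := by
    rw [hg, Matrix.det_fin_two]
    simp only [Matrix.of_apply, Matrix.cons_val', Matrix.cons_val_zero, Matrix.cons_val_one,
      Matrix.cons_val_fin_one]
    field_simp; ring
  rw [hdet, div_eq_mul_inv, ov_mul w ha (inv_ne_zero haJ), ov_inv] at hm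
  have hq0 : m ≤ ov w (a : F) := (le_exp_iff w ha m).1 h10
  -- valuations of the other entries
  have e00 : w.valuation F uJ ≤ exp (-(ov w (aJ : F) - (ov w (a : F) - m))) := by
    rw [map_div₀, map_mul, val_eq w ha, val_eq w haJ] at h00
    have h2 : w.valuation F uJ * exp (-ov w (a : F)) / exp (-ov w (aJ : F)) =
        w.valuation F uJ * exp (ov w (aJ : F) - ov w (a : F)) := by
      rw [div_eq_mul_inv, ← WithZero.exp_neg, mul_assoc, ← WithZero.exp_add]
      congr 2; ring
    rw [h2] at h00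
    calc w.valuation F uJ = w.valuation F uJ * exp (ov w (aJ : F) - ov w (a : F)) *
          exp (-(ov w (aJ : F) - ov w (a : F))) := by
            rw [mul_assoc, ← WithZero.exp_add, add_neg_cancel, WithZero.exp_zero, mul_one]
      _ ≤ exp (-m) * exp (-(ov w (aJ : F) - ov w (a : F))) := mul_le_mul_left h00 _
      _ = _ := by rw [← WithZero.exp_add]; congr 1; omega
  have e01 : w.valuation F (1 + uJ * u) ≤ exp (-(ov w (a : F) - m)) := by
    rw [map_div₀, val_eq w haJ, div_eq_mul_inv, ← WithZero.exp_neg, neg_neg] at h01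
    calc w.valuation F (1 + uJ * u) = w.valuation F (1 + uJ * u) * exp (ov w (aJ : F)) *
          exp (-(ov w (aJ : F))) := by
            rw [mul_assoc, ← WithZero.exp_add, add_neg_cancel, WithZero.exp_zero, mul_one]
      _ ≤ exp (-m) * exp (-(ov w (aJ : F))) := mul_le_mul_left h01 _
      _ = _ := by rw [← WithZero.exp_add]; congr 1; omega
  refine ⟨ov w (a : F) - m, by omega, by omega, ?_, e00, e01, ?_⟩
  · have : -(ov w (a : F) - (ov w (a : F) - m)) = -m := by ring
    rw [this]; exact h11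
  · by_cases hq : ov w (a : F) - m = 0
    · exact Or.inl hq
    · right
      -- `1 + uJ u` is small, hence `uJ u` is a unit
      have h1 : w.valuation F (1 + uJ * u) < 1 := by
        refine lt_of_le_of_lt e01 ?_
        rw [← WithZero.exp_zero, WithZero.exp_lt_exp]; omega
      have h2 : w.valuation F (uJ * u) = 1 := by
        have h3 : uJ * u = (1 + uJ * u) + (-1) := by ring
        rw [h3, Valuation.map_add_eq_of_lt_right _ (by rw [Valuation.map_neg, map_one]; exact h1),
          Valuation.map_neg, map_one]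
      have hu0 : u ≠ 0 := by
        rintro rfl
        rw [mul_zero, map_zero] at h2
        exact zero_ne_one h2
      have huJ0 : uJ ≠ 0 := by
        rintro rfl
        rw [zero_mul, map_zero] at h2
        exact zero_ne_one h2
      have h4 := (val_eq_one_iff_ov w (mul_ne_zero huJ0 hu0)).1 h2
      rw [ov_mul w huJ0 hu0] at h4
      have h5 := (le_exp_iff w hu0 _).1 h11
      have h6 := (le_exp_iff w huJ0 _).1 e00
      rw [val_eq w huJ0]
      congr 1
      omega

variable {M : Type} [Field M] [NumberField M] [Algebra F M] (Z : Setup F M)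

namespace Setup


/-- **coordinates of `J y`** -/
theorem Co.J {U : Level F} (hU : Z.Good U) {y : Y U} {ν νJ : Dv F} {u uJ : F}
    (h : Z.Co y ν u) (hJ : Z.Co ((J0 : G2 F) • y) νJ uJ) :
    ∃ q : Dv F, 0 ≤ q ∧ (∀ w ∈ Z.S, q w = 0) ∧ ν + νJ = q + q ∧
      ∀ w ∉ Z.S, w.valuation F u ≤ exp (-(ν w - q w)) ∧
        w.valuation F uJ ≤ exp (-(νJ w - q w)) ∧ w.valuation F (1 + uJ * u) ≤ exp (-(q w)) ∧
        (q w = 0 ∨ w.valuation F uJ = exp (-(νJ w - q w))) := by
  have key : ∀ w : Pl F, ∃ q : ℤ, (w ∈ Z.S → q = 0) ∧ (w ∉ Z.S → 0 ≤ q ∧ ν w + νJ w = 2 * q ∧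
      w.valuation F u ≤ exp (-(ν w - q)) ∧
        w.valuation F uJ ≤ exp (-(νJ w - q)) ∧ w.valuation F (1 + uJ * u) ≤ exp (-q) ∧
        (q = 0 ∨ w.valuation F uJ = exp (-(νJ w - q)))) := by
    intro w
    by_cases hw : w ∈ Z.S
    · exact ⟨0, fun _ => rfl, fun h => absurd hw h⟩
    · obtain ⟨a, ha, hya⟩ := h.loc w hw
      obtain ⟨aJ, haJ, hyJ⟩ := hJ.loc w hw
      have h1 : ((J0 * (Fermat.LT.un u * Fermat.LT.dg a) : G2 F) : Yl U w) =
          ((Fermat.LT.un uJ * Fermat.LT.dg aJ : G2 F) : Yl U w) := by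
        rw [← hyJ, G2_smul_apply, hya]; rfl
      rw [eq_comm, mk_eq_mk_iff (hU w hw)] at h1
      obtain ⟨q, h2, h3, h4, h5, h6, h7⟩ := J_local w h1
      rw [ha, haJ] at h3
      rw [ha] at h4
      rw [haJ] at h5 h7
      exact ⟨q, fun h => absurd h hw, fun _ => ⟨h2, h3, h4, h5, h6, h7⟩⟩
  choose q h1 h2 using key
  have hfin : {w | q w ≠ 0}.Finite := by
    refine (ν.support.finite_toSet.union νJ.support.finite_toSet).subset fun w hw => ?_
    by_contra hc
    simp only [Set.mem_union, Finset.mem_coe, Finsupp.mem_support_iff, not_or, not_not] at hc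
    apply hw
    by_cases hS : w ∈ Z.S
    · exact h1 w hS
    · have := (h2 w hS).2.1
      omega
  set Q : Dv F := Finsupp.ofSupportFinite q hfin with hQ
  have hQw : ∀ w, Q w = q w := fun w => rfl
  refine ⟨Q, fun w => ?_, fun w hw => h1 w hw, ?_, fun w hw => ?_⟩
  · rw [hQw]
    by_cases hS : w ∈ Z.S
    · rw [h1 w hS]; rfl
    · exact (h2 w hS).1
  · ext w
    rw [Finsupp.add_apply, Finsupp.add_apply, hQw]
    by_cases hS : w ∈ Z.S
    · rw [h1 w hS, h.nu w hS, hJ.nu w hS]
    · have := (h2 w hS).2.1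
      omega
  · obtain ⟨-, -, h4, h5, h6, h7⟩ := h2 w hw
    exact ⟨h4, h5, h6, h7⟩

end Setup

end Fermat.Agent.LT.I
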