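import Fermat.Agent.LT.I.Bridge
import Fermat.Agent.LT.I.JLoc
import Fermat.Agent.LT.I.FtSch

/-!
# LT, piece I: the relation under the inversion, from the termwise Poisson summation

* `JDat` : relations between the coordinates of `y` and `J y`.
* `Phi_J` : `Φ[s](νJ, uJ)(J P) = κ ψ(con δ) Φ[FT s](ν, u)(P)`.
-/

set_option autoImplicit false
set_option linter.unusedSectionVars false
set_option linter.unusedSimpArgs false

open NumberField IsDedekindDomain Matrix WithZero Module MeasureTheory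
open scoped Real

namespace Fermat.Agent.LT.I

open Fermat.LT Fermat.Agent.CFT

variable {F M : Type} [Field F] [NumberField F] [Field M] [NumberField M] [Algebra F M]
variable (Z : Setup F M)

theorem dg_J0 (A : Arch F) (a : Fˣ) (P : XI A) :
    dg a • (JJ F • P) = JJ F • (dg a⁻¹ • P) := by
  have h : dg a * JJ F = sc a * (JJ F * dg a⁻¹) := by
    apply G2_ext'
    · simp [mul00, mul01, mul10, mul11, JJ, Matrix.GeneralLinearGroup.mkOfDetNeZero]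
    · simp [mul00, mul01, mul10, mul11, JJ, Matrix.GeneralLinearGroup.mkOfDetNeZero]
    · simp [mul00, mul01, mul10, mul11, JJ, Matrix.GeneralLinearGroup.mkOfDetNeZero]
    · simp [mul00, mul01, mul10, mul11, JJ, Matrix.GeneralLinearGroup.mkOfDetNeZero]
  rw [← mul_smul, h, mul_smul, sc_smul_XI, mul_smul]

namespace Setup

/-- relations between the coordinates `(ν, u)` of `y` and `(νJ, uJ)` of `J y` -/
structure JDat (ν νJ q : Dv F) (u uJ : F) : Prop where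
  ν0 : ∀ w ∈ Z.S, ν w = 0
  νJ0 : ∀ w ∈ Z.S, νJ w = 0
  q0 : 0 ≤ q
  qS : ∀ w ∈ Z.S, q w = 0
  sum : ν + νJ = q + q
  h1 : ∀ w ∉ Z.S, w.valuation F u ≤ exp (-(ν w - q w))
  h2 : ∀ w ∉ Z.S, w.valuation F uJ ≤ exp (-(νJ w - q w))
  h3 : ∀ w ∉ Z.S, w.valuation F (1 + uJ * u) ≤ exp (-(q w))
  h4 : ∀ w ∉ Z.S, q w = 0 ∨ w.valuation F uJ = exp (-(νJ w - q w))
  uS : ∀ w ∈ Z.S, w.valuation F u ≤ exp (-(Z.N1 : ℤ))
  uJS : ∀ w ∈ Z.S, w.valuation F uJ ≤ exp (-(Z.N1 : ℤ))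

theorem Co.jdat {U : Level F} (hU : Z.Good U) {y : Y U} {ν νJ : Dv F} {u uJ : F}
    (h : Z.Co y ν u) (hJ : Z.Co ((J0 : G2 F) • y) νJ uJ) : ∃ q, Z.JDat ν νJ q u uJ := by
  obtain ⟨q, h1, h2, h3, h4⟩ := Co.J Z hU h hJ
  exact ⟨q, h.nu, hJ.nu, h1, h2, h3, fun w hw => (h4 w hw).1, fun w hw => (h4 w hw).2.1,
    fun w hw => (h4 w hw).2.2.1, fun w hw => (h4 w hw).2.2.2, h.uS, hJ.uS⟩

/-- the theta integral in terms of helper90's theta functions -/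
theorem PsiJ_eq_theta (T : Tor Z.toQuad.qa) (s : M → ℂ) (u : F) (α0 : Fˣ) (l : Dv M) (P : XI Z.A) :
    ((∏ i, (‖Z.A.emb i (α0 : F)‖ * (P i).t) : ℝ) : ℂ) * Z.PsiJ T s u α0 l P =
      ∫ v in T.D, Z.toQuad.theta (Z.fJ s u α0 l) (dg α0 • P) (fun i => Real.exp (v i)) := by
  unfold PsiJ
  rw [← integral_const_mul]
  refine integral_congr_ae (Filter.Eventually.of_forall fun v => ?_)
  simp only
  unfold Quad.theta
  simp_rw [dg_smul_t, dg_smul_z]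
  rw [Complex.ofReal_prod]
  rfl

variable {Z}

theorem JDat.hyp {ν νJ q : Dv F} {u uJ : F} (h : Z.JDat ν νJ q u uJ) {p : Fˣ × Dv M}
    (hp : p ∈ Z.J νJ) : Z.Hyp p.2 (νJ + dv (p.1 : F)) q ((p.1 : F) * uJ) (((p.1⁻¹ : Fˣ) : F) * u) := by
  obtain ⟨hn, hl, hN⟩ := hp
  have ha := p.1.ne_zero
  have hv : ∀ w : Pl F, w.valuation F (p.1 : F) = exp (-(ov w (p.1 : F))) := fun w => val_eq w ha
  have hvi : ∀ w : Pl F, w.valuation F ((p.1⁻¹ : Fˣ) : F) = exp (ov w (p.1 : F)) := fun w => by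
    rw [Units.val_inv_eq_inv_val, map_inv₀, hv, ← WithZero.exp_neg, neg_neg]
  have hsum : ∀ w, ν w + νJ w = q w + q w := fun w => by
    have := DFunLike.congr_fun h.sum w
    rwa [Finsupp.add_apply, Finsupp.add_apply] at this
  refine ⟨hl, fun w hw => ?_, h.qS, h.q0, ?_, fun w hw => ?_, fun w hw => ?_, fun w hw => ?_,
    fun w hw => ?_, fun w hw => ?_, fun w hw => ?_⟩
  · rw [Finsupp.add_apply, h.νJ0 w hw, dv_apply, Z.near1_ov hn hw, add_zero]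
  · rw [← hN]; abel
  · rw [map_mul, hv, Finsupp.add_apply, dv_apply]
    calc _ ≤ exp (-(ov w (p.1 : F))) * exp (-(νJ w - q w)) := mul_le_mul_right (h.h2 w hw) _
      _ = _ := by rw [← WithZero.exp_add]; congr 1; ring
  · rcases h.h4 w hw with h0 | h0
    · exact Or.inl h0
    · right
      rw [map_mul, hv, h0, Finsupp.add_apply, dv_apply, ← WithZero.exp_add]
      congr 1; ring
  · rw [map_mul, hvi, Finsupp.add_apply, dv_apply]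
    calc _ ≤ exp (ov w (p.1 : F)) * exp (-(ν w - q w)) := mul_le_mul_right (h.h1 w hw) _
      _ = _ := by rw [← WithZero.exp_add]; congr 1; linarith [hsum w]
  · have h1 : 1 + (p.1 : F) * uJ * (((p.1⁻¹ : Fˣ) : F) * u) = 1 + uJ * u := by
      rw [Units.val_inv_eq_inv_val]; field_simp
    rw [h1]
    exact h.h3 w hw
  · rw [map_mul, Z.near1_val hn hw, one_mul]
    exact h.uJS w hw
  · rw [map_mul, Units.val_inv_eq_inv_val, map_inv₀, Z.near1_val hn hw, inv_one, one_mul]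
    exact h.uS w hw

/-- **Poisson summation for the theta integrals** -/
theorem JDat.PsiJ_J {ν νJ q : Dv F} {u uJ : F} (h : Z.JDat ν νJ q u uJ) (T : Tor Z.toQuad.qa)
    {s : M → ℂ} (hs : Z.IsSch s) {p : Fˣ × Dv M} (hp : p ∈ Z.J νJ) (P : XI Z.A) :
    ((∏ i, ((JJ F • P) i).t : ℝ) : ℂ) * Z.PsiJ T s uJ p.1 p.2 (JJ F • P) =
      Z.κ0 * Z.psi (con M q) * ((absN q : ℝ) : ℂ)⁻¹ * ((absN νJ : ℝ) : ℂ) *
        (((∏ i, (P i).t : ℝ) : ℂ) *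
          Z.PsiJ T (Z.FT s) u ((p.1⁻¹ : Fˣ) : F) (p.2 + con M (νJ + dv (p.1 : F) - q)) P) := by
  classical
  have hyp := h.hyp hp
  set N : ℝ := ∏ i, ‖Z.A.emb i (p.1 : F)‖ with hN
  have hN0 : 0 < N := prod_norm_pos Z.A p.1.ne_zero
  have hNC : (N : ℂ) ≠ 0 := by exact_mod_cast hN0.ne'
  have h1 := Z.PsiJ_eq_theta T s uJ p.1 p.2 (JJ F • P)
  have h2 := Z.PsiJ_eq_theta T (Z.FT s) u p.1⁻¹ (p.2 + con M (νJ + dv (p.1 : F) - q)) P
  have e1 : ((∏ i, (‖Z.A.emb i (p.1 : F)‖ * ((JJ F • P) i).t) : ℝ) : ℂ) =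
      (N : ℂ) * ((∏ i, ((JJ F • P) i).t : ℝ) : ℂ) := by
    rw [Finset.prod_mul_distrib, Complex.ofReal_mul]
  have e2 : ((∏ i, (‖Z.A.emb i ((p.1⁻¹ : Fˣ) : F)‖ * (P i).t) : ℝ) : ℂ) =
      (N : ℂ)⁻¹ * ((∏ i, (P i).t : ℝ) : ℂ) := by
    rw [Finset.prod_mul_distrib, Complex.ofReal_mul, ← Complex.ofReal_inv, hN, ← Finset.prod_inv_distrib]
    simp_rw [Units.val_inv_eq_inv_val, map_inv₀, norm_inv]
  rw [e1] at h1
  rw [e2] at h2
  have e3 : ∀ v : Z.A.I → ℝ, Z.toQuad.theta (Z.fJ s uJ p.1 p.2) (dg p.1 • (JJ F • P))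
      (fun i => Real.exp (v i)) =
      Z.κ0 * Z.psi (con M q) * ((absN q : ℝ) : ℂ)⁻¹ * ((absN (νJ + dv (p.1 : F)) : ℝ) : ℂ) *
      Z.toQuad.theta (Z.fJ (Z.FT s) u ((p.1⁻¹ : Fˣ) : F) (p.2 + con M (νJ + dv (p.1 : F) - q)))
        (dg p.1⁻¹ • P) (fun i => Real.exp (v i)) := by
    intro v
    have hF : FSch (Z.fJ s uJ p.1 p.2) := FSch_tf hs hyp.hl ((p.1 : F) * uJ)
    rw [dg_J0, theta_J Z.toQuad hF _ fun i => Real.exp_pos _]
    have e4 : Z.toQuad.ft (Z.fJ s uJ p.1 p.2) = fun η => Z.κ0 * Z.psi (con M q) *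
        ((absN q : ℝ) : ℂ)⁻¹ * ((absN (νJ + dv (p.1 : F)) : ℝ) : ℂ) *
        Z.fJ (Z.FT s) u ((p.1⁻¹ : Fˣ) : F) (p.2 + con M (νJ + dv (p.1 : F) - q)) η := by
      funext η
      exact hyp.ft_tf hs η
    change Z.toQuad.theta (Z.toQuad.ft (Z.fJ s uJ p.1 p.2)) _ _ = _
    rw [e4]
    unfold Quad.theta
    simp_rw [mul_assoc (Z.κ0 * Z.psi (con M q) * ((absN q : ℝ) : ℂ)⁻¹ *
      ((absN (νJ + dv (p.1 : F)) : ℝ) : ℂ))]
    rw [tsum_mul_left]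
    ring
  simp_rw [e3] at h1
  rw [integral_const_mul, ← h2, absN_add, ← prod_norm_sq Z.A p.1.ne_zero, ← hN] at h1
  refine mul_left_cancel₀ hNC ?_
  rw [← mul_assoc, h1]
  push_cast
  field_simp

/-! ### The class map -/

variable (Z)

/-- compatibility of three divisors -/
structure Jq (ν νJ q : Dv F) : Prop where
  νJ0 : ∀ w ∈ Z.S, νJ w = 0
  qS : ∀ w ∈ Z.S, q w = 0
  sum : ν + νJ = q + q

variable {Z}

theorem JDat.jq {ν νJ q : Dv F} {u uJ : F} (h : Z.JDat ν νJ q u uJ) : Z.Jq ν νJ q :=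
  ⟨h.νJ0, h.qS, h.sum⟩

theorem JDat.jq' {ν νJ q : Dv F} {u uJ : F} (h : Z.JDat ν νJ q u uJ) : Z.Jq νJ ν q :=
  ⟨h.ν0, h.qS, by rw [add_comm]; exact h.sum⟩

/-- the map of pairs -/
noncomputable def Jq.toJ {ν νJ q : Dv F} (h : Z.Jq ν νJ q) (p : Z.J νJ) : Z.J ν :=
  ⟨((p : Fˣ × Dv M).1⁻¹, (p : Fˣ × Dv M).2 + con M (νJ + dv ((p : Fˣ × Dv M).1 : F) - q)), by
    obtain ⟨⟨a, l⟩, hn, hl, hN⟩ := p
    refine ⟨?_, fun P hP => ?_, ?_⟩
    · change Z.Near1 (((a⁻¹ : Fˣ)) : F)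
      rw [Units.val_inv_eq_inv_val]
      exact Z.near1_inv a.ne_zero hn
    · change (l + con M (νJ + dv (a : F) - q)) P = 0
      have hP' : SUH.below F P ∈ Z.S := hP
      rw [Finsupp.add_apply, con_apply, Finsupp.sub_apply, Finsupp.add_apply, h.νJ0 _ hP', h.qS _ hP',
        dv_apply, Z.near1_ov hn hP']
      have := hl P hP
      simp only at this
      rw [this]; rfl
    · change Z.Nm (l + con M (νJ + dv (a : F) - q)) + dv (((a⁻¹ : Fˣ)) : F) + ν + Z.δ = 0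
      have h1 : Z.Nm l + dv (a : F) + νJ + Z.δ = 0 := hN
      rw [map_add, Quad.Nm_con, Units.val_inv_eq_inv_val, dv_inv]
      have h2 : ν = q + q - νJ := by rw [← h.sum]; abel
      rw [h2, ← h1]
      abel⟩

/-- the conjugate inverse of a multiplier -/
noncomputable def cinv (m : Z.US) : Z.US :=
  ⟨(Units.map (Z.c : M →* M) (m : Mˣ))⁻¹, inv_mem fun P hP => by
    have hP' : Z.Bad (Z.cP P) := Z.bad_cP_br.mpr hP
    have h1 := m.2 _ hP'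
    change P.valuation M (Z.c ((m : Mˣ) : M)) = 1 ∧ P.valuation M (Z.c ((m : Mˣ) : M) - 1) ≤ _
    rw [← Z.toQuad.val_cP]
    refine ⟨h1.1, ?_⟩
    have h2 : Z.c ((m : Mˣ) : M) - 1 = Z.c (((m : Mˣ) : M) - 1) := by rw [map_sub, map_one]
    rw [h2, ← Z.toQuad.val_cP]
    exact h1.2⟩

theorem con_dv_nrm {m : Mˣ} (hm : m ∈ Z.US) :
    con M (dv (nrm (F := F) (m : M))) = dv (m : M) + dv (Z.c (m : M)) := by
  ext P
  rw [con_apply, Finsupp.add_apply, dv_apply, dv_apply, dv_apply, ← Z.toQuad.ov_cP]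
  by_cases hP : Z.Bad P
  · rw [Z.near1_ov (Z.US_nrm' hm) hP, Z.US_ov hm hP, Z.US_ov hm (Z.bad_cP_br.mpr hP), add_zero]
  · exact Z.toQuad.ov_nrm (Z.unr _ hP) m.ne_zero

theorem Jq.toJ_smul {ν νJ q : Dv F} (h : Z.Jq ν νJ q) (m : Z.US) (p : Z.J νJ) :
    h.toJ (m • p) = cinv m • h.toJ p := by
  apply Subtype.ext
  have hc : nU (F := F) ((cinv m : Z.US) : Mˣ) = (nU (m : Mˣ))⁻¹ := by
    change nU (F := F) ((Units.map (Z.c : M →* M) (m : Mˣ))⁻¹) = _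
    rw [map_inv]
    congr 1
    apply Units.ext
    exact Z.toQuad.nrm_c _
  refine Prod.ext ?_ ?_
  · change ((p : Fˣ × Dv M).1 / nU (m : Mˣ))⁻¹ = (p : Fˣ × Dv M).1⁻¹ / nU ((cinv m : Z.US) : Mˣ)
    rw [hc]
    simp [div_eq_mul_inv, mul_comm]
  · change (p : Fˣ × Dv M).2 + dv ((m : Mˣ) : M) +
        con M (νJ + dv ((((p : Fˣ × Dv M).1 / nU (m : Mˣ) : Fˣ)) : F) - q) =
      (p : Fˣ × Dv M).2 + con M (νJ + dv ((p : Fˣ × Dv M).1 : F) - q) +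
        dv (((Units.map (Z.c : M →* M) (m : Mˣ))⁻¹ : Mˣ) : M)
    have h1 : ((((p : Fˣ × Dv M).1 / nU (m : Mˣ) : Fˣ)) : F) =
        ((p : Fˣ × Dv M).1 : F) / nrm ((m : Mˣ) : M) := by
      rw [Units.val_div_eq_div_val, nU_coe]
    have h2 : (((Units.map (Z.c : M →* M) (m : Mˣ))⁻¹ : Mˣ) : M) = (Z.c ((m : Mˣ) : M))⁻¹ := by
      rw [Units.val_inv_eq_inv_val]; rfl
    rw [h1, h2, dv_inv, dv_div (Units.ne_zero _) (nrm_ne_zero (Units.ne_zero _))]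
    have h3 : νJ + (dv ((p : Fˣ × Dv M).1 : F) - dv (nrm ((m : Mˣ) : M))) - q =
        νJ + dv ((p : Fˣ × Dv M).1 : F) - q - dv (nrm ((m : Mˣ) : M)) := by abel
    rw [h3, map_sub (con M) (νJ + dv ((p : Fˣ × Dv M).1 : F) - q), con_dv_nrm m.2]
    abel

/-- the map of classes -/
noncomputable def Jq.toCl {ν νJ q : Dv F} (h : Z.Jq ν νJ q) : Z.Cl νJ → Z.Cl ν :=
  Quotient.map' h.toJ (by
    rintro p r ⟨m, hm⟩
    refine ⟨cinv m, ?_⟩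
    simp only at hm
    simp only
    rw [← hm, h.toJ_smul])

theorem Jq.toCl_mk {ν νJ q : Dv F} (h : Z.Jq ν νJ q) (p : Z.J νJ) :
    h.toCl (Quotient.mk'' p : Z.Cl νJ) = Quotient.mk'' (h.toJ p) := rfl

theorem Jq.toJ_toJ {ν νJ q : Dv F} (h : Z.Jq ν νJ q) (h' : Z.Jq νJ ν q) (p : Z.J νJ) :
    h'.toJ (h.toJ p) = p := by
  apply Subtype.ext
  refine Prod.ext (inv_inv _) ?_
  change (p : Fˣ × Dv M).2 + con M (νJ + dv ((p : Fˣ × Dv M).1 : F) - q) +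
    con M (ν + dv ((((p : Fˣ × Dv M).1⁻¹ : Fˣ)) : F) - q) = _
  rw [Units.val_inv_eq_inv_val, dv_inv, add_assoc, ← map_add]
  have h1 : νJ + dv ((p : Fˣ × Dv M).1 : F) - q + (ν + -dv ((p : Fˣ × Dv M).1 : F) - q) = 0 := by
    have h2 : ν = q + q - νJ := by rw [← h.sum]; abel
    rw [h2]; abel
  rw [h1, map_zero, add_zero]

theorem Jq.toCl_bijective {ν νJ q : Dv F} (h : Z.Jq ν νJ q) (h' : Z.Jq νJ ν q) :
    Function.Bijective h.toCl := by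
  refine Function.bijective_iff_has_inverse.mpr ⟨h'.toCl, fun c => ?_, fun c => ?_⟩
  · obtain ⟨p, rfl⟩ := Quotient.exists_rep c
    change h'.toCl (h.toCl (Quotient.mk'' p : Z.Cl νJ)) = Quotient.mk'' p
    rw [toCl_mk, toCl_mk, h.toJ_toJ h']
  · obtain ⟨p, rfl⟩ := Quotient.exists_rep c
    change h.toCl (h'.toCl (Quotient.mk'' p : Z.Cl ν)) = Quotient.mk'' p
    rw [toCl_mk, toCl_mk, h'.toJ_toJ h]

/-! ### The terms -/

theorem psi_toJ {ν νJ q : Dv F} (h : Z.Jq ν νJ q) (p : Z.J νJ) :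
    Z.psi ((h.toJ p : Z.J ν) : Fˣ × Dv M).2 * Z.psi (con M q) =
      Z.psi (con M Z.δ) * Z.psi (p : Fˣ × Dv M).2 := by
  obtain ⟨⟨a, l⟩, hn, hl, hN⟩ := p
  change Z.psi (l + con M (νJ + dv (a : F) - q)) * Z.psi (con M q) = Z.psi (con M Z.δ) * Z.psi l
  have h1 : Z.Nm l + dv (a : F) + νJ + Z.δ = 0 := hN
  have h2 : νJ + dv (a : F) - q = -Z.Nm l + -Z.δ + -q := by
    have : νJ + dv (a : F) = -Z.Nm l + -Z.δ := by
      rw [← sub_eq_zero, ← h1]; abel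
    rw [this]; abel
  have hδ : ∀ w ∈ Z.S, Z.δ w = 0 := fun w hw => Z.off_of_mem _ hw
  have hNl : ∀ w ∈ Z.S, Z.Nm l w = 0 := fun w hw => by
    have hb : Z.Bad (up M w) := by unfold Bad; rw [below_up]; exact hw
    have e1 := hl _ hb
    have e2 := hl _ (Z.bad_cP_br.mpr hb)
    rw [Quad.Nm_apply]
    simp only at e1 e2
    rw [e1, e2, add_zero]
  rw [h2, psi_add, map_add, map_add, psi_add, psi_add, Z.psi_con_neg _ hNl, Z.psi_con_neg _ hδ,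
    Z.psi_con_neg _ h.qS, Z.psi_con_Nm l hl, mul_assoc, mul_assoc, Z.psi_con_sq q h.qS]
  ring

theorem JDat.Term_toJ {ν νJ q : Dv F} {u uJ : F} (h : Z.JDat ν νJ q u uJ) (T : Tor Z.toQuad.qa)
    {s : M → ℂ} (hs : Z.IsSch s) (p : Z.J νJ) (P : XI Z.A) :
    ((∏ i, ((JJ F • P) i).t : ℝ) : ℂ) * Z.Term T s uJ (JJ F • P) (p : Fˣ × Dv M) =
      Z.κ0 * Z.psi (con M Z.δ) * ((absN q : ℝ) : ℂ)⁻¹ * ((absN νJ : ℝ) : ℂ) *
        (((∏ i, (P i).t : ℝ) : ℂ) * Z.Term T (Z.FT s) u P (h.jq.toJ p : Z.J ν)) := by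
  have h1 := h.PsiJ_J T hs p.2 P
  have h2 := psi_toJ h.jq p
  have hp0 := Z.psi_ne_zero (p : Fˣ × Dv M).2
  have hp1 := Z.psi_ne_zero ((h.jq.toJ p : Z.J ν) : Fˣ × Dv M).2
  have hδ : ∀ w ∈ Z.S, Z.δ w = 0 := fun w hw => Z.off_of_mem _ hw
  have hd := Z.psi_con_sq Z.δ hδ
  have hq := Z.psi_con_sq q h.qS
  have h3 : (Z.psi (p : Fˣ × Dv M).2)⁻¹ * Z.psi (con M q) =
      Z.psi (con M Z.δ) * (Z.psi ((h.jq.toJ p : Z.J ν) : Fˣ × Dv M).2)⁻¹ := by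
    field_simp
    have h4 : Z.psi (con M Z.δ) * (Z.psi ((h.jq.toJ p : Z.J ν) : Fˣ × Dv M).2 * Z.psi (con M q)) =
        Z.psi (p : Fˣ × Dv M).2 := by
      rw [h2, ← mul_assoc, hd, one_mul]
    linear_combination h2
  unfold Term
  change _ * ((Z.psi (p : Fˣ × Dv M).2)⁻¹ * _) = _ * (_ * ((Z.psi ((h.jq.toJ p : Z.J ν) : Fˣ × Dv M).2)⁻¹ *
    Z.PsiJ T (Z.FT s) u (((p : Fˣ × Dv M).1⁻¹ : Fˣ) : F)
      ((p : Fˣ × Dv M).2 + con M (νJ + dv ((p : Fˣ × Dv M).1 : F) - q)) P))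
  rw [mul_left_comm, h1]
  linear_combination (Z.κ0 * ((absN q : ℝ) : ℂ)⁻¹ * ((absN νJ : ℝ) : ℂ) *
        (((∏ i, (P i).t : ℝ) : ℂ) * Z.PsiJ T (Z.FT s) u (((p : Fˣ × Dv M).1⁻¹ : Fˣ) : F)
      ((p : Fˣ × Dv M).2 + con M (νJ + dv ((p : Fˣ × Dv M).1 : F) - q)) P)) * h3

/-- **The relation under the inversion, for the Whittaker series.** -/
theorem JDat.Phi_J {ν νJ q : Dv F} {u uJ : F} (h : Z.JDat ν νJ q u uJ)
    {s : M → ℂ} (hs : Z.IsSch s) (P : XI Z.A) :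
    Z.Phi s νJ uJ (JJ F • P) = Z.κ0 * Z.psi (con M Z.δ) * Z.Phi (Z.FT s) ν u P := by
  obtain ⟨T, hT⟩ := Z.toQuad.qa.exists_tor Z.𝔣 Z.𝔣_ne_bot
  have h1 : Z.Phi s νJ uJ (JJ F • P) = _ := (Z.hasSum_Phi T hT hs νJ uJ (JJ F • P)).tsum_eq
  have h2 : Z.Phi (Z.FT s) ν u P = _ := (Z.hasSum_Phi T hT (Z.isSch_FT s) ν u P).tsum_eq
  rw [h1, h2]
  have hfin := Z.finite_Cl ν
  have hfinJ := Z.finite_Cl νJ
  have := Fintype.ofFinite (Z.Cl ν)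
  have := Fintype.ofFinite (Z.Cl νJ)
  rw [finsum_eq_sum_of_fintype, finsum_eq_sum_of_fintype, mul_assoc (Z.κT T * (((√(absN νJ))⁻¹ : ℝ) : ℂ)),
    Finset.mul_sum]
  have h3 : ∀ c : Z.Cl νJ, ((∏ i, ((JJ F • P) i).t : ℝ) : ℂ) *
      Z.Term T s uJ (JJ F • P) (Quotient.out c : Z.J νJ) =
      Z.κ0 * Z.psi (con M Z.δ) * ((absN q : ℝ) : ℂ)⁻¹ * ((absN νJ : ℝ) : ℂ) *
        (((∏ i, (P i).t : ℝ) : ℂ) * Z.Term T (Z.FT s) u P (Quotient.out (h.jq.toCl c) : Z.J ν)) := by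
    intro c
    rw [h.Term_toJ T hs]
    have h4 : h.jq.toCl c = Quotient.mk'' (h.jq.toJ (Quotient.out c)) := by
      conv_lhs => rw [← Quotient.out_eq' c]
      rfl
    rw [h4, Z.Term_out T hT (Z.isSch_FT s)]
  rw [Finset.sum_congr rfl fun c _ => h3 c, ← Finset.mul_sum, ← Finset.mul_sum]
  have h5 : ∑ c : Z.Cl νJ, Z.Term T (Z.FT s) u P (Quotient.out (h.jq.toCl c) : Z.J ν) =
      ∑ c : Z.Cl ν, Z.Term T (Z.FT s) u P (Quotient.out c : Z.J ν) :=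
    (Function.Bijective.sum_comp (h.jq.toCl_bijective h.jq')
      fun c : Z.Cl ν => Z.Term T (Z.FT s) u P (Quotient.out c : Z.J ν))
  rw [h5]
  have e1 : absN ν * absN νJ = absN q * absN q := by rw [← absN_add, h.sum, absN_add]
  have e2 : (√(absN νJ))⁻¹ * (absN q)⁻¹ * absN νJ = (√(absN ν))⁻¹ := by
    have p1 := absN_pos ν
    have p2 := absN_pos νJ
    have p3 := absN_pos q
    have s1 := Real.sqrt_pos.mpr p1
    have s2 := Real.sqrt_pos.mpr p2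
    have e3 : absN q = √(absN ν) * √(absN νJ) := by
      rw [← Real.sqrt_mul p1.le, e1, Real.sqrt_mul_self p3.le]
    rw [e3]
    nth_rewrite 3 [← Real.mul_self_sqrt p2.le]
    field_simp
  have e4 : (((√(absN νJ))⁻¹ : ℝ) : ℂ) * ((absN q : ℝ) : ℂ)⁻¹ * ((absN νJ : ℝ) : ℂ) =
      (((√(absN ν))⁻¹ : ℝ) : ℂ) := by
    rw [← e2]; push_cast; ring
  linear_combination (Z.κT T * Z.κ0 * Z.psi (con M Z.δ) * ((∏ i, (P i).t : ℝ) : ℂ) *
    ∑ c : Z.Cl ν, Z.Term T (Z.FT s) u P (Quotient.out c : Z.J ν)) * e4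

theorem JJ_eq_J0 : JJ F = J0 := rfl

variable (Z)

/-- **(J)** The relation under the inversion for the functions on `X`. -/
theorem fn_J {U : Level F} {s : M → ℂ} (hs : Z.IsSch s) : ∃ κ0 : ℂ, ∀ (hU : Z.Good U) (P : XI Z.A)
    (y : Y U), Z.fn hU (Z.cS s) ((J0 : G2 F) • P) ((J0 : G2 F) • y) = κ0 * Z.fn hU (Z.cS (Z.FT s)) P y := by
  refine ⟨Z.κ0 * Z.psi (con M Z.δ), fun hU P y => ?_⟩
  obtain ⟨ν, u, h⟩ := Z.exists_Co hU y
  obtain ⟨νJ, uJ, hJ⟩ := Z.exists_Co hU ((J0 : G2 F) • y)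
  obtain ⟨q, hq⟩ := Co.jdat Z hU h hJ
  rw [Z.fn_eq hU (Z.isKap_cS hs) _ (fun w _ => rfl) hJ,
    Z.fn_eq hU (Z.isKap_cS (Z.isSch_FT s)) _ (fun w _ => rfl) h, ← Phi_eq_PhiK, ← Phi_eq_PhiK]
  exact hq.Phi_J hs P

end Setup

end Fermat.Agent.LT.I
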