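import Fermat.Agent.LT.I.WhitSum
import Fermat.Agent.LT.B.ConstTerm
import Fermat.Agent.LT.B.Cusp
import Fermat.Agent.LT.A.XMeas

/-!
# LT, piece I: functions given by Whittaker series are cusp forms
-/

set_option autoImplicit false
set_option linter.unusedSectionVars false

open NumberField IsDedekindDomain Matrix WithZero Module MeasureTheory Set
open scoped Real

namespace Fermat.Agent.LT.I

open Fermat.LT Fermat.Agent.LT.CArch Fermat.Agent.LT.H Fermat.Agent.LT.H.Bessel Fermat.Agent.LT.B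

variable {F : Type} [Field F] [NumberField F]

section arch

variable {A : Arch F}

theorem continuous_whit {β : ℂ} (hβ : β ≠ 0) : Continuous (whit β) := (smoothH_whit hβ).continuous

theorem continuous_W {α : F} (hα : α ≠ 0) : Continuous (W A α) := by
  have h1 : W A α = fun P => ∏ i, whit (A.emb i α) (P i) := funext fun P => W_eq_wI α P
  rw [h1]
  refine continuous_finsetProd _ fun i _ => ?_
  exact (continuous_whit (emb_ne_zero hα i)).comp (continuous_apply i)

theorem eC_eq_prod (α : F) (u : A.I → ℂ) :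
    eC A α u = ∏ i, Complex.exp (((4 * π * (A.emb i α * u i).re : ℝ) : ℂ) * Complex.I) := by
  unfold eC trC
  rw [← Complex.exp_sum]
  congr 1
  push_cast
  rw [Finset.mul_sum]
  refine Finset.sum_congr rfl fun i _ => ?_
  have : (embI A α * u) i = A.emb i α * u i := rfl
  rw [this]
  ring

theorem W_trI (α : F) (u : A.I → ℂ) (P : XI A) : W A α (trI u P) = eC A α u * W A α P := by
  rw [eC_eq_prod]
  unfold W
  rw [← Finset.prod_mul_distrib]
  refine Finset.prod_congr rfl fun i _ => ?_
  have h1 : (trI u P i).t = (P i).t := rfl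
  have h2 : (trI u P i).z = (P i).z + u i := rfl
  rw [h1, h2, mul_add, Complex.add_re, mul_add, Complex.ofReal_add, add_mul, Complex.exp_add]
  ring

theorem eC_add_left (α β : F) (u : A.I → ℂ) : eC A (α + β) u = eC A α u * eC A β u := by
  unfold eC
  rw [map_add, add_mul, trC_add, ← Complex.exp_add]
  congr 1
  push_cast
  ring

theorem eC_embI (α β : F) : eC A α (embI A β) = ef (α * β) := by
  unfold eC ef
  rw [← map_mul, trC_embI]

theorem eC_zero_right (α : F) : eC A α 0 = 1 := by
  unfold eC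
  rw [mul_zero]
  simp [trC]

/-- periodicity under a common period basis -/
theorem exists_dual_basis (A : Arch F) (d : Dv F) :
    ∃ (n : ℕ) (b : Module.Basis (Fin n) ℝ (A.I → ℂ)), ∀ l, ∀ α ∈ InL d, eC A α (b l) = 1 := by
  obtain ⟨N, hN, hden⟩ := exists_den_InL d
  have hNR : (N : ℝ) ≠ 0 := by exact_mod_cast hN
  let e := Fintype.equivFin (Module.Free.ChooseBasisIndex ℤ (𝓞 F))
  let b : Module.Basis _ ℝ (A.I → ℂ) := ((latB A).map
    (LinearEquiv.smulOfNeZero ℝ (A.I → ℂ) (N : ℝ) hNR)).reindex e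
  refine ⟨_, b, fun l α hα => ?_⟩
  set ω : 𝓞 F := RingOfIntegers.basis F (e.symm l) with hω
  have h1 : b l = (N : ℝ) • latB A (e.symm l) := by
    simp only [b, Module.Basis.reindex_apply, Module.Basis.map_apply,
      LinearEquiv.smulOfNeZero_apply]
  have hb : b l = embI A ((N : F) * (ω : F)) := by
    rw [h1, latB_apply, integralBasis_apply]
    rw [map_mul, map_natCast]
    funext i
    simp only [Pi.smul_apply, Pi.mul_apply, Pi.natCast_apply, Complex.real_smul,
      Complex.ofReal_natCast]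
    rfl
  have hint : IsIntegral ℤ (α * ((N : F) * (ω : F))) := by
    have h2 : α * ((N : F) * (ω : F)) = ((N : F) * α) * (ω : F) := by ring
    rw [h2]
    exact (hden α hα).mul ω.isIntegral_coe
  obtain ⟨m, hm⟩ : ∃ m : ℤ, (m : ℚ) = Algebra.trace ℚ F (α * ((N : F) * (ω : F))) :=
    IsIntegrallyClosed.isIntegral_iff.mp (Algebra.isIntegral_trace hint)
  rw [hb]
  refine eC_eq_one_of_int A (m := m) ?_
  rw [← map_mul, trC_embI, ← hm, Rat.cast_intCast]

/-- box means of characters -/
theorem boxMean_eC {n : ℕ} (b : Module.Basis (Fin n) ℝ (A.I → ℂ)) {α : F} (hα : α ≠ 0)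
    (hb : ∀ l, eC A α (b l) = 1) : boxMean b (eC A α) 0 = 0 := by
  obtain ⟨w⟩ : Nonempty (InfinitePlace F) := inferInstance
  have i0 : A.I := A.equiv.symm w
  have hper : ∀ l v, eC A α (v + b l) = eC A α v := fun l v => by rw [eC_add, hb, mul_one]
  have h1 := fun v => boxMean_eq_zero_point b (continuous_eC A α) hper v
  have h2 : ∀ v, boxMean b (eC A α) v = eC A α v * boxMean b (eC A α) 0 := by
    intro v
    unfold boxMean
    rw [← integral_const_mul]
    refine integral_congr_ae (Filter.Eventually.of_forall fun s => ?_)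
    simp only
    rw [eC_add, zero_add]
  set v0 : A.I → ℂ := Pi.single i0 (4 * A.emb i0 α)⁻¹ with hv0
  have h3 : eC A α v0 = -1 := by
    rw [eC_eq_prod, Finset.prod_eq_single i0]
    · have h4 : A.emb i0 α * v0 i0 = (1/4 : ℝ) := by
        have := emb_ne_zero (A := A) hα i0
        rw [hv0, Pi.single_eq_same]
        push_cast
        field_simp
      rw [h4, Complex.ofReal_re, show 4 * π * (1/4) = π by ring, Complex.exp_pi_mul_I]
    · intro j _ hj
      rw [hv0, Pi.single_eq_of_ne hj]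
      simp
    · intro h; exact absurd (Finset.mem_univ i0) h
  have h4 := h2 v0
  rw [h1 v0, h3] at h4
  have h5 : (2 : ℂ) * boxMean b (eC A α) 0 = 0 := by linear_combination h4
  rcases mul_eq_zero.1 h5 with h | h
  · norm_num at h
  · exact h

theorem boxMean_one {n : ℕ} (b : Fin n → (A.I → ℂ)) (v : A.I → ℂ) : boxMean b (fun _ => (1:ℂ)) v = 1 := by
  unfold boxMean
  rw [setIntegral_const]
  simp [measureReal_def, volume_real_box]

/-- box means of series -/
theorem hasSum_boxMean {ι κ V : Type*} [Fintype ι] [Countable κ] [AddCommGroup V] [Module ℝ V]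
    [TopologicalSpace V] [ContinuousAdd V] [ContinuousSMul ℝ V] (b : ι → V) {f : κ → V → ℂ}
    {g : V → ℂ} (hf : ∀ k, Continuous (f k)) {u : κ → ℝ} (hu : Summable u)
    (hb : ∀ k v, ‖f k v‖ ≤ u k) (hs : ∀ v, HasSum (fun k => f k v) (g v)) (v : V) :
    HasSum (fun k => boxMean b (f k) v) (boxMean b g v) := by
  unfold boxMean
  refine hasSum_integral_of_dominated_convergence (fun k _ => u k) (fun k => ?_) (fun k => ?_) ?_ ?_ ?_
  · exact ((hf k).comp (continuous_box_arg b v)).aestronglyMeasurable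
  · exact Filter.Eventually.of_forall fun s => hb k _
  · exact Filter.Eventually.of_forall fun s => hu
  · rw [← IntegrableOn]
    refine integrableOn_const ?_
    rw [volume_real_box]; simp
  · exact Filter.Eventually.of_forall fun s => hs _

end arch

variable {D : Datum F}

/-- invariant functions given by Whittaker series -/
structure Whit (φ : X D → ℂ) (c : Y D.toLevel → Fˣ → ℂ) : Prop where
  inv : ∀ (g : PG F) x, φ (g • x) = φ x
  hexp : ∀ y P, HasSum (fun α : Fˣ => c y α * W D.toArch α P) (φ (P, y))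
  lat : ∀ y, ∃ d : Dv F, ∀ α, c y α ≠ 0 → (α : F) ∈ InL d
  bd : ∀ y, ∃ (C : ℝ) (K : ℕ), ∀ α, ‖c y α‖ ≤ C * (∏ i, ‖D.emb i (α : F)‖) ^ K

namespace Whit

variable {φ : X D → ℂ} {c : Y D.toLevel → Fˣ → ℂ}

theorem cf (h : Whit φ c) (y : Y D.toLevel) : Cf D.toArch (c y) := ⟨h.lat y, h.bd y⟩

/-- **(1)** continuity -/
theorem continuous (h : Whit φ c) : Continuous φ := by
  rw [continuous_prod_of_discrete_right]
  intro y
  have h1 : (fun P : XI D.toArch => φ (P, y)) = fun P => ∑' α : Fˣ, c y α * W D.toArch α P :=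
    funext fun P => ((h.hexp y P).tsum_eq).symm
  rw [h1, continuous_iff_continuousAt]
  intro P0
  obtain ⟨i0⟩ := Arch.nonempty D.toArch
  obtain ⟨a, ha, hPa⟩ : ∃ a : ℝ, 0 < a ∧ ∀ i, a < (P0 i).t := by
    obtain ⟨j, -, hj⟩ := Finset.exists_min_image Finset.univ (fun i => (P0 i).t) ⟨i0, Finset.mem_univ _⟩
    refine ⟨(P0 j).t / 2, by have := (P0 j).t_pos; linarith, fun i => ?_⟩
    have h2 := hj i (Finset.mem_univ i)
    have h3 := (P0 j).t_pos
    linarith
  obtain ⟨u, κ, hu, hu0, hκ, hb⟩ := (h.cf y).dom ha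
  have hopen : IsOpen {P : XI D.toArch | ∀ i, a < (P i).t} := by
    have : {P : XI D.toArch | ∀ i, a < (P i).t} = ⋂ i, {P : XI D.toArch | a < (P i).t} := by
      ext P; simp
    rw [this]
    exact isOpen_iInter_of_finite fun i =>
      isOpen_lt continuous_const (H3.continuous_t.comp (continuous_apply i))
  have hcont : ContinuousOn (fun P : XI D.toArch => ∑' α : Fˣ, c y α * W D.toArch α P)
      {P : XI D.toArch | ∀ i, a < (P i).t} := by
    refine continuousOn_tsum (u := u) (fun α => ?_) hu fun α P hP => ?_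
    · exact (continuous_const.mul (continuous_W α.ne_zero)).continuousOn
    · refine (hb α P a le_rfl fun i => (hP i).le).trans ?_
      refine mul_le_of_le_one_right (hu0 α) ?_
      rw [Real.exp_le_one_iff]
      have : 0 ≤ κ * a := by positivity
      linarith
  exact hcont.continuousAt (hopen.mem_nhds hPa)

theorem isAut (h : Whit φ c) : IsAut φ := ⟨h.continuous, h.inv⟩

/-- bound by an exponential -/
theorem exists_bound (h : Whit φ c) (y : Y D.toLevel) {a : ℝ} (ha : 0 < a) :
    ∃ B κ : ℝ, 0 ≤ B ∧ 0 < κ ∧ ∀ (P : XI D.toArch) (b : ℝ), a ≤ b → (∀ i, b ≤ (P i).t) →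
      ‖φ (P, y)‖ ≤ B * Real.exp (-(κ * b)) := by
  obtain ⟨u, κ, hu, hu0, hκ, hb⟩ := (h.cf y).dom ha
  refine ⟨∑' α, u α, κ, tsum_nonneg hu0, hκ, fun P b hab hP => ?_⟩
  rw [← (h.hexp y P).tsum_eq, ← tsum_mul_right]
  exact tsum_of_norm_bounded (hu.mul_right _).hasSum fun α => hb α P b hab hP

/-- **(2)** rapid decay -/
theorem decay (h : Whit φ c) (M : ℕ) : ∃ C : ℝ, ∀ (x : X D) (v : Fin 2 → F), v ≠ 0 →
    ‖φ x‖ * ht v x ^ M ≤ C := by
  classical
  obtain ⟨i0⟩ := Arch.nonempty D.toArch
  obtain ⟨Y₀, C, a, hC, ha, hsieg⟩ := siegel D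
  obtain ⟨H, hH0, hH⟩ := ht_le_of_siegel Y₀ hC ha
  set r := Fintype.card D.I with hr
  have hC0 : 0 < C := by linarith
  -- a bound for each `y`
  have key : ∀ y : Y D.toLevel, ∃ B : ℝ, 0 ≤ B ∧ ∀ P : XI D.toArch,
      (∀ i j, (P i).t ≤ C * (P j).t) → (∀ i, a ≤ (P i).t) →
      ‖φ (P, y)‖ * (P i0).t ^ (2 * r * M) ≤ B := by
    intro y
    have ha' : 0 < a / C := by positivity
    obtain ⟨B, κ, hB0, hκ, hB⟩ := h.exists_bound y ha'
    obtain ⟨E, hE0, hE⟩ := pow_mul_exp_le (2 * r * M) (a := κ / C) (by positivity)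
    refine ⟨B * E, by positivity, fun P hcomp hct => ?_⟩
    have hT := (P i0).t_pos
    have h1 := hB P ((P i0).t / C) (by gcongr; exact hct i0) fun i => by
      rw [div_le_iff₀ hC0, mul_comm]; exact hcomp i0 i
    calc ‖φ (P, y)‖ * (P i0).t ^ (2 * r * M)
        ≤ (B * Real.exp (-(κ * ((P i0).t / C)))) * (P i0).t ^ (2 * r * M) := by gcongr
      _ = B * ((P i0).t ^ (2 * r * M) * Real.exp (-(κ / C * (P i0).t))) := by
        rw [show κ * ((P i0).t / C) = κ / C * (P i0).t by ring]; ring
      _ ≤ B * E := by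
        gcongr
        exact hE _ hT.le
  choose B hB0 hB using key
  refine ⟨H ^ M * ∑ y ∈ Y₀, B y, fun x v hv => ?_⟩
  obtain ⟨γ, hγ⟩ := hsieg x
  obtain ⟨hxY, hz, hcomp, hct⟩ := id hγ
  obtain ⟨g, rfl⟩ := Matrix.ProjGenLinGroup.mk_surjective γ
  have h3 := hB (g • x).2 (g • x).1 hcomp hct
  have h4 : B (g • x).2 ≤ ∑ y ∈ Y₀, B y :=
    Finset.single_le_sum (f := fun y => B y) (fun y _ => hB0 y) hxY
  have h5 : ht v x ≤ H * ((g • x).1 i0).t ^ (2 * r) := by
    rw [← ht_equiv g hv x]
    exact hH (g • x) hγ i0 _ (mulVec_ne hv g)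
  have hT := ((g • x).1 i0).t_pos
  have h6 : 0 < ht v x := ht_pos hv x
  have hinv : φ x = φ (g • x) := (h.inv (pmk g) x).symm
  rw [hinv]
  calc ‖φ (g • x)‖ * ht v x ^ M
      ≤ ‖φ (g • x)‖ * (H * ((g • x).1 i0).t ^ (2 * r)) ^ M := by gcongr
    _ = H ^ M * (‖φ (g • x)‖ * ((g • x).1 i0).t ^ (2 * r * M)) := by
        rw [mul_pow, pow_mul _ (2 * r) M]; ring
    _ ≤ H ^ M * ∑ y ∈ Y₀, B y := by
        gcongr
        exact h3.trans h4

/-- the expansion along translations -/
theorem hasSum_trX (h : Whit φ c) (y : Y D.toLevel) (P : XI D.toArch) (u : D.I → ℂ) :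
    HasSum (fun α : Fˣ => c y α * W D.toArch α P * eC D.toArch α u) (φ (trX u (P, y))) := by
  have h1 := h.hexp y (trI u P)
  refine (h1.congr_fun fun α => ?_)
  rw [W_trI]; ring

open Classical in
/-- **Fourier coefficients** -/
theorem hasSum_mean (h : Whit φ c) (y : Y D.toLevel) (P : XI D.toArch) {d : Dv F}
    (hd : ∀ α, c y α ≠ 0 → (α : F) ∈ InL d) {n : ℕ} (b : Module.Basis (Fin n) ℝ (D.I → ℂ))
    (hb : ∀ l, ∀ α ∈ InL d, eC D.toArch α (b l) = 1) {β : F} (hβ : β ∈ InL d) :
    HasSum (fun α : Fˣ => if (α : F) = β then c y α * W D.toArch α P else 0)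
      (boxMean b (fun u => eC D.toArch (-β) u * φ (trX u (P, y))) 0) := by
  have := countable_field F
  have : Countable Fˣ := Units.val_injective.countable
  obtain ⟨i0⟩ := Arch.nonempty D.toArch
  obtain ⟨a, ha, hPa⟩ : ∃ a : ℝ, 0 < a ∧ ∀ i, a ≤ (P i).t := by
    obtain ⟨j, -, hj⟩ := Finset.exists_min_image Finset.univ (fun i => (P i).t) ⟨i0, Finset.mem_univ _⟩
    exact ⟨(P j).t, (P j).t_pos, fun i => hj i (Finset.mem_univ i)⟩
  obtain ⟨u, κ, hu, hu0, hκ, hub⟩ := (h.cf y).dom ha
  have h1 := hasSum_boxMean b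
    (f := fun (α : Fˣ) u => eC D.toArch (-β) u * (c y α * W D.toArch α P * eC D.toArch α u))
    (g := fun u => eC D.toArch (-β) u * φ (trX u (P, y)))
    (fun α => (continuous_eC _ _).mul (continuous_const.mul (continuous_eC _ _)))
    (hu.mul_right (Real.exp (-(κ * a))))
    (fun α v => by
      rw [norm_mul, norm_eC, one_mul, norm_mul _ (eC D.toArch α v), norm_eC, mul_one]
      exact hub α P a le_rfl hPa)
    (fun v => (h.hasSum_trX y P v).mul_left _) 0
  refine h1.congr_fun fun α => ?_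
  have h2 : boxMean b (fun u => eC D.toArch (-β) u * (c y α * W D.toArch α P * eC D.toArch α u)) 0 =
      (c y α * W D.toArch α P) * boxMean b (eC D.toArch ((α : F) - β)) 0 := by
    unfold boxMean
    rw [← integral_const_mul]
    refine integral_congr_ae (Filter.Eventually.of_forall fun s => ?_)
    simp only
    rw [sub_eq_add_neg, eC_add_left]
    ring
  rw [h2]
  by_cases hαβ : (α : F) = β
  · rw [if_pos hαβ, hαβ, sub_self]
    have h3 : eC D.toArch (0 : F) = fun _ => (1 : ℂ) := funext fun u => eC_zero D.toArch u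
    rw [h3, boxMean_one, mul_one]
  · rw [if_neg hαβ]
    by_cases hc : c y α = 0
    · rw [hc]; simp
    · rw [boxMean_eC b (sub_ne_zero.2 hαβ) (fun l => hb l _ (sub_mem (hd α hc) hβ)), mul_zero]

theorem mean_eq (h : Whit φ c) (y : Y D.toLevel) (P : XI D.toArch) {d : Dv F}
    (hd : ∀ α, c y α ≠ 0 → (α : F) ∈ InL d) {n : ℕ} (b : Module.Basis (Fin n) ℝ (D.I → ℂ))
    (hb : ∀ l, ∀ α ∈ InL d, eC D.toArch α (b l) = 1) {β : Fˣ} (hβ : (β : F) ∈ InL d) :
    boxMean b (fun u => eC D.toArch (-(β : F)) u * φ (trX u (P, y))) 0 = c y β * W D.toArch β P := by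
  have h1 := h.hasSum_mean y P hd b hb hβ
  have h2 := h1.tsum_eq
  rw [← h2, tsum_eq_single β]
  · rw [if_pos rfl]
  · intro α hα
    rw [if_neg fun h => hα (Units.ext h)]

theorem mean_zero' (h : Whit φ c) (y : Y D.toLevel) (P : XI D.toArch) {d : Dv F}
    (hd : ∀ α, c y α ≠ 0 → (α : F) ∈ InL d) {n : ℕ} (b : Module.Basis (Fin n) ℝ (D.I → ℂ))
    (hb : ∀ l, ∀ α ∈ InL d, eC D.toArch α (b l) = 1) :
    boxMean b (fun u => φ (trX u (P, y))) 0 = 0 := by
  have h1 := h.hasSum_mean y P hd b hb (zero_mem (InL d))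
  have h2 := h1.tsum_eq
  simp only [neg_zero, eC_zero, one_mul, Units.ne_zero, if_false, tsum_zero] at h2
  exact h2.symm

/-- **(3)** vanishing of the constant terms -/
theorem meanZero (h : Whit φ c) : MeanZero φ := by
  rintro ⟨P, y⟩ n b hb
  obtain ⟨d, hd⟩ := h.lat y
  obtain ⟨m, b', hb'⟩ := exists_dual_basis D.toArch d
  have h1 : ∀ l v, φ (trX (v + b' l) (P, y)) = φ (trX v (P, y)) := by
    intro l v
    rw [← (h.hasSum_trX y P (v + b' l)).tsum_eq, ← (h.hasSum_trX y P v).tsum_eq]
    refine tsum_congr fun α => ?_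
    by_cases hc : c y α = 0
    · rw [hc]; simp
    · rw [eC_add, hb' l _ (hd α hc), mul_one]
  rw [boxMean_indep b b' (h.isAut.continuous_tr (P, y)) (fun l v => h.isAut.periodic (P, y) (hb l) v) h1]
  exact h.mean_zero' y P hd b' hb'

/-- **Cusp forms.** -/
theorem isCusp (h : Whit φ c) : IsCusp φ := ⟨h.continuous, h.inv, h.decay, h.meanZero⟩

/-- **(4)** uniqueness of the coefficients -/
theorem coef_eq_zero (h : Whit φ c) (h0 : φ = 0) (y : Y D.toLevel) (α : Fˣ) : c y α = 0 := by
  by_contra hc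
  obtain ⟨d, hd⟩ := h.lat y
  obtain ⟨m, b', hb'⟩ := exists_dual_basis D.toArch d
  have h1 := h.mean_eq y default hd b' hb' (hd α hc)
  rw [h0] at h1
  simp only [Pi.zero_apply, mul_zero] at h1
  have h2 : boxMean b' (fun _ : D.I → ℂ => (0 : ℂ)) 0 = 0 := by
    unfold boxMean; simp
  rw [h2] at h1
  rcases mul_eq_zero.1 h1.symm with h | h
  · exact hc h
  · exact W_ne_zero α.ne_zero _ h

theorem ne_zero (h : Whit φ c) (hc : ∃ y α, c y α ≠ 0) : φ ≠ 0 := by
  obtain ⟨y, α, hc⟩ := hc
  exact fun h0 => hc (h.coef_eq_zero h0 y α)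

/-- the coefficients are supported in the dual of the period lattice -/
theorem ef_eq_one (h : Whit φ c) {y : Y D.toLevel} {α : Fˣ} (hc : c y α ≠ 0) {β : F}
    (hβ : β ∈ bY y) : ef ((α : F) * β) = 1 := by
  obtain ⟨d, hd⟩ := h.lat y
  obtain ⟨m, b', hb'⟩ := exists_dual_basis D.toArch d
  set P : XI D.toArch := default with hP
  set f : (D.I → ℂ) → ℂ := fun u => eC D.toArch (-(α : F)) u * φ (trX u (P, y)) with hf
  have hfc : Continuous f := (continuous_eC _ _).mul (h.isAut.continuous_tr (P, y))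
  have hper : ∀ l v, f (v + b' l) = f v := by
    intro l v
    simp only [hf]
    rw [← (h.hasSum_trX y P (v + b' l)).tsum_eq, ← (h.hasSum_trX y P v).tsum_eq,
      eC_add, hb' l _ (neg_mem (hd α hc)), mul_one]
    congr 1
    refine tsum_congr fun α => ?_
    by_cases hc : c y α = 0
    · rw [hc]; simp
    · rw [eC_add, hb' l _ (hd α hc), mul_one]
  have h1 := boxMean_eq_zero_point b' hfc hper (embI D.toArch β)
  have h2 := h.mean_eq y P hd b' hb' (hd α hc)
  have h3 : boxMean b' f (embI D.toArch β) = eC D.toArch (-(α : F)) (embI D.toArch β) * boxMean b' f 0 := by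
    unfold boxMean
    rw [← integral_const_mul]
    refine integral_congr_ae (Filter.Eventually.of_forall fun s => ?_)
    simp only [hf, zero_add]
    have h4 := h.isAut.periodic (P, y) (w := embI D.toArch β) ⟨β, hβ, rfl⟩ (∑ l, s l • b' l)
    rw [eC_add, add_comm (embI D.toArch β), h4]
    ring
  rw [h1] at h3
  have h5 : boxMean b' f 0 ≠ 0 := by
    change boxMean b' (fun u => eC D.toArch (-(α : F)) u * φ (trX u (P, y))) 0 ≠ 0
    rw [h2]
    exact mul_ne_zero hc (W_ne_zero α.ne_zero _)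
  have h6 : eC D.toArch (-(α : F)) (embI D.toArch β) = 1 :=
    mul_right_cancel₀ h5 (by rw [one_mul]; exact h3.symm)
  have h7 : eC D.toArch (α : F) (embI D.toArch β) * eC D.toArch (-(α : F)) (embI D.toArch β) = 1 := by
    rw [← eC_add_left, add_neg_cancel, eC_zero]
  rw [h6, mul_one, eC_embI] at h7
  exact h7

end Whit

section update

/-- replace one component -/
noncomputable def updA {A : Arch F} (P : XI A) (i : A.I) (R : H3) : XI A :=
  fun j => if j = i then R else P j

theorem updA_self {A : Arch F} (P : XI A) (i : A.I) (R : H3) : updA P i R i = R := if_pos rfl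

theorem updA_ne {A : Arch F} (P : XI A) {i j : A.I} (h : j ≠ i) (R : H3) : updA P i R j = P j :=
  if_neg h

theorem updI_eq (x : X D) (i : D.I) (R : H3) : updI x i R = (updA x.1 i R, x.2) := by
  refine Prod.ext ?_ rfl
  funext j
  by_cases h : j = i
  · subst h
    exact (Function.update_self _ _ _).trans (updA_self x.1 j R).symm
  · exact (Function.update_of_ne h _ _).trans (updA_ne x.1 h R).symm

theorem W_update {A : Arch F} (α : F) (P : XI A) (i : A.I) (R : H3) :
    W A α (updA P i R) =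
      (∏ j ∈ Finset.univ.erase i, whit (A.emb j α) (P j)) * whit (A.emb i α) R := by
  rw [W_eq_wI]
  unfold wI
  rw [← Finset.prod_erase_mul _ _ (Finset.mem_univ i), updA_self]
  congr 1
  refine Finset.prod_congr rfl fun j hj => ?_
  rw [updA_ne _ (Finset.ne_of_mem_erase hj)]

end update

namespace Whit

variable {φ : X D → ℂ} {c : Y D.toLevel → Fˣ → ℂ}

/-- **(5)** the archimedean operators -/
theorem RX_eq (h : Whit φ c) (i : D.I) {g : ℝ → ℂ} (hg : IsTest g) (x : X D) :
    RX i g φ x = hat g 0 * φ x := by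
  obtain ⟨P, y⟩ := x
  have := countable_field F
  have : Countable Fˣ := Units.val_injective.countable
  obtain ⟨V, hV1, hV⟩ := hg.exists_kfun_eq_zero
  -- lower bound of `t` on the support
  obtain ⟨a, ha, haP, haR⟩ : ∃ a : ℝ, 0 < a ∧ (∀ j, a ≤ (P j).t) ∧
      ∀ R : H3, H3.ch (P i) R ≤ V → a ≤ R.t := by
    obtain ⟨j, -, hj⟩ := Finset.exists_min_image Finset.univ (fun i => (P i).t) ⟨i, Finset.mem_univ _⟩
    obtain ⟨R0, -, hR0⟩ := (H3.isCompact_ball (P i) V).exists_isMinOn
      ⟨P i, by rw [H3.mem_ball, H3.ch_self]; exact hV1.le⟩ H3.continuous_t.continuousOn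
    refine ⟨min (P j).t R0.t, lt_min (P j).t_pos R0.t_pos,
      fun k => (min_le_left _ _).trans (hj k (Finset.mem_univ k)),
      fun R hR => (min_le_right _ _).trans (hR0 hR)⟩
  obtain ⟨u, κ, hu, hu0, hκ, hub⟩ := (h.cf y).dom ha
  have hcW : ∀ α : Fˣ, Continuous fun R : H3 => c y α * W D.toArch α (updA P i R) := by
    intro α
    have h1 : (fun R : H3 => c y α * W D.toArch α (updA P i R)) = fun R =>
        c y α * ((∏ j ∈ Finset.univ.erase i, whit (D.emb j α) (P j)) * whit (D.emb i α) R) :=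
      funext fun R => by rw [W_update]
    rw [h1]
    exact continuous_const.mul (continuous_const.mul (continuous_whit (emb_ne_zero α.ne_zero i)))
  have hI := fun α : Fˣ => integrable_kopH hg (hcW α) (P i)
  have hI1 := integrable_kopH hg (φ := fun _ => 1) continuous_const (P i)
  simp only [mul_one] at hI1
  have h1 : HasSum (fun α : Fˣ => ∫ R : H3, kfun g (H3.ch (P i) R) *
      (c y α * W D.toArch α (updA P i R))) (RX i g φ (P, y)) := by
    refine hasSum_integral_of_dominated_convergence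
      (fun α R => ‖kfun g (H3.ch (P i) R)‖ * (u α * Real.exp (-(κ * a))))
      (fun α => (hI α).aestronglyMeasurable) (fun α => ?_) ?_ ?_ ?_
    · refine Filter.Eventually.of_forall fun R => ?_
      rw [norm_mul]
      by_cases hR : H3.ch (P i) R ≤ V
      · refine mul_le_mul_of_nonneg_left (hub α _ a le_rfl fun j => ?_) (norm_nonneg _)
        by_cases hji : j = i
        · subst hji; rw [updA_self]; exact haR R hR
        · rw [updA_ne _ hji]; exact haP j
      · rw [hV _ (not_le.1 hR).le]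
        simp
    · exact Filter.Eventually.of_forall fun R => (hu.mul_right _).mul_left _
    · simp only [tsum_mul_left]
      exact hI1.norm.mul_const _
    · refine Filter.Eventually.of_forall fun R => ?_
      change HasSum _ (kfun g (H3.ch (P i) R) * φ (updI (P, y) i R))
      rw [updI_eq]
      exact (h.hexp y (updA P i R)).mul_left _
  have h2 : HasSum (fun α : Fˣ => hat g 0 * (c y α * W D.toArch α P)) (RX i g φ (P, y)) := by
    refine h1.congr_fun fun α => ?_
    have h3 : ∀ R : H3, kfun g (H3.ch (P i) R) * (c y α * W D.toArch α (updA P i R)) =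
        (c y α * ∏ j ∈ Finset.univ.erase i, whit (D.emb j α) (P j)) *
          (kfun g (H3.ch (P i) R) * whit (D.emb i α) R) := by
      intro R; rw [W_update]; ring
    simp_rw [h3]
    rw [integral_const_mul]
    change _ = _ * kopH g (whit (D.emb i (α : F))) (P i)
    rw [kopH_whit (emb_ne_zero α.ne_zero i) hg, W_eq_wI]
    unfold wI
    rw [← Finset.prod_erase_mul _ _ (Finset.mem_univ i)]
    ring
  exact h2.unique ((h.hexp y P).mul_left _)

end Whit

end Fermat.Agent.LT.I
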