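import Fermat.Agent.LT.I.Data

/-!
# LT, piece I: matrices, Iwasawa decomposition at a place
-/

set_option autoImplicit false
set_option linter.unusedSectionVars false

open NumberField IsDedekindDomain WithZero Module Matrix

namespace Fermat.Agent.LT.I

open Fermat.LT Fermat.Agent.CFT

section mats

variable {F : Type} [Field F]

/-- `(1 0; c 1)` -/
def lo (c : F) : G2 F := Matrix.GeneralLinearGroup.mkOfDetNeZero !![1, 0; c, 1] (by simp)

/-- `(0 -1; 1 0)` -/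
def J0 : G2 F := Matrix.GeneralLinearGroup.mkOfDetNeZero !![0, -1; 1, 0] (by simp)

@[simp] theorem un_val' (b : F) : (un b).1 = !![1, b; 0, 1] := rfl
@[simp] theorem dg_val' (a : Fˣ) : (dg a).1 = !![(a : F), 0; 0, 1] := rfl
@[simp] theorem lo_val (c : F) : (lo c).1 = !![1, 0; c, 1] := rfl
@[simp] theorem J0_val : (J0 (F := F)).1 = !![0, -1; 1, 0] := rfl

theorem G2_ext {g h : G2 F} (h0 : g.1 = h.1) : g = h := Units.ext h0

theorem G2_ext' {g h : G2 F} (h00 : g.1 0 0 = h.1 0 0) (h01 : g.1 0 1 = h.1 0 1)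
    (h10 : g.1 1 0 = h.1 1 0) (h11 : g.1 1 1 = h.1 1 1) : g = h := by
  apply G2_ext; ext i j; fin_cases i <;> fin_cases j <;> assumption

theorem mul00 (g h : G2 F) : (g * h).1 0 0 = g.1 0 0 * h.1 0 0 + g.1 0 1 * h.1 1 0 := by
  rw [Units.val_mul, Matrix.mul_apply, Fin.sum_univ_two]
theorem mul01 (g h : G2 F) : (g * h).1 0 1 = g.1 0 0 * h.1 0 1 + g.1 0 1 * h.1 1 1 := by
  rw [Units.val_mul, Matrix.mul_apply, Fin.sum_univ_two]
theorem mul10 (g h : G2 F) : (g * h).1 1 0 = g.1 1 0 * h.1 0 0 + g.1 1 1 * h.1 1 0 := by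
  rw [Units.val_mul, Matrix.mul_apply, Fin.sum_univ_two]
theorem mul11 (g h : G2 F) : (g * h).1 1 1 = g.1 1 0 * h.1 0 1 + g.1 1 1 * h.1 1 1 := by
  rw [Units.val_mul, Matrix.mul_apply, Fin.sum_univ_two]

@[simp] theorem un00 (b : F) : (un b).1 0 0 = 1 := rfl
@[simp] theorem un01 (b : F) : (un b).1 0 1 = b := rfl
@[simp] theorem un10 (b : F) : (un b).1 1 0 = 0 := rfl
@[simp] theorem un11 (b : F) : (un b).1 1 1 = 1 := rfl
@[simp] theorem lo00 (b : F) : (lo b).1 0 0 = 1 := rfl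
@[simp] theorem lo01 (b : F) : (lo b).1 0 1 = 0 := rfl
@[simp] theorem lo10 (b : F) : (lo b).1 1 0 = b := rfl
@[simp] theorem lo11 (b : F) : (lo b).1 1 1 = 1 := rfl
@[simp] theorem dg00 (a : Fˣ) : (dg a).1 0 0 = a := rfl
@[simp] theorem dg01 (a : Fˣ) : (dg a).1 0 1 = 0 := rfl
@[simp] theorem dg10 (a : Fˣ) : (dg a).1 1 0 = 0 := rfl
@[simp] theorem dg11 (a : Fˣ) : (dg a).1 1 1 = 1 := rfl
@[simp] theorem J000 : (J0 (F := F)).1 0 0 = 0 := rfl
@[simp] theorem J001 : (J0 (F := F)).1 0 1 = -1 := rfl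
@[simp] theorem J010 : (J0 (F := F)).1 1 0 = 1 := rfl
@[simp] theorem J011 : (J0 (F := F)).1 1 1 = 0 := rfl
@[simp] theorem sc00 (a : Fˣ) : (sc a).1 0 0 = a := by rw [sc_val]; simp
@[simp] theorem sc01 (a : Fˣ) : (sc a).1 0 1 = 0 := by rw [sc_val]; simp
@[simp] theorem sc10 (a : Fˣ) : (sc a).1 1 0 = 0 := by rw [sc_val]; simp
@[simp] theorem sc11 (a : Fˣ) : (sc a).1 1 1 = a := by rw [sc_val]; simp

/-- compare two explicit products of matrices entrywise -/
theorem dg_mul (a b : Fˣ) : dg (a * b) = dg a * dg b := by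
  apply G2_ext' <;> simp [mul00, mul01, mul10, mul11]

@[simp] theorem dg_one : dg (1 : Fˣ) = 1 := by
  apply G2_ext' <;> simp

theorem dg_inv (a : Fˣ) : (dg a)⁻¹ = dg a⁻¹ := by
  rw [inv_eq_iff_mul_eq_one, ← dg_mul, mul_inv_cancel, dg_one]

theorem dg_un (a : Fˣ) (b : F) : dg a * un b = un (a * b) * dg a := by
  apply G2_ext' <;> simp [mul00, mul01, mul10, mul11]

theorem J0_lo (c : F) : J0 * lo c = un (-c) * J0 := by
  apply G2_ext' <;> simp [mul00, mul01, mul10, mul11]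

theorem J0_J0 : (J0 : G2 F) * J0 = sc (-1) := by
  apply G2_ext' <;> simp [mul00, mul01, mul10, mul11]

theorem J0_eq : (J0 : G2 F) = un (-1) * lo 1 * un (-1) := by
  apply G2_ext' <;> simp [mul00, mul01, mul10, mul11]

theorem lo_zero : lo (0 : F) = 1 := by apply G2_ext' <;> simp

theorem lo_add (a b : F) : lo (a + b) = lo a * lo b := by
  apply G2_ext' <;> simp [mul00, mul01, mul10, mul11]

theorem lo_neg (a : F) : lo (-a) = (lo a)⁻¹ := by
  rw [eq_inv_iff_mul_eq_one, ← lo_add, neg_add_cancel, lo_zero]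

theorem det_ne_zero' (g : G2 F) : g.1.det ≠ 0 :=
  ((Matrix.isUnit_iff_isUnit_det _).mp g.isUnit).ne_zero

theorem det_eq (g : G2 F) : g.1.det = g.1 0 0 * g.1 1 1 - g.1 0 1 * g.1 1 0 :=
  Matrix.det_fin_two _

theorem det_ne_zero'' (g : G2 F) : g.1 0 0 * g.1 1 1 - g.1 0 1 * g.1 1 0 ≠ 0 := by
  rw [← det_eq]; exact det_ne_zero' g

theorem inv_val (g : G2 F) : (g⁻¹).1 = g.1.det⁻¹ • g.1.adjugate := by
  rw [Matrix.coe_units_inv, Matrix.inv_def, Ring.inverse_eq_inv']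

end mats

variable {F : Type} [Field F] [NumberField F]

/-! ### valuations and `stdH` -/

theorem av_zero_iff (w : Pl F) (x : F) : av w x = 0 ↔ x = 0 := (av w).eq_zero

theorem qv_zpow_pos (w : Pl F) (n : ℤ) : 0 < qv w ^ n := zpow_pos (qv_pos w) n

/-- membership in `stdH` by entries: all entries have `2 v(x) ≥ v(det)` -/
theorem mem_stdH_iff_av (w : Pl F) (g : G2 F) :
    g ∈ stdH w ↔ ∀ i j, av w (g.1 i j) ^ 2 ≤ av w g.1.det := by
  have hdet : 0 < av w g.1.det := (av w).pos (det_ne_zero' g)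
  have hinv : nm w (g⁻¹).1 = nm w g.1 / av w g.1.det := by
    rw [inv_val, nm_smul, nm_adjugate, map_inv₀]
    field_simp
  rw [mem_stdH, hinv]
  have h2 : nm w g.1 * (nm w g.1 / av w g.1.det) = nm w g.1 ^ 2 / av w g.1.det := by ring
  rw [h2, div_le_one hdet]
  constructor
  · intro h i j
    exact (pow_le_pow_left₀ ((av w).nonneg _) (av_le_nm w g.1 i j) 2).trans h
  · intro h
    obtain ⟨i, j, hij⟩ : ∃ i j, nm w g.1 = av w (g.1 i j) := by
      rcases max_choice (max (av w (g.1 0 0)) (av w (g.1 0 1)))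
        (max (av w (g.1 1 0)) (av w (g.1 1 1))) with h | h <;> rw [nm, h]
      · rcases max_choice (av w (g.1 0 0)) (av w (g.1 0 1)) with h | h <;> rw [h]
        exacts [⟨0, 0, rfl⟩, ⟨0, 1, rfl⟩]
      · rcases max_choice (av w (g.1 1 0)) (av w (g.1 1 1)) with h | h <;> rw [h]
        exacts [⟨1, 0, rfl⟩, ⟨1, 1, rfl⟩]
    rw [hij]; exact h i j

theorem mem_stdH_iff' (w : Pl F) (g : G2 F) {d : F} (hd : g.1.det = d) :
    g ∈ stdH w ↔ av w (g.1 0 0) ^ 2 ≤ av w d ∧ av w (g.1 0 1) ^ 2 ≤ av w d ∧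
      av w (g.1 1 0) ^ 2 ≤ av w d ∧ av w (g.1 1 1) ^ 2 ≤ av w d := by
  subst hd
  rw [mem_stdH_iff_av]
  constructor
  · intro h; exact ⟨h 0 0, h 0 1, h 1 0, h 1 1⟩
  · rintro ⟨h1, h2, h3, h4⟩ i j
    fin_cases i <;> fin_cases j <;> assumption

theorem sq_le_one_iff' {x : ℝ} (hx : 0 ≤ x) : x ^ 2 ≤ 1 ↔ x ≤ 1 := by
  rw [sq_le_one_iff₀ hx]

theorem av_sq_le_iff (w : Pl F) {x d : F} (hd : d ≠ 0) (m : ℤ) (hm : ov w d = 2 * m) :
    av w x ^ 2 ≤ av w d ↔ w.valuation F x ≤ exp (-m) := by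
  rw [av_eq_zpow w hd, hm, ← av_le_zpow_iff]
  have h1 : qv w ^ (-(2 * m)) = (qv w ^ (-m)) ^ 2 := by
    rw [← zpow_natCast, ← _root_.zpow_mul]; congr 1; push_cast; ring
  rw [h1]
  exact pow_le_pow_iff_left₀ ((av w).nonneg _) (qv_zpow_pos w _).le two_ne_zero

/-- **Iwasawa decomposition** at `w`. -/
theorem iwasawa (w : Pl F) (g : G2 F) : ∃ (u : F) (a : Fˣ),
    (un u * dg a)⁻¹ * g ∈ stdH w := by
  -- it suffices to find `h ∈ stdH w` with `g h` upper triangular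
  suffices H : ∃ h ∈ stdH w, (g * h).1 1 0 = 0 by
    obtain ⟨h, hh, h10⟩ := H
    obtain ⟨k, hk⟩ : ∃ k, k = g * h := ⟨_, rfl⟩
    rw [← hk] at h10
    have hdet : k.1 0 0 * k.1 1 1 ≠ 0 := by
      have := det_ne_zero'' k
      rwa [h10, mul_zero, sub_zero] at this
    have h00 : k.1 0 0 ≠ 0 := left_ne_zero_of_mul hdet
    have h11 : k.1 1 1 ≠ 0 := right_ne_zero_of_mul hdet
    refine ⟨k.1 0 1 / k.1 1 1, Units.mk0 (k.1 0 0 / k.1 1 1) (div_ne_zero h00 h11), ?_⟩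
    have h1 : k = sc (Units.mk0 _ h11) * (un (k.1 0 1 / k.1 1 1) *
        dg (Units.mk0 (k.1 0 0 / k.1 1 1) (div_ne_zero h00 h11))) := by
      apply G2_ext' <;> simp only [mul00, mul01, mul10, mul11, un00, un01, un10, un11, dg00, dg01,
        dg10, dg11, sc00, sc01, sc10, sc11, Units.val_mk0, h10] <;> field_simp <;> ring
    have h2 : (un (k.1 0 1 / k.1 1 1) *
        dg (Units.mk0 (k.1 0 0 / k.1 1 1) (div_ne_zero h00 h11)))⁻¹ * g =
        sc (Units.mk0 _ h11) * h⁻¹ := by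
      rw [inv_mul_eq_iff_eq_mul, ← mul_assoc, ← sc_comm, ← h1, hk, mul_inv_cancel_right]
    rw [h2]
    exact mul_mem (scal_le_stdH w (sc_mem _)) (inv_mem hh)
  obtain ⟨c, hc⟩ : ∃ c, c = g.1 1 0 := ⟨_, rfl⟩
  obtain ⟨d, hd⟩ : ∃ d, d = g.1 1 1 := ⟨_, rfl⟩
  have hcd : ¬ (c = 0 ∧ d = 0) := by
    rintro ⟨rfl, rfl⟩
    apply det_ne_zero'' g
    rw [← hc, ← hd]; ring
  by_cases hle : av w c ≤ av w d
  · -- multiply by `lo (-c/d)`
    have hd0 : d ≠ 0 := by
      intro h0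
      apply hcd
      refine ⟨?_, h0⟩
      rw [h0, map_zero] at hle
      exact (av_zero_iff w c).1 (le_antisymm hle ((av w).nonneg _))
    refine ⟨lo (-c / d), ?_, ?_⟩
    · have h1 : av w (-c / d) ≤ 1 := by
        rw [map_div₀, (av w).map_neg]
        exact div_le_one_of_le₀ hle ((av w).nonneg _)
      rw [mem_stdH_iff' w _ (d := 1) (by rw [det_eq]; simp)]
      simp only [lo00, lo01, lo10, lo11, map_one, map_zero]
      refine ⟨by norm_num, by norm_num, ?_, by norm_num⟩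
      rwa [sq_le_one_iff' ((av w).nonneg _)]
    · rw [mul10, ← hc, ← hd, lo00, lo10]
      field_simp
      ring
  · push Not at hle
    have hc0 : c ≠ 0 := by
      rintro h0
      rw [h0, map_zero] at hle
      exact absurd hle (not_lt.2 ((av w).nonneg _))
    refine ⟨un (-d / c) * J0, ?_, ?_⟩
    · have h1 : av w (-d / c) ≤ 1 := by
        rw [map_div₀, (av w).map_neg]
        exact div_le_one_of_le₀ hle.le ((av w).nonneg _)
      refine mul_mem ?_ ?_
      · rw [mem_stdH_iff' w _ (d := 1) (by rw [det_eq]; simp)]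
        simp only [un00, un01, un10, un11, map_one, map_zero]
        refine ⟨by norm_num, ?_, by norm_num, by norm_num⟩
        rwa [sq_le_one_iff' ((av w).nonneg _)]
      · rw [mem_stdH_iff' w _ (d := 1) (by rw [det_eq]; simp)]
        simp [(av w).map_neg]
    · rw [← mul_assoc, mul10, mul10, mul11, ← hc, ← hd, un00, un01, un10, un11, J000, J010]
      field_simp
      ring

end Fermat.Agent.LT.I
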