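import Fermat.Agent.LT.B.Cusp
import Fermat.Agent.LT.I.WhitCusp
import Fermat.Agent.LT.I.YCo

/-!
# LT, piece I: the abstract output of the theta construction, before the extension to `X D`

`NewFn A U S K lam f` : `f : XI A → Y U → ℂ` depends only on the components of `y` outside `S`, and
is invariant under the matrices of `GL₂(F)` stabilising the points `dg (t w)`, `w ∈ S`
(`v_w (t w) = -1 - d_w`), up to a deep condition on the lower left entry, etc.
(`dF F w` is the exponent `d_w` of the different of `F` at `w`.)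
-/

set_option autoImplicit false

open NumberField IsDedekindDomain Matrix WithZero Module

namespace Fermat.Agent.LT.I

open Fermat.LT Fermat.Agent.LT.CTree Fermat.Agent.LT.B

variable {F : Type} [Field F] [NumberField F]

structure NewFn (A : Arch F) (U : Level F) (S : Finset (Pl F)) (K : ℕ) (lam : Pl F → ℂ)
    (f : XI A → Y U → ℂ) : Prop where
  off : ∀ P y y', (∀ w ∉ S, y w = y' w) → f P y = f P y'
  un : ∀ b : F, (∀ w ∈ S, w.valuation F b ≤ exp (dF F w)) → ∀ P y,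
    f (Fermat.LT.un b • P) (Fermat.LT.un b • y) = f P y
  dg : ∀ a : Fˣ, (∀ w ∈ S, w.valuation F (a : F) = 1) → ∀ P y,
    f (Fermat.LT.dg a • P) (Fermat.LT.dg a • y) = f P y
  lo : ∀ c : F, (∀ w ∈ S, w.valuation F c ≤ exp (-(K : ℤ))) → ∀ P y,
    f (Fermat.Agent.LT.I.lo c • P) (Fermat.Agent.LT.I.lo c • y) = f P y
  exp : ∀ (g : G2 F) (y : Y U), ∃ c : Fˣ → ℂ, Cf A c ∧
    ∀ P, HasSum (fun α : Fˣ => c α * W A α P) (f (g • P) (g • y))
  hecke : ∀ w ∉ S, ∀ P y, TY w (fun y => f P y) y = (sq w : ℂ) * lam w * f P y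
  sum0 : ∀ w ∈ S, ∀ t : Fˣ, ov w (t : F) = -1 - dF F w → ∀ b : (𝓞 F ⧸ w.asIdeal) → F,
    (∀ c, w.valuation F (b c - t * rep w c) ≤ WithZero.exp (dF F w)) →
    (∀ c, ∀ w' ∈ S, w' ≠ w → w'.valuation F (b c) ≤ WithZero.exp (dF F w')) →
    ∀ P y, ∑ c, f (Fermat.LT.un (b c) • P) (Fermat.LT.un (b c) • y) = 0
  ne : ∃ (y : Y U) (c : Fˣ → ℂ), Cf A c ∧
    (∀ P, HasSum (fun α : Fˣ => c α * W A α P) (f P y)) ∧ ∃ α, c α ≠ 0

end Fermat.Agent.LT.I
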