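import Fermat.Agent.LT.I.Co
import Fermat.Agent.LT.I.HeckeRel

/-!
# LT, piece I: the character sum at `w ∈ S` and nonvanishing of the coefficient at `1`
-/

set_option autoImplicit false
set_option linter.unusedSectionVars false

open NumberField IsDedekindDomain Matrix WithZero Module
open scoped Real nonZeroDivisors

namespace Fermat.Agent.LT.I

open Fermat.LT Fermat.Agent.CFT Fermat.Agent.LT.CTree Fermat.Agent.LT.B

variable {F M : Type} [Field F] [NumberField F] [Field M] [NumberField M] [Algebra F M]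
variable (Z : Setup F M)

namespace Setup

theorem out_mk {w : Pl F} (c : 𝓞 F ⧸ w.asIdeal) : Ideal.Quotient.mk w.asIdeal c.out = c :=
  Quotient.out_eq' c

theorem sum_ef {w : Pl F} {x0 : F} (h0 : ov w x0 = -1 - dF F w)
    (h1 : ∀ w' : Pl F, w' ≠ w → w'.valuation F x0 ≤ exp (dF F w')) :
    ∑ c : 𝓞 F ⧸ w.asIdeal, ef (x0 * rep w c) = 0 := by
  classical
  have hx0 : x0 ≠ 0 := by
    rintro rfl
    have h2 : ov w (0 : F) = 0 := by simp [ov]
    have := dF_apply_nonneg (F := F) w
    omega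
  have hw : w.valuation F x0 = exp (1 + dF F w) := by
    rw [val_eq w hx0, h0]
    congr 1
    ring
  -- trivial on the ideal of `w`
  have htriv : ∀ r : 𝓞 F, r ∈ w.asIdeal → ef (x0 * (algebraMap (𝓞 F) F r)) = 1 := by
    intro r hr
    refine ef_eq_one fun w' => ?_
    rw [Finsupp.neg_apply, neg_neg, map_mul]
    by_cases hww : w' = w
    · subst hww
      have h3 : w'.valuation F (algebraMap (𝓞 F) F r) ≤ exp (-1 : ℤ) := by
        rw [HeightOneSpectrum.valuation_of_algebraMap]
        have := (w'.intValuation_le_pow_iff_mem r 1).2 (by rwa [pow_one])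
        simpa using this
      rw [hw]
      calc _ ≤ exp (1 + dF F w') * exp (-1 : ℤ) := mul_le_mul_right h3 _
        _ ≤ _ := by rw [← WithZero.exp_add, WithZero.exp_le_exp]; omega
    · have h3 : w'.valuation F (algebraMap (𝓞 F) F r) ≤ 1 := w'.valuation_le_one r
      calc _ ≤ exp (dF F w') * 1 := mul_le_mul' (h1 w' hww) h3
        _ = _ := mul_one _
  have hrep : ∀ r : 𝓞 F, ef (x0 * (algebraMap (𝓞 F) F r)) =
      ef (x0 * rep w (Ideal.Quotient.mk w.asIdeal r)) := by
    intro r
    have h3 : r - (Ideal.Quotient.mk w.asIdeal r).out ∈ w.asIdeal := by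
      rw [← Ideal.Quotient.eq_zero_iff_mem, map_sub, out_mk, sub_self]
    have h4 : x0 * (algebraMap (𝓞 F) F r) =
        x0 * (algebraMap (𝓞 F) F (r - (Ideal.Quotient.mk w.asIdeal r).out)) +
        x0 * rep w (Ideal.Quotient.mk w.asIdeal r) := by
      unfold rep
      rw [map_sub]
      ring
    rw [h4, efAdd, htriv _ h3, one_mul]
  have hmul : ∀ c d : 𝓞 F ⧸ w.asIdeal,
      ef (x0 * rep w (c + d)) = ef (x0 * rep w c) * ef (x0 * rep w d) := by
    intro c d
    have h3 : Ideal.Quotient.mk w.asIdeal (c.out + d.out) = c + d := by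
      rw [map_add, out_mk, out_mk]
    rw [← h3, ← hrep, map_add, mul_add, efAdd]
    rfl
  have hnt : ∃ c : 𝓞 F ⧸ w.asIdeal, ef (x0 * rep w c) ≠ 1 := by
    by_contra hcon
    push Not at hcon
    have h5 := dual_InL hx0 (l := 0) (fun x hx => ?_) w
    · rw [h0] at h5
      simp only [Finsupp.coe_zero, Pi.zero_apply] at h5
      omega
    · obtain ⟨z, rfl⟩ := HeightOneSpectrum.mem_integers_of_valuation_le_one F x
        (fun w' => by simpa using hx w')
      rw [hrep]
      exact hcon _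
  obtain ⟨c0, hc0⟩ := hnt
  have h5 : ef (x0 * rep w c0) * ∑ c : 𝓞 F ⧸ w.asIdeal, ef (x0 * rep w c) =
      ∑ c : 𝓞 F ⧸ w.asIdeal, ef (x0 * rep w c) := by
    rw [Finset.mul_sum]
    simp_rw [← hmul]
    exact Fintype.sum_equiv (Equiv.addLeft c0) _ _ fun c => rfl
  have h6 : (ef (x0 * rep w c0) - 1) * ∑ c : 𝓞 F ⧸ w.asIdeal, ef (x0 * rep w c) = 0 := by
    rw [sub_mul, h5, one_mul, sub_self]
  rcases mul_eq_zero.1 h6 with h7 | h7
  · exact absurd (sub_eq_zero.1 h7) hc0
  · exact h7

/-- the character sum at a place of `S` -/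
theorem sum_eS {w : Pl F} (hw : w ∈ Z.S) (t : Fˣ) (ht : ov w (t : F) = -1 - dF F w)
    (b : (𝓞 F ⧸ w.asIdeal) → F)
    (h1 : ∀ c, w.valuation F (b c - t * rep w c) ≤ WithZero.exp (dF F w))
    (h2 : ∀ c, ∀ w' ∈ Z.S, w' ≠ w → w'.valuation F (b c) ≤ WithZero.exp (dF F w'))
    {α : F} (hα : ∀ w' ∈ Z.S, w'.valuation F α = 1) : ∑ c, Z.eS (b c * α) = 0 := by
  classical
  obtain ⟨x0, hx1, hx2⟩ := strong_approx {w} (fun _ => (t : F) * α) (fun w => -dF F w) (-dF F)
  have hx1' : w.valuation F (x0 - t * α) ≤ exp (dF F w) := by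
    simpa using hx1 w (Finset.mem_singleton_self w)
  have hx2' : ∀ w' : Pl F, w' ≠ w → w'.valuation F x0 ≤ exp (dF F w') := by
    intro w' hne
    simpa using hx2 w' (by simpa using hne)
  have htα : w.valuation F ((t : F) * α) = exp (1 + dF F w) := by
    rw [map_mul, hα w hw, mul_one, val_eq w t.ne_zero, ht]
    congr 1
    ring
  have hxw : w.valuation F x0 = exp (1 + dF F w) := by
    have h3 : w.valuation F (x0 - t * α) < w.valuation F ((t : F) * α) := by
      refine lt_of_le_of_lt hx1' ?_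
      rw [htα, WithZero.exp_lt_exp]
      omega
    have h4 : x0 = (x0 - t * α) + t * α := by ring
    rw [h4, Valuation.map_add_eq_of_lt_right _ h3, htα]
  have h0 : ov w x0 = -1 - dF F w := by
    have := ov_of_val (n := -(1 + dF F w)) w (by rw [neg_neg]; exact hxw)
    omega
  have key : ∀ c, Z.eS (b c * α) = ef (x0 * rep w c) := by
    intro c
    refine Z.eS_eq (fun w' hw' => ?_) fun w' hw' => ?_
    · by_cases hww : w' = w
      · subst hww
        have e : x0 * rep w' c - b c * α = (x0 - t * α) * rep w' c - (b c - t * rep w' c) * α := by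
          ring
        rw [e]
        refine ((w'.valuation F).map_sub _ _).trans (max_le ?_ ?_)
        · rw [map_mul]
          calc _ ≤ exp (dF F w') * 1 := mul_le_mul' hx1' (w'.valuation_le_one _)
            _ = _ := mul_one _
        · rw [map_mul, hα w' hw', mul_one]
          exact h1 c
      · refine ((w'.valuation F).map_sub _ _).trans (max_le ?_ ?_)
        · rw [map_mul]
          calc _ ≤ exp (dF F w') * 1 := mul_le_mul' (hx2' w' hww) (w'.valuation_le_one _)
            _ = _ := mul_one _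
        · rw [map_mul, hα w' hw', mul_one]
          exact h2 c w' hw' hww
    · have hne : w' ≠ w := by rintro rfl; exact hw' hw
      rw [map_mul]
      calc _ ≤ exp (dF F w') * 1 := mul_le_mul' (hx2' w' hne) (w'.valuation_le_one _)
        _ = _ := mul_one _
  rw [Finset.sum_congr rfl fun c _ => key c]
  exact sum_ef h0 hx2'

/-- a point with coordinates `(-δ, 0)` -/
theorem exists_Co_delta {U : Level F} : ∃ y : Y U, Z.Co y (-Z.δ) 0 := by
  classical
  have hloc : ∀ w : Pl F, ∃ a : Fˣ, ov w (a : F) = -(Z.δ w) ∧ (Z.δ w = 0 → a = 1) := by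
    intro w
    by_cases h : Z.δ w = 0
    · exact ⟨1, by simp [h], fun _ => rfl⟩
    · obtain ⟨a, ha⟩ := exists_dv_ov (-Z.δ) w
      exact ⟨a, by rw [ha, Finsupp.neg_apply], fun h' => absurd h' h⟩
  choose a ha1 ha2 using hloc
  let y : Y U := ⟨fun w => ((dg (a w) : G2 F) : Yl U w), by
    refine (Z.δ.support.finite_toSet).subset fun w hw => ?_
    simp only [Finset.mem_coe, Finsupp.mem_support_iff]
    intro h
    apply hw
    rw [ha2 w h, dg_one]⟩
  refine ⟨y, ⟨fun w hw => ?_, fun w hw => ?_, fun w hw => ⟨a w, ?_, ?_⟩⟩⟩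
  · rw [Finsupp.neg_apply, δ, Z.off_of_mem _ hw, neg_zero]
  · rw [map_zero]; exact zero_le
  · rw [ha1, Finsupp.neg_apply]
  · rw [un_zero, one_mul]

theorem aψ_zero : Z.aψ 0 = 1 := by
  have hmem : (0 : Dv M) ∈ Z.Eff 0 := by
    rw [mem_Eff]
    exact ⟨le_rfl, fun P _ => rfl, by simp⟩
  have huniq : ∀ b : Z.Eff 0, b = ⟨0, hmem⟩ := by
    rintro ⟨b, hb⟩
    apply Subtype.ext
    ext P
    exact le_antisymm (by simpa using Z.Eff_le hb P) (by simpa using hb.1 P)
  rw [aψ, finsum_eq_single (fun b : Z.Eff 0 => Z.psi b) ⟨0, hmem⟩ fun b hb => absurd (huniq b) hb]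
  exact Z.psi_zero

theorem coefK_one_ne {κ : F → ℂ} (h : κ 1 ≠ 0) : Z.coefK κ (-Z.δ) 0 (1 : F) ≠ 0 := by
  refine Z.coefK_ne_zero (mul_ne_zero h ?_)
  have h1 : Z.off (dv (1 : F)) + -Z.δ + Z.δ = 0 := by
    rw [neg_add_cancel_right]
    ext w
    rw [off_apply]
    split_ifs <;> simp
  rw [h1, aψ_zero]
  exact one_ne_zero

end Setup

end Fermat.Agent.LT.I
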