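import Fermat.Agent.LT.I.LoExp
import Fermat.Agent.LT.I.IndCS
import Fermat.Agent.LT.I.CfCoef
import Fermat.Agent.LT.I.Sum0
import Fermat.Agent.LT.I.JRel
import Fermat.Agent.LT.I.HeckeRel
import Fermat.Agent.LT.I.NewFn

/-!
# LT, piece I: construction of the function `f` of `NewFn`
-/

set_option autoImplicit false
set_option linter.unusedSectionVars false
set_option linter.unusedSimpArgs false

open NumberField IsDedekindDomain Matrix WithZero Module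
open scoped Real nonZeroDivisors

namespace Fermat.Agent.LT.I

open Fermat.LT Fermat.Agent.CFT

section expd

variable {F : Type} [Field F] [NumberField F] {A : Arch F}

/-- functions with a Whittaker expansion -/
def Expd (A : Arch F) (h : XI A → ℂ) : Prop :=
  ∃ c : Fˣ → ℂ, Cf A c ∧ ∀ P, HasSum (fun α : Fˣ => c α * W A α P) (h P)

theorem Expd.const_mul {h : XI A → ℂ} (H : Expd A h) (k : ℂ) : Expd A fun P => k * h P := by
  obtain ⟨c, hc, hs⟩ := H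
  refine ⟨fun α => k * c α, hc.const_mul k, fun P => ?_⟩
  have := (hs P).mul_left k
  simpa [mul_assoc] using this

theorem Expd.sum {ι : Type*} (T : Finset ι) {h : ι → XI A → ℂ} (H : ∀ i ∈ T, Expd A (h i)) :
    Expd A fun P => ∑ i ∈ T, h i P := by
  classical
  have H' : ∀ i : ι, ∃ c : Fˣ → ℂ, i ∈ T → Cf A c ∧ ∀ P, HasSum (fun α : Fˣ => c α * W A α P) (h i P) := by
    intro i
    by_cases hi : i ∈ T
    · obtain ⟨c, hc⟩ := H i hi
      exact ⟨c, fun _ => hc⟩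
    · exact ⟨0, fun h => absurd h hi⟩
  choose c hc using H'
  refine ⟨fun α => ∑ i ∈ T, c i α, Cf.sum T c fun i hi => (hc i hi).1, fun P => ?_⟩
  have := hasSum_sum fun i hi => (hc i hi).2 P
  simpa [Finset.sum_mul] using this

theorem Expd.un {h : XI A → ℂ} (H : Expd A h) (b : F) : Expd A fun P => h (Fermat.LT.un b • P) := by
  obtain ⟨c, hc, hs⟩ := H
  refine ⟨fun α => c α * ef ((α : F) * b), hc.mul_unimod _ fun α => (normEf _).le, fun P => ?_⟩
  have := hs (Fermat.LT.un b • P)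
  simpa only [W_un, mul_assoc] using this

theorem Expd.sc {h : XI A → ℂ} (H : Expd A h) (z : Fˣ) : Expd A fun P => h (Fermat.LT.sc z • P) := by
  simpa only [sc_smul_XI] using H

theorem Expd.dg {h : XI A → ℂ} (H : Expd A h) (a : Fˣ) : Expd A fun P => h (Fermat.LT.dg a • P) := by
  obtain ⟨c, hc, hs⟩ := H
  refine ⟨fun α => ((∏ i, ‖A.emb i a‖ : ℝ) : ℂ) * c (a⁻¹ * α), (hc.comp_mul a⁻¹).const_mul _,
    fun P => ?_⟩
  have h1 := hs (Fermat.LT.dg a • P)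
  rw [← (Equiv.mulLeft a).hasSum_iff]
  convert h1 using 2 with α
  simp only [Function.comp_apply, Equiv.coe_mulLeft, inv_mul_cancel_left, Units.val_mul]
  rw [W_dg]
  ring

end expd

variable {F M : Type} [Field F] [NumberField F] [Field M] [NumberField M] [Algebra F M]
variable (Z : Setup F M)

namespace Setup

theorem isKap_κ1 : Z.IsKap Z.κ1 := by
  classical
  intro α h0 h w hw
  have h1 : ∀ w ∈ Z.S, w.valuation F α = 1 := by
    by_contra hc
    exact h (if_neg hc)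
  rw [ov_eq_zero_of_val w (h1 w hw)]
  omega

theorem norm_κ1_le (α : F) : ‖Z.κ1 α‖ ≤ 1 := by
  classical
  unfold κ1
  split_ifs <;> simp

theorem κ1_of {α : F} (h : Z.κ1 α ≠ 0) : ∀ w ∈ Z.S, w.valuation F α = 1 := by
  classical
  by_contra hc
  exact h (if_neg hc)

theorem κ1_one : Z.κ1 1 = 1 := by
  classical
  exact if_pos fun w _ => map_one _

variable {Z}

theorem fn_congr' {U : Level F} {hU : Z.Good U} {κ κ' : F → ℂ} (h : ∀ α : F, α ≠ 0 → κ α = κ' α)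
    (P : XI Z.A) (y : Y U) : Z.fn hU κ P y = Z.fn hU κ' P y := by
  unfold fn PhiK
  refine tsum_congr fun α => ?_
  unfold coefK
  rw [h α α.ne_zero]

theorem fn_const_mul {U : Level F} {hU : Z.Good U} (κ : F → ℂ) (C : ℂ)
    (P : XI Z.A) (y : Y U) : Z.fn hU (fun α => C * κ α) P y = C * Z.fn hU κ P y := by
  unfold fn PhiK
  rw [← tsum_mul_left]
  refine tsum_congr fun α => ?_
  unfold coefK
  ring

theorem expd_fn {U : Level F} {hU : Z.Good U} {κ : F → ℂ}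
    (hc : ∀ ν u, Cf Z.A fun α : Fˣ => Z.coefK κ ν u α) (y : Y U) :
    Expd Z.A fun P => Z.fn hU κ P y :=
  ⟨_, hc _ _, fun P => ((hc _ _).summable P).hasSum⟩

theorem coefK_dg (κ : F → ℂ) {a : Fˣ} (ha : ∀ w ∈ Z.S, w.valuation F (a : F) = 1) (ν : Dv F) (u : F)
    {α : F} (hα : α ≠ 0) : Z.coefK (fun α => κ ((a : F)⁻¹ * α)) ν u ((a : F) * α) =
      ((∏ i, ‖Z.A.emb i a‖ : ℝ) : ℂ) * Z.coefK κ (ν + dv (a : F)) (a * u) α := by
  unfold coefK
  have e1 : Z.off (dv (α : F)) + (ν + dv (a : F)) + Z.δ = Z.off (dv ((a : F) * α)) + ν + Z.δ := by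
    rw [dv_mul a.ne_zero hα]
    ext w
    simp only [Finsupp.add_apply]
    by_cases hw : w ∈ Z.S
    · rw [Z.off_of_mem _ hw, Z.off_of_mem _ hw, dv_apply, ov_eq_zero_of_val w (ha w hw)]; ring
    · rw [Z.off_of_not_mem _ hw, Z.off_of_not_mem _ hw, Finsupp.add_apply]; ring
  simp only [inv_mul_cancel_left₀ a.ne_zero]
  rw [e1, prod_norm_eq Z.A a.ne_zero, absN_add,
    Real.sqrt_mul (absN_pos ν).le, mul_inv]
  have h2 : (√(absN (dv (a : F)))) ≠ 0 := (Real.sqrt_pos.2 (absN_pos _)).ne'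
  have h3 : ((√(absN (dv (a : F))) : ℝ) : ℂ) ≠ 0 := by exact_mod_cast h2
  have e2 : -((α : F) * ((a : F) * u)) = -((a : F) * α * u) := by ring
  rw [e2]
  push_cast
  field_simp

theorem cf_dg {κ : F → ℂ} {a : Fˣ} (ha : ∀ w ∈ Z.S, w.valuation F (a : F) = 1)
    (hc : ∀ ν u, Cf Z.A fun α : Fˣ => Z.coefK κ ν u α) (ν : Dv F) (u : F) :
    Cf Z.A fun α : Fˣ => Z.coefK (fun α => κ ((a : F)⁻¹ * α)) ν u α := by
  have h := ((hc (ν + dv (a : F)) (a * u)).comp_mul a⁻¹).const_mul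
    ((∏ i, ‖Z.A.emb i a‖ : ℝ) : ℂ)
  convert h using 2 with α
  rw [← coefK_dg κ ha ν u (Units.ne_zero _), Units.val_mul, Units.val_inv_eq_inv_val,
    mul_inv_cancel_left₀ a.ne_zero]

theorem fn_κ1 {U : Level F} (hU : Z.Good U) {e : ℕ} (he1 : 1 ≤ e) (he : Z.e0 ≤ e) (hN : e ≤ Z.N)
    (hd : ∀ P, Z.Bad P → (e : ℤ) + dF M P ≤ Z.N) :
    ∃ (ι : Type) (_ : Fintype ι) (a : ι → Fˣ) (C : ℂ), (∀ i, ∀ w ∈ Z.S, w.valuation F (a i : F) = 1) ∧
      ∀ (P : XI Z.A) (y : Y U), Z.fn hU Z.κ1 P y =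
        C * ∑ i, Z.fn hU (Z.cS (Z.s0 e)) (dg (a i) • P) (dg (a i) • y) := by
  obtain ⟨ι, hι, a, C, hC, ha, h⟩ := Z.exists_ind he1 he hN
  have hs := Z.isSch_s0 hd
  refine ⟨ι, hι, a, C⁻¹, ha, fun P y => ?_⟩
  have hk : ∀ i, Z.IsKap fun α => Z.cS (Z.s0 e) (((a i : Fˣ) : F)⁻¹ * α) := fun i =>
    (Z.isKap_cS hs).comp_mul Z (inv_ne_zero (a i).ne_zero) fun w hw => by
      rw [map_inv₀, ha i w hw, inv_one]
  have h1 : ∀ i, Z.fn hU (Z.cS (Z.s0 e)) (dg (a i) • P) (dg (a i) • y) =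
      Z.fn hU (fun α => Z.cS (Z.s0 e) (((a i : Fˣ) : F)⁻¹ * α)) P y := fun i =>
    Z.fn_dg hU (Z.isKap_cS hs) (ha i) (hk i) P y
  have hsum : ∀ i, ∀ ν u, Summable fun α : Fˣ =>
      Z.coefK (fun α => Z.cS (Z.s0 e) (((a i : Fˣ) : F)⁻¹ * α)) ν u α * W Z.A α P := by
    intro i ν u
    exact (cf_dg (ha i) (fun ν u => Z.cf_cS hs ν u) ν u).summable P
  rw [Finset.sum_congr rfl fun i _ => h1 i, ← Z.fn_add hU Finset.univ _ P y
    (fun i _ ν u _ => hsum i ν u), fn_congr' h, fn_const_mul, inv_mul_cancel_left₀ hC]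

theorem newFn (h1 : 1 ≤ Z.e0) (h2 : Z.e0 ≤ Z.N) (h3 : ∀ P, Z.Bad P → (Z.e0 : ℤ) + dF M P ≤ Z.N)
    {U : Level F} (hU : ∀ w ∉ Z.S, U.n w = 0) : ∃ f, NewFn Z.A U Z.S (2 * Z.N) Z.lamZ f := by
  have hG : Z.Good U := hU
  have hJ : Z.JRel hG := fun s hs => by
    obtain ⟨κ0, h⟩ := Z.fn_J (U := U) hs
    exact ⟨κ0, h hG⟩
  have hcf := Z.cf_bdd Z.isKap_κ1 Z.norm_κ1_le
  obtain ⟨ι, hι, a, C, ha, hf⟩ := fn_κ1 hG h1 le_rfl h2 h3
  have hs0 := Z.isSch_s0 h3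
  refine ⟨fun P y => Z.fn hG Z.κ1 P y, ?_, ?_, ?_, ?_, ?_, ?_, ?_, ?_⟩
  · intro P y y' h
    exact Z.fn_congr hG Z.isKap_κ1 P h
  · intro b hb P y
    rw [Z.fn_un hG Z.isKap_κ1]
    refine fn_congr' (fun α hα => ?_) P y
    by_cases h0 : Z.κ1 α = 0
    · rw [h0, zero_mul]
    rw [Z.eS_of_S fun w hw => ?_, mul_one]
    rw [map_mul, Z.κ1_of h0 w hw, mul_one]
    exact hb w hw
  · intro b hb P y
    have h4 : ∀ α : F, Z.κ1 ((b : F)⁻¹ * α) = Z.κ1 α := by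
      classical
      intro α
      unfold κ1
      congr 1
      refine propext (forall₂_congr fun w hw => ?_)
      rw [map_mul, map_inv₀, hb w hw, inv_one, one_mul]
    rw [Z.fn_dg hG Z.isKap_κ1 hb (by simpa only [h4] using Z.isKap_κ1)]
    simp only [h4]
  · intro c hc P y
    rw [hf, hf]
    congr 1
    refine Finset.sum_congr rfl fun i _ => ?_
    have h4 : dg (a i) * lo c = lo (c * (((a i)⁻¹ : Fˣ) : F)) * dg (a i) := by
      have := dg_lo (a i)⁻¹ c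
      rwa [inv_inv] at this
    rw [← mul_smul, ← mul_smul, h4, mul_smul, mul_smul, fn_lo hJ hs0]
    intro w hw
    rw [Units.val_inv_eq_inv_val, map_mul, map_inv₀, ha i w hw, inv_one, mul_one]
    exact hc w hw
  · intro g y
    change Expd Z.A fun P => Z.fn hG Z.κ1 (g • P) (g • y)
    simp only [hf]
    refine (Expd.sum _ fun i _ => ?_).const_mul C
    simp only [← mul_smul]
    obtain ⟨z, x, b, s', κ, hs', h4⟩ := fn_g hJ hs0 (dg (a i) * g)
    simp only [h4]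
    refine Expd.const_mul ?_ κ
    have h5 := expd_fn (hU := hG) (Z.cf_cS hs') ((sc z * Fermat.LT.un b * dg x) • y)
    have h6 := ((h5.sc z).un b).dg x
    simpa only [mul_smul] using h6
  · intro w hw P y
    exact Z.fn_hecke hG Z.isKap_κ1 P (fun ν u => (hcf ν u).summable P) hw y
  · intro w hw t ht b hb1 hb2 P y
    simp only [Z.fn_un hG Z.isKap_κ1]
    have h4 : ∀ c, Z.IsKap fun α => Z.κ1 α * Z.eS (b c * α) := fun c => Z.isKap_κ1.mul_eS Z (b c)
    rw [← Z.fn_add hG Finset.univ (fun c α => Z.κ1 α * Z.eS (b c * α)) P y fun c _ ν u _ =>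
      (Z.cf_bdd (h4 c) (fun α => by
        rw [norm_mul, Z.norm_eS, mul_one]; exact Z.norm_κ1_le α) ν u).summable P]
    rw [fn_congr' (κ' := fun α => 0 * Z.κ1 α), fn_const_mul, zero_mul]
    intro α hα
    rw [← Finset.mul_sum, zero_mul]
    by_cases h0 : Z.κ1 α = 0
    · rw [h0, zero_mul]
    · rw [Z.sum_eS hw t ht b hb1 hb2 (Z.κ1_of h0), mul_zero]
  · obtain ⟨y, hy⟩ := Z.exists_Co_delta (U := U)
    refine ⟨y, fun α => Z.coefK Z.κ1 (-Z.δ) 0 α, hcf _ _, fun P => ?_, 1, ?_⟩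
    · rw [Z.fn_eq hG Z.isKap_κ1 P (fun _ _ => rfl) hy]
      exact ((hcf _ _).summable P).hasSum
    · exact Z.coefK_one_ne (by rw [Z.κ1_one]; exact one_ne_zero)

end Setup

end Fermat.Agent.LT.I
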