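import Mathlib

/-!
# Poisson summation on `ℤ^d`
-/

set_option autoImplicit false
set_option linter.unusedSectionVars false

open MeasureTheory UnitAddTorus Set Filter Topology
open scoped Real

namespace Fermat.Agent.LT.I

variable {d : Type} [Fintype d]

/-- Integer vectors as real vectors. -/
def zv (m : d → ℤ) : d → ℝ := fun i => (m i : ℝ)

/-- The character `x ↦ e^{2πi m·x}`. -/
noncomputable def ex (m : d → ℤ) (x : d → ℝ) : ℂ :=
  Complex.exp (2 * π * Complex.I * ∑ i, (m i : ℂ) * (x i : ℂ))

theorem norm_ex (m : d → ℤ) (x : d → ℝ) : ‖ex m x‖ = 1 := by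
  unfold ex
  have h : (2 * π * Complex.I * ∑ i, (m i : ℂ) * (x i : ℂ)) =
      ((2 * π * ∑ i, (m i : ℝ) * x i : ℝ) : ℂ) * Complex.I := by push_cast; ring
  rw [h, Complex.norm_exp_ofReal_mul_I]

theorem ex_add_zv (m k : d → ℤ) (x : d → ℝ) : ex m (x + zv k) = ex m x := by
  unfold ex zv
  have h : (2 * π * Complex.I * ∑ i, (m i : ℂ) * (((x + fun i => (k i : ℝ)) i : ℝ) : ℂ)) =
      2 * π * Complex.I * ∑ i, (m i : ℂ) * (x i : ℂ) +
        ((∑ i, m i * k i : ℤ) : ℂ) * (2 * π * Complex.I) := by
    simp only [Pi.add_apply]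
    push_cast
    rw [Finset.sum_mul, Finset.mul_sum, Finset.mul_sum, ← Finset.sum_add_distrib]
    exact Finset.sum_congr rfl fun i _ => by ring
  rw [h, Complex.exp_add, Complex.exp_int_mul_two_pi_mul_I, mul_one]

theorem continuous_ex (m : d → ℤ) : Continuous (ex m) := by
  unfold ex
  fun_prop

theorem mFourier_coe (m : d → ℤ) (x : d → ℝ) :
    mFourier m (fun i => (x i : UnitAddCircle)) = ex m x := by
  simp only [mFourier, ContinuousMap.coe_mk, fourier_coe_apply, ex]
  rw [← Complex.exp_sum, Finset.mul_sum]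
  congr 1
  refine Finset.sum_congr rfl fun i _ => ?_
  push_cast
  ring

/-- The unit box. -/
def box (m : d → ℤ) : Set (d → ℝ) := {x | ∀ i, x i ∈ Ioc (m i : ℝ) (m i + 1)}

theorem measurableSet_box (m : d → ℤ) : MeasurableSet (box m) :=
  MeasurableSet.univ_pi' fun _ => measurableSet_Ioc

theorem iUnion_box : (⋃ m : d → ℤ, box m) = univ := by
  rw [eq_univ_iff_forall]
  intro x
  rw [mem_iUnion]
  refine ⟨fun i => ⌈x i⌉ - 1, fun i => ?_⟩
  constructor
  · push_cast
    have := Int.ceil_lt_add_one (x i)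
    linarith
  · push_cast
    have := Int.le_ceil (x i)
    linarith

theorem disjoint_box : Pairwise (Function.onFun Disjoint (box (d := d))) := by
  intro m k hmk
  rw [Function.onFun, Set.disjoint_left]
  intro x hx hx'
  apply hmk
  funext i
  have h1 := hx i
  have h2 := hx' i
  have h3 : (m i : ℝ) < k i + 1 := h1.1.trans_le h2.2
  have h4 : (k i : ℝ) < m i + 1 := h2.1.trans_le h1.2
  have h5 : m i < k i + 1 := by exact_mod_cast h3
  have h6 : k i < m i + 1 := by exact_mod_cast h4
  omega

theorem volume_box (m : d → ℤ) : volume (box m) = 1 := by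
  have h : box m = Set.pi univ fun i => Ioc (m i : ℝ) (m i + 1) := by
    ext x; simp [box]
  rw [h, Real.volume_pi_Ioc]
  simp

theorem mem_box_iff (m : d → ℤ) (x : d → ℝ) : x + zv m ∈ box m ↔ x ∈ box (0 : d → ℤ) := by
  simp only [box, mem_ofPred_eq, zv, Pi.add_apply, Pi.zero_apply, mem_Ioc, Int.cast_zero]
  refine forall_congr' fun i => ?_
  constructor
  · rintro ⟨h1, h2⟩; constructor <;> linarith
  · rintro ⟨h1, h2⟩; constructor <;> linarith

theorem setIntegral_box (m : d → ℤ) (g : (d → ℝ) → ℂ) :
    ∫ x in box m, g x = ∫ x in box (0 : d → ℤ), g (x + zv m) := by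
  have h := (measurePreserving_add_right (volume : Measure (d → ℝ)) (zv m)).setIntegral_preimage_emb
    (MeasurableEquiv.addRight (zv m)).measurableEmbedding g (box m)
  rw [← h]
  congr 2
  ext x
  exact mem_box_iff m x

/-- Summability hypothesis, locally uniform. -/
def LocBd (f : (d → ℝ) → ℂ) : Prop :=
  ∀ R : ℝ, ∃ bd : (d → ℤ) → ℝ, Summable bd ∧ ∀ m x, (∀ i, |x i| ≤ R) → ‖f (x + zv m)‖ ≤ bd m

section

variable {f : (d → ℝ) → ℂ}

theorem LocBd.summable (hb : LocBd f) (x : d → ℝ) : Summable fun m : d → ℤ => f (x + zv m) := by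
  obtain ⟨bd, h1, h2⟩ := hb (∑ i, |x i|)
  refine Summable.of_norm_bounded h1 fun m => h2 m x fun i => ?_
  exact Finset.single_le_sum (f := fun i => |x i|) (fun j _ => abs_nonneg _) (Finset.mem_univ i)

theorem LocBd.continuous (hf : Continuous f) (hb : LocBd f) :
    Continuous fun x => ∑' m : d → ℤ, f (x + zv m) := by
  rw [continuous_iff_continuousAt]
  intro x
  obtain ⟨bd, h1, h2⟩ := hb (∑ i, |x i| + 1)
  have hnhds : {y : d → ℝ | ∀ i, |y i| < ∑ i, |x i| + 1} ∈ 𝓝 x := by
    refine IsOpen.mem_nhds ?_ fun i => ?_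
    · simp only [ofPred_forall]
      exact isOpen_iInter_of_finite fun i => isOpen_lt (by fun_prop) (by fun_prop)
    · exact (Finset.single_le_sum (f := fun i => |x i|) (fun j _ => abs_nonneg _)
        (Finset.mem_univ i)).trans_lt (lt_add_one _)
  have h3 : ContinuousOn (fun x => ∑' m : d → ℤ, f (x + zv m))
      {y : d → ℝ | ∀ i, |y i| < ∑ i, |x i| + 1} := by
    refine continuousOn_tsum (fun m => ?_) h1 fun m y hy => h2 m y fun i => (hy i).le
    exact (hf.comp (continuous_id.add continuous_const)).continuousOn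
  exact h3.continuousAt hnhds

theorem LocBd.integrable (hf : Continuous f) (hb : LocBd f) : Integrable f := by
  obtain ⟨bd, h1, h2⟩ := hb 1
  rw [← integrableOn_univ, ← iUnion_box (d := d)]
  refine integrableOn_iUnion_of_summable_integral_norm (fun m => ?_) ?_
  · have hsub : box m ⊆ Set.pi univ fun i => Icc (m i : ℝ) (m i + 1) := by
      intro x hx i _
      exact Ioc_subset_Icc_self (hx i)
    exact (hf.continuousOn.integrableOn_compact
      (isCompact_univ_pi fun i => isCompact_Icc)).mono_set hsub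
  · refine Summable.of_nonneg_of_le (fun m => integral_nonneg fun x => norm_nonneg _)
      (fun m => ?_) h1
    have h3 : ∀ x ∈ box m, ‖(‖f x‖ : ℝ)‖ ≤ bd m := by
      intro x hx
      have h4 : x = (x - zv m) + zv m := by simp
      rw [norm_norm, h4]
      refine h2 m _ fun i => ?_
      have h5 := hx i
      simp only [Pi.sub_apply, zv]
      rw [abs_le]
      constructor <;> linarith [h5.1, h5.2]
    have h6 := norm_setIntegral_le_of_norm_le_const (μ := volume) (s := box m) (f := fun x => ‖f x‖)
      (C := bd m) (by rw [volume_box]; exact ENNReal.one_lt_top) h3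
    rw [measureReal_def, volume_box, ENNReal.toReal_one, mul_one] at h6
    exact (le_abs_self _).trans h6

/-- The Fourier transform at integer vectors. -/
noncomputable def ft (f : (d → ℝ) → ℂ) (m : d → ℤ) : ℂ := ∫ x, ex (-m) x * f x

theorem poisson_aux (hf : Continuous f) (hb : LocBd f) (m : d → ℤ) :
    ft f m = ∫ x in box (0 : d → ℤ), ex (-m) x * ∑' k : d → ℤ, f (x + zv k) := by
  have hint : Integrable (fun x => ex (-m) x * f x) := by
    refine (hb.integrable hf).bdd_mul (c := 1) (continuous_ex _).aestronglyMeasurable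
      (Eventually.of_forall fun x => (norm_ex _ x).le)
  have h1 : HasSum (fun k : d → ℤ => ∫ x in box k, ex (-m) x * f x)
      (∫ x in ⋃ k, box k, ex (-m) x * f x) :=
    hasSum_integral_iUnion (fun k => measurableSet_box k) disjoint_box hint.integrableOn
  rw [iUnion_box, Measure.restrict_univ] at h1
  have h2 : ∀ k : d → ℤ, ∫ x in box k, ex (-m) x * f x =
      ∫ x in box (0 : d → ℤ), ex (-m) x * f (x + zv k) := by
    intro k
    rw [setIntegral_box]
    simp_rw [ex_add_zv]
  simp_rw [h2] at h1
  unfold ft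
  rw [← h1.tsum_eq]
  simp_rw [← tsum_mul_left]
  symm
  obtain ⟨bd, h3, h4⟩ := hb 1
  refine (integral_tsum_of_summable_integral_norm (μ := volume.restrict (box (0 : d → ℤ)))
    (F := fun k x => ex (-m) x * f (x + zv k)) (fun k => ?_) ?_).symm
  · have := hint.comp_add_right (zv k)
    simp_rw [ex_add_zv] at this
    exact this.integrableOn
  · refine Summable.of_nonneg_of_le (fun k => integral_nonneg fun x => norm_nonneg _)
      (fun k => ?_) h3
    have h5 : ∀ x ∈ box (0 : d → ℤ), ‖(‖ex (-m) x * f (x + zv k)‖ : ℝ)‖ ≤ bd k := by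
      intro x hx
      rw [norm_norm, norm_mul, norm_ex, one_mul]
      refine h4 k x fun i => ?_
      have h5 := hx i
      simp only [Pi.zero_apply, Int.cast_zero, zero_add, mem_Ioc] at h5
      rw [abs_le]
      constructor <;> linarith [h5.1, h5.2]
    have h6 := norm_setIntegral_le_of_norm_le_const (μ := volume) (s := box (0 : d → ℤ))
      (f := fun x => ‖ex (-m) x * f (x + zv k)‖)
      (C := bd k) (by rw [volume_box]; exact ENNReal.one_lt_top) h5
    rw [measureReal_def, volume_box, ENNReal.toReal_one, mul_one] at h6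
    exact (le_abs_self _).trans h6

/-- **Poisson summation** on `ℤ^d`. -/
theorem hasSum_poisson (hf : Continuous f) (hb : LocBd f) (hs : Summable (ft f)) (x : d → ℝ) :
    HasSum (fun m => ft f m * ex m x) (∑' k : d → ℤ, f (x + zv k)) := by
  let q : (d → ℝ) → UnitAddTorus d := Pi.map fun _ => ((↑) : ℝ → UnitAddCircle)
  have hq : IsOpenQuotientMap q :=
    IsOpenQuotientMap.piMap fun _ => QuotientAddGroup.isOpenQuotientMap_mk
  let S : (d → ℝ) → ℂ := fun x => ∑' k : d → ℤ, f (x + zv k)
  have hSper : ∀ x y, q x = q y → S x = S y := by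
    intro x y hxy
    have h1 : ∀ i, ∃ n : ℤ, y i = x i + n := by
      intro i
      have h2 : ((x i : ℝ) : UnitAddCircle) = (y i : ℝ) := congrFun hxy i
      have h3 := QuotientAddGroup.eq.mp h2
      obtain ⟨n, hn⟩ := AddSubgroup.mem_zmultiples_iff.mp h3
      refine ⟨n, ?_⟩
      rw [zsmul_eq_mul, mul_one] at hn
      linarith
    choose n hn using h1
    have h3 : y = x + zv n := funext hn
    rw [h3]
    change ∑' k : d → ℤ, f (x + zv k) = ∑' k : d → ℤ, f (x + zv n + zv k)
    rw [← (Equiv.addLeft n).tsum_eq (fun k : d → ℤ => f (x + zv k))]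
    refine tsum_congr fun k => ?_
    congr 1
    funext i
    simp [zv]; ring
  let F : UnitAddTorus d → ℂ := Function.extend q S 0
  have hFq : ∀ x, F (q x) = S x := by
    intro x
    exact (show Function.FactorsThrough S q from fun a b h => hSper a b h).extend_apply 0 x
  have hFc : Continuous F := by
    rw [hq.continuous_comp_iff.symm]
    have : F ∘ q = S := funext hFq
    rw [this]
    exact hb.continuous hf
  let Fc : C(UnitAddTorus d, ℂ) := ⟨F, hFc⟩
  have hcoef : ∀ m, mFourierCoeff Fc m = ft f m := by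
    intro m
    rw [poisson_aux hf hb, mFourierCoeff_eq_integral _ _ (0 : d → ℝ)]
    have hset : {x : d → ℝ | ∀ i, x i ∈ Ioc ((0 : d → ℝ) i) ((0 : d → ℝ) i + 1)} =
        box (0 : d → ℤ) := by
      ext x; simp [box]
    rw [hset]
    refine integral_congr_ae (Eventually.of_forall fun x => ?_)
    change mFourier (-m) (fun i => (x i : UnitAddCircle)) • F (q x) = _
    rw [mFourier_coe, hFq, smul_eq_mul]
  have hsum : Summable (mFourierCoeff Fc) := by
    have : mFourierCoeff Fc = ft f := funext hcoef
    rw [this]; exact hs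
  have h := hasSum_mFourier_series_apply_of_summable hsum (q x)
  have h2 : Fc (q x) = S x := hFq x
  rw [h2] at h
  convert h using 1
  funext m
  rw [hcoef, smul_eq_mul]
  congr 1
  exact (mFourier_coe m x).symm

/-- Poisson summation at `0`. -/
theorem tsum_poisson (hf : Continuous f) (hb : LocBd f) (hs : Summable (ft f)) :
    ∑' k : d → ℤ, f (zv k) = ∑' m : d → ℤ, ft f m := by
  have h := hasSum_poisson hf hb hs 0
  have h1 : ∀ m : d → ℤ, ex m 0 = 1 := by intro m; simp [ex]
  simp only [h1, mul_one, zero_add] at h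
  exact h.tsum_eq.symm

end

end Fermat.Agent.LT.I
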