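import Fermat.Agent.LT.I.Base
import Fermat.Agent.CFT.W.Approx
import Fermat.Agent.EXT.Val

/-!
# LT, piece I: strong approximation in a number field; divisors and fractional ideals
-/

set_option autoImplicit false
set_option linter.unusedSectionVars false

open NumberField IsDedekindDomain WithZero Module
open scoped nonZeroDivisors

namespace Fermat.Agent.LT.I

open Fermat.LT Fermat.Agent.CFT

variable {F : Type} [Field F] [NumberField F]

theorem ov_eq_vz (w : Pl F) (x : F) : ov w x = EXT.vz w x := rfl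

/-- **Strong approximation** for the additive group. -/
theorem strong_approx (T : Finset (Pl F)) (x : Pl F → F) (m : Pl F → ℤ) (l : Dv F) :
    ∃ u : F, (∀ w ∈ T, w.valuation F (u - x w) ≤ exp (-(m w))) ∧
      ∀ w ∉ T, w.valuation F u ≤ exp (-(l w)) := by
  classical
  set T' : Finset (Pl F) := T ∪ l.support with hT'
  obtain ⟨N, hN⟩ : ∃ N : ℕ, ∀ w ∈ T', m w ≤ N ∧ l w ≤ N := by
    refine ⟨∑ w ∈ T', ((m w).toNat + (l w).toNat), fun w hw => ?_⟩
    have h := Finset.single_le_sum (f := fun w => (m w).toNat + (l w).toNat)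
      (fun _ _ => Nat.zero_le _) hw
    have h1 := Int.self_le_toNat (m w)
    have h2 := Int.self_le_toNat (l w)
    constructor <;> omega
  obtain ⟨y, hy⟩ := W.exists_valuation_sub_le (ι := T') (fun w => (w : Pl F))
    Subtype.val_injective (fun w => if (w : Pl F) ∈ T then x w else 0) N
  -- poles of `y` outside `T'`
  have hBf : {w : Pl F | ov w y ≠ 0}.Finite := ov_finite y
  set B : Finset (Pl F) := hBf.toFinset \ T' with hB
  obtain ⟨k, hk⟩ : ∃ k : ℕ, ∀ w ∈ T' ∪ B, (N : ℤ) - ov w y ≤ k ∧ -ov w y ≤ k := by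
    refine ⟨∑ w ∈ T' ∪ B, (((N : ℤ) - ov w y).toNat + (-ov w y).toNat), fun w hw => ?_⟩
    have h := Finset.single_le_sum (f := fun w => ((N : ℤ) - ov w y).toNat + (-ov w y).toNat)
      (fun _ _ => Nat.zero_le _) hw
    have h1 := Int.self_le_toNat ((N : ℤ) - ov w y)
    have h2 := Int.self_le_toNat (-ov w y)
    constructor <;> omega
  obtain ⟨e, he⟩ := exists_forall_sub_mem_ideal (s := T' ∪ B)
    (fun w : Pl F => w.asIdeal) (fun _ => k) (fun w _ => w.prime)
    (fun v _ w _ hvw h => hvw (HeightOneSpectrum.ext h))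
    (fun w => if (w : Pl F) ∈ T' then (1 : 𝓞 F) else 0)
  have he' : ∀ w ∈ T' ∪ B, w.valuation F ((e : F) - (if w ∈ T' then (1 : F) else 0)) ≤
      exp (-(k : ℤ)) := by
    intro w hw
    have h1 := he w hw
    rw [← HeightOneSpectrum.intValuation_le_pow_iff_mem, ← w.valuation_of_algebraMap (K := F)] at h1
    simp only [map_sub] at h1
    convert h1 using 3
    split_ifs <;> simp
  have hint : ∀ w : Pl F, w.valuation F (e : F) ≤ 1 := fun w => w.valuation_le_one e
  refine ⟨(e : F) * y, fun w hw => ?_, fun w hw => ?_⟩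
  · have hwT : w ∈ T' := Finset.mem_union_left _ hw
    have h1 := he' w (Finset.mem_union_left _ hwT)
    rw [if_pos hwT] at h1
    have h2 := hy ⟨w, hwT⟩
    simp only [hw, if_true] at h2
    have h3 : (e : F) * y - x w = ((e : F) - 1) * y + (y - x w) := by ring
    rw [h3]
    refine ((w.valuation F).map_add _ _).trans (max_le ?_ ?_)
    · rw [map_mul]
      by_cases hy0 : y = 0
      · rw [hy0, map_zero, mul_zero]; exact zero_le
      · rw [val_eq w hy0]
        refine (mul_le_mul_left h1 _).trans ?_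
        rw [← exp_add, exp_le_exp]
        have := (hk w (Finset.mem_union_left _ hwT)).1
        have := (hN w hwT).1
        omega
    · refine h2.trans ?_
      rw [exp_le_exp]
      have := (hN w hwT).1
      omega
  · by_cases hwT : w ∈ T'
    · have hl := (hN w hwT).2
      have h1 := he' w (Finset.mem_union_left _ hwT)
      rw [if_pos hwT] at h1
      have h2 := hy ⟨w, hwT⟩
      simp only [hw, if_false, sub_zero] at h2
      rw [map_mul]
      calc w.valuation F (e : F) * w.valuation F y ≤ 1 * exp (-(N : ℤ)) := mul_le_mul' (hint w) h2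
        _ ≤ exp (-(l w)) := by rw [one_mul, exp_le_exp]; omega
    · have hl0 : l w = 0 := by
        by_contra h
        exact hwT (Finset.mem_union_right _ (Finsupp.mem_support_iff.2 h))
      rw [hl0, neg_zero, exp_zero, map_mul]
      by_cases hyw : ov w y = 0
      · by_cases hy0 : y = 0
        · rw [hy0, map_zero, mul_zero]; exact zero_le
        · rw [val_eq w hy0, hyw, neg_zero, exp_zero, mul_one]; exact hint w
      · have hwB : w ∈ B := by
          rw [hB, Finset.mem_sdiff, Set.Finite.mem_toFinset]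
          exact ⟨hyw, hwT⟩
        have h1 := he' w (Finset.mem_union_right _ hwB)
        rw [if_neg hwT, sub_zero] at h1
        have hy0 : y ≠ 0 := by rintro rfl; exact hyw (ov_zero w)
        rw [val_eq w hy0]
        refine (mul_le_mul_left h1 _).trans ?_
        rw [← exp_add, ← exp_zero, exp_le_exp]
        have := (hk w (Finset.mem_union_right _ hwB)).2
        omega

section fid

/-- The fractional ideal attached to a divisor. -/
noncomputable def fid (l : Dv F) : FractionalIdeal (𝓞 F)⁰ F :=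
  l.prod fun w n => (w.asIdeal : FractionalIdeal (𝓞 F)⁰ F) ^ n

theorem coe_ne_zero' (w : Pl F) : (w.asIdeal : FractionalIdeal (𝓞 F)⁰ F) ≠ 0 :=
  FractionalIdeal.coeIdeal_ne_zero.2 w.ne_bot

theorem fid_ne_zero (l : Dv F) : fid l ≠ 0 :=
  Finset.prod_ne_zero_iff.2 fun w _ => zpow_ne_zero _ (coe_ne_zero' w)

theorem count_fid (l : Dv F) (w : Pl F) : FractionalIdeal.count F w (fid l) = l w :=
  FractionalIdeal.count_finsuppProd F w l

theorem fid_add (l l' : Dv F) : fid (l + l') = fid l * fid l' :=
  Finsupp.prod_add_index' (fun w => by simp) (fun w a b => zpow_add₀ (coe_ne_zero' w) _ _)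

@[simp] theorem fid_zero : fid (0 : Dv F) = 1 := Finsupp.prod_zero_index

theorem fid_neg (l : Dv F) : fid (-l) = (fid l)⁻¹ := by
  have h := fid_add l (-l)
  rw [add_neg_cancel, fid_zero] at h
  exact eq_inv_of_mul_eq_one_right h.symm

theorem fid_injective : Function.Injective (fid : Dv F → _) := fun l l' h => by
  ext w; rw [← count_fid, h, count_fid]

theorem exists_fid {I : FractionalIdeal (𝓞 F)⁰ F} (hI : I ≠ 0) : ∃ l : Dv F, fid l = I := by
  have hfin : {w : Pl F | FractionalIdeal.count F w I ≠ 0}.Finite := by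
    have := FractionalIdeal.finite_factors (K := F) I
    rwa [Filter.eventually_cofinite] at this
  refine ⟨Finsupp.ofSupportFinite (fun w => FractionalIdeal.count F w I) hfin, ?_⟩
  apply EXT.fractionalIdeal_ext (fid_ne_zero _) hI
  intro w
  rw [count_fid]; rfl

theorem fid_dv {x : F} (hx : x ≠ 0) : fid (dv x) = FractionalIdeal.spanSingleton (𝓞 F)⁰ x := by
  apply EXT.fractionalIdeal_ext (fid_ne_zero _) (FractionalIdeal.spanSingleton_ne_zero_iff.2 hx)
  intro w
  rw [count_fid, EXT.count_spanSingleton w hx, dv_apply, ov_eq_vz]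

theorem fid_le_one {l : Dv F} (h : 0 ≤ l) : fid l ≤ 1 := by
  classical
  have key : ∀ (s : Finset (Pl F)), (∏ w ∈ s, (w.asIdeal : FractionalIdeal (𝓞 F)⁰ F) ^ l w) ≤ 1 := by
    intro s
    induction s using Finset.induction_on with
    | empty => simp
    | insert a s ha ih =>
      rw [Finset.prod_insert ha]
      obtain ⟨n, hn⟩ := Int.eq_ofNat_of_zero_le (h a)
      have h1 : (a.asIdeal : FractionalIdeal (𝓞 F)⁰ F) ^ l a ≤ 1 := by
        have h0 : l a = (n : ℤ) := hn
        rw [h0, zpow_natCast]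
        exact pow_le_one₀ (by positivity) (FractionalIdeal.coeIdeal_le_one)
      calc _ ≤ (1 : FractionalIdeal (𝓞 F)⁰ F) * 1 := mul_le_mul' h1 ih
        _ = 1 := one_mul _
  exact key _

theorem fid_le_fid {l l' : Dv F} : fid l ≤ fid l' ↔ l' ≤ l := by
  constructor
  · intro h w
    rw [← count_fid l, ← count_fid l']
    exact FractionalIdeal.count_mono F w (fid_ne_zero _) h
  · intro h
    have h1 : fid (l - l') ≤ 1 := fid_le_one (sub_nonneg.2 h)
    have h2 : fid l = fid l' * fid (l - l') := by rw [← fid_add]; congr 1; abel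
    rw [h2]
    calc fid l' * fid (l - l') ≤ fid l' * 1 := mul_le_mul' le_rfl h1
      _ = fid l' := mul_one _

theorem mem_fid {l : Dv F} {x : F} : x ∈ fid l ↔ x ∈ InL l := by
  by_cases hx : x = 0
  · subst hx; exact ⟨fun _ => zero_mem _, fun _ => FractionalIdeal.zero_mem _⟩
  · rw [← FractionalIdeal.spanSingleton_le_iff_mem, ← fid_dv hx, fid_le_fid, mem_InL_iff hx]
    rfl

theorem fid_sup (l l' : Dv F) : fid l ⊔ fid l' = fid (l ⊓ l') := by
  apply le_antisymm
  · exact sup_le (fid_le_fid.2 inf_le_left) (fid_le_fid.2 inf_le_right)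
  · have h0 : fid l ⊔ fid l' ≠ 0 := by
      intro h
      have : fid l ≤ 0 := h ▸ le_sup_left
      exact fid_ne_zero l (le_antisymm this (FractionalIdeal.zero_le _))
    obtain ⟨m, hm⟩ := exists_fid h0
    rw [← hm, fid_le_fid]
    have h1 : fid l ≤ fid m := hm ▸ le_sup_left
    have h2 : fid l' ≤ fid m := hm ▸ le_sup_right
    exact le_inf (fid_le_fid.1 h1) (fid_le_fid.1 h2)

/-- sum of two lattices -/
theorem exists_add_of_mem_InL {l l' : Dv F} {x : F} (hx : x ∈ InL (l ⊓ l')) :
    ∃ y ∈ InL l, ∃ z ∈ InL l', y + z = x := by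
  rw [← mem_fid, ← fid_sup, FractionalIdeal.sup_eq_add] at hx
  obtain ⟨y, hy, z, hz, h⟩ := (FractionalIdeal.mem_add _ _ _).1 hx
  exact ⟨y, mem_fid.1 hy, z, mem_fid.1 hz, h⟩

theorem absNorm_fid (l : Dv F) : ((FractionalIdeal.absNorm (fid l) : ℚ) : ℝ) = absN l := by
  rw [fid, absN, Finsupp.prod, Finsupp.prod, map_prod, Rat.cast_prod]
  refine Finset.prod_congr rfl fun w _ => ?_
  rw [map_zpow₀, Rat.cast_zpow, FractionalIdeal.coeIdeal_absNorm, qv]
  simp

end fid

end Fermat.Agent.LT.I
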