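import Mathlib

/-!
# The Fourier transform of the archimedean theta Gaussian on `ℂ × ℂ`
-/

set_option autoImplicit false

open MeasureTheory Complex
open scoped Real ComplexConjugate

namespace Fermat.Agent.LT.I

/-- Gaussian integral with an imaginary linear term. -/
theorem integral_gauss_lin {a : ℝ} (ha : 0 < a) (c : ℂ) :
    ∫ v : ℂ, cexp (((-(a * ‖v‖ ^ 2) : ℝ) : ℂ) + (((v * c).re : ℝ) : ℂ) * I) =
      ((π / a * Real.exp (-(‖c‖ ^ 2 / (4 * a))) : ℝ) : ℂ) := by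
  have h := GaussianFourier.integral_cexp_neg_mul_sq_norm_add (V := ℂ) (b := (a : ℂ)) (by simpa using ha) I
    (conj c)
  have h1 : ∀ v : ℂ, cexp (-(a : ℂ) * ‖v‖ ^ 2 + I * (inner ℝ (conj c) v : ℝ)) =
      cexp (((-(a * ‖v‖ ^ 2) : ℝ) : ℂ) + (((v * c).re : ℝ) : ℂ) * I) := by
    intro v
    congr 1
    have h2 : (inner ℝ (conj c) v : ℝ) = (v * c).re := by
      rw [Complex.inner]; simp
    rw [h2]
    push_cast
    ring
  simp_rw [h1] at h
  rw [h]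
  have h3 : (Module.finrank ℝ ℂ : ℂ) / 2 = 1 := by
    rw [Complex.finrank_real_complex]; norm_num
  rw [h3, cpow_one]
  push_cast
  congr 2
  · rw [RCLike.norm_conj, Complex.I_sq]
    ring

/-- The archimedean Gaussian attached to `(z, t) ∈ ℍ³` and `k > 0`. -/
noncomputable def gs (z : ℂ) (t k : ℝ) (v : ℂ × ℂ) : ℂ :=
  cexp (((-(2 * π * t * (k * ‖v.1‖ ^ 2 + ‖v.2‖ ^ 2 / k)) : ℝ) : ℂ) +
    ((4 * π * (z * v.1 * v.2).re : ℝ) : ℂ) * I)

/-- The pairing `Tr (v w̄)`. -/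
noncomputable def pr (v w : ℂ × ℂ) : ℝ := 2 * (v.1 * w.2 + v.2 * w.1).re

theorem norm_gs (z : ℂ) (t k : ℝ) (v : ℂ × ℂ) :
    ‖gs z t k v‖ = Real.exp (-(2 * π * t * (k * ‖v.1‖ ^ 2 + ‖v.2‖ ^ 2 / k))) := by
  unfold gs
  rw [Complex.norm_exp]
  congr 1
  rw [Complex.add_re, Complex.ofReal_re, Complex.re_ofReal_mul, Complex.I_re, mul_zero, add_zero]

theorem continuous_gs (z : ℂ) (t k : ℝ) : Continuous (gs z t k) := by
  unfold gs
  fun_prop

theorem exists_gs_bound (z : ℂ) {t k : ℝ} (ht : 0 < t) (hk : 0 < k) :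
    ∃ c : ℝ, 0 < c ∧ ∀ v, ‖gs z t k v‖ ≤ Real.exp (-(c * ‖v.1‖ ^ 2)) * Real.exp (-(c * ‖v.2‖ ^ 2)) := by
  refine ⟨min (2 * π * t * k) (2 * π * t / k), ?_, fun v => ?_⟩
  · rw [lt_min_iff]; constructor <;> positivity
  rw [norm_gs, ← Real.exp_add, Real.exp_le_exp]
  have h1 : min (2 * π * t * k) (2 * π * t / k) * ‖v.1‖ ^ 2 ≤ 2 * π * t * k * ‖v.1‖ ^ 2 :=
    mul_le_mul_of_nonneg_right (min_le_left _ _) (by positivity)
  have h2 : min (2 * π * t * k) (2 * π * t / k) * ‖v.2‖ ^ 2 ≤ 2 * π * t / k * ‖v.2‖ ^ 2 :=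
    mul_le_mul_of_nonneg_right (min_le_right _ _) (by positivity)
  have h3 : 2 * π * t * (k * ‖v.1‖ ^ 2 + ‖v.2‖ ^ 2 / k) =
      2 * π * t * k * ‖v.1‖ ^ 2 + 2 * π * t / k * ‖v.2‖ ^ 2 := by ring
  rw [h3]
  linarith

theorem integrable_gauss {c : ℝ} (hc : 0 < c) : Integrable fun v : ℂ => Real.exp (-(c * ‖v‖ ^ 2)) := by
  have h := (GaussianFourier.integrable_cexp_neg_mul_sq_norm_add (V := ℂ) (b := (c : ℂ))
    (by simpa using hc) 0 0).norm
  refine h.congr (Filter.Eventually.of_forall fun v => ?_)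
  simp only [zero_mul, add_zero, Complex.norm_exp]
  congr 1
  have : (-(c : ℂ) * (‖v‖ : ℂ) ^ 2) = ((-(c * ‖v‖ ^ 2) : ℝ) : ℂ) := by push_cast; ring
  rw [this, Complex.ofReal_re]

theorem integrable_gs (z : ℂ) {t k : ℝ} (ht : 0 < t) (hk : 0 < k) : Integrable (gs z t k) := by
  obtain ⟨c, hc, h⟩ := exists_gs_bound z ht hk
  have h1 : Integrable (fun v : ℂ × ℂ => Real.exp (-(c * ‖v.1‖ ^ 2)) * Real.exp (-(c * ‖v.2‖ ^ 2))) :=
    (integrable_gauss hc).mul_prod (integrable_gauss hc)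
  exact h1.mono' (continuous_gs z t k).aestronglyMeasurable (Filter.Eventually.of_forall h)

theorem integrable_gs_mul (z : ℂ) {t k : ℝ} (ht : 0 < t) (hk : 0 < k) (w : ℂ × ℂ) :
    Integrable fun v => gs z t k v * cexp ((-(2 * π * pr v w) : ℝ) * I) := by
  refine (integrable_gs z ht hk).mul_bdd (c := 1) ?_ (Filter.Eventually.of_forall fun v => ?_)
  · refine Continuous.aestronglyMeasurable ?_
    unfold pr; fun_prop
  · rw [Complex.norm_exp_ofReal_mul_I]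

/-- **Fourier transform of the theta Gaussian**: it implements the inversion of `ℍ³`. -/
theorem ft_gs (z : ℂ) {t k : ℝ} (ht : 0 < t) (hk : 0 < k) (w : ℂ × ℂ) :
    ∫ v : ℂ × ℂ, gs z t k v * cexp ((-(2 * π * pr v w) : ℝ) * I) =
      ((1 / (4 * (‖z‖ ^ 2 + t ^ 2)) : ℝ) : ℂ) *
        gs (-conj z / ((‖z‖ ^ 2 + t ^ 2 : ℝ) : ℂ)) (t / (‖z‖ ^ 2 + t ^ 2)) k w := by
  have hint := integrable_gs_mul z ht hk w
  rw [Measure.volume_eq_prod] at hint ⊢
  rw [integral_prod _ hint]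
  set ρ : ℝ := ‖z‖ ^ 2 + t ^ 2 with hρ
  have hρ0 : 0 < ρ := by positivity
  -- inner integral
  have hin : ∀ v1 : ℂ, ∫ v2 : ℂ, gs z t k (v1, v2) * cexp ((-(2 * π * pr (v1, v2) w) : ℝ) * I) =
      ((k / (2 * t) : ℝ) : ℂ) * cexp (((-(2 * π * t * k * ‖v1‖ ^ 2 +
        2 * π * k / t * ‖z * v1 - w.1‖ ^ 2) : ℝ) : ℂ) + ((-(4 * π * (v1 * w.2).re) : ℝ) : ℂ) * I) := by
    intro v1
    have h1 : ∀ v2 : ℂ, gs z t k (v1, v2) * cexp ((-(2 * π * pr (v1, v2) w) : ℝ) * I) =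
        cexp (((-(2 * π * t * k * ‖v1‖ ^ 2) : ℝ) : ℂ) + ((-(4 * π * (v1 * w.2).re) : ℝ) : ℂ) * I) *
        cexp (((-(2 * π * t / k * ‖v2‖ ^ 2) : ℝ) : ℂ) +
          (((v2 * (4 * π * (z * v1 - w.1))).re : ℝ) : ℂ) * I) := by
      intro v2
      unfold gs pr
      rw [← Complex.exp_add, ← Complex.exp_add]
      congr 1
      have h2 : (v2 * (4 * π * (z * v1 - w.1))).re =
          4 * π * ((z * v1 * v2).re - (v2 * w.1).re) := by
        have : v2 * (4 * π * (z * v1 - w.1)) = ((4 * π : ℝ) : ℂ) * (z * v1 * v2 - v2 * w.1) := by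
          push_cast; ring
        rw [this, Complex.re_ofReal_mul, Complex.sub_re]
      rw [h2]
      simp only [Complex.add_re]
      push_cast
      ring
    simp_rw [h1]
    rw [integral_const_mul, integral_gauss_lin (by positivity)]
    have h3 : ‖(4 * π * (z * v1 - w.1) : ℂ)‖ ^ 2 = 16 * π ^ 2 * ‖z * v1 - w.1‖ ^ 2 := by
      rw [norm_mul, norm_mul, mul_pow, mul_pow]
      simp only [Complex.norm_ofNat, Complex.norm_real, Real.norm_eq_abs, sq_abs]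
      ring
    rw [h3]
    have h4 : π / (2 * π * t / k) = k / (2 * t) := by field_simp
    have h5 : 16 * π ^ 2 * ‖z * v1 - w.1‖ ^ 2 / (4 * (2 * π * t / k)) =
        2 * π * k / t * ‖z * v1 - w.1‖ ^ 2 := by field_simp; ring
    rw [h4, h5]
    push_cast
    rw [mul_left_comm, ← Complex.exp_add]
    congr 2
    ring
  simp_rw [hin]
  rw [integral_const_mul]
  -- shift
  rw [← integral_add_right_eq_self _ (conj z * w.1 / (ρ : ℂ))]
  have hout : ∀ v : ℂ, cexp (((-(2 * π * t * k * ‖v + conj z * w.1 / (ρ : ℂ)‖ ^ 2 +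
        2 * π * k / t * ‖z * (v + conj z * w.1 / (ρ : ℂ)) - w.1‖ ^ 2) : ℝ) : ℂ) +
        ((-(4 * π * ((v + conj z * w.1 / (ρ : ℂ)) * w.2).re) : ℝ) : ℂ) * I) =
      cexp (((-(2 * π * (k * t / ρ) * ‖w.1‖ ^ 2) : ℝ) : ℂ) +
        ((-(4 * π * (conj z * w.1 * w.2).re / ρ) : ℝ) : ℂ) * I) *
      cexp (((-(2 * π * k * ρ / t * ‖v‖ ^ 2) : ℝ) : ℂ) + (((v * (-(4 * π) * w.2)).re : ℝ) : ℂ) * I) := by
    intro v
    rw [← Complex.exp_add]
    have e1 : t * ‖v + conj z * w.1 / (ρ : ℂ)‖ ^ 2 +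
        1 / t * ‖z * (v + conj z * w.1 / (ρ : ℂ)) - w.1‖ ^ 2 =
        ρ / t * ‖v‖ ^ 2 + t / ρ * ‖w.1‖ ^ 2 := by
      have hρ' : ρ = z.re * z.re + z.im * z.im + t ^ 2 := by
        rw [hρ, Complex.sq_norm, Complex.normSq_apply]
      simp only [Complex.sq_norm, Complex.normSq_apply, Complex.add_re, Complex.add_im,
        Complex.sub_re, Complex.sub_im, Complex.mul_re, Complex.mul_im, Complex.div_ofReal_re,
        Complex.div_ofReal_im, Complex.conj_re, Complex.conj_im]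
      field_simp
      rw [hρ']
      ring
    have e2 : ((v + conj z * w.1 / (ρ : ℂ)) * w.2).re = (v * w.2).re +
        (conj z * w.1 * w.2).re / ρ := by
      have : (v + conj z * w.1 / (ρ : ℂ)) * w.2 = v * w.2 + (conj z * w.1 * w.2) / (ρ : ℂ) := by
        ring
      rw [this, Complex.add_re, Complex.div_ofReal_re]
    have e3 : (v * (-(4 * π) * w.2)).re = -(4 * π) * (v * w.2).re := by
      have : v * (-(4 * π) * w.2) = ((-(4 * π) : ℝ) : ℂ) * (v * w.2) := by push_cast; ring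
      rw [this, Complex.re_ofReal_mul]
    have e4 : 2 * π * t * k * ‖v + conj z * w.1 / (ρ : ℂ)‖ ^ 2 +
        2 * π * k / t * ‖z * (v + conj z * w.1 / (ρ : ℂ)) - w.1‖ ^ 2 =
        2 * π * k * ρ / t * ‖v‖ ^ 2 + 2 * π * (k * t / ρ) * ‖w.1‖ ^ 2 := by
      have : 2 * π * t * k * ‖v + conj z * w.1 / (ρ : ℂ)‖ ^ 2 +
        2 * π * k / t * ‖z * (v + conj z * w.1 / (ρ : ℂ)) - w.1‖ ^ 2 =
        2 * π * k * (t * ‖v + conj z * w.1 / (ρ : ℂ)‖ ^ 2 +
        1 / t * ‖z * (v + conj z * w.1 / (ρ : ℂ)) - w.1‖ ^ 2) := by ring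
      rw [this, e1]; ring
    rw [e4, e2, e3]
    push_cast
    ring_nf
  simp_rw [hout]
  rw [integral_const_mul, integral_gauss_lin (by positivity)]
  have h6 : ‖(-(4 * π) * w.2 : ℂ)‖ ^ 2 = 16 * π ^ 2 * ‖w.2‖ ^ 2 := by
    rw [norm_mul, norm_neg, norm_mul, mul_pow, mul_pow]
    simp only [Complex.norm_ofNat, Complex.norm_real, Real.norm_eq_abs, sq_abs]
    ring
  rw [h6]
  have h7 : π / (2 * π * k * ρ / t) = t / (2 * k * ρ) := by field_simp
  have h8 : 16 * π ^ 2 * ‖w.2‖ ^ 2 / (4 * (2 * π * k * ρ / t)) =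
      2 * π * t / (k * ρ) * ‖w.2‖ ^ 2 := by field_simp; ring
  rw [h7, h8]
  unfold gs
  have h9 : (-conj z / (ρ : ℂ) * w.1 * w.2).re = -(conj z * w.1 * w.2).re / ρ := by
    have : -conj z / (ρ : ℂ) * w.1 * w.2 = -(conj z * w.1 * w.2) / (ρ : ℂ) := by ring
    rw [this, Complex.div_ofReal_re, Complex.neg_re]
  rw [h9]
  have h10 : ((k / (2 * t) : ℝ) : ℂ) * ((t / (2 * k * ρ) : ℝ) : ℂ) = ((1 / (4 * ρ) : ℝ) : ℂ) := by
    rw [← Complex.ofReal_mul]; congr 1; field_simp; norm_num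
  rw [Complex.ofReal_mul (t / (2 * k * ρ)), mul_left_comm (cexp _), ← mul_assoc, h10,
    Complex.ofReal_exp, ← Complex.exp_add]
  congr 2
  have hk' : (k : ℂ) ≠ 0 := by exact_mod_cast hk.ne'
  have ht' : (t : ℂ) ≠ 0 := by exact_mod_cast ht.ne'
  have hρ' : (ρ : ℂ) ≠ 0 := by exact_mod_cast hρ0.ne'
  push_cast
  field_simp
  ring

end Fermat.Agent.LT.I
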