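import Fermat.Agent.LT.Defs
import Fermat.Agent.LT.I.Gauss
import Fermat.Agent.CFT.SUnitsHerbrand

/-!
# LT, piece I: common notation (divisors, quadratic extensions, the theta function)
-/

set_option autoImplicit false
set_option linter.unusedSectionVars false

open NumberField IsDedekindDomain Matrix WithZero Module
open scoped Real

namespace Fermat.Agent.LT.I

open Fermat.LT Fermat.Agent.CFT

section divisors

variable {F : Type} [Field F] [NumberField F]

/-- Divisors (fractional ideals) of a number field. -/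
abbrev Dv (F : Type) [Field F] [NumberField F] : Type := Pl F →₀ ℤ

/-- The integral valuation (junk value `0` at `0`). -/
noncomputable def ov (w : Pl F) (x : F) : ℤ := -WithZero.log (w.valuation F x)

theorem val_ne_zero (w : Pl F) {x : F} (hx : x ≠ 0) : w.valuation F x ≠ 0 :=
  (Valuation.ne_zero_iff _).2 hx

theorem val_eq (w : Pl F) {x : F} (hx : x ≠ 0) : w.valuation F x = exp (-(ov w x)) := by
  rw [ov, neg_neg, WithZero.exp_log (val_ne_zero w hx)]

theorem ov_of_val (w : Pl F) {x : F} {n : ℤ} (h : w.valuation F x = exp (-n)) : ov w x = n := by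
  rw [ov, h, WithZero.log_exp, neg_neg]

@[simp] theorem ov_zero (w : Pl F) : ov w (0 : F) = 0 := by simp [ov]

@[simp] theorem ov_one (w : Pl F) : ov w (1 : F) = 0 := by simp [ov]

theorem ov_mul (w : Pl F) {x y : F} (hx : x ≠ 0) (hy : y ≠ 0) : ov w (x * y) = ov w x + ov w y := by
  rw [ov, map_mul, WithZero.log_mul (val_ne_zero w hx) (val_ne_zero w hy), neg_add]; rfl

theorem ov_inv (w : Pl F) (x : F) : ov w x⁻¹ = -ov w x := by
  rw [ov, map_inv₀, WithZero.log_inv]; rfl

theorem ov_pow (w : Pl F) (x : F) (n : ℕ) : ov w (x ^ n) = n * ov w x := by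
  rw [ov, map_pow, WithZero.log_pow, ov]; simp

theorem ov_neg (w : Pl F) (x : F) : ov w (-x) = ov w x := by
  rw [ov, Valuation.map_neg]; rfl

theorem le_exp_iff (w : Pl F) {x : F} (hx : x ≠ 0) (n : ℤ) :
    w.valuation F x ≤ exp (-n) ↔ n ≤ ov w x := by
  rw [val_eq w hx, WithZero.exp_le_exp, neg_le_neg_iff]

theorem av_eq_zpow (w : Pl F) {x : F} (hx : x ≠ 0) : av w x = qv w ^ (-(ov w x)) := by
  rw [av, NumberField.HeightOneSpectrum.adicAbv_def, val_eq w hx, exp]
  rw [WithZeroMulInt.toNNReal_neg_apply]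
  · rw [WithZero.unzero_coe]
    simp [qv]
  · exact WithZero.coe_ne_zero

theorem av_le_zpow_iff (w : Pl F) (x : F) (n : ℤ) :
    av w x ≤ qv w ^ (-n) ↔ w.valuation F x ≤ exp (-n) := by
  by_cases hx : x = 0
  · subst hx
    simp [zpow_nonneg (qv_pos w).le]
  · rw [le_exp_iff w hx, av_eq_zpow w hx, zpow_le_zpow_iff_right₀ (one_lt_qv w), neg_le_neg_iff]

theorem av_le_one_iff' (w : Pl F) (x : F) : av w x ≤ 1 ↔ w.valuation F x ≤ 1 := by
  have := av_le_zpow_iff w x 0
  simpa using this

theorem av_eq_av_iff (w : Pl F) {x y : F} (hx : x ≠ 0) (hy : y ≠ 0) :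
    av w x = av w y ↔ ov w x = ov w y := by
  rw [av_eq_zpow w hx, av_eq_zpow w hy, zpow_right_inj₀ (qv_pos w) (one_lt_qv w).ne', neg_inj]

/-- The lattice attached to a divisor. -/
def InL (l : Dv F) : AddSubgroup F where
  carrier := {x | ∀ w : Pl F, w.valuation F x ≤ exp (-(l w))}
  add_mem' := fun {x y} hx hy w =>
    ((w.valuation F).map_add x y).trans (max_le (hx w) (hy w))
  zero_mem' := fun w => by simp
  neg_mem' := fun {x} hx w => by
    change w.valuation F (-x) ≤ _
    rw [Valuation.map_neg]; exact hx w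

theorem mem_InL {l : Dv F} {x : F} : x ∈ InL l ↔ ∀ w : Pl F, w.valuation F x ≤ exp (-(l w)) :=
  Iff.rfl

theorem mem_InL_iff {l : Dv F} {x : F} (hx : x ≠ 0) : x ∈ InL l ↔ ∀ w : Pl F, l w ≤ ov w x := by
  rw [mem_InL]
  exact forall_congr' fun w => le_exp_iff w hx _

theorem InL_mono {l l' : Dv F} (h : l ≤ l') : InL l' ≤ InL l := fun x hx w =>
  (hx w).trans (by rw [WithZero.exp_le_exp]; exact neg_le_neg (h w))

theorem mul_mem_InL {l l' : Dv F} {x y : F} (hx : x ∈ InL l) (hy : y ∈ InL l') :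
    x * y ∈ InL (l + l') := fun w => by
  rw [map_mul, Finsupp.add_apply, neg_add, WithZero.exp_add]
  exact mul_le_mul' (hx w) (hy w)

theorem ov_finite (x : F) : {w : Pl F | ov w x ≠ 0}.Finite := by
  by_cases hx : x = 0
  · subst hx; simp
  · refine (SUH.finite_valuation_ne_one (Units.mk0 x hx)).subset fun w hw h => hw ?_
    change w.valuation F x = 1 at h
    rw [ov, h]; simp

/-- The principal divisor. -/
noncomputable def dv (x : F) : Dv F := Finsupp.ofSupportFinite (fun w => ov w x) (ov_finite x)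

@[simp] theorem dv_apply (x : F) (w : Pl F) : dv x w = ov w x := rfl

theorem dv_mul {x y : F} (hx : x ≠ 0) (hy : y ≠ 0) : dv (x * y) = dv x + dv y := by
  ext w; exact ov_mul w hx hy

theorem dv_inv (x : F) : dv x⁻¹ = -dv x := by
  ext w; exact ov_inv w x

@[simp] theorem dv_one : dv (1 : F) = 0 := by ext w; simp

theorem smul_mem_InL_iff {x y : F} (hx : x ≠ 0) {l : Dv F} : x * y ∈ InL (dv x + l) ↔ y ∈ InL l := by
  rw [mem_InL, mem_InL]
  refine forall_congr' fun w => ?_
  rw [map_mul, Finsupp.add_apply, dv_apply, neg_add, WithZero.exp_add, val_eq w hx]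
  constructor
  · intro h
    exact le_of_mul_le_mul_left (a := exp (-(ov w x))) h (WithZero.exp_pos)
  · intro h; exact mul_le_mul_right h _

/-- absolute norm of a divisor -/
noncomputable def absN (l : Dv F) : ℝ := l.prod fun w n => qv w ^ n

theorem absN_add (l l' : Dv F) : absN (l + l') = absN l * absN l' :=
  Finsupp.prod_add_index' (fun w => by simp) (fun w a b => zpow_add₀ (qv_pos w).ne' _ _)

@[simp] theorem absN_zero : absN (0 : Dv F) = 1 := Finsupp.prod_zero_index

theorem absN_pos (l : Dv F) : 0 < absN l := Finset.prod_pos fun w _ => zpow_pos (qv_pos w) _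

theorem absN_neg (l : Dv F) : absN (-l) = (absN l)⁻¹ := by
  have h := absN_add l (-l)
  rw [add_neg_cancel, absN_zero] at h
  exact eq_inv_of_mul_eq_one_right h.symm

theorem absN_dv {x : F} (hx : x ≠ 0) : absN (dv x) = (∏ᶠ w : Pl F, av w x)⁻¹ := by
  have h : ∀ w : Pl F, av w x = (qv w ^ (dv x w))⁻¹ := fun w => by
    rw [av_eq_zpow w hx, dv_apply, _root_.zpow_neg]
  rw [finprod_congr h, finprod_inv_distrib, inv_inv, absN, Finsupp.prod]
  rw [finprod_eq_prod_of_mulSupport_subset]
  intro w hw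
  simp only [Function.mem_mulSupport, dv_apply] at hw
  rw [Finset.mem_coe, Finsupp.mem_support_iff]
  intro h0
  rw [dv_apply] at h0
  rw [h0, zpow_zero] at hw
  exact hw rfl

end divisors

section quad

variable (F M : Type) [Field F] [NumberField F] [Field M] [NumberField M] [Algebra F M]

/-- A quadratic extension `M/F` of totally complex number fields with chosen complex embeddings. -/
structure Quad where
  /-- the embeddings of `F` -/
  A : Arch F
  /-- the nontrivial automorphism -/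
  c : M ≃ₐ[F] M
  c_ne : c ≠ 1
  deg : finrank F M = 2
  /-- extension of the embeddings to `M` -/
  emb : A.I → M →+* ℂ
  emb_alg : ∀ i x, emb i (algebraMap F M x) = A.emb i x

end quad

section quad2

variable {F M : Type} [Field F] [NumberField F] [Field M] [NumberField M] [Algebra F M]
  (Q : Quad F M)

/-- the pair of complex coordinates at `i` -/
noncomputable def Quad.vv (i : Q.A.I) (ξ : M) : ℂ × ℂ := (Q.emb i ξ, Q.emb i (Q.c ξ))

/-- the norm `M → F` -/
noncomputable def nrm (ξ : M) : F := Algebra.norm F ξ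

theorem nrm_mul (ξ η : M) : nrm (F := F) (ξ * η) = nrm ξ * nrm η := map_mul _ _ _

@[simp] theorem nrm_one : nrm (F := F) (1 : M) = 1 := map_one _

theorem nrm_ne_zero {ξ : M} (h : ξ ≠ 0) : nrm (F := F) ξ ≠ 0 := Algebra.norm_ne_zero_iff.2 h

@[simp] theorem nrm_zero : nrm (F := F) (0 : M) = 0 := Algebra.norm_zero

theorem nrm_eq_zero {ξ : M} : nrm (F := F) ξ = 0 ↔ ξ = 0 := Algebra.norm_eq_zero_iff

include Q in
theorem Quad.isGalois : IsGalois F M := by
  have h1 : Nat.card (M ≃ₐ[F] M) ≤ 2 := by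
    have := AlgEquiv.card_le (F := F) (K := M)
    rw [Q.deg, ← Nat.card_eq_fintype_card] at this
    exact this
  have h2 : 2 ≤ Nat.card (M ≃ₐ[F] M) := by
    rw [Nat.card_eq_fintype_card]
    exact Fintype.one_lt_card_iff.2 ⟨Q.c, 1, Q.c_ne⟩
  exact IsGalois.of_card_aut_eq_finrank F M (by rw [Q.deg]; omega)

include Q in
theorem Quad.card_aut : Nat.card (M ≃ₐ[F] M) = 2 := by
  have := Q.isGalois
  rw [IsGalois.card_aut_eq_finrank, Q.deg]

theorem Quad.eq_one_or (g : M ≃ₐ[F] M) : g = 1 ∨ g = Q.c := by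
  have h := Q.card_aut
  rw [Nat.card_eq_two_iff' (1 : M ≃ₐ[F] M)] at h
  obtain ⟨y, hy, huniq⟩ := h
  by_cases hg : g = 1
  · exact Or.inl hg
  · right
    rw [huniq g hg, huniq Q.c Q.c_ne]

theorem Quad.c_mul_c : Q.c * Q.c = 1 := by
  rcases Q.eq_one_or (Q.c * Q.c) with h | h
  · exact h
  · exact absurd (mul_right_cancel (h.trans (one_mul Q.c).symm)) Q.c_ne

@[simp] theorem Quad.c_c (ξ : M) : Q.c (Q.c ξ) = ξ := DFunLike.congr_fun Q.c_mul_c ξ

theorem Quad.univ_eq [Fintype (M ≃ₐ[F] M)] [DecidableEq (M ≃ₐ[F] M)] :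
    (Finset.univ : Finset (M ≃ₐ[F] M)) = {1, Q.c} := by
  ext g; simpa using Q.eq_one_or g

theorem Quad.alg_nrm (ξ : M) : algebraMap F M (nrm ξ) = ξ * Q.c ξ := by
  classical
  have := Q.isGalois
  rw [nrm, Algebra.norm_eq_prod_automorphisms, Q.univ_eq, Finset.prod_pair Q.c_ne.symm]
  rfl

theorem Quad.alg_trace (ξ : M) : algebraMap F M (Algebra.trace F M ξ) = ξ + Q.c ξ := by
  classical
  have := Q.isGalois
  rw [trace_eq_sum_automorphisms, Q.univ_eq, Finset.sum_pair Q.c_ne.symm]
  rfl

theorem Quad.nrm_c (ξ : M) : nrm (F := F) (Q.c ξ) = nrm ξ := by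
  apply (algebraMap F M).injective
  rw [Q.alg_nrm, Q.alg_nrm, Q.c_c, mul_comm]

theorem Quad.emb_nrm (i : Q.A.I) (ξ : M) :
    Q.A.emb i (nrm ξ) = (Q.vv i ξ).1 * (Q.vv i ξ).2 := by
  rw [← Q.emb_alg, Q.alg_nrm, map_mul]; rfl

/-- the action of the nontrivial automorphism on places -/
noncomputable def Quad.cP (P : Pl M) : Pl M := SUH.act Q.c P

@[simp] theorem Quad.cP_cP (P : Pl M) : Q.cP (Q.cP P) = P := by
  rw [Quad.cP, Quad.cP, SUH.act_act, Q.c_mul_c, SUH.act_one]

theorem Quad.below_cP (P : Pl M) : SUH.below F (Q.cP P) = SUH.below F P := SUH.below_act _ _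

theorem Quad.val_cP (P : Pl M) (ξ : M) : (Q.cP P).valuation M ξ = P.valuation M (Q.c ξ) := by
  have h := SUH.valuation_act Q.c P (Q.c ξ)
  rwa [Q.c_c] at h

theorem Quad.ov_cP (P : Pl M) (ξ : M) : ov (Q.cP P) ξ = ov P (Q.c ξ) := by
  rw [ov, ov, Q.val_cP]

theorem Quad.eq_or_eq_cP {P P' : Pl M} (h : SUH.below F P = SUH.below F P') :
    P' = P ∨ P' = Q.cP P := by
  have := Q.isGalois
  obtain ⟨τ, hτ⟩ := SUH.exists_act_eq P P' h
  rcases Q.eq_one_or τ with rfl | rfl
  · left; rw [← hτ, SUH.act_one]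
  · right; rw [← hτ]; rfl

/-- a place of `M` above `w` -/
noncomputable def up (M : Type) [Field M] [NumberField M] [Algebra F M] (w : Pl F) : Pl M :=
  (SUH.exists_above (F := M) w).choose

@[simp] theorem below_up (w : Pl F) : SUH.below F (up M w) = w :=
  (SUH.exists_above (F := M) w).choose_spec

/-- `w` is unramified in `M` -/
def Unr (M : Type) [Field M] [NumberField M] [Algebra F M] (w : Pl F) : Prop :=
  ∀ P : Pl M, SUH.below F P = w → ∀ x : F, P.valuation M (algebraMap F M x) = w.valuation F x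

theorem Unr.ov_eq {w : Pl F} (h : Unr M w) {P : Pl M} (hP : SUH.below F P = w) (x : F) :
    ov P (algebraMap F M x) = ov w x := by
  rw [ov, ov, h P hP]

/-- `w` is inert (or ramified) in `M`: only one place above `w` -/
def Quad.Inert (w : Pl F) : Prop := Q.cP (up M w) = up M w

theorem Quad.inert_iff {P : Pl M} : Q.Inert (SUH.below F P) ↔ Q.cP P = P := by
  unfold Quad.Inert
  rcases Q.eq_or_eq_cP (P := P) (P' := up M (SUH.below F P)) (by simp) with h | h
  · rw [h]
  · rw [h, Q.cP_cP]; exact eq_comm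

open Classical in
/-- the quadratic character at `w` (`1` for split, `-1` for inert) -/
noncomputable def Quad.chi (w : Pl F) : ℤ := if Q.Inert w then -1 else 1

/-- the norm of divisors -/
noncomputable def Quad.Nm : Dv M →+ Dv F where
  toFun l := Finsupp.ofSupportFinite (fun w => l (up M w) + l (Q.cP (up M w))) (by
    have h : {w : Pl F | l (up M w) + l (Q.cP (up M w)) ≠ 0} ⊆
        SUH.below F '' (l.support : Set (Pl M)) := by
      intro w hw
      by_cases h1 : l (up M w) = 0
      · have h2 : l (Q.cP (up M w)) ≠ 0 := by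
          intro h2; apply hw; rw [h1, h2, add_zero]
        exact ⟨_, by simpa using h2, by rw [Q.below_cP, below_up]⟩
      · exact ⟨_, by simpa using h1, below_up w⟩
    exact (l.support.finite_toSet.image _).subset h)
  map_zero' := by ext w; rfl
  map_add' l l' := by
    ext w
    simp only [Finsupp.ofSupportFinite_coe, Finsupp.add_apply]
    ring

theorem Quad.Nm_below (l : Dv M) (P : Pl M) : Q.Nm l (SUH.below F P) = l P + l (Q.cP P) := by
  change l (up M (SUH.below F P)) + l (Q.cP (up M (SUH.below F P))) = _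
  rcases Q.eq_or_eq_cP (P := P) (P' := up M (SUH.below F P)) (by simp) with h | h
  · rw [h]
  · rw [h, Q.cP_cP, add_comm]

theorem Quad.ov_nrm {P : Pl M} (h : Unr M (SUH.below F P)) {ξ : M} (hξ : ξ ≠ 0) :
    ov (SUH.below F P) (nrm ξ) = ov P ξ + ov (Q.cP P) ξ := by
  rw [← h.ov_eq rfl, Q.alg_nrm, ov_mul _ hξ ((map_ne_zero _).2 hξ), Q.ov_cP]

end quad2

end Fermat.Agent.LT.I
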