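import Fermat.Agent.LT.I.Bridge5

/-!
# LT, piece I: the Whittaker series as a sum of theta integrals (main theorem)
-/

set_option autoImplicit false
set_option linter.unusedSectionVars false

open NumberField IsDedekindDomain Matrix WithZero Module MeasureTheory
open scoped Real nonZeroDivisors Pointwise

namespace Fermat.Agent.LT.I

open Fermat.LT Fermat.Agent.CFT

variable {F M : Type} [Field F] [NumberField F] [Field M] [NumberField M] [Algebra F M]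
variable (Z : Setup F M)

namespace Setup

/-- `G` vanishes outside the range of `Θ` -/
theorem G_eq_zero {s : M → ℂ} (ν : Dv F) (u : F) (P : XI Z.A) (x : Fˣ × (Dv M × (Mˣ ⧸ Z.US)))
    (hx : x ∉ Set.range (Z.Θ ν)) : Z.G s ν u P x = 0 := by
  classical
  by_contra hG
  apply hx
  obtain ⟨α, b, q⟩ := x
  have h1 : Z.Near1 ((α : F) / nrm (q.out : M)) := by
    by_contra h
    apply hG
    unfold G
    simp only [if_neg h, zero_mul, mul_zero]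
  have h2 : b ∈ Z.Eff (Z.off (dv (α : F)) + ν + Z.δ) := by
    by_contra h
    apply hG
    unfold G
    simp only [if_neg h, zero_mul, mul_zero]
  obtain ⟨hb0, hbb, hbm⟩ := h2
  have hnz := nrm_ne_zero (F := F) q.out.ne_zero
  -- the pair
  have hp : ((α / nU q.out, Z.offM (dv (q.out : M)) - b) : Fˣ × Dv M) ∈ Z.J ν := by
    refine ⟨?_, fun P hP => ?_, ?_⟩
    · change Z.Near1 (((α / nU q.out : Fˣ) : F))
      rw [Units.val_div_eq_div_val, nU_coe]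
      exact h1
    · change (Z.offM (dv (q.out : M)) - b) P = 0
      rw [Finsupp.sub_apply, Z.offM_of_bad _ hP, hbb P hP, sub_zero]
    · change Z.Nm (Z.offM (dv (q.out : M)) - b) + dv (((α / nU q.out : Fˣ) : F)) + ν + Z.δ = 0
      rw [Units.val_div_eq_div_val, nU_coe, map_sub, Z.Nm_offM, hbm, ← Z.off_dv_near1 h1,
        dv_div α.ne_zero hnz, off_sub]
      abel
  obtain ⟨m, hm⟩ := Z.exists_smul_out (ν := ν) ⟨_, hp⟩
  set c : Z.Cl ν := Quotient.mk'' ⟨_, hp⟩ with hc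
  set ξ : Mˣ := q.out * (m : Mˣ) with hξ
  obtain ⟨e, he⟩ := QuotientGroup.mk_out_eq_mul (Z.toQuad.qa.N1 Z.𝔣) ξ
  obtain ⟨he1, he2, he3⟩ := (Z.mem_N1_iff).mp e.2
  refine ⟨(c, (ξ : Mˣ ⧸ Z.toQuad.qa.N1 Z.𝔣)), ?_⟩
  have hc1 : ((Quotient.out c : Z.J ν) : Fˣ × Dv M).1 = α / nU q.out / nU (m : Mˣ) := by
    rw [← hm, smul_J_fst]
  have hc2 : ((Quotient.out c : Z.J ν) : Fˣ × Dv M).2 = Z.offM (dv (q.out : M)) - b + dv ((m : Mˣ) : M) := by
    rw [← hm, smul_J_snd]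
  unfold Θ
  refine Prod.ext ?_ (Prod.ext ?_ ?_)
  · simp only
    rw [hc1, he, map_mul, he2, mul_one, hξ, map_mul, div_div, div_mul_cancel]
  · simp only
    rw [hc2, he, Units.val_mul, dv_mul ξ.ne_zero e.1.ne_zero, he3, add_zero, hξ, Units.val_mul,
      dv_mul q.out.ne_zero (Units.ne_zero _), offM_add,
      Z.offM_eq_self (l := dv ((m : Mˣ) : M)) fun P hP => Z.US_ov m.2 hP]
    abel
  · simp only
    rw [he, QuotientGroup.mk_mul_of_mem _ he1, hξ, QuotientGroup.mk_mul_of_mem _ m.2,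
      QuotientGroup.out_eq']

/-- `G ∘ Θ` -/
theorem G_Θ {s : M → ℂ} (hs : Z.IsSch s) (ν : Dv F) (u : F) (P : XI Z.A)
    (c : Z.Cl ν) (q : Mˣ ⧸ Z.toQuad.qa.N1 Z.𝔣) :
    Z.G s ν u P (Z.Θ ν (c, q)) = ((√(absN ν))⁻¹ : ℝ) *
      ((Z.psi ((Quotient.out c : Z.J ν) : Fˣ × Dv M).2)⁻¹ *
        (Z.fJ s u ((Quotient.out c : Z.J ν) : Fˣ × Dv M).1 ((Quotient.out c : Z.J ν) : Fˣ × Dv M).2 (q.out : M) *
          W Z.A (((Quotient.out c : Z.J ν) : Fˣ × Dv M).1 * nrm (q.out : M)) P)) := by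
  classical
  obtain ⟨hp1, hp2, hp3⟩ := (Quotient.out c : Z.J ν).2
  set α0 := ((Quotient.out c : Z.J ν) : Fˣ × Dv M).1 with hα0
  set l := ((Quotient.out c : Z.J ν) : Fˣ × Dv M).2 with hl
  set ξ : Mˣ := q.out with hξ
  obtain ⟨e, he⟩ := QuotientGroup.mk_out_eq_mul Z.US ξ
  have hnz := nrm_ne_zero (F := F) ξ.ne_zero
  have hΘ : Z.Θ ν (c, q) = (α0 * nU ξ, (Z.offM (dv (ξ : M)) - l, (ξ : Mˣ ⧸ Z.US))) := rfl
  rw [hΘ]
  unfold G
  simp only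
  rw [he]
  have hval : ((α0 * nU ξ : Fˣ) : F) = (α0 : F) * nrm (ξ : M) := by rw [Units.val_mul, nU_coe]
  have h1 : Z.Near1 (((α0 * nU ξ : Fˣ) : F) / nrm (((ξ * (e : Mˣ) : Mˣ)) : M)) := by
    rw [hval, Units.val_mul, nrm_mul, mul_comm (α0 : F), mul_div_mul_left _ _ hnz]
    exact (Z.near1_div_iff α0.ne_zero (nrm_ne_zero (Units.ne_zero _)) (Z.US_nrm' e.2)).mpr hp1
  rw [if_pos h1]
  have h2 : s (((ξ * (e : Mˣ) : Mˣ)) : M) = s (ξ : M) := by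
    rw [Units.val_mul]; exact hs.mul_US_br e.2 _
  have h3 : Z.psi (dv (((ξ * (e : Mˣ) : Mˣ)) : M)) = Z.psi (dv (ξ : M)) := by
    rw [Units.val_mul, dv_mul ξ.ne_zero (Units.ne_zero _), psi_add, Z.psi_dv e.2, mul_one]
  rw [h2, h3, hval]
  have h4 : (Z.offM (dv (ξ : M)) - l ∈ Z.Eff (Z.off (dv ((α0 : F) * nrm (ξ : M))) + ν + Z.δ)) ↔
      (∀ P, ¬ Z.Bad P → P.valuation M (ξ : M) ≤ exp (-(l P))) := by
    constructor
    · rintro ⟨hb0, _, _⟩ P hP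
      have := hb0 P
      rw [Finsupp.sub_apply, Z.offM_of_good _ hP, Finsupp.zero_apply, dv_apply] at this
      rw [le_exp_iff P ξ.ne_zero]
      omega
    · intro h
      refine ⟨fun P => ?_, fun P hP => ?_, ?_⟩
      · rw [Finsupp.sub_apply, Finsupp.zero_apply]
        by_cases hP : Z.Bad P
        · rw [Z.offM_of_bad _ hP, hp2 P hP, sub_zero]
        · rw [Z.offM_of_good _ hP, dv_apply]
          have := h P hP
          rw [le_exp_iff P ξ.ne_zero] at this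
          omega
      · rw [Finsupp.sub_apply, Z.offM_of_bad _ hP, hp2 P hP, sub_zero]
      · rw [map_sub, Z.Nm_offM, dv_mul α0.ne_zero hnz, off_add_br, Z.off_dv_near1 hp1]
        have h5 : Z.Nm l = -(dv (α0 : F) + ν + Z.δ) := by
          rw [eq_neg_iff_add_eq_zero, ← hp3]; abel
        rw [h5]; abel
  have h5 : Z.psi (Z.offM (dv (ξ : M)) - l) = Z.psi (dv (ξ : M)) * (Z.psi l)⁻¹ := by
    rw [sub_eq_add_neg, psi_add, psi_neg, psi_offM]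
  have h6 : (α0 : F) * nrm (ξ : M) * u = (α0 : F) * u * nrm (ξ : M) := by ring
  unfold fJ
  rw [h6]
  simp only [h4, h5]
  by_cases h7 : ∀ P, ¬ Z.Bad P → P.valuation M (ξ : M) ≤ exp (-(l P))
  · rw [if_pos h7, if_pos h7]
    have h8 := Z.psi_ne_zero (dv (ξ : M))
    field_simp
  · rw [if_neg h7, if_neg h7]
    ring

/-- the normalising constant -/
noncomputable def κT (T : Tor Z.toQuad.qa) : ℂ :=
  ((T.E0.relIndex (Z.toQuad.qa.N1 Z.𝔣) : ℂ) * 2 ^ Fintype.card Z.A.I)⁻¹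

theorem κT_ne_zero (T : Tor Z.toQuad.qa) (hT : ∀ j, (T.ε j : 𝓞 M) - 1 ∈ Z.𝔣) : Z.κT T ≠ 0 := by
  unfold κT
  refine inv_ne_zero (mul_ne_zero ?_ (pow_ne_zero _ two_ne_zero))
  exact_mod_cast T.relIndex_ne_zero hT

theorem fJ_zero (s : M → ℂ) (u α0 : F) (l : Dv M) : Z.fJ s u α0 l 0 = s 0 := by
  classical
  unfold fJ
  rw [if_pos (fun P _ => by rw [map_zero]; exact zero_le)]
  have : ef (-(α0 * u * nrm (0 : M))) = 1 := by
    rw [nrm_zero, mul_zero, neg_zero]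
    unfold ef; simp
  rw [this]; ring

/-- the fiberwise unfolding -/
theorem hasSum_fiber (T : Tor Z.toQuad.qa) (hT : ∀ j, (T.ε j : 𝓞 M) - 1 ∈ Z.𝔣) {s : M → ℂ}
    (hs : Z.IsSch s) (u : F) (P : XI Z.A) (α0 : Fˣ) (l : Dv M) :
    HasSum (fun q : Mˣ ⧸ Z.toQuad.qa.N1 Z.𝔣 => Z.fJ s u α0 l (q.out : M) *
        W Z.A ((α0 : F) * nrm (q.out : M)) P)
      (Z.κT T * (∏ i, (P i).t : ℝ) * (Z.PsiJ T s u α0 l P - (volume T.D).toReal * s 0)) := by
  have ht : ∀ i, 0 < ‖Z.A.emb i (α0 : F)‖ * (P i).t := fun i =>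
    mul_pos (norm_pos_iff.mpr ((map_ne_zero _).mpr α0.ne_zero)) (P i).t_pos
  have h1 := T.unfold_N1 hT (Z.bdd_fJ hs u α0 l) (fun x hx ξ => Z.fJ_N1 hs u α0 l hx ξ)
    (fun i => Z.A.emb i α0 * (P i).z) ht
  have h2 := h1.mul_left (Z.κT T * (∏ i, (P i).t : ℝ))
  rw [fJ_zero] at h2
  refine h2.congr_fun fun q => ?_
  have h3 : (q.out : M) * Z.toQuad.qa.c (q.out : M) = algebraMap F M (nrm (q.out : M)) :=
    (Z.toQuad.alg_nrm _).symm
  rw [h3]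
  have h4 := Z.W_eq_bes (α0 : F) (nrm (q.out : M)) P
  have h5 : Z.κT T * ((T.E0.relIndex (Z.toQuad.qa.N1 Z.𝔣) : ℂ) * 2 ^ Fintype.card Z.A.I) = 1 := by
    unfold κT
    refine inv_mul_cancel₀ (mul_ne_zero ?_ (pow_ne_zero _ two_ne_zero))
    exact_mod_cast T.relIndex_ne_zero hT
  calc Z.fJ s u α0 l (q.out : M) * W Z.A ((α0 : F) * nrm (q.out : M)) P
      = Z.κT T * (T.E0.relIndex (Z.toQuad.qa.N1 Z.𝔣) : ℂ) * Z.fJ s u α0 l (q.out : M) *
        (2 ^ Fintype.card Z.A.I * W Z.A ((α0 : F) * nrm (q.out : M)) P) := by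
        linear_combination (-(Z.fJ s u α0 l (q.out : M) * W Z.A ((α0 : F) * nrm (q.out : M)) P)) * h5
    _ = _ := by rw [← h4]; ring

/-- **(B4)** The Whittaker series is a finite sum of theta integrals. -/
theorem hasSum_Phi (T : Tor Z.toQuad.qa) (hT : ∀ j, (T.ε j : 𝓞 M) - 1 ∈ Z.𝔣) {s : M → ℂ}
    (hs : Z.IsSch s) (ν : Dv F) (u : F) (P : XI Z.A) :
    HasSum (fun α : Fˣ => Z.coef s ν u α * W Z.A α P)
      (Z.κT T * ((√(absN ν))⁻¹ : ℝ) * (∏ i, (P i).t : ℝ) *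
        ∑ᶠ c : Z.Cl ν, Z.Term T s u P (Quotient.out c : Z.J ν)) := by
  have hfin := Z.finite_Cl ν
  set S : ℂ := Z.κT T * ((√(absN ν))⁻¹ : ℝ) * (∏ i, (P i).t : ℝ) *
        ∑ᶠ c : Z.Cl ν, Z.Term T s u P (Quotient.out c : Z.J ν) with hS
  -- the sum over classes
  have h1 : HasSum (fun x : Z.Cl ν × (Mˣ ⧸ Z.toQuad.qa.N1 Z.𝔣) => Z.G s ν u P (Z.Θ ν x)) S := by
    have h2 : ∀ c : Z.Cl ν, HasSum (fun q : Mˣ ⧸ Z.toQuad.qa.N1 Z.𝔣 => Z.G s ν u P (Z.Θ ν (c, q)))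
        (((√(absN ν))⁻¹ : ℝ) * ((Z.psi ((Quotient.out c : Z.J ν) : Fˣ × Dv M).2)⁻¹ *
          (Z.κT T * (∏ i, (P i).t : ℝ) * (Z.PsiJ T s u ((Quotient.out c : Z.J ν) : Fˣ × Dv M).1
            ((Quotient.out c : Z.J ν) : Fˣ × Dv M).2 P - (volume T.D).toReal * s 0)))) := by
      intro c
      have h3 := ((Z.hasSum_fiber T hT hs u P ((Quotient.out c : Z.J ν) : Fˣ × Dv M).1
        ((Quotient.out c : Z.J ν) : Fˣ × Dv M).2).mul_left
          ((Z.psi ((Quotient.out c : Z.J ν) : Fˣ × Dv M).2)⁻¹)).mul_left (((√(absN ν))⁻¹ : ℝ) : ℂ)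
      exact h3.congr_fun fun q => Z.G_Θ hs ν u P c q
    have h4 := hasSum_prod_finite
      (f := fun x : Z.Cl ν × (Mˣ ⧸ Z.toQuad.qa.N1 Z.𝔣) => Z.G s ν u P (Z.Θ ν x))
      (s := fun c : Z.Cl ν =>
        (((√(absN ν))⁻¹ : ℝ) * ((Z.psi ((Quotient.out c : Z.J ν) : Fˣ × Dv M).2)⁻¹ *
          (Z.κT T * (∏ i, (P i).t : ℝ) * (Z.PsiJ T s u ((Quotient.out c : Z.J ν) : Fˣ × Dv M).1
            ((Quotient.out c : Z.J ν) : Fˣ × Dv M).2 P - (volume T.D).toReal * s 0))))) h2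
    have h5 : ∑ᶠ c : Z.Cl ν, (((√(absN ν))⁻¹ : ℝ) * ((Z.psi ((Quotient.out c : Z.J ν) : Fˣ × Dv M).2)⁻¹ *
          (Z.κT T * (∏ i, (P i).t : ℝ) * (Z.PsiJ T s u ((Quotient.out c : Z.J ν) : Fˣ × Dv M).1
            ((Quotient.out c : Z.J ν) : Fˣ × Dv M).2 P - (volume T.D).toReal * s 0)))) = S := by
      have hfb : ∀ f : Z.Cl ν → ℂ, (Function.support f).Finite := fun f => Set.toFinite _
      have h6 : ∀ c : Z.Cl ν, ((((√(absN ν))⁻¹ : ℝ) : ℂ) * ((Z.psi ((Quotient.out c : Z.J ν) : Fˣ × Dv M).2)⁻¹ *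
          (Z.κT T * (∏ i, (P i).t : ℝ) * (Z.PsiJ T s u ((Quotient.out c : Z.J ν) : Fˣ × Dv M).1
            ((Quotient.out c : Z.J ν) : Fˣ × Dv M).2 P - (volume T.D).toReal * s 0)))) =
          (Z.κT T * (((√(absN ν))⁻¹ : ℝ) : ℂ) * (∏ i, (P i).t : ℝ)) *
            Z.Term T s u P (Quotient.out c : Z.J ν) -
          (Z.κT T * (((√(absN ν))⁻¹ : ℝ) : ℂ) * (∏ i, (P i).t : ℝ) * ((volume T.D).toReal * s 0)) *
            (Z.psi ((Quotient.out c : Z.J ν) : Fˣ × Dv M).2)⁻¹ := by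
        intro c
        unfold Term
        ring
      have : Fintype (Z.Cl ν) := Fintype.ofFinite _
      have h8 : ∑ c : Z.Cl ν, (Z.psi ((Quotient.out c : Z.J ν) : Fˣ × Dv M).2)⁻¹ = 0 := by
        rw [← finsum_eq_sum_of_fintype]
        exact Z.finsum_psi ν
      rw [finsum_eq_sum_of_fintype, Finset.sum_congr rfl fun c _ => h6 c, Finset.sum_sub_distrib,
        ← Finset.mul_sum, ← Finset.mul_sum, h8, mul_zero, sub_zero, hS, finsum_eq_sum_of_fintype]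
    rwa [h5] at h4
  -- transport
  have h7 : HasSum (Z.G s ν u P) S :=
    ((Z.Θ_injective ν).hasSum_iff (fun x hx => Z.G_eq_zero ν u P x hx)).mp h1
  exact h7.prod_fiberwise fun α => Z.hasSum_G_fiber hs ν u P α

end Setup

end Fermat.Agent.LT.I
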