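import Fermat.Agent.LT.I.Theta

/-!
# Decay of the theta integral
-/

set_option autoImplicit false

open NumberField Module MeasureTheory Set
open scoped Real

namespace Fermat.Agent.LT.I

section

variable {M : Type*} [Field M] [NumberField M] {I : Type*} [Fintype I]

theorem one_le_sum_sq {x : 𝓞 M} (hx : x ≠ 0) : 1 ≤ ∑ w : InfinitePlace M, w (x : M) ^ 2 := by
  obtain ⟨w0⟩ : Nonempty (InfinitePlace M) := inferInstance
  by_cases h : ∀ z : InfinitePlace M, z ≠ w0 → z (x : M) < 1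
  · have h1 := InfinitePlace.one_le_of_lt_one hx h
    calc (1:ℝ) ≤ w0 (x : M) ^ 2 := by nlinarith
      _ ≤ _ := Finset.single_le_sum (f := fun w : InfinitePlace M => w (x : M) ^ 2)
        (fun _ _ => sq_nonneg _) (Finset.mem_univ w0)
  · push Not at h
    obtain ⟨z, _, hz⟩ := h
    calc (1:ℝ) ≤ z (x : M) ^ 2 := by nlinarith
      _ ≤ _ := Finset.single_le_sum (f := fun w : InfinitePlace M => w (x : M) ^ 2)
        (fun _ _ => sq_nonneg _) (Finset.mem_univ z)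

omit [NumberField M] in
theorem place_natCast (w : InfinitePlace M) (N : ℕ) : w (N : M) = N := by
  rw [← InfinitePlace.norm_embedding_eq, map_natCast, Complex.norm_natCast]

theorem Bdd.exists_le {φ : M → ℂ} (hφ : Bdd φ) : ∃ s : ℝ, 0 < s ∧ ∀ ξ : M, ξ ≠ 0 → φ ξ ≠ 0 →
    s ≤ ∑ w : InfinitePlace M, w ξ ^ 2 := by
  obtain ⟨N, hN, hden⟩ := hφ.den
  have hN' : (N : M) ≠ 0 := by exact_mod_cast hN
  have hN'' : (N : ℝ) ≠ 0 := by exact_mod_cast hN
  refine ⟨1 / (N : ℝ) ^ 2, by positivity, fun ξ hξ hφξ => ?_⟩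
  obtain ⟨x0, hx0⟩ : ∃ x0 : 𝓞 M, (x0 : M) = N * ξ := ⟨⟨_, hden ξ hφξ⟩, rfl⟩
  have h0 : x0 ≠ 0 := by
    rintro rfl
    exact (mul_ne_zero hN' hξ) (hx0.symm.trans (map_zero (algebraMap (𝓞 M) M)))
  have h1 := one_le_sum_sq h0
  simp_rw [hx0, map_mul, place_natCast] at h1
  simp_rw [mul_pow] at h1
  rw [← Finset.mul_sum] at h1
  rw [div_le_iff₀ (by positivity)]
  linarith

theorem Tor.exists_decay {Q : QArch M I} (T : Tor Q) {φ : M → ℂ} (hφ : Bdd φ) {a0 : ℝ}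
    (ha0 : 0 < a0) : ∃ C c : ℝ, 0 ≤ C ∧ 0 < c ∧ ∀ (z : I → ℂ) (t : I → ℝ) (a : ℝ), a0 ≤ a →
      (∀ i, a ≤ t i) → ‖(∫ v in T.D, ∑' ξ : M, φ ξ * Q.ga z t v ξ) - (volume T.D).toReal * φ 0‖ ≤
        C * Real.exp (-(c * a)) := by
  obtain ⟨R, hR⟩ := T.exists_bound
  obtain ⟨s, hs, hsle⟩ := hφ.exists_le
  set κ : ℝ := π * Real.exp (-R) with hκ
  have hκ0 : 0 < κ := by positivity
  have hS := hφ.summable (c := κ * a0) (by positivity)
  refine ⟨(∑' ξ : M, ‖φ ξ‖ * Real.exp (-(κ * a0 * ∑ w : InfinitePlace M, w ξ ^ 2))) *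
    (volume T.D).toReal, κ * s, ?_, by positivity, fun z t a ha hat => ?_⟩
  · exact mul_nonneg (tsum_nonneg fun _ => by positivity) ENNReal.toReal_nonneg
  have ht : ∀ i, 0 < t i := fun i => (ha0.trans_le ha).trans_le (hat i)
  have ha' : 0 < a := ha0.trans_le ha
  have h1 : (∫ v in T.D, ∑' ξ : M, φ ξ * Q.ga z t v ξ) - (volume T.D).toReal * φ 0 =
      ∫ v in T.D, ∑' ξ : Mˣ, φ ξ * Q.ga z t v ξ := by
    have h2 : ∫ v in T.D, ∑' ξ : Mˣ, φ ξ * Q.ga z t v ξ =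
      ∫ v in T.D, (∑' ξ : M, φ ξ * Q.ga z t v ξ - φ 0) :=
      setIntegral_congr_fun T.measurableSet_D fun v hv => T.tsum_units_eq hφ z ht hv
    rw [h2, integral_sub (T.integrableOn_theta hφ z ht) (integrableOn_const T.volume_D_lt_top.ne),
      setIntegral_const, Complex.real_smul]
    rfl
  rw [h1]
  have h3 : ∀ v ∈ T.D, ‖∑' ξ : Mˣ, φ ξ * Q.ga z t v ξ‖ ≤
      (∑' ξ : M, ‖φ ξ‖ * Real.exp (-(κ * a0 * ∑ w : InfinitePlace M, w ξ ^ 2))) *
        Real.exp (-(κ * s * a)) := by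
    intro v hv
    have h4 : ∀ ξ : Mˣ, ‖φ ξ * Q.ga z t v ξ‖ ≤
        (‖φ ξ‖ * Real.exp (-(κ * a0 * ∑ w : InfinitePlace M, w (ξ : M) ^ 2))) * Real.exp (-(κ * s * a)) := by
      intro ξ
      rw [norm_mul, mul_assoc, ← Real.exp_add]
      by_cases h0 : φ ξ = 0
      · simp [h0]
      refine mul_le_mul_of_nonneg_left ?_ (norm_nonneg _)
      refine (Q.norm_ga_le z ha' hat (hR v hv) ξ).trans ?_
      rw [Real.exp_le_exp]
      have h5 := hsle ξ ξ.ne_zero h0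
      set S := ∑ w : InfinitePlace M, w (ξ : M) ^ 2 with hSdef
      have h6 : κ * a0 * S ≤ κ * a * S :=
        mul_le_mul_of_nonneg_right (mul_le_mul_of_nonneg_left ha hκ0.le) (hs.le.trans h5)
      have h7 : κ * s * a ≤ κ * a * S := by
        have := mul_le_mul_of_nonneg_left h5 (by positivity : 0 ≤ κ * a)
        linarith
      have h8 : 2 * π * a * Real.exp (-R) * S = 2 * (κ * a * S) := by rw [hκ]; ring
      rw [h8]
      linarith
    have hsum : Summable fun ξ : Mˣ =>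
        (‖φ ξ‖ * Real.exp (-(κ * a0 * ∑ w : InfinitePlace M, w (ξ : M) ^ 2))) * Real.exp (-(κ * s * a)) :=
      (hS.comp_injective Units.val_injective).mul_right _
    refine (tsum_of_norm_bounded hsum.hasSum h4).trans ?_
    rw [tsum_mul_right]
    refine mul_le_mul_of_nonneg_right ?_ (Real.exp_pos _).le
    exact Summable.tsum_le_tsum_of_inj (fun ξ : Mˣ => (ξ : M)) Units.val_injective
      (fun _ _ => by positivity) (fun _ => le_rfl) (hS.comp_injective Units.val_injective) hS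
  have h9 := norm_setIntegral_le_of_norm_le_const T.volume_D_lt_top h3
  refine h9.trans (le_of_eq ?_)
  rw [Measure.real]
  ring

end

section

variable {F M : Type} [Field F] [NumberField F] [Field M] [NumberField M] [Algebra F M]
  (Q : Quad F M)

open Fermat.LT

/-- Rapid decay of the theta integral (minus its constant term). -/
theorem Quad.exists_decay (T : Tor Q.qa) {f : M → ℂ} (hf : Bdd f) {a0 : ℝ} (ha0 : 0 < a0) :
    ∃ C c : ℝ, 0 ≤ C ∧ 0 < c ∧ ∀ (P : XI Q.A) (a : ℝ), a0 ≤ a → (∀ i, a ≤ (P i).t) →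
      ‖Q.Psi T f P - (volume T.D).toReal * (∏ i, (P i).t : ℝ) * f 0‖ ≤
        (∏ i, (P i).t) * (C * Real.exp (-(c * a))) := by
  obtain ⟨C, c, hC, hc, h⟩ := T.exists_decay hf ha0
  refine ⟨C, c, hC, hc, fun P a ha haP => ?_⟩
  have h1 : Q.Psi T f P - (volume T.D).toReal * (∏ i, (P i).t : ℝ) * f 0 =
      ((∏ i, (P i).t : ℝ) : ℂ) * ((∫ v in T.D, ∑' ξ : M, f ξ *
      Q.qa.ga (fun i => (P i).z) (fun i => (P i).t) v ξ) - (volume T.D).toReal * f 0) := by
    unfold Quad.Psi; ring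
  have h2 : 0 ≤ ∏ i, (P i).t := Finset.prod_nonneg fun i _ => (P i).t_pos.le
  rw [h1, norm_mul, Complex.norm_real, Real.norm_of_nonneg h2]
  exact mul_le_mul_of_nonneg_left (h _ _ a ha haP) h2

end

end Fermat.Agent.LT.I
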