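import Fermat.Agent.LT.I.Data
import Fermat.Agent.LT.I.Decay

/-!
# LT, piece I: the classes `(α₀, 𝔏)` and the action of the group of multipliers
-/

set_option autoImplicit false
set_option linter.unusedSectionVars false

open NumberField IsDedekindDomain Matrix WithZero Module
open scoped Real

namespace Fermat.Agent.LT.I

open Fermat.LT Fermat.Agent.CFT

variable {F M : Type} [Field F] [NumberField F] [Field M] [NumberField M] [Algebra F M]

theorem ov_eq_zero_of_val_one {w : Pl F} {x : F} (h : w.valuation F x = 1) : ov w x = 0 := by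
  rw [ov, h]; simp

theorem val_eq_one_of_ov {w : Pl F} {x : F} (hx : x ≠ 0) (h : ov w x = 0) : w.valuation F x = 1 := by
  rw [val_eq w hx, h]; simp

theorem exp_neg_lt_one {n : ℕ} (hn : 1 ≤ n) : exp (-(n : ℤ)) < (1 : WithZero (Multiplicative ℤ)) := by
  rw [← WithZero.exp_zero, WithZero.exp_lt_exp]; omega

/-- `v(x - 1) < 1` implies `v(x) = 1` -/
theorem val_eq_one_of_sub {w : Pl F} {x : F} (h : w.valuation F (x - 1) < 1) :
    w.valuation F x = 1 := by
  have h1 : x = (x - 1) + 1 := by ring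
  rw [h1, Valuation.map_add_eq_of_lt_right]
  · exact map_one _
  · simpa using h

theorem Quad.exists_ram_br (Q : Quad F M) (P : Pl M) : ∃ e : ℕ, e ≠ 0 ∧ e ≤ 2 ∧ ∀ x : F,
    (SUH.below F P).valuation F x ^ e = P.valuation M (algebraMap F M x) := by
  have hG := Q.isGalois
  refine ⟨(SUH.below F P).asIdeal.ramificationIdx' P.asIdeal,
    Ideal.IsDedekindDomain.ramificationIdx'_ne_zero_of_liesOver P.asIdeal (SUH.below F P).ne_bot, ?_,
    fun x => HeightOneSpectrum.valuation_liesOver M (SUH.below F P) P x⟩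
  have h8 := Ideal.ncard_primesOver_mul_ramificationIdxIn_mul_inertiaDegIn
    (SUH.below F P).asIdeal (𝓞 M) Gal(M/F)
  rw [IsGalois.card_aut_eq_finrank, Q.deg,
    Ideal.ramificationIdxIn_eq_ramificationIdx (SUH.below F P).asIdeal P.asIdeal (M ≃ₐ[F] M),
    ← Ideal.ramificationIdx'_eq_ramificationIdx _ _ (SUH.below F P).ne_bot] at h8
  exact Nat.le_of_dvd two_pos ⟨((SUH.below F P).asIdeal.primesOver (𝓞 M)).ncard *
      (SUH.below F P).asIdeal.inertiaDegIn (𝓞 M), by rw [← h8]; ring⟩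

/-- valuations below and above -/
theorem Quad.val_below_le (Q : Quad F M) {P : Pl M} {x : F} (n : ℕ)
    (h : P.valuation M (algebraMap F M x) ≤ exp (-((2 * n : ℕ) : ℤ))) :
    (SUH.below F P).valuation F x ≤ exp (-(n : ℤ)) := by
  obtain ⟨e, he0, he, hP⟩ := Q.exists_ram_br P
  by_cases hx : x = 0
  · subst hx; simp
  rw [← hP, val_eq _ hx] at h
  rw [val_eq _ hx, WithZero.exp_le_exp]
  rw [← WithZero.exp_nsmul, WithZero.exp_le_exp] at h
  simp only [nsmul_eq_mul] at h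
  by_contra hc
  push Not at hc
  have h1 : (e : ℤ) ≤ 2 := by exact_mod_cast he
  have h2 : (1 : ℤ) ≤ e := by exact_mod_cast Nat.one_le_iff_ne_zero.mpr he0
  push_cast at h
  nlinarith

theorem Quad.val_below_eq_one (Q : Quad F M) {P : Pl M} {x : F}
    (h : P.valuation M (algebraMap F M x) = 1) : (SUH.below F P).valuation F x = 1 :=
  (SUH.valuation_below P x).1 h

/-- norms of units of `M` -/
noncomputable def nU : Mˣ →* Fˣ := Units.map (Algebra.norm F)

@[simp] theorem nU_coe (m : Mˣ) : ((nU (F := F) m : Fˣ) : F) = nrm (m : M) := rfl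

variable (Z : Setup F M)

namespace Setup

theorem finite_bad : {P : Pl M | Z.Bad P}.Finite := by
  have h := SUH.finite_above (F := M) (S := (Z.S : Set (Pl F))) Z.S.finite_toSet
  exact h

theorem bad_cP_br {P : Pl M} : Z.Bad (Z.cP P) ↔ Z.Bad P := by
  unfold Bad
  rw [Z.toQuad.below_cP]

theorem one_le_N1_br : 1 ≤ Z.N1 := by have := Z.hN1; omega
theorem one_le_N2_br : 1 ≤ Z.N2 := by have := Z.hN1; have := Z.hN2; omega
theorem N1_le_N2 : Z.N1 ≤ Z.N2 := by have := Z.hN2; omega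

/-- `v_P(m) = 0` for a multiplier and bad `P` -/
theorem US_ov {m : Mˣ} (hm : m ∈ Z.US) {P : Pl M} (hP : Z.Bad P) : ov P (m : M) = 0 :=
  ov_eq_zero_of_val_one (hm P hP).1

/-- norms of multipliers -/
theorem US_nrm {m : Mˣ} (hm : m ∈ Z.US) {P : Pl M} (hP : Z.Bad P) :
    (SUH.below F P).valuation F (nrm (m : M) - 1) ≤ exp (-(Z.N1 : ℤ)) := by
  apply Z.toQuad.val_below_le
  rw [map_sub, map_one, Z.toQuad.alg_nrm]
  have hP' : Z.Bad (Z.cP P) := Z.bad_cP_br.mpr hP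
  have h1 : (m : M) * Z.c (m : M) - 1 = (m : M) * (Z.c ((m : M) - 1)) + ((m : M) - 1) := by
    rw [map_sub, map_one]; ring
  rw [h1]
  refine ((P.valuation M).map_add _ _).trans (max_le ?_ ?_)
  · rw [map_mul, (hm P hP).1, one_mul, ← Z.toQuad.val_cP]
    refine (hm _ hP').2.trans ?_
    rw [WithZero.exp_le_exp]
    have := Z.hN2; push_cast; omega
  · refine (hm _ hP).2.trans ?_
    rw [WithZero.exp_le_exp]
    have := Z.hN2; push_cast; omega

theorem US_nrm' {m : Mˣ} (hm : m ∈ Z.US) : Z.Near1 (nrm (m : M)) := by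
  intro w hw
  have h := Z.US_nrm hm (P := up M w) (by unfold Bad; rw [below_up]; exact hw)
  rwa [below_up] at h

theorem near1_val {x : F} (hx : Z.Near1 x) {w : Pl F} (hw : w ∈ Z.S) : w.valuation F x = 1 :=
  val_eq_one_of_sub ((hx w hw).trans_lt (exp_neg_lt_one Z.one_le_N1_br))

theorem near1_ov {x : F} (hx : Z.Near1 x) {w : Pl F} (hw : w ∈ Z.S) : ov w x = 0 :=
  ov_eq_zero_of_val_one (Z.near1_val hx hw)

theorem near1_mul {x y : F} (hx : Z.Near1 x) (hy : Z.Near1 y) : Z.Near1 (x * y) := by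
  intro w hw
  have h1 : x * y - 1 = x * (y - 1) + (x - 1) := by ring
  rw [h1]
  refine ((w.valuation F).map_add _ _).trans (max_le ?_ (hx w hw))
  rw [map_mul, Z.near1_val hx hw, one_mul]
  exact hy w hw

theorem near1_inv {x : F} (hx0 : x ≠ 0) (hx : Z.Near1 x) : Z.Near1 x⁻¹ := by
  intro w hw
  have h1 : x⁻¹ - 1 = -x⁻¹ * (x - 1) := by field_simp; ring
  rw [h1, map_mul, Valuation.map_neg, map_inv₀, Z.near1_val hx hw, inv_one, one_mul]
  exact hx w hw

theorem near1_one_br : Z.Near1 (1 : F) := fun w _ => by simp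

theorem near1_div_iff {x y : F} (hx : x ≠ 0) (hy : y ≠ 0) (h : Z.Near1 y) :
    Z.Near1 (x / y) ↔ Z.Near1 x := by
  constructor
  · intro h1
    have h2 := Z.near1_mul h1 h
    rwa [div_mul_cancel₀ _ hy] at h2
  · intro h1
    rw [div_eq_mul_inv]
    exact Z.near1_mul h1 (Z.near1_inv hy h)

/-- the norm of the divisor of a multiplier -/
theorem Nm_dv {m : Mˣ} (hm : ∀ P, Z.Bad P → ov P (m : M) = 0) :
    Z.Nm (dv (m : M)) = Z.off (dv (nrm (F := F) (m : M))) := by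
  ext w
  by_cases hw : w ∈ Z.S
  · rw [Z.off_of_mem _ hw, ← below_up (M := M) w, Z.toQuad.Nm_below]
    have hb : Z.Bad (up M w) := by unfold Bad; rw [below_up]; exact hw
    rw [dv_apply, dv_apply, hm _ hb, hm _ (Z.bad_cP_br.mpr hb), add_zero]
  · rw [Z.off_of_not_mem _ hw, ← below_up (M := M) w, Z.toQuad.Nm_below, dv_apply, dv_apply, dv_apply]
    have hu : Unr M (SUH.below F (up M w)) := by rw [below_up]; exact Z.unr w hw
    rw [Z.toQuad.ov_nrm hu m.ne_zero]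

theorem off_dv_near1 {x : F} (hx : Z.Near1 x) : Z.off (dv x) = dv x := by
  ext w
  by_cases hw : w ∈ Z.S
  · rw [Z.off_of_mem _ hw, dv_apply, Z.near1_ov hx hw]
  · rw [Z.off_of_not_mem _ hw]

theorem Nm_dv_US {m : Mˣ} (hm : m ∈ Z.US) :
    Z.Nm (dv (m : M)) = dv (nrm (F := F) (m : M)) := by
  rw [Z.Nm_dv fun P hP => Z.US_ov hm hP, Z.off_dv_near1 (Z.US_nrm' hm)]

theorem dv_div {x y : F} (hx : x ≠ 0) (hy : y ≠ 0) : dv (x / y) = dv x - dv y := by
  rw [div_eq_mul_inv, dv_mul hx (inv_ne_zero hy), dv_inv, sub_eq_add_neg]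

/-- ψ of the divisor of a multiplier -/
theorem psi_dv {m : Mˣ} (hm : m ∈ Z.US) : Z.psi (dv (m : M)) = 1 := by
  unfold psi
  rw [Z.ψ_dv m fun P hP => ?_]
  · rfl
  · refine (hm P hP).2.trans ?_
    rw [WithZero.exp_le_exp]
    have := Z.he0
    omega

/-- The pairs `(α₀, 𝔏)`. -/
def J (ν : Dv F) : Set (Fˣ × Dv M) :=
  {p | Z.Near1 (p.1 : F) ∧ (∀ P, Z.Bad P → p.2 P = 0) ∧ Z.Nm p.2 + dv (p.1 : F) + ν + Z.δ = 0}

theorem mem_J {ν : Dv F} {p : Fˣ × Dv M} : p ∈ Z.J ν ↔ Z.Near1 (p.1 : F) ∧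
    (∀ P, Z.Bad P → p.2 P = 0) ∧ Z.Nm p.2 + dv (p.1 : F) + ν + Z.δ = 0 := Iff.rfl

/-- the action of a multiplier on a pair -/
noncomputable def actJ (m : Mˣ) (p : Fˣ × Dv M) : Fˣ × Dv M := (p.1 / nU m, p.2 + dv (m : M))

theorem actJ_mem {ν : Dv F} {m : Mˣ} (hm : m ∈ Z.US) {p : Fˣ × Dv M} (hp : p ∈ Z.J ν) :
    actJ m p ∈ Z.J ν := by
  obtain ⟨h1, h2, h3⟩ := hp
  refine ⟨?_, fun P hP => ?_, ?_⟩
  · change Z.Near1 (((p.1 / nU m : Fˣ) : F))
    rw [Units.val_div_eq_div_val, nU_coe]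
    exact (Z.near1_div_iff p.1.ne_zero (nrm_ne_zero m.ne_zero) (Z.US_nrm' hm)).mpr h1
  · change (p.2 + dv (m : M)) P = 0
    rw [Finsupp.add_apply, h2 P hP, dv_apply, Z.US_ov hm hP, add_zero]
  · change Z.Nm (p.2 + dv (m : M)) + dv (((p.1 / nU m : Fˣ) : F)) + ν + Z.δ = 0
    rw [map_add, Units.val_div_eq_div_val, nU_coe, dv_div p.1.ne_zero (nrm_ne_zero m.ne_zero),
      Z.Nm_dv_US hm, ← h3]
    abel

noncomputable instance (ν : Dv F) : MulAction Z.US (Z.J ν) where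
  smul m p := ⟨actJ (m : Mˣ) p, Z.actJ_mem m.2 p.2⟩
  one_smul p := by
    apply Subtype.ext
    refine Prod.ext ?_ ?_
    · change (p : Fˣ × Dv M).1 / nU (1 : Mˣ) = _
      rw [map_one, div_one]
    · change (p : Fˣ × Dv M).2 + dv ((1 : Mˣ) : M) = _
      rw [Units.val_one, dv_one, add_zero]
  mul_smul a b p := by
    apply Subtype.ext
    refine Prod.ext ?_ ?_
    · change (p : Fˣ × Dv M).1 / nU ((a : Mˣ) * (b : Mˣ)) = (p : Fˣ × Dv M).1 / nU (b : Mˣ) / nU (a : Mˣ)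
      rw [map_mul, div_div, mul_comm]
    · change (p : Fˣ × Dv M).2 + dv (((a : Mˣ) * (b : Mˣ) : Mˣ) : M) =
        (p : Fˣ × Dv M).2 + dv ((b : Mˣ) : M) + dv ((a : Mˣ) : M)
      rw [Units.val_mul, dv_mul (Units.ne_zero _) (Units.ne_zero _)]
      abel

theorem smul_J_fst {ν : Dv F} (m : Z.US) (p : Z.J ν) :
    ((m • p : Z.J ν) : Fˣ × Dv M).1 = (p : Fˣ × Dv M).1 / nU (m : Mˣ) := rfl

theorem smul_J_snd {ν : Dv F} (m : Z.US) (p : Z.J ν) :
    ((m • p : Z.J ν) : Fˣ × Dv M).2 = (p : Fˣ × Dv M).2 + dv ((m : Mˣ) : M) := rfl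

/-- The classes. -/
abbrev Cl (ν : Dv F) : Type := MulAction.orbitRel.Quotient Z.US (Z.J ν)

end Setup

end Fermat.Agent.LT.I
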