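import Fermat.Agent.LT.I.Bridge1

/-!
# LT, piece I: finiteness of the set of classes
-/

set_option autoImplicit false
set_option linter.unusedSectionVars false

open NumberField IsDedekindDomain Matrix WithZero Module
open scoped Real nonZeroDivisors

namespace Fermat.Agent.LT.I

open Fermat.LT Fermat.Agent.CFT

section general

variable {M : Type} [Field M] [NumberField M]

/-- finitely many divisors modulo principal divisors -/
theorem exists_class : ∃ (C : Type) (_ : Finite C) (φ : Dv M → C), ∀ l l', φ l = φ l' →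
    ∃ x : Mˣ, l' = l + dv (x : M) := by
  refine ⟨(FractionalIdeal (𝓞 M)⁰ M)ˣ ⧸ (toPrincipalIdeal (𝓞 M) M).range,
    Finite.of_equiv _ (ClassGroup.equiv (R := 𝓞 M) M).toEquiv,
    fun l => QuotientGroup.mk (Units.mk0 (fid l) (fid_ne_zero l)), fun l l' h => ?_⟩
  rw [QuotientGroup.eq] at h
  obtain ⟨x, hx⟩ := h
  refine ⟨x, ?_⟩
  have h1 := congrArg Units.val hx
  rw [coe_toPrincipalIdeal, Units.val_mul, Units.val_inv_eq_inv_val, Units.val_mk0, Units.val_mk0,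
    ← fid_dv x.ne_zero, ← fid_neg, ← fid_add] at h1
  have h2 := fid_injective h1
  rw [h2]; abel

/-- an element with all valuations `≤ 1` is integral -/
theorem exists_int {x : M} (h : ∀ w : Pl M, w.valuation M x ≤ 1) : ∃ y : 𝓞 M, (y : M) = x :=
  HeightOneSpectrum.mem_integers_of_valuation_le_one M x h

theorem exists_unit' {x : M} (hx : x ≠ 0) (h : dv x = 0) : ∃ u : (𝓞 M)ˣ, ((u : 𝓞 M) : M) = x := by
  have h1 : ∀ w : Pl M, w.valuation M x = 1 := fun w =>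
    val_eq_one_of_ov hx (by rw [← dv_apply, h]; rfl)
  obtain ⟨y, hy⟩ := exists_int fun w => (h1 w).le
  obtain ⟨z, hz⟩ := exists_int (x := x⁻¹) fun w => by rw [map_inv₀, h1 w, inv_one]
  refine ⟨⟨y, z, ?_, ?_⟩, hy⟩
  · apply RingOfIntegers.ext
    change (y : M) * (z : M) = 1
    rw [hy, hz, mul_inv_cancel₀ hx]
  · apply RingOfIntegers.ext
    change (z : M) * (y : M) = 1
    rw [hy, hz, inv_mul_cancel₀ hx]

theorem dv_unit (u : (𝓞 M)ˣ) : dv ((u : 𝓞 M) : M) = 0 := by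
  ext w
  rw [dv_apply, Finsupp.zero_apply]
  apply ov_eq_zero_of_val_one
  have h1 := w.valuation_le_one (K := M) (u : 𝓞 M)
  have h2 := w.valuation_le_one (K := M) ((u⁻¹ : (𝓞 M)ˣ) : 𝓞 M)
  have h3 : w.valuation M ((u : 𝓞 M) : M) * w.valuation M (((u⁻¹ : (𝓞 M)ˣ) : 𝓞 M) : M) = 1 := by
    rw [← map_mul, ← map_mul, ← Units.val_mul, mul_inv_cancel, Units.val_one, map_one, map_one]
  refine le_antisymm h1 ?_
  calc (1 : WithZero (Multiplicative ℤ)) = w.valuation M ((u : 𝓞 M) : M) *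
        w.valuation M (((u⁻¹ : (𝓞 M)ˣ) : 𝓞 M) : M) := h3.symm
    _ ≤ w.valuation M ((u : 𝓞 M) : M) * 1 := mul_le_mul_right h2 _
    _ = _ := mul_one _

/-- quotients of finitely generated groups by powers are finite -/
theorem finite_quot_pow {G : Type*} [CommGroup G] [Group.FG G] {n : ℕ} (hn : n ≠ 0) :
    Finite (G ⧸ (powMonoidHom n : G →* G).range) := by
  have : Group.FG (G ⧸ (powMonoidHom n : G →* G).range) :=
    Group.fg_of_surjective (G := G) (QuotientGroup.mk'_surjective (powMonoidHom n : G →* G).range)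
  refine CommGroup.finite_of_fg_isMulTorsion (G := G ⧸ (powMonoidHom n : G →* G).range) ?_
  intro q
  obtain ⟨g, rfl⟩ := QuotientGroup.mk_surjective q
  rw [isOfFinOrder_iff_pow_eq_one]
  refine ⟨n, Nat.pos_of_ne_zero hn, ?_⟩
  rw [← QuotientGroup.mk_pow, QuotientGroup.eq_one_iff]
  exact ⟨g, rfl⟩

end general

variable {F M : Type} [Field F] [NumberField F] [Field M] [NumberField M] [Algebra F M]
variable (Z : Setup F M)

namespace Setup

/-- The conductor ideal `∏_{P bad} P^{N2}`. -/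
def 𝔣 : Ideal (𝓞 M) where
  carrier := {x | ∀ P, Z.Bad P → P.valuation M (x : M) ≤ exp (-(Z.N2 : ℤ))}
  add_mem' := by
    intro x y hx hy P hP
    have : ((x + y : 𝓞 M) : M) = x + y := map_add _ _ _
    rw [this]
    exact ((P.valuation M).map_add _ _).trans (max_le (hx P hP) (hy P hP))
  zero_mem' := fun P _ => by
    have : ((0 : 𝓞 M) : M) = 0 := map_zero _
    rw [this, map_zero]; exact zero_le
  smul_mem' := by
    intro c x hx P hP
    have : ((c • x : 𝓞 M) : M) = c * x := map_mul (algebraMap (𝓞 M) M) _ _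
    rw [this, map_mul]
    calc P.valuation M (c : M) * P.valuation M (x : M) ≤ 1 * exp (-(Z.N2 : ℤ)) :=
          mul_le_mul' (P.valuation_le_one c) (hx P hP)
      _ = _ := one_mul _

theorem mem_𝔣 {x : 𝓞 M} : x ∈ Z.𝔣 ↔ ∀ P, Z.Bad P → P.valuation M (x : M) ≤ exp (-(Z.N2 : ℤ)) := Iff.rfl

/-- there is a nonzero integer which is divisible by high powers of all bad primes -/
theorem exists_deep (n : ℕ) : ∃ x : 𝓞 M, x ≠ 0 ∧ ∀ P, Z.Bad P → P.valuation M (x : M) ≤ exp (-(n : ℤ)) := by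
  classical
  have hfin := Z.finite_bad
  have h1 : ∀ P : Pl M, ∃ x : 𝓞 M, x ≠ 0 ∧ P.valuation M (x : M) ≤ exp (-(n : ℤ)) := by
    intro P
    obtain ⟨x, hx, hx0⟩ := Submodule.exists_mem_ne_zero_of_ne_bot (pow_ne_zero n P.ne_bot)
    refine ⟨x, hx0, ?_⟩
    rw [HeightOneSpectrum.valuation_of_algebraMap, HeightOneSpectrum.intValuation_le_pow_iff_mem]
    exact hx
  choose x hx0 hx using h1
  refine ⟨∏ P ∈ hfin.toFinset, x P, Finset.prod_ne_zero_iff.2 fun P _ => hx0 P, fun P hP => ?_⟩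
  have hmem : P ∈ hfin.toFinset := by simpa using hP
  rw [← Finset.mul_prod_erase _ _ hmem]
  have h2 : ((x P * ∏ R ∈ hfin.toFinset.erase P, x R : 𝓞 M) : M) =
      (x P : M) * ((∏ R ∈ hfin.toFinset.erase P, x R : 𝓞 M) : M) := map_mul (algebraMap (𝓞 M) M) _ _
  rw [h2, map_mul]
  calc _ ≤ exp (-(n : ℤ)) * 1 := mul_le_mul' (hx P) (P.valuation_le_one _)
    _ = _ := mul_one _

theorem 𝔣_ne_bot : Z.𝔣 ≠ ⊥ := by
  obtain ⟨x, hx0, hx⟩ := Z.exists_deep Z.N2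
  intro h
  have : x ∈ Z.𝔣 := hx
  rw [h] at this
  exact hx0 this

theorem finite_quot : Finite (𝓞 M ⧸ Z.𝔣) := Ideal.finiteQuotientOfFreeOfNeBot Z.𝔣 Z.𝔣_ne_bot

/-- `{x | v_P(x) = 0 for bad P} / US` is finite. -/
theorem exists_U1 : ∃ φ : M → 𝓞 M ⧸ Z.𝔣, ∀ x y : Mˣ, (∀ P, Z.Bad P → P.valuation M (x : M) = 1) →
    (∀ P, Z.Bad P → P.valuation M (y : M) = 1) → φ x = φ y → x⁻¹ * y ∈ Z.US := by
  classical
  have h1 : ∀ x : M, ∃ y : 𝓞 M, (∀ P, Z.Bad P → P.valuation M x ≤ 1 →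
      P.valuation M ((y : M) - x) ≤ exp (-(Z.N2 : ℤ))) := by
    intro x
    obtain ⟨u, hu1, hu2⟩ := strong_approx Z.finite_bad.toFinset
      (fun P : Pl M => if P.valuation M x ≤ 1 then x else 0) (fun _ => (Z.N2 : ℤ)) (0 : Dv M)
    obtain ⟨y, hy⟩ := exists_int (x := u) (fun w => by
      by_cases hw : w ∈ Z.finite_bad.toFinset
      · have h2 := hu1 w hw
        have h3 : u = (u - (if w.valuation M x ≤ 1 then x else 0)) + (if w.valuation M x ≤ 1 then x else 0) := by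
          ring
        rw [h3]
        refine ((w.valuation M).map_add _ _).trans (max_le (h2.trans ?_) ?_)
        · rw [← WithZero.exp_zero, WithZero.exp_le_exp]; omega
        · split_ifs with h4
          · exact h4
          · rw [map_zero]; exact zero_le
      · have := hu2 w hw
        simpa using this)
    refine ⟨y, fun P hP hx => ?_⟩
    have h2 := hu1 P (by simpa using hP)
    rw [if_pos hx] at h2
    rwa [hy]
  choose f hf using h1
  refine ⟨fun x => Ideal.Quotient.mk Z.𝔣 (f x), fun x y hx hy hxy => ?_⟩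
  rw [Ideal.Quotient.mk_eq_mk_iff_sub_mem] at hxy
  intro P hP
  have h2 := hxy P hP
  have h3 : ((f x - f y : 𝓞 M) : M) = (f x : M) - (f y : M) := map_sub _ _ _
  rw [h3] at h2
  have h4 := hf x P hP (hx P hP).le
  have h5 := hf y P hP (hy P hP).le
  have h6 : P.valuation M ((y : M) - (x : M)) ≤ exp (-(Z.N2 : ℤ)) := by
    have h7 : (y : M) - (x : M) = ((f x : M) - x) - ((f y : M) - y) - ((f x : M) - (f y : M)) := by ring
    rw [h7]
    exact ((P.valuation M).map_sub _ _).trans (max_le (((P.valuation M).map_sub _ _).trans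
      (max_le h4 h5)) h2)
  refine ⟨?_, ?_⟩
  · rw [Units.val_mul, Units.val_inv_eq_inv_val, map_mul, map_inv₀, hx P hP, hy P hP, inv_one, one_mul]
  · have h8 : ((x⁻¹ * y : Mˣ) : M) - 1 = (x : M)⁻¹ * ((y : M) - (x : M)) := by
      rw [Units.val_mul, Units.val_inv_eq_inv_val]
      field_simp
    rw [h8, map_mul, map_inv₀, hx P hP, inv_one, one_mul]
    exact h6

/-- Finitely many divisors outside `S` modulo divisors of multipliers. -/
theorem exists_ray : ∃ (C : Type) (_ : Finite C) (r : C → Dv M), ∀ l : Dv M, (∀ P, Z.Bad P → l P = 0) →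
    ∃ m ∈ Z.US, ∃ c, l + dv (m : M) = r c := by
  classical
  obtain ⟨C, hC, φ, hφ⟩ := exists_class (M := M)
  obtain ⟨θ, hθ⟩ := Z.exists_U1
  have := Z.finite_quot
  -- representatives
  have h1 : ∀ c : C, ∃ l : Dv M, (∀ P, Z.Bad P → l P = 0) ∧
      ((∃ l' : Dv M, (∀ P, Z.Bad P → l' P = 0) ∧ φ l' = c) → φ l = c) := by
    intro c
    by_cases h : ∃ l' : Dv M, (∀ P, Z.Bad P → l' P = 0) ∧ φ l' = c
    · obtain ⟨l', h1, h2⟩ := h
      exact ⟨l', h1, fun _ => h2⟩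
    · exact ⟨0, fun _ _ => rfl, fun h' => absurd h' h⟩
  choose l0 hl0 hl0' using h1
  have h2 : ∀ q : 𝓞 M ⧸ Z.𝔣, ∃ x : Mˣ, (∀ P, Z.Bad P → P.valuation M (x : M) = 1) ∧
      ((∃ x' : Mˣ, (∀ P, Z.Bad P → P.valuation M (x' : M) = 1) ∧ θ x' = q) → θ x = q) := by
    intro q
    by_cases h : ∃ x' : Mˣ, (∀ P, Z.Bad P → P.valuation M (x' : M) = 1) ∧ θ x' = q
    · obtain ⟨x', h1, h2⟩ := h
      exact ⟨x', h1, fun _ => h2⟩
    · exact ⟨1, fun _ _ => by simp, fun h' => absurd h' h⟩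
  choose x0 hx0 hx0' using h2
  refine ⟨C × (𝓞 M ⧸ Z.𝔣), inferInstance, fun c => l0 c.1 + dv (x0 c.2 : M), fun l hl => ?_⟩
  obtain ⟨x, hx⟩ := hφ (l0 (φ l)) l (hl0' _ ⟨l, hl, rfl⟩)
  have hxv : ∀ P, Z.Bad P → P.valuation M (x : M) = 1 := fun P hP =>
    val_eq_one_of_ov x.ne_zero (by
      have := hl P hP
      rw [hx, Finsupp.add_apply, hl0 _ P hP, zero_add, dv_apply] at this
      exact this)
  have h3 : x⁻¹ * x0 (θ x) ∈ Z.US := hθ x _ hxv (hx0 _) (hx0' _ ⟨x, hxv, rfl⟩).symm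
  refine ⟨_, h3, (φ l, θ x), ?_⟩
  rw [Units.val_mul, Units.val_inv_eq_inv_val, dv_mul (inv_ne_zero x.ne_zero) (Units.ne_zero _), dv_inv]
  simp only
  conv_lhs => rw [hx]
  abel

theorem nrm_algebraMap (Q : Quad F M) (x : F) : nrm (F := F) (algebraMap F M x) = x ^ 2 := by
  rw [nrm, Algebra.norm_algebraMap, Q.deg]

theorem coe_unit_pow (u : (𝓞 F)ˣ) (n : ℕ) :
    ((Units.map (algebraMap F M : F →* M) (Units.map (algebraMap (𝓞 F) F : 𝓞 F →* F) u) ^ n : Mˣ) : M) =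
      ((((Units.map (algebraMap (𝓞 F) (𝓞 M) : 𝓞 F →* 𝓞 M) u) ^ n : (𝓞 M)ˣ) : 𝓞 M) : M) := by
  have h : Units.map (algebraMap F M : F →* M) (Units.map (algebraMap (𝓞 F) F : 𝓞 F →* F) u) =
      Units.map (algebraMap (𝓞 M) M : 𝓞 M →* M) (Units.map (algebraMap (𝓞 F) (𝓞 M) : 𝓞 F →* 𝓞 M) u) :=
    Units.ext rfl
  rw [h, ← map_pow]
  rfl

/-- powers of units of `F` are multipliers -/
theorem unit_pow_mem (u : (𝓞 F)ˣ) :
    Units.map (algebraMap F M : F →* M) (Units.map (algebraMap (𝓞 F) F : 𝓞 F →* F) u) ^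
      Nat.card (𝓞 M ⧸ Z.𝔣)ˣ ∈ Z.US := by
  have := Z.finite_quot
  set v : (𝓞 M)ˣ := Units.map (algebraMap (𝓞 F) (𝓞 M) : 𝓞 F →* 𝓞 M) u with hv
  have h1 := pow_card_eq_one' (x := Units.map (Ideal.Quotient.mk Z.𝔣 : 𝓞 M →* 𝓞 M ⧸ Z.𝔣) v)
  rw [← map_pow] at h1
  have h2 := congrArg Units.val h1
  rw [Units.coe_map, Units.val_one] at h2
  have h3 : ((v ^ Nat.card (𝓞 M ⧸ Z.𝔣)ˣ : (𝓞 M)ˣ) : 𝓞 M) - 1 ∈ Z.𝔣 := by
    rw [← Ideal.Quotient.eq_zero_iff_mem, map_sub, map_one, sub_eq_zero]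
    exact h2
  have h4 : ((Units.map (algebraMap F M : F →* M) (Units.map (algebraMap (𝓞 F) F : 𝓞 F →* F) u) ^
      Nat.card (𝓞 M ⧸ Z.𝔣)ˣ : Mˣ) : M) = (((v ^ Nat.card (𝓞 M ⧸ Z.𝔣)ˣ : (𝓞 M)ˣ) : 𝓞 M) : M) :=
    coe_unit_pow u _
  intro P hP
  rw [h4]
  refine ⟨?_, h3 P hP⟩
  exact val_eq_one_of_ov (Units.coe_ne_zero _) (by rw [← dv_apply, dv_unit]; rfl)

/-- **Finiteness of the set of classes.** -/
theorem finite_Cl (ν : Dv F) : Finite (Z.Cl ν) := by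
  classical
  obtain ⟨C, hC, r, hr⟩ := Z.exists_ray
  have hq := Z.finite_quot
  set k := Nat.card (𝓞 M ⧸ Z.𝔣)ˣ with hk
  have hk0 : 2 * k ≠ 0 := by have : k ≠ 0 := Nat.card_pos.ne'; omega
  have hFG : Group.FG (𝓞 F)ˣ := Group.fg_iff_monoid_fg.mpr inferInstance
  have hfin : Finite ((𝓞 F)ˣ ⧸ (powMonoidHom (2 * k) : (𝓞 F)ˣ →* (𝓞 F)ˣ).range) := finite_quot_pow hk0
  -- representatives
  have h1 : ∀ c : Z.Cl ν, ∃ p : Z.J ν, (Quotient.mk'' p : Z.Cl ν) = c ∧ ∃ i, (p : Fˣ × Dv M).2 = r i := by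
    intro c
    obtain ⟨p, rfl⟩ := Quotient.exists_rep c
    obtain ⟨m, hm, i, hi⟩ := hr (p : Fˣ × Dv M).2 p.2.2.1
    refine ⟨(⟨m, hm⟩ : Z.US) • p, ?_, i, hi⟩
    exact Quotient.sound ⟨⟨m, hm⟩, rfl⟩
  choose p hp i hi using h1
  have h2 : ∀ j : C, ∃ β : Fˣ, (∃ α : Fˣ, ((α, r j) : Fˣ × Dv M) ∈ Z.J ν) → ((β, r j) : Fˣ × Dv M) ∈ Z.J ν := by
    intro j
    by_cases h : ∃ α : Fˣ, ((α, r j) : Fˣ × Dv M) ∈ Z.J ν
    · obtain ⟨α, hα⟩ := h; exact ⟨α, fun _ => hα⟩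
    · exact ⟨1, fun h' => absurd h' h⟩
  choose β hβ using h2
  have h3 : ∀ c : Z.Cl ν, ∃ u : (𝓞 F)ˣ, (((p c : Fˣ × Dv M).1 : Fˣ) : F) = β (i c) * ((u : 𝓞 F) : F) := by
    intro c
    have e1 := (p c).2.2.2
    have e2 := (hβ (i c) ⟨(p c : Fˣ × Dv M).1, by rw [← hi]; exact (p c).2⟩).2.2
    rw [hi] at e1
    have e3 : dv (((p c : Fˣ × Dv M).1 : Fˣ) : F) = dv ((β (i c) : Fˣ) : F) := by
      have : Z.Nm (r (i c)) + dv (((p c : Fˣ × Dv M).1 : Fˣ) : F) + ν + Z.δ =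
        Z.Nm (r (i c)) + dv ((β (i c) : Fˣ) : F) + ν + Z.δ := by rw [e1]; exact e2.symm
      exact add_left_cancel (add_right_cancel (add_right_cancel this))
    obtain ⟨u, hu⟩ := exists_unit' (x := (((p c : Fˣ × Dv M).1 : Fˣ) : F) / β (i c))
      (div_ne_zero (Units.ne_zero _) (Units.ne_zero _)) (by
        rw [Setup.dv_div (Units.ne_zero _) (Units.ne_zero _), e3, sub_self])
    refine ⟨u, ?_⟩
    rw [hu, mul_div_cancel₀ _ (Units.ne_zero _)]
  choose u hu using h3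
  refine Finite.of_injective (β := C × ((𝓞 F)ˣ ⧸ (powMonoidHom (2 * k) : (𝓞 F)ˣ →* (𝓞 F)ˣ).range))
    (fun c => (i c, QuotientGroup.mk (u c))) fun c c' h => ?_
  obtain ⟨hic, huc⟩ := Prod.ext_iff.mp h
  simp only at hic huc
  rw [QuotientGroup.eq] at huc
  obtain ⟨w, hw⟩ := huc
  simp only [powMonoidHom_apply] at hw
  -- the multiplier
  set m : Mˣ := Units.map (algebraMap F M : F →* M) (Units.map (algebraMap (𝓞 F) F : 𝓞 F →* F) w) ^ k with hm
  have hmUS : m ∈ Z.US := Z.unit_pow_mem w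
  have hmF : (m : M) = algebraMap F M (((w : 𝓞 F) : F) ^ k) := by
    rw [hm, Units.val_pow_eq_pow_val, map_pow]; rfl
  have hnU : ((nU (F := F) m : Fˣ) : F) = ((w : 𝓞 F) : F) ^ (2 * k) := by
    rw [nU_coe, hmF, nrm_algebraMap Z.toQuad, ← pow_mul, mul_comm]
  have hdm : dv (m : M) = 0 := by
    have h5 : (m : M) = ((((Units.map (algebraMap (𝓞 F) (𝓞 M) : 𝓞 F →* 𝓞 M) w) ^ k : (𝓞 M)ˣ) : 𝓞 M) : M) :=
      coe_unit_pow w _
    rw [h5, dv_unit]
  have hα : (((p c' : Fˣ × Dv M).1 : Fˣ) : F) = ((p c : Fˣ × Dv M).1 : F) * ((w : 𝓞 F) : F) ^ (2 * k) := by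
    rw [hu c', hu c, ← hic, mul_assoc]
    congr 1
    have h6 : u c' = u c * w ^ (2 * k) := by rw [hw, mul_inv_cancel_left]
    rw [h6, Units.val_mul, Units.val_pow_eq_pow_val]
    exact (map_mul (algebraMap (𝓞 F) F) _ _).trans (by rw [map_pow])
  have key : (⟨m, hmUS⟩ : Z.US)⁻¹ • p c = p c' := by
    apply Subtype.ext
    refine Prod.ext ?_ ?_
    · rw [smul_J_fst]
      apply Units.ext
      rw [Units.val_div_eq_div_val, hα]
      have h7 : ((nU (F := F) (((⟨m, hmUS⟩ : Z.US)⁻¹ : Z.US) : Mˣ) : Fˣ) : F) = (((w : 𝓞 F) : F) ^ (2 * k))⁻¹ := by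
        rw [← hnU]
        change ((nU (F := F) (m⁻¹) : Fˣ) : F) = _
        rw [map_inv, Units.val_inv_eq_inv_val]
      rw [h7, div_inv_eq_mul]
    · rw [smul_J_snd, hi c, hi c', hic]
      change r (i c') + dv ((m⁻¹ : Mˣ) : M) = _
      rw [Units.val_inv_eq_inv_val, dv_inv, hdm, neg_zero, add_zero]
  rw [← hp c, ← hp c', ← key]
  exact Quotient.sound ⟨⟨m, hmUS⟩, smul_inv_smul _ _⟩

end Setup

end Fermat.Agent.LT.I
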