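import Fermat.Agent.LT.I.Bridge2

/-!
# LT, piece I: the test functions attached to a pair `(α₀, 𝔏)`
-/

set_option autoImplicit false
set_option linter.unusedSectionVars false

open NumberField IsDedekindDomain Matrix WithZero Module MeasureTheory
open scoped Real nonZeroDivisors

namespace Fermat.Agent.LT.I

open Fermat.LT Fermat.Agent.CFT

section general

variable {F : Type} [Field F] [NumberField F]

theorem norm_ef_br (x : F) : ‖ef x‖ = 1 := by
  unfold ef
  have : 2 * (π : ℂ) * Complex.I * (((Algebra.trace ℚ F x : ℚ) : ℝ) : ℂ) =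
      ((2 * π * ((Algebra.trace ℚ F x : ℚ) : ℝ) : ℝ) : ℂ) * Complex.I := by push_cast; ring
  rw [this, Complex.norm_exp_ofReal_mul_I]

theorem dF_nonneg_br (w : Pl F) : 0 ≤ dF F w := by
  have h := (exists_fid (F := F) (I := (differentIdeal ℤ (𝓞 F) : Ideal (𝓞 F)))
    (FractionalIdeal.coeIdeal_ne_zero.2 differentIdeal_ne_bot)).choose_spec
  have h1 : fid (dF F) ≤ fid (0 : Dv F) := by
    rw [fid_zero]
    rw [show dF F = (exists_fid (F := F) (I := (differentIdeal ℤ (𝓞 F) : Ideal (𝓞 F)))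
      (FractionalIdeal.coeIdeal_ne_zero.2 differentIdeal_ne_bot)).choose from rfl, h]
    exact FractionalIdeal.coeIdeal_le_one
  exact fid_le_fid.mp h1 w

end general

variable {F M : Type} [Field F] [NumberField F] [Field M] [NumberField M] [Algebra F M]
variable (Z : Setup F M)

namespace Setup

variable {Z}

/-- a Schwartz function is invariant under multipliers -/
theorem IsSch.mul_US_br {s : M → ℂ} (hs : Z.IsSch s) {m : Mˣ} (hm : m ∈ Z.US) (ξ : M) :
    s (ξ * m) = s ξ := by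
  by_cases h : ξ ∈ Z.Lam
  · have h1 : ξ * m = ξ + ξ * ((m : M) - 1) := by ring
    rw [h1]
    refine hs.per ξ _ fun P hP => ?_
    rw [map_mul]
    calc P.valuation M ξ * P.valuation M ((m : M) - 1) ≤ exp (Z.N : ℤ) * exp (-(Z.N2 : ℤ)) :=
          mul_le_mul' (h P hP) (hm P hP).2
      _ = exp ((Z.N : ℤ) - Z.N2) := by rw [← WithZero.exp_add]; rfl
      _ ≤ _ := by
        rw [WithZero.exp_le_exp]
        have h2 := dF_nonneg_br P
        have h3 := Z.hN1
        have h4 := Z.hN2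
        omega
  · have h1 : s ξ = 0 := by
      by_contra h2; exact h (hs.supp ξ h2)
    have h2 : s (ξ * m) = 0 := by
      by_contra h3
      apply h
      intro P hP
      have h4 := hs.supp _ h3 P hP
      rw [map_mul, (hm P hP).1, mul_one] at h4
      exact h4
    rw [h1, h2]

/-- a Schwartz function is bounded -/
theorem IsSch.bdd_br {s : M → ℂ} (hs : Z.IsSch s) : ∃ C : ℝ, ∀ ξ, ‖s ξ‖ ≤ C := by
  classical
  obtain ⟨x0, hx0, hx⟩ := Z.exists_deep Z.N
  have hx0' : (x0 : M) ≠ 0 := fun h => hx0 (RingOfIntegers.ext h)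
  -- the ideal of periods
  obtain ⟨y0, hy0, hy⟩ := Z.exists_deep (Z.N + (∑ P ∈ Z.finite_bad.toFinset, (ov P (x0 : M)).toNat))
  have hfin : Finite (𝓞 M ⧸ Ideal.span {y0}) :=
    Ideal.finiteQuotientOfFreeOfNeBot _ (by rwa [Ne, Ideal.span_singleton_eq_bot])
  have := Fintype.ofFinite (𝓞 M ⧸ Ideal.span {y0})
  -- values on `x0⁻¹ 𝓞`
  have hper : ∀ a b : 𝓞 M, (Ideal.Quotient.mk (Ideal.span {y0}) a) = Ideal.Quotient.mk _ b →
      s ((a : M) / x0) = s ((b : M) / x0) := by
    intro a b hab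
    rw [Ideal.Quotient.mk_eq_mk_iff_sub_mem, Ideal.mem_span_singleton] at hab
    obtain ⟨t, ht⟩ := hab
    have h1 : (a : M) / x0 = (b : M) / x0 + (y0 : M) * t / x0 := by
      have h2 : ((a - b : 𝓞 M) : M) = (y0 : M) * t := by rw [ht]; exact map_mul (algebraMap (𝓞 M) M) _ _
      have h3 : ((a - b : 𝓞 M) : M) = (a : M) - b := map_sub _ _ _
      rw [← h2, h3]; field_simp; ring
    rw [h1]
    refine hs.per _ _ fun P hP => ?_
    rw [map_div₀, map_mul]
    have hmem : P ∈ Z.finite_bad.toFinset := by simpa using hP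
    have h4 : (ov P (x0 : M)).toNat ≤ ∑ P ∈ Z.finite_bad.toFinset, (ov P (x0 : M)).toNat :=
      Finset.single_le_sum (f := fun P => (ov P (x0 : M)).toNat) (fun _ _ => Nat.zero_le _) hmem
    have h5 := hy P hP
    have h6 : P.valuation M (y0 : M) * P.valuation M (t : M) ≤
        exp (-((Z.N + (∑ P ∈ Z.finite_bad.toFinset, (ov P (x0 : M)).toNat) : ℕ) : ℤ)) := by
      calc _ ≤ exp (-((Z.N + (∑ P ∈ Z.finite_bad.toFinset, (ov P (x0 : M)).toNat) : ℕ) : ℤ)) * 1 :=
            mul_le_mul' h5 (P.valuation_le_one t)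
        _ = _ := mul_one _
    rw [val_eq P hx0', div_le_iff₀ WithZero.exp_pos]
    refine h6.trans ?_
    rw [← WithZero.exp_add, WithZero.exp_le_exp]
    have h7 := dF_nonneg_br P
    have h8 := Int.self_le_toNat (ov P (x0 : M))
    push_cast
    have h9 : ((ov P (x0 : M)).toNat : ℤ) ≤ ∑ P ∈ Z.finite_bad.toFinset, ((ov P (x0 : M)).toNat : ℤ) := by
      exact_mod_cast h4
    omega
  refine ⟨∑ q : 𝓞 M ⧸ Ideal.span {y0}, ‖s ((Quotient.out q : 𝓞 M) / (x0 : M))‖, fun ξ => ?_⟩
  by_cases h : ξ ∈ Z.Lam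
  · -- approximate
    obtain ⟨u, hu1, hu2⟩ := strong_approx Z.finite_bad.toFinset (fun _ => (x0 : M) * ξ)
      (fun P => (Z.N : ℤ) + ov P (x0 : M)) (0 : Dv M)
    obtain ⟨a, ha⟩ := exists_int (x := u) (fun w => by
      by_cases hw : w ∈ Z.finite_bad.toFinset
      · have h2 := hu1 w hw
        have hwb : Z.Bad w := by simpa using hw
        have h3 : u = (u - (x0 : M) * ξ) + (x0 : M) * ξ := by ring
        rw [h3]
        refine ((w.valuation M).map_add _ _).trans (max_le (h2.trans ?_) ?_)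
        · rw [← WithZero.exp_zero, WithZero.exp_le_exp]
          have h4 : 0 ≤ ov w (x0 : M) := by
            have := w.valuation_le_one (K := M) x0
            rw [val_eq w hx0', ← WithZero.exp_zero, WithZero.exp_le_exp] at this
            omega
          omega
        · rw [map_mul]
          calc w.valuation M (x0 : M) * w.valuation M ξ ≤ exp (-(Z.N : ℤ)) * exp (Z.N : ℤ) :=
                mul_le_mul' (hx w hwb) (h w hwb)
            _ = 1 := by rw [← WithZero.exp_add]; simp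
      · have := hu2 w hw
        simpa using this)
    have h5 : s ξ = s ((a : M) / x0) := by
      have h6 : (a : M) / x0 = ξ + (u - (x0 : M) * ξ) / x0 := by rw [ha]; field_simp; ring
      rw [h6]
      refine (hs.per _ _ fun P hP => ?_).symm
      have h2 := hu1 P (by simpa using hP)
      rw [map_div₀, val_eq P hx0', div_le_iff₀ WithZero.exp_pos]
      refine h2.trans ?_
      rw [← WithZero.exp_add, WithZero.exp_le_exp]
      have h7 := dF_nonneg_br P
      omega
    have h6 : s ((a : M) / x0) = s ((Quotient.out (Ideal.Quotient.mk (Ideal.span {y0}) a) : 𝓞 M) / (x0 : M)) := by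
      refine hper _ _ ?_
      exact (Quotient.out_eq _).symm
    rw [h5, h6]
    exact Finset.single_le_sum (f := fun q : 𝓞 M ⧸ Ideal.span {y0} => ‖s ((Quotient.out q : 𝓞 M) / (x0 : M))‖)
      (fun _ _ => norm_nonneg _) (Finset.mem_univ _)
  · have h1 : s ξ = 0 := by
      by_contra h2; exact h (hs.supp ξ h2)
    rw [h1, norm_zero]
    exact Finset.sum_nonneg fun _ _ => norm_nonneg _

end Setup

/-- bounded denominators -/
theorem exists_den_br (l : Dv M) : ∃ N : ℕ, N ≠ 0 ∧ ∀ ξ ∈ InL l, IsIntegral ℤ ((N : M) * ξ) := by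
  classical
  -- an integer with large valuations on the support
  have h1 : ∀ P : Pl M, ∃ x : 𝓞 M, x ≠ 0 ∧ P.valuation M (x : M) ≤ exp (-((-l P).toNat : ℤ)) := by
    intro P
    obtain ⟨x, hx, hx0⟩ := Submodule.exists_mem_ne_zero_of_ne_bot (pow_ne_zero (-l P).toNat P.ne_bot)
    refine ⟨x, hx0, ?_⟩
    rw [HeightOneSpectrum.valuation_of_algebraMap, HeightOneSpectrum.intValuation_le_pow_iff_mem]
    exact hx
  choose x hx0 hx using h1
  set X : 𝓞 M := ∏ P ∈ l.support, x P with hX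
  have hX0 : X ≠ 0 := Finset.prod_ne_zero_iff.2 fun P _ => hx0 P
  refine ⟨Ideal.absNorm (Ideal.span {X}), ?_, fun ξ hξ => ?_⟩
  · rw [Ne, Ideal.absNorm_eq_zero_iff, Ideal.span_singleton_eq_bot]; exact hX0
  obtain ⟨t, ht⟩ := Ideal.mem_span_singleton.mp (Ideal.absNorm_mem (Ideal.span {X}))
  have hXξ : ∀ w : Pl M, w.valuation M ((X : M) * ξ) ≤ 1 := by
    intro w
    rw [map_mul]
    by_cases hw : w ∈ l.support
    · have h2 : (X : M) = (x w : M) * ((∏ R ∈ l.support.erase w, x R : 𝓞 M) : M) := by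
        rw [hX, ← Finset.mul_prod_erase _ _ hw]; exact map_mul (algebraMap (𝓞 M) M) _ _
      rw [h2, map_mul]
      calc w.valuation M (x w : M) * w.valuation M ((∏ R ∈ l.support.erase w, x R : 𝓞 M) : M) *
            w.valuation M ξ ≤ exp (-((-l w).toNat : ℤ)) * 1 * exp (-(l w)) :=
            mul_le_mul' (mul_le_mul' (hx w) (w.valuation_le_one _)) (hξ w)
        _ ≤ 1 := by
          rw [mul_one, ← WithZero.exp_add, ← WithZero.exp_zero, WithZero.exp_le_exp]
          have := Int.self_le_toNat (-l w)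
          omega
    · have h3 : l w = 0 := Finsupp.notMem_support_iff.mp hw
      have h4 := hξ w
      rw [h3, neg_zero, WithZero.exp_zero] at h4
      calc _ ≤ (1 : WithZero (Multiplicative ℤ)) * 1 := mul_le_mul' (w.valuation_le_one X) h4
        _ = 1 := mul_one _
  obtain ⟨y, hy⟩ := exists_int hXξ
  have h5 : ((Ideal.absNorm (Ideal.span {X}) : ℕ) : M) * ξ = ((t * y : 𝓞 M) : M) := by
    have h6 : ((Ideal.absNorm (Ideal.span {X}) : ℕ) : M) = (X : M) * (t : M) := by
      have h7 := congrArg (algebraMap (𝓞 M) M) ht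
      rw [map_mul, map_natCast] at h7
      exact h7
    have h8 : ((t * y : 𝓞 M) : M) = (t : M) * (y : M) := map_mul (algebraMap (𝓞 M) M) _ _
    rw [h6, h8, hy]; ring
  rw [h5]
  exact (t * y : 𝓞 M).isIntegral_coe

namespace Setup

open Classical in
/-- the test function attached to `(α₀, 𝔏)` -/
noncomputable def fJ (s : M → ℂ) (u α0 : F) (l : Dv M) (ξ : M) : ℂ :=
  s ξ * (if ∀ P, ¬ Z.Bad P → P.valuation M ξ ≤ exp (-(l P)) then 1 else 0) * ef (-(α0 * u * nrm ξ))

/-- the theta integral attached to `(α₀, 𝔏)` -/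
noncomputable def PsiJ (T : Tor Z.toQuad.qa) (s : M → ℂ) (u α0 : F) (l : Dv M) (P : XI Z.A) : ℂ :=
  ∫ v in T.D, ∑' ξ : M, Z.fJ s u α0 l ξ *
    Z.toQuad.qa.ga (fun i => Z.A.emb i α0 * (P i).z) (fun i => ‖Z.A.emb i α0‖ * (P i).t) v ξ

theorem bdd_fJ {s : M → ℂ} (hs : Z.IsSch s) (u α0 : F) (l : Dv M) : Bdd (Z.fJ s u α0 l) := by
  classical
  constructor
  · obtain ⟨C, hC⟩ := hs.bdd_br
    refine ⟨C, fun ξ => ?_⟩
    unfold fJ
    rw [norm_mul, norm_mul, norm_ef_br, mul_one]
    have h1 : ‖(if ∀ P, ¬ Z.Bad P → P.valuation M ξ ≤ exp (-(l P)) then (1 : ℂ) else 0)‖ ≤ 1 := by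
      split_ifs <;> simp
    calc _ ≤ ‖s ξ‖ * 1 := mul_le_mul_of_nonneg_left h1 (norm_nonneg _)
      _ ≤ C := by rw [mul_one]; exact hC ξ
  · obtain ⟨N, hN, h⟩ := exists_den_br (M := M)
      (l + ∑ P ∈ Z.finite_bad.toFinset, Finsupp.single P (-(Z.N : ℤ) - l P))
    refine ⟨N, hN, fun ξ hξ => h ξ ?_⟩
    unfold fJ at hξ
    have h1 : s ξ ≠ 0 := left_ne_zero_of_mul (left_ne_zero_of_mul hξ)
    have h2 : ∀ P, ¬ Z.Bad P → P.valuation M ξ ≤ exp (-(l P)) := by
      by_contra h2
      rw [if_neg h2] at hξ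
      simp at hξ
    have h3 : ∀ w : Pl M, (∑ P ∈ Z.finite_bad.toFinset, Finsupp.single P (-(Z.N : ℤ) - l P)) w =
        if Z.Bad w then -(Z.N : ℤ) - l w else 0 := by
      intro w
      rw [Finsupp.finsetSum_apply]
      by_cases hw : Z.Bad w
      · rw [if_pos hw, Finset.sum_eq_single w]
        · simp
        · intro b _ hb; simp [hb]
        · intro hb; exact absurd (by simpa using hw) hb
      · rw [if_neg hw]
        refine Finset.sum_eq_zero fun b hb => ?_
        have : b ≠ w := by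
          rintro rfl; exact hw (by simpa using hb)
        simp [this]
    intro w
    rw [Finsupp.add_apply, h3]
    by_cases hw : Z.Bad w
    · rw [if_pos hw]
      refine (hs.supp ξ h1 w hw).trans ?_
      rw [WithZero.exp_le_exp]; omega
    · rw [if_neg hw, add_zero]
      exact h2 w hw

theorem mem_N1_iff {m : Mˣ} : m ∈ Z.toQuad.qa.N1 Z.𝔣 ↔
    m ∈ Z.US ∧ nU (F := F) m = 1 ∧ dv (m : M) = 0 := by
  constructor
  · rintro ⟨h1, w, h2, h3⟩
    have hdv : dv (m : M) = 0 := by rw [h2, dv_unit]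
    refine ⟨fun P hP => ⟨val_eq_one_of_ov m.ne_zero (by rw [← dv_apply, hdv]; rfl), ?_⟩, ?_, hdv⟩
    · rw [h2]; exact h3 P hP
    · apply Units.ext
      rw [nU_coe, Units.val_one]
      apply (algebraMap F M).injective
      rw [Z.toQuad.alg_nrm, map_one]
      exact h1
  · rintro ⟨h1, h2, h3⟩
    refine ⟨?_, ?_⟩
    · have h4 := congrArg (fun x : Fˣ => algebraMap F M (x : F)) h2
      simp only [nU_coe, Units.val_one, map_one] at h4
      rw [Z.toQuad.alg_nrm] at h4
      exact h4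
    · obtain ⟨w, hw⟩ := exists_unit' m.ne_zero h3
      refine ⟨w, hw.symm, fun P hP => ?_⟩
      have h5 := (h1 P hP).2
      rw [← hw] at h5
      exact h5

/-- `fJ` is invariant under norm one units -/
theorem fJ_N1 {s : M → ℂ} (hs : Z.IsSch s) (u α0 : F) (l : Dv M) {x : Mˣ}
    (hx : x ∈ Z.toQuad.qa.N1 Z.𝔣) (ξ : M) : Z.fJ s u α0 l (ξ * x) = Z.fJ s u α0 l ξ := by
  classical
  obtain ⟨h1, h2, h3⟩ := (Z.mem_N1_iff).mp hx
  have h4 : ∀ P : Pl M, P.valuation M (x : M) = 1 := fun P =>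
    val_eq_one_of_ov x.ne_zero (by rw [← dv_apply, h3]; rfl)
  have h5 : nrm (F := F) (x : M) = 1 := congrArg Units.val h2
  unfold fJ
  rw [hs.mul_US_br h1, nrm_mul, h5, mul_one]
  simp only [map_mul, h4, mul_one]

end Setup

end Fermat.Agent.LT.I
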