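import Fermat.Agent.LT.I.Bridge3

/-!
# LT, piece I: invariance of the terms, cancellation of the constant terms
-/

set_option autoImplicit false
set_option linter.unusedSectionVars false

open NumberField IsDedekindDomain Matrix WithZero Module MeasureTheory
open scoped Real nonZeroDivisors Pointwise

namespace Fermat.Agent.LT.I

open Fermat.LT Fermat.Agent.CFT

section general

variable {M : Type*} [Field M] [NumberField M] {I : Type*} [Fintype I]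

/-- change of variables for the Gaussian -/
theorem gs_scale_br (z : ℂ) (t s : ℝ) {a b : ℂ} (ha : a ≠ 0) (hb : b ≠ 0) (v : ℂ × ℂ) :
    gs (z / (a * b)) (t / ‖a * b‖) (Real.exp s) (a * v.1, b * v.2) =
      gs z t (Real.exp (Real.log (‖a‖ / ‖b‖) + s)) v := by
  have h1 : z / (a * b) * (a * v.1) * (b * v.2) = z * v.1 * v.2 := by field_simp
  have ha' : ‖a‖ ≠ 0 := norm_ne_zero_iff.mpr ha
  have hb' : ‖b‖ ≠ 0 := norm_ne_zero_iff.mpr hb
  have hb'' : 0 < ‖b‖ := norm_pos_iff.mpr hb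
  have ha'' : 0 < ‖a‖ := norm_pos_iff.mpr ha
  unfold gs
  simp only [h1, norm_mul]
  rw [Real.exp_add, Real.exp_log (by positivity)]
  congr 4
  have := (Real.exp_pos s).ne'
  field_simp

theorem Tor.integral_shift {Q : QArch M I} (T : Tor Q) {f : (I → ℝ) → ℂ}
    (hf : ∀ x ∈ T.E0, ∀ v, f (Q.lg (x : M) + v) = f v) (τ : I → ℝ) :
    ∫ v in T.D, f (τ + v) = ∫ v in T.D, f v := by
  have h1 : IsAddFundamentalDomain T.Λ (τ +ᵥ T.D) (volume : Measure (I → ℝ)) :=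
    T.isFund.vadd_of_comm τ
  have h2 : ∫ v in τ +ᵥ T.D, f v = ∫ v in T.D, f v := by
    refine h1.setIntegral_eq T.isFund fun g x => ?_
    obtain ⟨e, rfl⟩ := T.ℓ.surjective g
    exact hf e e.2 x
  rw [← h2]
  have h3 := (measurePreserving_add_left (volume : Measure (I → ℝ)) τ).setIntegral_preimage_emb
    (MeasurableEquiv.addLeft τ).measurableEmbedding f (τ +ᵥ T.D)
  rw [← h3]
  congr 2
  ext v
  simp [Set.mem_vadd_set_iff_neg_vadd_mem]

end general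

variable {F M : Type} [Field F] [NumberField F] [Field M] [NumberField M] [Algebra F M]
variable (Z : Setup F M)

namespace Setup

variable {Z}

/-- scaling of the archimedean factor by an element of `M` -/
theorem ga_scale (α0 : F) {m : M} (hm : m ≠ 0) (P : XI Z.A) (v : Z.A.I → ℝ) (ξ : M) :
    Z.toQuad.qa.ga (fun i => Z.A.emb i (α0 / nrm m) * (P i).z)
        (fun i => ‖Z.A.emb i (α0 / nrm m)‖ * (P i).t) v (m * ξ) =
      Z.toQuad.qa.ga (fun i => Z.A.emb i α0 * (P i).z) (fun i => ‖Z.A.emb i α0‖ * (P i).t)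
        ((fun i => Real.log (‖Z.toQuad.emb i m‖ / ‖Z.toQuad.emb i (Z.c m)‖)) + v) ξ := by
  unfold QArch.ga gsI
  refine Finset.prod_congr rfl fun i _ => ?_
  have hn : Z.A.emb i (nrm m) = Z.toQuad.emb i m * Z.toQuad.emb i (Z.c m) := Z.toQuad.emb_nrm i m
  have h1 : Z.toQuad.emb i m ≠ 0 := (map_ne_zero _).mpr hm
  have h2 : Z.toQuad.emb i (Z.c m) ≠ 0 := (map_ne_zero _).mpr ((map_ne_zero _).mpr hm)
  have h3 := gs_scale_br (Z.A.emb i α0 * (P i).z) (‖Z.A.emb i α0‖ * (P i).t) (v i) h1 h2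
    (Z.toQuad.qa.pt ξ i)
  have h4 : Z.toQuad.qa.pt (m * ξ) i = (Z.toQuad.emb i m * (Z.toQuad.qa.pt ξ i).1,
      Z.toQuad.emb i (Z.c m) * (Z.toQuad.qa.pt ξ i).2) := by
    refine Prod.ext ?_ ?_
    · exact map_mul _ _ _
    · change Z.toQuad.emb i (Z.c (m * ξ)) = _
      rw [map_mul, map_mul]; rfl
  rw [h4]
  simp only [Pi.add_apply]
  rw [← h3, map_div₀, hn, norm_div]
  congr 1 <;> ring

variable (Z)

/-- `fJ` transforms under multipliers -/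
theorem fJ_mul {s : M → ℂ} (hs : Z.IsSch s) (u α0 : F) (l : Dv M) {m : Mˣ} (hm : m ∈ Z.US) (ξ : M) :
    Z.fJ s u (α0 / nrm (m : M)) (l + dv (m : M)) (m * ξ) = Z.fJ s u α0 l ξ := by
  classical
  unfold fJ
  have h1 : s ((m : M) * ξ) = s ξ := by rw [mul_comm]; exact hs.mul_US_br hm ξ
  have h2 : α0 / nrm (m : M) * u * nrm ((m : M) * ξ) = α0 * u * nrm ξ := by
    rw [nrm_mul]
    have := nrm_ne_zero (F := F) m.ne_zero
    field_simp
  have h3 : (∀ P, ¬ Z.Bad P → P.valuation M ((m : M) * ξ) ≤ exp (-((l + dv (m : M)) P))) ↔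
      (∀ P, ¬ Z.Bad P → P.valuation M ξ ≤ exp (-(l P))) := by
    refine forall_congr' fun P => imp_congr_right fun _ => ?_
    rw [map_mul, Finsupp.add_apply, dv_apply, neg_add, add_comm, WithZero.exp_add, val_eq P m.ne_zero]
    constructor
    · intro h
      exact le_of_mul_le_mul_left h (WithZero.exp_pos)
    · intro h; exact mul_le_mul_right h _
  rw [h1, h2]
  simp only [h3]

/-- periodicity of the theta series on the torus -/
theorem theta_periodic (T : Tor Z.toQuad.qa) (hT : ∀ j, (T.ε j : 𝓞 M) - 1 ∈ Z.𝔣) {s : M → ℂ}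
    (hs : Z.IsSch s) (u α0 : F) (l : Dv M) (z : Z.A.I → ℂ) (t : Z.A.I → ℝ) {x : Mˣ} (hx : x ∈ T.E0)
    (v : Z.A.I → ℝ) :
    ∑' ξ : M, Z.fJ s u α0 l ξ * Z.toQuad.qa.ga z t (Z.toQuad.qa.lg (x : M) + v) ξ =
      ∑' ξ : M, Z.fJ s u α0 l ξ * Z.toQuad.qa.ga z t v ξ := by
  have hN := T.E0_le hT hx
  rw [← (Equiv.mulRight₀ (x : M) x.ne_zero).tsum_eq
    (fun ξ : M => Z.fJ s u α0 l ξ * Z.toQuad.qa.ga z t v ξ)]
  refine tsum_congr fun ξ => ?_
  rw [Z.toQuad.qa.ga_mul z t v (T.E0_norm hx)]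
  change _ = Z.fJ s u α0 l (ξ * x) * Z.toQuad.qa.ga z t v (ξ * x)
  rw [Z.fJ_N1 hs u α0 l hN]

theorem PsiJ_mul (T : Tor Z.toQuad.qa) (hT : ∀ j, (T.ε j : 𝓞 M) - 1 ∈ Z.𝔣) {s : M → ℂ}
    (hs : Z.IsSch s) (u α0 : F) (l : Dv M) {m : Mˣ} (hm : m ∈ Z.US) (P : XI Z.A) :
    Z.PsiJ T s u (α0 / nrm (m : M)) (l + dv (m : M)) P = Z.PsiJ T s u α0 l P := by
  unfold PsiJ
  have h1 : ∀ v : Z.A.I → ℝ, ∑' ξ : M, Z.fJ s u (α0 / nrm (m : M)) (l + dv (m : M)) ξ *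
      Z.toQuad.qa.ga (fun i => Z.A.emb i (α0 / nrm (m : M)) * (P i).z)
        (fun i => ‖Z.A.emb i (α0 / nrm (m : M))‖ * (P i).t) v ξ =
      (fun v => ∑' ξ : M, Z.fJ s u α0 l ξ * Z.toQuad.qa.ga (fun i => Z.A.emb i α0 * (P i).z)
        (fun i => ‖Z.A.emb i α0‖ * (P i).t) v ξ)
        ((fun i => Real.log (‖Z.toQuad.emb i m‖ / ‖Z.toQuad.emb i (Z.c m)‖)) + v) := by
    intro v
    rw [← (Equiv.mulLeft₀ (m : M) m.ne_zero).tsum_eq]
    refine tsum_congr fun ξ => ?_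
    change Z.fJ s u (α0 / nrm (m : M)) (l + dv (m : M)) (m * ξ) *
      Z.toQuad.qa.ga (fun i => Z.A.emb i (α0 / nrm (m : M)) * (P i).z)
        (fun i => ‖Z.A.emb i (α0 / nrm (m : M))‖ * (P i).t) v (m * ξ) = _
    rw [Z.fJ_mul hs u α0 l hm, ga_scale α0 m.ne_zero]
  simp_rw [h1]
  exact T.integral_shift (f := fun v => ∑' ξ : M, Z.fJ s u α0 l ξ *
    Z.toQuad.qa.ga (fun i => Z.A.emb i α0 * (P i).z) (fun i => ‖Z.A.emb i α0‖ * (P i).t) v ξ)
    (fun x hx v => Z.theta_periodic T hT hs u α0 l _ _ hx v) _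

/-- the term attached to a pair -/
noncomputable def Term (T : Tor Z.toQuad.qa) (s : M → ℂ) (u : F) (P : XI Z.A) (p : Fˣ × Dv M) : ℂ :=
  (Z.psi p.2)⁻¹ * Z.PsiJ T s u p.1 p.2 P

/-- **(B2)** invariance of the terms -/
theorem Term_actJ (T : Tor Z.toQuad.qa) (hT : ∀ j, (T.ε j : 𝓞 M) - 1 ∈ Z.𝔣) {s : M → ℂ}
    (hs : Z.IsSch s) (u : F) (P : XI Z.A) (p : Fˣ × Dv M) {m : Mˣ} (hm : m ∈ Z.US) :
    Z.Term T s u P (actJ m p) = Z.Term T s u P p := by
  unfold Term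
  have h1 : ((actJ m p).1 : F) = (p.1 : F) / nrm (m : M) := by
    unfold actJ
    rw [Units.val_div_eq_div_val, nU_coe]
  have h2 : (actJ m p).2 = p.2 + dv (m : M) := rfl
  rw [h1, h2, Z.PsiJ_mul T hT hs u _ _ hm, psi_add, Z.psi_dv hm, mul_one]

theorem Term_smul (T : Tor Z.toQuad.qa) (hT : ∀ j, (T.ε j : 𝓞 M) - 1 ∈ Z.𝔣) {s : M → ℂ}
    (hs : Z.IsSch s) (u : F) (P : XI Z.A) {ν : Dv F} (m : Z.US) (p : Z.J ν) :
    Z.Term T s u P (m • p : Z.J ν) = Z.Term T s u P (p : Fˣ × Dv M) :=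
  Z.Term_actJ T hT hs u P _ m.2

/-- functions on the classes -/
theorem exists_smul_out {ν : Dv F} (p : Z.J ν) :
    ∃ m : Z.US, m • p = (Quotient.out (Quotient.mk'' p : Z.Cl ν)) := by
  have h : (Quotient.mk'' (Quotient.out (Quotient.mk'' p : Z.Cl ν)) : Z.Cl ν) = Quotient.mk'' p :=
    Quotient.out_eq _
  have h2 := Quotient.exact h
  obtain ⟨m, hm⟩ := h2
  exact ⟨m, hm⟩

theorem psi_smul {ν : Dv F} (m : Z.US) (p : Z.J ν) :
    Z.psi ((m • p : Z.J ν) : Fˣ × Dv M).2 = Z.psi (p : Fˣ × Dv M).2 := by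
  rw [smul_J_snd, psi_add, Z.psi_dv m.2, mul_one]

theorem psi_out {ν : Dv F} (p : Z.J ν) :
    Z.psi ((Quotient.out (Quotient.mk'' p : Z.Cl ν) : Z.J ν) : Fˣ × Dv M).2 = Z.psi (p : Fˣ × Dv M).2 := by
  obtain ⟨m, hm⟩ := Z.exists_smul_out p
  rw [← hm, psi_smul]

theorem Term_out (T : Tor Z.toQuad.qa) (hT : ∀ j, (T.ε j : 𝓞 M) - 1 ∈ Z.𝔣) {s : M → ℂ}
    (hs : Z.IsSch s) (u : F) (P : XI Z.A) {ν : Dv F} (p : Z.J ν) :
    Z.Term T s u P (Quotient.out (Quotient.mk'' p : Z.Cl ν) : Z.J ν) = Z.Term T s u P (p : Fˣ × Dv M) := by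
  obtain ⟨m, hm⟩ := Z.exists_smul_out p
  rw [← hm, Z.Term_smul T hT hs]

/-- translation of the second component by a divisor of norm zero -/
noncomputable def trJ {ν : Dv F} (d : Dv M) (hd : ∀ P, Z.Bad P → d P = 0) (hN : Z.Nm d = 0) (p : Z.J ν) :
    Z.J ν := ⟨((p : Fˣ × Dv M).1, (p : Fˣ × Dv M).2 + d), p.2.1, fun P hP => by
      change ((p : Fˣ × Dv M).2 + d) P = 0
      rw [Finsupp.add_apply, p.2.2.1 P hP, hd P hP, add_zero], by
      change Z.Nm ((p : Fˣ × Dv M).2 + d) + _ + _ + _ = 0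
      rw [map_add, hN, add_zero]
      exact p.2.2.2⟩

/-- translation of classes -/
noncomputable def trCl {ν : Dv F} (d : Dv M) (hd : ∀ P, Z.Bad P → d P = 0) (hN : Z.Nm d = 0) :
    Z.Cl ν → Z.Cl ν := Quotient.map' (Z.trJ d hd hN) (by
  rintro p q ⟨m, hm⟩
  refine ⟨m, ?_⟩
  simp only at hm
  rw [← hm]
  apply Subtype.ext
  refine Prod.ext rfl ?_
  change (q : Fˣ × Dv M).2 + d + dv ((m : Mˣ) : M) = (q : Fˣ × Dv M).2 + dv ((m : Mˣ) : M) + d
  abel)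

theorem trCl_mk {ν : Dv F} (d : Dv M) (hd : ∀ P, Z.Bad P → d P = 0) (hN : Z.Nm d = 0) (p : Z.J ν) :
    Z.trCl d hd hN (Quotient.mk'' p : Z.Cl ν) = Quotient.mk'' (Z.trJ d hd hN p) := rfl

theorem trCl_bijective {ν : Dv F} (d : Dv M) (hd : ∀ P, Z.Bad P → d P = 0) (hN : Z.Nm d = 0) :
    Function.Bijective (Z.trCl (ν := ν) d hd hN) := by
  have hd' : ∀ P, Z.Bad P → (-d) P = 0 := fun P hP => by rw [Finsupp.neg_apply, hd P hP, neg_zero]
  have hN' : Z.Nm (-d) = 0 := by rw [map_neg, hN, neg_zero]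
  refine Function.bijective_iff_has_inverse.mpr ⟨Z.trCl (-d) hd' hN', ?_, ?_⟩
  · intro c
    obtain ⟨p, rfl⟩ := Quotient.exists_rep c
    change Z.trCl (-d) hd' hN' (Z.trCl d hd hN (Quotient.mk'' p : Z.Cl ν)) = Quotient.mk'' p
    rw [trCl_mk, trCl_mk]
    congr 1
    apply Subtype.ext
    refine Prod.ext rfl ?_
    change (p : Fˣ × Dv M).2 + d + -d = _
    abel
  · intro c
    obtain ⟨p, rfl⟩ := Quotient.exists_rep c
    change Z.trCl d hd hN (Z.trCl (-d) hd' hN' (Quotient.mk'' p : Z.Cl ν)) = Quotient.mk'' p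
    rw [trCl_mk, trCl_mk]
    congr 1
    apply Subtype.ext
    refine Prod.ext rfl ?_
    change (p : Fˣ × Dv M).2 + -d + d = _
    abel

/-- **(B3)** the constant terms cancel -/
theorem finsum_psi (ν : Dv F) :
    ∑ᶠ c : Z.Cl ν, (Z.psi ((Quotient.out c : Z.J ν) : Fˣ × Dv M).2)⁻¹ = 0 := by
  classical
  obtain ⟨P, hP, hψ⟩ := Z.ψ_sq
  have hPb : ¬ Z.Bad P := hP
  have hcPb : ¬ Z.Bad (Z.cP P) := fun h => hPb (Z.bad_cP_br.mp h)
  set d : Dv M := Finsupp.single P 1 - Finsupp.single (Z.cP P) 1 with hd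
  have hd0 : ∀ R, Z.Bad R → d R = 0 := by
    intro R hR
    have h1 : P ≠ R := by rintro rfl; exact hPb hR
    have h2 : Z.cP P ≠ R := by rintro rfl; exact hcPb hR
    rw [hd, Finsupp.sub_apply, Finsupp.single_apply, Finsupp.single_apply, if_neg h1, if_neg h2, sub_zero]
  have hN : Z.Nm d = 0 := by
    ext w
    rw [← below_up (M := M) w, Z.toQuad.Nm_below, Finsupp.zero_apply, hd]
    simp only [Finsupp.sub_apply, Finsupp.single_apply]
    have h1 : (P = Z.cP (up M w)) ↔ (Z.cP P = up M w) := by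
      constructor
      · intro h; rw [h, Z.toQuad.cP_cP]
      · intro h; rw [← h, Z.toQuad.cP_cP]
    have h2 : (Z.cP P = Z.cP (up M w)) ↔ (P = up M w) := by
      constructor
      · intro h
        have := congrArg Z.cP h
        rwa [Z.toQuad.cP_cP, Z.toQuad.cP_cP] at this
      · intro h; rw [h]
    simp only [h1, h2]
    ring
  have hψd : Z.psi d = -1 := by
    have h1 : d = Finsupp.single P 1 + -(Finsupp.single (Z.cP P) 1) := by rw [hd, sub_eq_add_neg]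
    rw [h1, psi_add, psi_neg, psi_single, psi_single, zpow_one, zpow_one]
    have h2 : ((Z.ψ P : ℂˣ) : ℂ) * ((Z.ψ (Z.cP P) : ℂˣ) : ℂ) = 1 := by
      rw [← Units.val_mul, Z.ψ_cP P hP, Units.val_one]
    have h3 : (((Z.ψ (Z.cP P) : ℂˣ) : ℂ))⁻¹ = ((Z.ψ P : ℂˣ) : ℂ) :=
      (eq_inv_of_mul_eq_one_left h2).symm
    rw [h3, ← sq, ← Units.val_pow_eq_pow_val, hψ]
    rfl
  have key : ∀ c : Z.Cl ν, (Z.psi ((Quotient.out (Z.trCl d hd0 hN c) : Z.J ν) : Fˣ × Dv M).2)⁻¹ =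
      -(Z.psi ((Quotient.out c : Z.J ν) : Fˣ × Dv M).2)⁻¹ := by
    intro c
    obtain ⟨p, rfl⟩ := Quotient.exists_rep c
    change (Z.psi ((Quotient.out (Z.trCl d hd0 hN (Quotient.mk'' p : Z.Cl ν)) : Z.J ν) : Fˣ × Dv M).2)⁻¹ =
      -(Z.psi ((Quotient.out (Quotient.mk'' p : Z.Cl ν) : Z.J ν) : Fˣ × Dv M).2)⁻¹
    rw [trCl_mk, psi_out, psi_out]
    change (Z.psi ((p : Fˣ × Dv M).2 + d))⁻¹ = _
    rw [psi_add, hψd, mul_neg, mul_one, inv_neg]
  have h1 := finsum_comp_equiv (Equiv.ofBijective _ (Z.trCl_bijective (ν := ν) d hd0 hN))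
    (f := fun c : Z.Cl ν => (Z.psi ((Quotient.out c : Z.J ν) : Fˣ × Dv M).2)⁻¹)
  simp only [Equiv.ofBijective_apply, key] at h1
  rw [finsum_neg_distrib] at h1
  exact self_eq_neg.mp h1.symm

end Setup

end Fermat.Agent.LT.I
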