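import Fermat.Agent.LT.I.Bridge4

/-!
# LT, piece I: the Whittaker series as a sum of theta integrals
-/

set_option autoImplicit false
set_option linter.unusedSectionVars false

open NumberField IsDedekindDomain Matrix WithZero Module MeasureTheory
open scoped Real nonZeroDivisors Pointwise

namespace Fermat.Agent.LT.I

open Fermat.LT Fermat.Agent.CFT

section general

theorem hasSum_prod_finite {ι κ : Type*} [Finite ι] {f : ι × κ → ℂ} {s : ι → ℂ}
    (h : ∀ i, HasSum (fun k => f (i, k)) (s i)) : HasSum f (∑ᶠ i, s i) := by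
  classical
  have := Fintype.ofFinite ι
  rw [finsum_eq_sum_of_fintype]
  have h1 : ∀ i, HasSum (fun p : ι × κ => if p.1 = i then f p else 0) (s i) := by
    intro i
    have hinj : Function.Injective (fun k : κ => (i, k)) := fun a b h => (Prod.ext_iff.mp h).2
    rw [← hinj.hasSum_iff]
    · refine (h i).congr_fun fun k => ?_
      simp
    · rintro ⟨j, k⟩ hx
      by_cases hj : j = i
      · subst hj; exact absurd ⟨k, rfl⟩ hx
      · simp [hj]
  have h2 := hasSum_sum (s := (Finset.univ : Finset ι)) (f := fun i (p : ι × κ) => if p.1 = i then f p else 0)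
    (a := s) fun i _ => h1 i
  refine h2.congr_fun fun p => ?_
  simp

theorem summable_of_fin {κ : Type*} {f : κ → ℂ} (h : (Function.support f).Finite) : Summable f :=
  summable_of_hasFiniteSupport h

theorem hasSum_finsum {κ : Type*} {f : κ → ℂ} (h : (Function.support f).Finite) :
    HasSum f (∑ᶠ k, f k) := by
  have h1 : HasSum f (∑' k, f k) := (summable_of_fin h).hasSum
  rwa [tsum_eq_finsum h] at h1

end general

variable {F M : Type} [Field F] [NumberField F] [Field M] [NumberField M] [Algebra F M]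
variable (Z : Setup F M)

namespace Setup

/-- **finiteness** of the set of effective divisors of given norm -/
theorem finite_Eff (m : Dv F) : (Z.Eff m).Finite := by
  classical
  have hfin : {P : Pl M | m (SUH.below F P) ≠ 0}.Finite := by
    refine (SUH.finite_above (F := M) (S := (m.support : Set (Pl F))) m.support.finite_toSet).subset ?_
    intro P hP
    change SUH.below F P ∈ (m.support : Set (Pl F))
    simpa using hP
  set B : Dv M := Finsupp.ofSupportFinite (fun P => m (SUH.below F P)) hfin with hB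
  refine (Set.finite_Icc (0 : Dv M) B).subset ?_
  rintro b ⟨hb0, _, hbm⟩
  refine ⟨hb0, fun P => ?_⟩
  have h1 := Z.toQuad.Nm_below b P
  rw [hbm] at h1
  have h2 : B P = m (SUH.below F P) := rfl
  rw [h2, h1]
  have h3 : (0 : ℤ) ≤ b (Z.cP P) := hb0 (Z.cP P)
  omega

/-- finiteness of the sum defining `cS` -/
theorem finite_cS {s : M → ℂ} (hs : Z.IsSch s) (α : Fˣ) :
    {q : Mˣ ⧸ Z.US | Z.Near1 ((α : F) / nrm (q.out : M)) ∧ s (q.out : M) ≠ 0}.Finite := by
  classical
  obtain ⟨θ, hθ⟩ := Z.exists_U1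
  have hq := Z.finite_quot
  -- representatives of valuation vectors
  have h1 : ∀ n : Pl M → ℤ, ∃ x : Mˣ, (∃ y : Mˣ, ∀ P, Z.Bad P → ov P (y : M) = n P) →
      ∀ P, Z.Bad P → ov P (x : M) = n P := by
    intro n
    by_cases h : ∃ y : Mˣ, ∀ P, Z.Bad P → ov P (y : M) = n P
    · obtain ⟨y, hy⟩ := h; exact ⟨y, fun _ => hy⟩
    · exact ⟨1, fun h' => absurd h' h⟩
  choose X hX using h1
  set nv : Mˣ ⧸ Z.US → Pl M → ℤ := fun q P => if Z.Bad P then ov P (q.out : M) else 0 with hnv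
  have hfb : Finite {P : Pl M | Z.Bad P} := Z.finite_bad
  set φ : Mˣ ⧸ Z.US → ({P : Pl M | Z.Bad P} → ℤ) × (𝓞 M ⧸ Z.𝔣) :=
    fun q => (fun P => ov (P : Pl M) (q.out : M), θ ((q.out * (X (nv q))⁻¹ : Mˣ) : M)) with hφ
  refine Set.Finite.of_injOn (f := φ) (t := (Set.pi Set.univ
    (fun P : {P : Pl M | Z.Bad P} => Set.Icc (-(Z.N : ℤ)) (ov (P : Pl M) (algebraMap F M α) + Z.N))) ×ˢ
      Set.univ) ?_ ?_ ?_
  · rintro q ⟨hq1, hq2⟩
    have hlow : ∀ P, Z.Bad P → -(Z.N : ℤ) ≤ ov P (q.out : M) := by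
      intro P hP
      have h2 := hs.supp _ hq2 P hP
      rw [val_eq P q.out.ne_zero, WithZero.exp_le_exp] at h2
      omega
    refine ⟨fun P _ => ⟨hlow P P.2, ?_⟩, Set.mem_univ _⟩
    have hP : Z.Bad (P : Pl M) := P.2
    have h3 : ov (P : Pl M) (algebraMap F M ((α : F) / nrm (q.out : M))) = 0 :=
      ov_eq_zero_of_val_one ((SUH.valuation_below (P : Pl M) _).mpr (Z.near1_val hq1 hP))
    rw [map_div₀, Z.toQuad.alg_nrm, div_eq_mul_inv,
      ov_mul _ ((map_ne_zero _).mpr α.ne_zero) (inv_ne_zero (mul_ne_zero q.out.ne_zero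
        ((map_ne_zero _).mpr q.out.ne_zero))), ov_inv,
      ov_mul _ q.out.ne_zero ((map_ne_zero _).mpr q.out.ne_zero), ← Z.toQuad.ov_cP] at h3
    have h4 := hlow _ (Z.bad_cP_br.mpr hP)
    change ov (P : Pl M) (q.out : M) ≤ ov (P : Pl M) (algebraMap F M α) + Z.N
    omega
  · rintro q ⟨hq1, hq2⟩ q' ⟨hq1', hq2'⟩ hqq'
    obtain ⟨e1, e2⟩ := Prod.ext_iff.mp hqq'
    have hn : nv q = nv q' := by
      funext P
      simp only [hnv]
      by_cases hP : Z.Bad P
      · rw [if_pos hP, if_pos hP]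
        exact congrFun e1 ⟨P, hP⟩
      · rw [if_neg hP, if_neg hP]
    have hXq : ∀ P, Z.Bad P → ov P (X (nv q) : M) = ov P (q.out : M) := by
      intro P hP
      have := hX (nv q) ⟨q.out, fun P hP => by simp only [hnv]; rw [if_pos hP]⟩ P hP
      rw [this]; simp only [hnv]; rw [if_pos hP]
    have hXq' : ∀ P, Z.Bad P → ov P (X (nv q) : M) = ov P (q'.out : M) := by
      intro P hP
      rw [hn]
      have := hX (nv q') ⟨q'.out, fun P hP => by simp only [hnv]; rw [if_pos hP]⟩ P hP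
      rw [this]; simp only [hnv]; rw [if_pos hP]
    have hu : ∀ x : Mˣ, (∀ P, Z.Bad P → ov P (X (nv q) : M) = ov P (x : M)) →
        ∀ P, Z.Bad P → P.valuation M ((x * (X (nv q))⁻¹ : Mˣ) : M) = 1 := by
      intro x hx P hP
      apply val_eq_one_of_ov (Units.ne_zero _)
      rw [Units.val_mul, Units.val_inv_eq_inv_val, ov_mul _ x.ne_zero (inv_ne_zero (Units.ne_zero _)),
        ov_inv, hx P hP, add_neg_cancel]
    have e3 : θ ((q.out * (X (nv q))⁻¹ : Mˣ) : M) = θ ((q'.out * (X (nv q))⁻¹ : Mˣ) : M) := by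
      have := e2
      simp only [hφ] at this
      rw [← hn] at this
      exact this
    have h5 := hθ _ _ (hu _ hXq) (hu _ hXq') e3
    have h6 : (q.out * (X (nv q))⁻¹)⁻¹ * (q'.out * (X (nv q))⁻¹) = q.out⁻¹ * q'.out := by
      rw [mul_inv, inv_inv, mul_mul_mul_comm, mul_inv_cancel, mul_one]
    rw [h6, ← QuotientGroup.eq, QuotientGroup.out_eq', QuotientGroup.out_eq'] at h5
    exact h5
  · refine Set.Finite.prod ?_ Set.finite_univ
    exact Set.Finite.pi fun P => Set.finite_Icc _ _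

/-- the part of a divisor of `M` outside the bad places -/
noncomputable def offM (l : Dv M) : Dv M := by
  classical
  exact l.filter fun P => ¬ Z.Bad P

theorem offM_of_bad (l : Dv M) {P : Pl M} (h : Z.Bad P) : Z.offM l P = 0 := by
  classical
  unfold offM
  rw [Finsupp.filter_apply_neg _ _ (by simpa using h)]

theorem offM_of_good (l : Dv M) {P : Pl M} (h : ¬ Z.Bad P) : Z.offM l P = l P := by
  classical
  unfold offM
  exact Finsupp.filter_apply_pos (fun P => ¬ Z.Bad P) l h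

theorem offM_add (l l' : Dv M) : Z.offM (l + l') = Z.offM l + Z.offM l' := by
  ext P
  by_cases h : Z.Bad P
  · simp [Z.offM_of_bad _ h]
  · simp [Z.offM_of_good _ h]

theorem offM_eq_self {l : Dv M} (h : ∀ P, Z.Bad P → l P = 0) : Z.offM l = l := by
  ext P
  by_cases hP : Z.Bad P
  · rw [Z.offM_of_bad _ hP, h P hP]
  · rw [Z.offM_of_good _ hP]

theorem psi_offM (l : Dv M) : Z.psi (Z.offM l) = Z.psi l := by
  classical
  have h : l = Z.offM l + l.filter (fun P => Z.Bad P) := by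
    ext P
    by_cases hP : Z.Bad P
    · rw [Finsupp.add_apply, Z.offM_of_bad _ hP, Finsupp.filter_apply_pos _ _ hP, zero_add]
    · rw [Finsupp.add_apply, Z.offM_of_good _ hP, Finsupp.filter_apply_neg _ _ hP, add_zero]
  have h2 : Z.psi (l.filter (fun P => Z.Bad P)) = 1 := by
    unfold psi
    rw [Finsupp.prod]
    rw [Finset.prod_eq_one]
    · rfl
    · intro P hP
      have hb : Z.Bad P := by
        rw [Finsupp.support_filter, Finset.mem_filter] at hP
        exact hP.2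
      rw [Z.ψ_S P hb, _root_.one_zpow]
  conv_rhs => rw [h]
  rw [psi_add, h2, mul_one]

theorem off_add_br (l l' : Dv F) : Z.off (l + l') = Z.off l + Z.off l' := by
  ext w
  by_cases h : w ∈ Z.S
  · simp [Z.off_of_mem _ h]
  · simp [Z.off_of_not_mem _ h]

theorem off_neg_br (l : Dv F) : Z.off (-l) = -Z.off l := by
  ext w
  by_cases h : w ∈ Z.S
  · simp [Z.off_of_mem _ h]
  · simp [Z.off_of_not_mem _ h]

theorem off_sub (l l' : Dv F) : Z.off (l - l') = Z.off l - Z.off l' := by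
  rw [sub_eq_add_neg, off_add_br, off_neg_br, ← sub_eq_add_neg]

theorem Nm_offM (m : Mˣ) : Z.Nm (Z.offM (dv (m : M))) = Z.off (dv (nrm (F := F) (m : M))) := by
  ext w
  by_cases hw : w ∈ Z.S
  · rw [Z.off_of_mem _ hw, ← below_up (M := M) w, Z.toQuad.Nm_below]
    have hb : Z.Bad (up M w) := by unfold Bad; rw [below_up]; exact hw
    rw [Z.offM_of_bad _ hb, Z.offM_of_bad _ (Z.bad_cP_br.mpr hb), add_zero]
  · have hb : ¬ Z.Bad (up M w) := by unfold Bad; rw [below_up]; exact hw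
    have hb' : ¬ Z.Bad (Z.cP (up M w)) := fun h => hb (Z.bad_cP_br.mp h)
    rw [Z.off_of_not_mem _ hw, ← below_up (M := M) w, Z.toQuad.Nm_below, below_up,
      Z.offM_of_good _ hb, Z.offM_of_good _ hb', dv_apply, dv_apply, dv_apply]
    have hu : Unr M (SUH.below F (up M w)) := by rw [below_up]; exact Z.unr w hw
    have h1 := Z.toQuad.ov_nrm hu m.ne_zero
    rw [below_up] at h1
    rw [h1]

open Classical in
/-- the summand of the Whittaker series, before summation over divisors and classes of multipliers -/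
noncomputable def G (s : M → ℂ) (ν : Dv F) (u : F) (P : XI Z.A) (x : Fˣ × (Dv M × (Mˣ ⧸ Z.US))) : ℂ :=
  ((√(absN ν))⁻¹ : ℝ) * ((if Z.Near1 ((x.1 : F) / nrm (x.2.2.out : M)) then
    s (x.2.2.out : M) * (Z.psi (dv (x.2.2.out : M)))⁻¹ else 0) *
    (if x.2.1 ∈ Z.Eff (Z.off (dv (x.1 : F)) + ν + Z.δ) then Z.psi x.2.1 else 0) *
      ef (-((x.1 : F) * u))) * W Z.A (x.1 : F) P

theorem hasSum_G_fiber {s : M → ℂ} (hs : Z.IsSch s) (ν : Dv F) (u : F) (P : XI Z.A) (α : Fˣ) :
    HasSum (fun y : Dv M × (Mˣ ⧸ Z.US) => Z.G s ν u P (α, y)) (Z.coef s ν u α * W Z.A α P) := by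
  classical
  set A : Dv M → ℂ := fun b => if b ∈ Z.Eff (Z.off (dv (α : F)) + ν + Z.δ) then Z.psi b else 0 with hA
  set B : Mˣ ⧸ Z.US → ℂ := fun q => if Z.Near1 ((α : F) / nrm (q.out : M)) then
    s (q.out : M) * (Z.psi (dv (q.out : M)))⁻¹ else 0 with hB
  have hAf : (Function.support A).Finite := (Z.finite_Eff _).subset fun b hb => by
    simp only [hA, Function.mem_support] at hb
    by_contra h
    rw [if_neg h] at hb
    exact hb rfl
  have hBf : (Function.support B).Finite := (Z.finite_cS hs α).subset fun q hq => by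
    simp only [hB, Function.mem_support] at hq
    by_cases h : Z.Near1 ((α : F) / nrm (q.out : M))
    · rw [if_pos h] at hq
      exact ⟨h, left_ne_zero_of_mul hq⟩
    · rw [if_neg h] at hq; exact absurd rfl hq
  have hAs : HasSum A (Z.aψ (Z.off (dv (α : F)) + ν + Z.δ)) := by
    have h1 := hasSum_finsum hAf
    have h2 : ∑ᶠ b, A b = Z.aψ (Z.off (dv (α : F)) + ν + Z.δ) := by
      unfold aψ
      rw [finsum_subtype_eq_finsum_cond (f := Z.psi) (p := fun b => b ∈ Z.Eff (Z.off (dv (α : F)) + ν + Z.δ))]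
      refine finsum_congr fun b => ?_
      simp only [hA]
      rw [finsum_eq_if]
    rwa [h2] at h1
  have hBs : HasSum B (Z.cS s α) := hasSum_finsum hBf
  have hprod : Summable fun x : Dv M × (Mˣ ⧸ Z.US) => A x.1 * B x.2 := by
    refine summable_of_fin ((hAf.prod hBf).subset ?_)
    rintro ⟨b, q⟩ hx
    exact ⟨left_ne_zero_of_mul hx, right_ne_zero_of_mul hx⟩
  have h3 := ((hAs.mul hBs hprod).mul_left ((((√(absN ν))⁻¹ : ℝ) : ℂ) * ef (-((α : F) * u)) * W Z.A (α : F) P))
  have h4 : (((√(absN ν))⁻¹ : ℝ) : ℂ) * ef (-((α : F) * u)) * W Z.A (α : F) P *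
      (Z.aψ (Z.off (dv (α : F)) + ν + Z.δ) * Z.cS s α) = Z.coef s ν u α * W Z.A α P := by
    unfold coef; ring
  rw [h4] at h3
  refine h3.congr_fun fun y => ?_
  unfold G
  simp only [hA, hB]
  ring

/-- The Whittaker function and the Bessel factor. -/
theorem W_eq_bes (α0 α : F) (P : XI Z.A) :
    ((∏ i, (P i).t : ℝ) : ℂ) * Z.toQuad.qa.bes (fun i => Z.A.emb i α0 * (P i).z)
      (fun i => ‖Z.A.emb i α0‖ * (P i).t) (algebraMap F M α) =
      2 ^ Fintype.card Z.A.I * W Z.A (α0 * α) P := by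
  unfold QArch.bes W
  rw [Complex.ofReal_prod, ← Finset.prod_mul_distrib, ← Finset.card_univ, ← Finset.prod_const,
    ← Finset.prod_mul_distrib]
  refine Finset.prod_congr rfl fun i _ => ?_
  change ((P i).t : ℂ) * (Complex.exp (((4 * π * (Z.A.emb i α0 * (P i).z * Z.toQuad.emb i (algebraMap F M α)).re : ℝ) : ℂ) * Complex.I) *
    ((2 * kz (4 * π * (‖Z.A.emb i α0‖ * (P i).t) * ‖Z.toQuad.emb i (algebraMap F M α)‖) : ℝ) : ℂ)) = _
  rw [Z.toQuad.emb_alg, map_mul, norm_mul]
  have h1 : Z.A.emb i α0 * (P i).z * Z.A.emb i α = Z.A.emb i α0 * Z.A.emb i α * (P i).z := by ring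
  have h2 : 4 * π * (‖Z.A.emb i α0‖ * (P i).t) * ‖Z.A.emb i α‖ =
    4 * π * (P i).t * (‖Z.A.emb i α0‖ * ‖Z.A.emb i α‖) := by ring
  rw [h1, h2]
  push_cast
  ring

/-- The map `(c, q) ↦ (α₀ nrm ξ, dv ξ - 𝔏, ξ)`. -/
noncomputable def Θ (ν : Dv F) (x : Z.Cl ν × (Mˣ ⧸ Z.toQuad.qa.N1 Z.𝔣)) : Fˣ × (Dv M × (Mˣ ⧸ Z.US)) :=
  (((Quotient.out x.1 : Z.J ν) : Fˣ × Dv M).1 * nU x.2.out,
    (Z.offM (dv (x.2.out : M)) - ((Quotient.out x.1 : Z.J ν) : Fˣ × Dv M).2, (x.2.out : Mˣ ⧸ Z.US)))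

theorem N1_le_US : Z.toQuad.qa.N1 Z.𝔣 ≤ Z.US := fun _ hm => ((Z.mem_N1_iff).mp hm).1

theorem Θ_injective (ν : Dv F) : Function.Injective (Z.Θ ν) := by
  rintro ⟨c, q⟩ ⟨c', q'⟩ h
  unfold Θ at h
  simp only [Prod.mk.injEq] at h
  obtain ⟨h1, h2, h3⟩ := h
  rw [QuotientGroup.eq] at h3
  set m : Mˣ := q.out⁻¹ * q'.out with hm
  have hq' : q'.out = q.out * m := by rw [hm, mul_inv_cancel_left]
  -- `c' = m • c`
  have hdv : Z.offM (dv (q'.out : M)) = Z.offM (dv (q.out : M)) + dv (m : M) := by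
    rw [hq', Units.val_mul, dv_mul q.out.ne_zero m.ne_zero, offM_add,
      Z.offM_eq_self (l := dv (m : M)) fun P hP => Z.US_ov h3 hP]
  have key : (⟨m, h3⟩ : Z.US) • (Quotient.out c : Z.J ν) = (Quotient.out c' : Z.J ν) := by
    apply Subtype.ext
    refine Prod.ext ?_ ?_
    · rw [smul_J_fst]
      rw [hq', map_mul] at h1
      have : ((Quotient.out c : Z.J ν) : Fˣ × Dv M).1 * nU q.out =
        (((Quotient.out c' : Z.J ν) : Fˣ × Dv M).1 * nU m) * nU q.out := by rw [h1]; ac_rfl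
      rw [mul_right_cancel this]
      exact mul_div_cancel_right _ _
    · rw [smul_J_snd]
      rw [hdv] at h2
      change ((Quotient.out c : Z.J ν) : Fˣ × Dv M).2 + dv (m : M) = _
      have : Z.offM (dv (q.out : M)) - ((Quotient.out c : Z.J ν) : Fˣ × Dv M).2 + ((Quotient.out c' : Z.J ν) : Fˣ × Dv M).2 =
        Z.offM (dv (q.out : M)) + dv (m : M) := by rw [h2]; abel
      have h4 : ((Quotient.out c' : Z.J ν) : Fˣ × Dv M).2 - ((Quotient.out c : Z.J ν) : Fˣ × Dv M).2 = dv (m : M) := by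
        have := congrArg (fun x => x - Z.offM (dv (q.out : M))) this
        rw [show Z.offM (dv (q.out : M)) - ((Quotient.out c : Z.J ν) : Fˣ × Dv M).2 +
          ((Quotient.out c' : Z.J ν) : Fˣ × Dv M).2 - Z.offM (dv (q.out : M)) =
          ((Quotient.out c' : Z.J ν) : Fˣ × Dv M).2 - ((Quotient.out c : Z.J ν) : Fˣ × Dv M).2 by abel,
          show Z.offM (dv (q.out : M)) + dv (m : M) - Z.offM (dv (q.out : M)) = dv (m : M) by abel] at this
        exact this
      rw [← h4]; abel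
  have hcc : c = c' := by
    have h6 : (Quotient.mk'' ((⟨m, h3⟩ : Z.US) • (Quotient.out c : Z.J ν)) : Z.Cl ν) =
      Quotient.mk'' (Quotient.out c) := Quotient.sound ⟨⟨m, h3⟩, rfl⟩
    have h7 : (Quotient.mk'' (Quotient.out c) : Z.Cl ν) = c := Quotient.out_eq c
    have h8 : (Quotient.mk'' (Quotient.out c') : Z.Cl ν) = c' := Quotient.out_eq c'
    rw [key, h7, h8] at h6
    exact h6.symm
  subst hcc
  -- the stabilizer
  have hm1 : nU (F := F) m = 1 := by
    have h5 := congrArg (fun p : Z.J ν => (p : Fˣ × Dv M).1) key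
    simp only [smul_J_fst] at h5
    exact div_eq_self.mp h5
  have hm2 : dv (m : M) = 0 := by
    have h5 := congrArg (fun p : Z.J ν => (p : Fˣ × Dv M).2) key
    simp only [smul_J_snd] at h5
    exact add_eq_left.mp h5
  have hmN : m ∈ Z.toQuad.qa.N1 Z.𝔣 := (Z.mem_N1_iff).mpr ⟨h3, hm1, hm2⟩
  have hqq : q = q' := by
    rw [← QuotientGroup.out_eq' q, ← QuotientGroup.out_eq' q', QuotientGroup.eq]
    exact hmN
  rw [hqq]

end Setup

end Fermat.Agent.LT.I
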