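import Fermat.Agent.LT.I.Approx

/-!
# LT, piece I: finite quotients of semi-local lattices
-/

set_option autoImplicit false
set_option linter.unusedSectionVars false

open NumberField IsDedekindDomain WithZero Module

namespace Fermat.Agent.LT.I

open Fermat.LT Fermat.Agent.CFT

variable {F : Type} [Field F] [NumberField F]

/-- elements with prescribed valuations at finitely many places -/
theorem exists_ov_eq (T : Finset (Pl F)) (n : Pl F → ℤ) :
    ∃ d : F, d ≠ 0 ∧ ∀ w ∈ T, w.valuation F d = exp (-(n w)) := by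
  classical
  rcases T.eq_empty_or_nonempty with rfl | ⟨w0, hw0⟩
  · exact ⟨1, one_ne_zero, fun w hw => absurd hw (Finset.notMem_empty w)⟩
  have h1 : ∀ w : Pl F, ∃ x : F, w.valuation F x = exp (-(n w)) := fun w => by
    obtain ⟨π, hπ⟩ := w.valuation_exists_uniformizer F
    refine ⟨π ^ (n w), ?_⟩
    rw [map_zpow₀, hπ, ← WithZero.exp_zsmul]
    simp
  choose x hx using h1
  obtain ⟨d, hd, -⟩ := strong_approx T x (fun w => n w + 1) 0
  have hval : ∀ w ∈ T, w.valuation F d = exp (-(n w)) := by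
    intro w hw
    have h2 := hd w hw
    have h3 : w.valuation F (d - x w) < w.valuation F (x w) := by
      refine lt_of_le_of_lt h2 ?_
      rw [hx, WithZero.exp_lt_exp]; omega
    have h4 : d = (d - x w) + x w := by ring
    rw [h4, Valuation.map_add_eq_of_lt_right _ h3, hx]
  refine ⟨d, ?_, hval⟩
  rintro rfl
  have := hval w0 hw0
  rw [map_zero] at this
  exact WithZero.exp_ne_zero this.symm

/-- The lattice `{v ≥ a}` modulo `{v ≥ b}` (at the places of `T`) is finite, with a bound. -/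
theorem exists_finQuot (T : Finset (Pl F)) (a b : Pl F → ℤ) :
    ∃ (R : Type) (_ : Fintype R) (r : F → R),
      (Fintype.card R : ℝ) = ∏ w ∈ T, qv w ^ (b w - a w).toNat ∧
      ∀ x y, (∀ w ∈ T, w.valuation F x ≤ exp (-(a w))) → (∀ w ∈ T, w.valuation F y ≤ exp (-(a w))) →
        r x = r y → ∀ w ∈ T, w.valuation F (x - y) ≤ exp (-(b w)) := by
  classical
  obtain ⟨d, hd0, hd⟩ := exists_ov_eq T (fun w => -(a w))
  set 𝔞 : Ideal (𝓞 F) := ∏ w ∈ T, w.asIdeal ^ (b w - a w).toNat with h𝔞
  have h𝔞0 : 𝔞 ≠ ⊥ := by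
    rw [h𝔞, ← Ideal.zero_eq_bot]
    exact Finset.prod_ne_zero_iff.2 fun w _ => pow_ne_zero _ w.ne_bot
  have hcard : (Nat.card (𝓞 F ⧸ 𝔞) : ℝ) = ∏ w ∈ T, qv w ^ (b w - a w).toNat := by
    have h1 : Nat.card (𝓞 F ⧸ 𝔞) = Ideal.absNorm 𝔞 := rfl
    rw [h1, h𝔞, map_prod, Nat.cast_prod]
    refine Finset.prod_congr rfl fun w _ => ?_
    rw [map_pow, Nat.cast_pow, qv]
  have hfin : Finite (𝓞 F ⧸ 𝔞) := Ideal.finiteQuotientOfFreeOfNeBot 𝔞 h𝔞0
  -- integral approximations
  have happ : ∀ x : F, ∃ y : 𝓞 F, (∀ w ∈ T, w.valuation F x ≤ exp (-(a w))) →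
      ∀ w ∈ T, w.valuation F ((y : F) - d * x) ≤ exp (-((b w - a w).toNat : ℤ)) := by
    intro x
    by_cases hx : ∀ w ∈ T, w.valuation F x ≤ exp (-(a w))
    swap
    · exact ⟨0, fun h => absurd h hx⟩
    obtain ⟨u, hu1, hu2⟩ := strong_approx T (fun _ => d * x) (fun w => (b w - a w).toNat) 0
    have hint : ∀ w : Pl F, w.valuation F u ≤ 1 := by
      intro w
      by_cases hw : w ∈ T
      · have h1 := hu1 w hw
        have h2 : w.valuation F (d * x) ≤ 1 := by
          rw [map_mul, hd w hw]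
          calc _ ≤ exp (- -a w) * exp (-a w) := mul_le_mul_right (hx w hw) _
            _ = 1 := by rw [← WithZero.exp_add]; simp
        have h3 : u = (u - d * x) + d * x := by ring
        rw [h3]
        refine ((w.valuation F).map_add _ _).trans (max_le (h1.trans ?_) h2)
        rw [← WithZero.exp_zero, WithZero.exp_le_exp]; omega
      · simpa using hu2 w hw
    obtain ⟨y, hy⟩ := HeightOneSpectrum.mem_integers_of_valuation_le_one F u hint
    refine ⟨y, fun _ w hw => ?_⟩
    rw [show (y : F) = u from hy]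
    exact hu1 w hw
  choose f hf using happ
  refine ⟨𝓞 F ⧸ 𝔞, Fintype.ofFinite _, fun x => Ideal.Quotient.mk 𝔞 (f x), ?_, ?_⟩
  · rw [← hcard, @Nat.card_eq_fintype_card _ (Fintype.ofFinite _)]
  · intro x y hx hy hxy w hw
    have h1 := hf x hx w hw
    have h2 := hf y hy w hw
    have h3 : f x - f y ∈ 𝔞 := (Ideal.Quotient.eq).1 hxy
    have h4 : f x - f y ∈ w.asIdeal ^ (b w - a w).toNat := by
      have : 𝔞 ≤ w.asIdeal ^ (b w - a w).toNat := by
        rw [h𝔞]
        exact Ideal.le_of_dvd (Finset.dvd_prod_of_mem _ hw)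
      exact this h3
    have h5 : w.valuation F ((f x : F) - (f y : F)) ≤ exp (-((b w - a w).toNat : ℤ)) := by
      rw [← HeightOneSpectrum.intValuation_le_pow_iff_mem, ← w.valuation_of_algebraMap (K := F)] at h4
      simpa using h4
    have h6 : w.valuation F (d * (x - y)) ≤ exp (-((b w - a w).toNat : ℤ)) := by
      have : d * (x - y) = ((f x : F) - (f y : F)) - ((f x : F) - d * x) + ((f y : F) - d * y) := by ring
      rw [this]
      refine ((w.valuation F).map_add _ _).trans (max_le ?_ h2)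
      exact ((w.valuation F).map_sub _ _).trans (max_le h5 h1)
    rw [map_mul, hd w hw, neg_neg] at h6
    have h7 : w.valuation F (x - y) ≤ exp (-(a w)) * exp (-((b w - a w).toNat : ℤ)) := by
      calc w.valuation F (x - y) = exp (-(a w)) * (exp (a w) * w.valuation F (x - y)) := by
            rw [← mul_assoc, ← WithZero.exp_add]; simp
        _ ≤ _ := mul_le_mul_right h6 _
    refine h7.trans ?_
    rw [← WithZero.exp_add, WithZero.exp_le_exp]
    omega

end Fermat.Agent.LT.I
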