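import Fermat.Agent.LT.I.Coef
import Fermat.Agent.LT.I.FinQ

/-!
# LT, piece I: the `S`-part `cS` of the Whittaker coefficients
-/

set_option autoImplicit false
set_option linter.unusedSectionVars false

open NumberField IsDedekindDomain Matrix WithZero Module
open scoped Real nonZeroDivisors

namespace Fermat.Agent.LT.I

open Fermat.LT Fermat.Agent.CFT

variable {F M : Type} [Field F] [NumberField F] [Field M] [NumberField M] [Algebra F M]
variable (Z : Setup F M)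

theorem Quad.exists_ram (Q : Quad F M) (P : Pl M) : ∃ e : ℕ, 1 ≤ e ∧ e ≤ 2 ∧
    ∀ x : F, P.valuation M (algebraMap F M x) = (SUH.below F P).valuation F x ^ e := by
  refine ⟨(SUH.below F P).asIdeal.ramificationIdx' P.asIdeal, ?_, ?_, fun x => ?_⟩
  · exact Nat.pos_of_ne_zero (Ideal.IsDedekindDomain.ramificationIdx'_ne_zero_of_liesOver P.asIdeal
      (SUH.below F P).ne_bot)
  · have : (SUH.below F P).asIdeal.IsMaximal := (SUH.below F P).isPrime.isMaximal (SUH.below F P).ne_bot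
    have hns : NoZeroSMulDivisors (𝓞 F) (𝓞 M) := ⟨fun {c x} h => by
      rw [Algebra.smul_def, mul_eq_zero] at h
      rcases h with h | h
      · left
        exact (FaithfulSMul.algebraMap_injective (𝓞 F) (𝓞 M)) (by rw [h, map_zero])
      · exact Or.inr h⟩
    have h := Ideal.ramificationIdx_le_finrank (R := 𝓞 F) (S := 𝓞 M) F M
      (p := (SUH.below F P).asIdeal) P.asIdeal
    rwa [Q.deg] at h
  · exact (HeightOneSpectrum.valuation_liesOver M (SUH.below F P) P x).symm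

theorem Quad.exists_ov (Q : Quad F M) (P : Pl M) : ∃ e : ℤ, 1 ≤ e ∧ e ≤ 2 ∧
    ∀ x : F, ov P (algebraMap F M x) = e * ov (SUH.below F P) x := by
  obtain ⟨e, h1, h2, h3⟩ := Q.exists_ram P
  refine ⟨e, by exact_mod_cast h1, by exact_mod_cast h2, fun x => ?_⟩
  rw [ov, h3, WithZero.log_pow, ov]
  simp

theorem Quad.ov_pos (Q : Quad F M) (P : Pl M) {x : F} {n : ℤ} (hn : 0 ≤ n)
    (h : -n ≤ ov P (algebraMap F M x)) : -n ≤ ov (SUH.below F P) x := by
  obtain ⟨e, h1, h2, h3⟩ := Q.exists_ov P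
  rw [h3] at h
  by_contra hc
  push Not at hc
  nlinarith

theorem Quad.ov_deep (Q : Quad F M) (P : Pl M) {x : F} {n : ℤ} (hn : 0 ≤ n)
    (h : 2 * n ≤ ov P (algebraMap F M x)) : n ≤ ov (SUH.below F P) x := by
  obtain ⟨e, h1, h2, h3⟩ := Q.exists_ov P
  rw [h3] at h
  by_contra hc
  push Not at hc
  nlinarith

theorem val_eq_one_of_near {K : Type} [Field K] [NumberField K] (w : Pl K) {x : K} {n : ℕ} (hn : 1 ≤ n)
    (h : w.valuation K (x - 1) ≤ exp (-(n : ℤ))) : w.valuation K x = 1 := by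
  have h1 : w.valuation K (x - 1) < w.valuation K (1 : K) := by
    refine lt_of_le_of_lt h ?_
    rw [map_one, ← WithZero.exp_zero, WithZero.exp_lt_exp]; omega
  have h2 : x = (x - 1) + 1 := by ring
  rw [h2, Valuation.map_add_eq_of_lt_right _ h1, map_one]

theorem ov_eq_zero_of_val {K : Type} [Field K] [NumberField K] (w : Pl K) {x : K}
    (h : w.valuation K x = 1) : ov w x = 0 := by
  rw [ov, h]; simp

namespace Setup

theorem one_le_N1 : 1 ≤ Z.N1 := by have := Z.hN1; omega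
theorem one_le_N2 : 1 ≤ Z.N2 := by have := Z.hN2; have := Z.one_le_N1; omega

/-- the bad places of `M` -/
noncomputable def SM : Finset (Pl M) := (SUH.finite_above (F := M) Z.S.finite_toSet).toFinset

theorem mem_SM {P : Pl M} : P ∈ Z.SM ↔ Z.Bad P := by
  rw [SM, Set.Finite.mem_toFinset]; rfl

theorem bad_cP {P : Pl M} : Z.Bad (Z.cP P) ↔ Z.Bad P := by
  unfold Bad; rw [Z.below_cP]

theorem Near1.val {x : F} (h : Z.Near1 x) {w : Pl F} (hw : w ∈ Z.S) : w.valuation F x = 1 :=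
  val_eq_one_of_near w Z.one_le_N1 (h w hw)

theorem near1_one : Z.Near1 1 := fun w _ => by simp

theorem Near1.mul {x y : F} (hx : Z.Near1 x) (hy : Z.Near1 y) : Z.Near1 (x * y) := fun w hw => by
  have : x * y - 1 = x * (y - 1) + (x - 1) := by ring
  rw [this]
  refine ((w.valuation F).map_add _ _).trans (max_le ?_ (hx w hw))
  rw [map_mul, hx.val Z hw, one_mul]; exact hy w hw

theorem Near1.inv {x : F} (hx : Z.Near1 x) : Z.Near1 x⁻¹ := fun w hw => by
  by_cases h0 : x = 0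
  · have := hx.val Z hw
    rw [h0, map_zero] at this
    exact absurd this zero_ne_one
  have : x⁻¹ - 1 = -x⁻¹ * (x - 1) := by field_simp; ring
  rw [this, map_mul, Valuation.map_neg, map_inv₀, hx.val Z hw, inv_one, one_mul]
  exact hx w hw

theorem Near1.mul_iff {x y : F} (hx : Z.Near1 x) (h0 : x ≠ 0) : Z.Near1 (x * y) ↔ Z.Near1 y := by
  refine ⟨fun h => ?_, fun h => hx.mul Z h⟩
  have := (hx.inv Z).mul Z h
  rwa [inv_mul_cancel_left₀ h0] at this

/-- the norm of a multiplier is `≡ 1 mod S^{N1}` -/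
theorem near1_nrm {m : Mˣ} (hm : m ∈ Z.US) : Z.Near1 (nrm (m : M)) := by
  intro w hw
  obtain ⟨P, rfl⟩ := SUH.exists_above (F := M) w
  have hP : Z.Bad P := hw
  have h1 := (hm P hP).2
  have h2 := (hm _ (Z.bad_cP.2 hP)).2
  rw [Z.val_cP, map_sub, map_one] at h2
  by_cases h0 : nrm (F := F) (m : M) - 1 = 0
  · rw [h0, map_zero]; exact zero_le
  have h0' : algebraMap F M (nrm (F := F) (m : M) - 1) ≠ 0 := (map_ne_zero _).2 h0
  have h3 : algebraMap F M (nrm (F := F) (m : M) - 1) = m * (Z.c m - 1) + (m - 1) := by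
    rw [map_sub, map_one, Z.alg_nrm]; ring
  have h4 : P.valuation M (algebraMap F M (nrm (F := F) (m : M) - 1)) ≤ exp (-(Z.N2 : ℤ)) := by
    rw [h3]
    refine ((P.valuation M).map_add _ _).trans (max_le ?_ h1)
    rw [map_mul, (hm P hP).1, one_mul]; exact h2
  rw [le_exp_iff P h0'] at h4
  rw [le_exp_iff _ h0]
  refine Z.ov_deep P (by positivity) (le_trans ?_ h4)
  have := Z.hN2
  exact_mod_cast this

theorem psi_dv_mul {ξ : M} (hξ : ξ ≠ 0) {m : Mˣ} (hm : m ∈ Z.US) :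
    Z.psi (dv (ξ * m)) = Z.psi (dv ξ) := by
  rw [dv_mul hξ m.ne_zero, Z.psi_add]
  have h1 : Z.psi (dv (m : M)) = 1 := by
    unfold psi
    rw [Z.ψ_dv m (fun P hP => (hm P hP).2.trans ?_)]
    · rfl
    · rw [WithZero.exp_le_exp]
      have := Z.he0
      omega
  rw [h1, mul_one]

theorem mul_mem_Lam_iff {ξ : M} {m : Mˣ} (hm : m ∈ Z.US) : ξ * m ∈ Z.Lam ↔ ξ ∈ Z.Lam := by
  rw [mem_Lam, mem_Lam]
  refine forall_congr' fun P => forall_congr' fun hP => ?_
  rw [map_mul, (hm P hP).1, mul_one]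

theorem IsSch.mul_US {s : M → ℂ} (hs : Z.IsSch s) (ξ : M) {m : Mˣ} (hm : m ∈ Z.US) :
    s (ξ * m) = s ξ := by
  by_cases h : ξ ∈ Z.Lam
  · have h1 : ξ * m = ξ + ξ * (m - 1) := by ring
    rw [h1]
    refine hs.per ξ _ fun P hP => ?_
    rw [map_mul]
    calc P.valuation M ξ * P.valuation M ((m : M) - 1) ≤ exp (Z.N : ℤ) * exp (-(Z.N2 : ℤ)) :=
          mul_le_mul' (h P hP) (hm P hP).2
      _ ≤ _ := by
          rw [← WithZero.exp_add, WithZero.exp_le_exp]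
          have h1 := Z.hN1
          have h2 := Z.hN2
          have h3 := dF_apply_nonneg (F := M) P
          omega
  · have h1 : s ξ = 0 := by by_contra hc; exact h (hs.supp ξ hc)
    have h2 : s (ξ * m) = 0 := by
      by_contra hc
      exact h ((Z.mul_mem_Lam_iff hm).1 (hs.supp _ hc))
    rw [h1, h2]

open Classical in
/-- the summand of `cS` -/
noncomputable def cterm (s : M → ℂ) (α : F) (ξ : M) : ℂ :=
  if Z.Near1 (α / nrm ξ) then s ξ * (Z.psi (dv ξ))⁻¹ else 0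

theorem cterm_mul {s : M → ℂ} (hs : Z.IsSch s) (α : F) (ξ : Mˣ) {m : Mˣ} (hm : m ∈ Z.US) :
    Z.cterm s α ((ξ : M) * m) = Z.cterm s α ξ := by
  unfold cterm
  rw [Z.psi_dv_mul ξ.ne_zero hm, hs.mul_US Z _ hm]
  have h1 : α / nrm ((ξ : M) * m) = (nrm (m : M))⁻¹ * (α / nrm (ξ : M)) := by
    rw [nrm_mul]
    have := nrm_ne_zero (F := F) ξ.ne_zero
    have := nrm_ne_zero (F := F) m.ne_zero
    field_simp
  have h2 : Z.Near1 (α / nrm ((ξ : M) * m)) ↔ Z.Near1 (α / nrm (ξ : M)) := by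
    rw [h1]
    exact ((Z.near1_nrm hm).inv Z).mul_iff Z (inv_ne_zero (nrm_ne_zero m.ne_zero))
  by_cases h3 : Z.Near1 (α / nrm (ξ : M))
  · rw [if_pos h3, if_pos (h2.2 h3)]
  · rw [if_neg h3, if_neg fun h => h3 (h2.1 h)]

theorem cterm_out {s : M → ℂ} (hs : Z.IsSch s) (α : F) (ξ : Mˣ) :
    Z.cterm s α ((ξ : Mˣ ⧸ Z.US).out : M) = Z.cterm s α ξ := by
  obtain ⟨m, hm⟩ := QuotientGroup.mk_out_eq_mul Z.US ξ
  rw [hm, Units.val_mul]
  exact Z.cterm_mul hs α ξ m.2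

theorem cS_eq (s : M → ℂ) (α : F) : Z.cS s α = ∑ᶠ q : Mˣ ⧸ Z.US, Z.cterm s α (q.out : M) := rfl

/-- the valuations of `α` when `α ≡ nrm ξ` -/
theorem ov_of_near {α : F} {ξ : M} (hξ : ξ ≠ 0) (h : Z.Near1 (α / nrm ξ)) {P : Pl M}
    (hP : Z.Bad P) : ov P (algebraMap F M α) = ov P ξ + ov (Z.cP P) ξ := by
  have hn := nrm_ne_zero (F := F) hξ
  by_cases hα : α = 0
  · have := h.val Z hP
    rw [hα, zero_div, map_zero] at this
    exact absurd this zero_ne_one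
  have h1 := ov_eq_zero_of_val _ (h.val Z hP)
  rw [div_eq_mul_inv, ov_mul _ hα (inv_ne_zero hn), ov_inv] at h1
  obtain ⟨e, -, -, h3⟩ := Z.exists_ov P
  have h4 : ov P (algebraMap F M α) = ov P (algebraMap F M (nrm ξ)) := by
    rw [h3, h3]
    have : ov (SUH.below F P) α = ov (SUH.below F P) (nrm ξ) := by omega
    rw [this]
  rw [h4, Z.alg_nrm, ov_mul _ hξ ((map_ne_zero _).2 hξ), Z.ov_cP]

theorem cS_supp {s : M → ℂ} (hs : Z.IsSch s) {α : F} (h : Z.cS s α ≠ 0) {w : Pl F} (hw : w ∈ Z.S) :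
    -(2 * Z.N : ℤ) ≤ ov w α := by
  rw [cS_eq] at h
  obtain ⟨q, hq⟩ : ∃ q : Mˣ ⧸ Z.US, Z.cterm s α (q.out : M) ≠ 0 := by
    by_contra hc
    push Not at hc
    exact h (by rw [finsum_congr hc, finsum_zero])
  obtain ⟨P, rfl⟩ := SUH.exists_above (F := M) w
  unfold cterm at hq
  split_ifs at hq with h1
  · have h2 : s (q.out : M) ≠ 0 := left_ne_zero_of_mul hq
    have h3 := hs.supp _ h2
    have h0 : ((q.out : Mˣ) : M) ≠ 0 := Units.ne_zero _
    have h4 := h3 P hw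
    have h5 := h3 (Z.cP P) (Z.bad_cP.2 hw)
    rw [← neg_neg (Z.N : ℤ), le_exp_iff _ h0] at h4 h5
    refine Z.ov_pos P (by positivity) ?_
    rw [Z.ov_of_near h0 h1 hw]
    omega
  · exact absurd rfl hq

theorem IsSch.bdd {s : M → ℂ} (hs : Z.IsSch s) : ∃ C : ℝ, 0 ≤ C ∧ ∀ ξ, ‖s ξ‖ ≤ C := by
  classical
  obtain ⟨R, hR, r, -, hr⟩ := exists_finQuot Z.SM (fun _ => -(Z.N : ℤ)) (fun P => Z.N - dF M P)
  have hmem : ∀ ξ : M, ξ ∈ Z.Lam ↔ ∀ P ∈ Z.SM, P.valuation M ξ ≤ exp (-(-(Z.N : ℤ))) := by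
    intro ξ
    rw [mem_Lam]
    simp only [mem_SM, neg_neg]
  let g : R → ℝ := fun x => if h : ∃ ξ ∈ Z.Lam, r ξ = x then ‖s h.choose‖ else 0
  have hg : ∀ x, 0 ≤ g x := fun x => by
    simp only [g]; split_ifs
    · exact norm_nonneg _
    · exact le_refl _
  refine ⟨∑ x, g x, Finset.sum_nonneg fun x _ => hg x, fun ξ => ?_⟩
  by_cases h : ξ ∈ Z.Lam
  · have h1 : ∃ ξ' ∈ Z.Lam, r ξ' = r ξ := ⟨ξ, h, rfl⟩
    have h2 : g (r ξ) = ‖s ξ‖ := by
      simp only [g]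
      rw [dif_pos h1]
      obtain ⟨h3, h4⟩ := h1.choose_spec
      have h5 := hr _ _ ((hmem _).1 h3) ((hmem _).1 h) h4
      have h6 : h1.choose - ξ ∈ Z.LamD := fun P hP => h5 P (Z.mem_SM.2 hP)
      have h7 := hs.per ξ _ h6
      rw [add_sub_cancel] at h7
      rw [h7]
    rw [← h2]
    exact Finset.single_le_sum (f := g) (fun x _ => hg x) (Finset.mem_univ _)
  · have h1 : s ξ = 0 := by by_contra hc; exact h (hs.supp ξ hc)
    rw [h1, norm_zero]
    exact Finset.sum_nonneg fun x _ => hg x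

/-- Finiteness and counting for the sum `cS`. -/
theorem cS_count (α : F) : ∃ T : Finset (Mˣ ⧸ Z.US),
    (∀ q : Mˣ ⧸ Z.US, Z.Near1 (α / nrm (q.out : M)) → (q.out : M) ∈ Z.Lam → q ∈ T) ∧
    (T.card : ℝ) ≤ ∏ P ∈ Z.SM, qv P ^ (ov P (algebraMap F M α) + 2 * Z.N + Z.N2).toNat := by
  classical
  obtain ⟨R, hR, r, hcard, hr⟩ := exists_finQuot Z.SM (fun _ => -(Z.N : ℤ))
    (fun P => ov P (algebraMap F M α) + Z.N + Z.N2)
  have hmem : ∀ ξ : M, ξ ∈ Z.Lam ↔ ∀ P ∈ Z.SM, P.valuation M ξ ≤ exp (-(-(Z.N : ℤ))) := by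
    intro ξ
    rw [mem_Lam]
    simp only [mem_SM, neg_neg]
  let A : Set (Mˣ ⧸ Z.US) := {q | Z.Near1 (α / nrm (q.out : M)) ∧ (q.out : M) ∈ Z.Lam}
  have hinj : Set.InjOn (fun q : Mˣ ⧸ Z.US => r (q.out : M)) A := by
    intro q hq q' hq' h
    rw [← QuotientGroup.out_eq' q, ← QuotientGroup.out_eq' q', QuotientGroup.eq]
    have h1 := hr _ _ ((hmem _).1 hq'.2) ((hmem _).1 hq.2) h.symm
    intro P hP
    have h0 : ((q.out : Mˣ) : M) ≠ 0 := Units.ne_zero _
    have h0' : ((q'.out : Mˣ) : M) ≠ 0 := Units.ne_zero _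
    have h2 := Z.ov_of_near h0 hq.1 hP
    have h3 := hq.2 (Z.cP P) (Z.bad_cP.2 hP)
    rw [← neg_neg (Z.N : ℤ), le_exp_iff _ h0] at h3
    have h4 : P.valuation M (((q.out⁻¹ * q'.out : Mˣ) : M) - 1) ≤ exp (-(Z.N2 : ℤ)) := by
      have h5 : ((q.out⁻¹ * q'.out : Mˣ) : M) - 1 =
          ((q.out : Mˣ) : M)⁻¹ * (((q'.out : Mˣ) : M) - ((q.out : Mˣ) : M)) := by
        rw [Units.val_mul, Units.val_inv_eq_inv_val]; field_simp
      rw [h5, map_mul, map_inv₀, val_eq P h0, ← WithZero.exp_neg, neg_neg]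
      calc _ ≤ exp (ov P ((q.out : Mˣ) : M)) *
            exp (-(ov P (algebraMap F M α) + Z.N + Z.N2)) := mul_le_mul_right (h1 P (Z.mem_SM.2 hP)) _
        _ ≤ _ := by
            rw [← WithZero.exp_add, WithZero.exp_le_exp]
            omega
    exact ⟨val_eq_one_of_near P Z.one_le_N2 h4, h4⟩
  have hfin : A.Finite := Set.Finite.of_finite_image (Set.toFinite _) hinj
  refine ⟨hfin.toFinset, fun q h1 h2 => hfin.mem_toFinset.2 ⟨h1, h2⟩, ?_⟩
  have h1 : hfin.toFinset.card ≤ Fintype.card R := by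
    rw [← Finset.card_univ]
    exact Finset.card_le_card_of_injOn (fun q : Mˣ ⧸ Z.US => r (q.out : M))
      (fun _ _ => Finset.mem_coe.2 (Finset.mem_univ _)) (by
        intro q hq q' hq' h
        exact hinj ((hfin.mem_toFinset).1 (Finset.mem_coe.1 hq))
          ((hfin.mem_toFinset).1 (Finset.mem_coe.1 hq')) h)
  have h2 : (hfin.toFinset.card : ℝ) ≤ Fintype.card R := by exact_mod_cast h1
  refine h2.trans (le_of_eq ?_)
  rw [hcard]
  refine Finset.prod_congr rfl fun P _ => ?_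
  congr 2
  ring

theorem cterm_ne_zero {s : M → ℂ} (hs : Z.IsSch s) {α : F} {ξ : M} (h : Z.cterm s α ξ ≠ 0) :
    Z.Near1 (α / nrm ξ) ∧ ξ ∈ Z.Lam := by
  unfold cterm at h
  split_ifs at h with h1
  · exact ⟨h1, hs.supp _ (left_ne_zero_of_mul h)⟩
  · exact absurd rfl h

theorem cterm_finite {s : M → ℂ} (hs : Z.IsSch s) (α : F) :
    (Function.support fun q : Mˣ ⧸ Z.US => Z.cterm s α (q.out : M)).Finite := by
  obtain ⟨T, hT, -⟩ := Z.cS_count α
  refine T.finite_toSet.subset fun q hq => ?_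
  obtain ⟨h1, h2⟩ := Z.cterm_ne_zero hs hq
  exact hT q h1 h2

theorem norm_cS_le {s : M → ℂ} (hs : Z.IsSch s) : ∃ C : ℝ, 0 ≤ C ∧ ∀ α : F,
    ‖Z.cS s α‖ ≤ C * ∏ P ∈ Z.SM, qv P ^ (ov P (algebraMap F M α) + 2 * Z.N + Z.N2).toNat := by
  obtain ⟨C, hC, hsC⟩ := hs.bdd Z
  refine ⟨C, hC, fun α => ?_⟩
  obtain ⟨T, hT, hcard⟩ := Z.cS_count α
  rw [cS_eq, finsum_eq_sum_of_support_subset (s := T)]
  · refine (norm_sum_le _ _).trans ?_
    have h1 : ∀ q ∈ T, ‖Z.cterm s α (q.out : M)‖ ≤ C := by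
      intro q _
      unfold cterm
      split_ifs
      · rw [norm_mul, norm_inv, Z.norm_psi, inv_one, mul_one]; exact hsC _
      · rw [norm_zero]; exact hC
    refine (Finset.sum_le_sum h1).trans ?_
    rw [Finset.sum_const, nsmul_eq_mul, mul_comm]
    exact mul_le_mul_of_nonneg_left hcard hC
  · intro q hq
    obtain ⟨h1, h2⟩ := Z.cterm_ne_zero hs hq
    exact Finset.mem_coe.2 (hT q h1 h2)

/-- `cS` is invariant under multiplication of `α` by elements `≡ 1 mod S^{N1}`. -/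
theorem cS_mul (s : M → ℂ) {a : F} (ha : Z.Near1 a) (ha0 : a ≠ 0) (α : F) :
    Z.cS s (a * α) = Z.cS s α := by
  rw [cS_eq, cS_eq]
  refine finsum_congr fun q => ?_
  unfold cterm
  have : Z.Near1 (a * α / nrm ((q.out : Mˣ) : M)) ↔ Z.Near1 (α / nrm ((q.out : Mˣ) : M)) := by
    rw [mul_div_assoc]; exact ha.mul_iff Z ha0
  by_cases h3 : Z.Near1 (α / nrm ((q.out : Mˣ) : M))
  · rw [if_pos h3, if_pos (this.2 h3)]
  · rw [if_neg h3, if_neg fun h => h3 (this.1 h)]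

/-- multiplication by the `S`-adic character `e_S(b · nrm)` -/
theorem cS_eS {s : M → ℂ} (hs : Z.IsSch s) {b : F} (hb : ∀ w ∈ Z.S, w.valuation F b ≤ 1) (α : F) :
    Z.cS (fun ξ => s ξ * Z.eS (b * nrm ξ)) α = Z.eS (b * α) * Z.cS s α := by
  rw [cS_eq, cS_eq, mul_finsum]
  refine finsum_congr fun q => ?_
  unfold cterm
  split_ifs with h
  · by_cases h0 : s ((q.out : Mˣ) : M) = 0
    · simp only [h0, zero_mul, mul_zero]
    have h1 := hs.supp _ h0
    have hq0 : ((q.out : Mˣ) : M) ≠ 0 := Units.ne_zero _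
    have h2 : Z.eS (b * α) = Z.eS (b * nrm ((q.out : Mˣ) : M)) := by
      refine Z.eS_congr fun w hw => ?_
      have h3 : b * α - b * nrm ((q.out : Mˣ) : M) =
          b * nrm ((q.out : Mˣ) : M) * (α / nrm ((q.out : Mˣ) : M) - 1) := by
        have := nrm_ne_zero (F := F) hq0
        field_simp
      rw [h3, map_mul, map_mul]
      have h4 : w.valuation F (nrm ((q.out : Mˣ) : M)) ≤ exp (2 * Z.N : ℤ) := by
        rw [← neg_neg (2 * Z.N : ℤ), le_exp_iff _ (nrm_ne_zero hq0)]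
        obtain ⟨P, rfl⟩ := SUH.exists_above (F := M) w
        refine Z.ov_pos P (by positivity) ?_
        rw [Z.alg_nrm, ov_mul _ hq0 ((map_ne_zero _).2 hq0), ← Z.ov_cP]
        have h4 := h1 P hw
        have h5 := h1 (Z.cP P) (Z.bad_cP.2 hw)
        rw [← neg_neg (Z.N : ℤ), le_exp_iff _ hq0] at h4 h5
        omega
      calc w.valuation F b * w.valuation F (nrm ((q.out : Mˣ) : M)) *
            w.valuation F (α / nrm ((q.out : Mˣ) : M) - 1)
          ≤ 1 * exp (2 * Z.N : ℤ) * exp (-(Z.N1 : ℤ)) := by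
            exact mul_le_mul' (mul_le_mul' (hb w hw) h4) (h w hw)
        _ ≤ exp (dF F w) := by
            rw [one_mul, ← WithZero.exp_add, WithZero.exp_le_exp]
            have := Z.hN1
            have := dF_apply_nonneg (F := F) w
            omega
    rw [h2]; ring
  · rw [mul_zero]

theorem val_nrm_le {ξ : M} (h1 : ξ ∈ Z.Lam) {w : Pl F} (hw : w ∈ Z.S) :
    w.valuation F (nrm ξ) ≤ exp (2 * Z.N : ℤ) := by
  by_cases hq0 : ξ = 0
  · rw [hq0, nrm_zero, map_zero]; exact zero_le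
  rw [← neg_neg (2 * Z.N : ℤ), le_exp_iff _ (nrm_ne_zero hq0)]
  obtain ⟨P, rfl⟩ := SUH.exists_above (F := M) w
  refine Z.ov_pos P (by positivity) ?_
  rw [Z.alg_nrm, ov_mul _ hq0 ((map_ne_zero _).2 hq0), ← Z.ov_cP]
  have h4 := h1 P hw
  have h5 := h1 (Z.cP P) (Z.bad_cP.2 hw)
  rw [← neg_neg (Z.N : ℤ), le_exp_iff _ hq0] at h4 h5
  omega

end Setup

end Fermat.Agent.LT.I
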