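import Fermat.Agent.LT.I.YCo
import Fermat.Agent.LT.I.CS
import Fermat.Agent.LT.A.Siegel
import Fermat.Agent.LT.H.Lattice

/-!
# LT, piece I: good-part coordinates `(ν, u)` of a point of `Y`, elementary invariance
-/

set_option autoImplicit false
set_option linter.unusedSectionVars false

open NumberField IsDedekindDomain Matrix WithZero Module
open scoped Real nonZeroDivisors

namespace Fermat.Agent.LT.I

open Fermat.LT Fermat.Agent.CFT

section arch

variable {F : Type} [Field F] [NumberField F] (A : Arch F)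

theorem efTr (x : F) : ef x = Complex.exp (((2 * π * LT.H.trC A (embI A x) : ℝ) : ℂ) * Complex.I) := by
  rw [ef, LT.H.trC_embI]
  congr 1
  push_cast
  ring

theorem W_un (α b : F) (P : XI A) : W A α (un b • P) = ef (α * b) * W A α P := by
  have h1 : ef (α * b) = ∏ i, Complex.exp (((4 * π * (A.emb i α * A.emb i b).re : ℝ) : ℂ) * Complex.I) := by
    rw [efTr A, ← Complex.exp_sum]
    congr 1
    rw [← Finset.sum_mul, ← Complex.ofReal_sum]
    congr 2
    rw [LT.H.trC, Finset.mul_sum]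
    refine Finset.sum_congr rfl fun i _ => ?_
    have : embI A (α * b) i = A.emb i α * A.emb i b := map_mul (A.emb i) _ _
    rw [this]; ring
  rw [h1, W, W, ← Finset.prod_mul_distrib]
  refine Finset.prod_congr rfl fun i _ => ?_
  rw [un_smul_z, un_smul_t]
  have h2 : Complex.exp (((4 * π * (A.emb i α * ((P i).z + A.emb i b)).re : ℝ) : ℂ) * Complex.I) =
      Complex.exp (((4 * π * (A.emb i α * A.emb i b).re : ℝ) : ℂ) * Complex.I) *
      Complex.exp (((4 * π * (A.emb i α * (P i).z).re : ℝ) : ℂ) * Complex.I) := by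
    rw [← Complex.exp_add]
    congr 1
    rw [mul_add, Complex.add_re]
    push_cast
    ring
  rw [h2]; ring

theorem W_dg (α : F) (a : Fˣ) (P : XI A) :
    W A α (dg a • P) = ((∏ i, ‖A.emb i a‖ : ℝ) : ℂ) * W A (a * α) P := by
  rw [W, W, Complex.ofReal_prod, ← Finset.prod_mul_distrib]
  refine Finset.prod_congr rfl fun i _ => ?_
  rw [dg_smul_z, dg_smul_t, map_mul, norm_mul]
  have h1 : 4 * π * (‖A.emb i a‖ * (P i).t) * ‖A.emb i α‖ = 4 * π * (P i).t * (‖A.emb i a‖ * ‖A.emb i α‖) := by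
    ring
  have h2 : A.emb i α * (A.emb i a * (P i).z) = A.emb i a * A.emb i α * (P i).z := by ring
  rw [h1, h2]
  push_cast
  ring

theorem prod_norm_sq {x : F} (hx : x ≠ 0) : (∏ i, ‖A.emb i x‖) ^ 2 = absN (dv x) := by
  rw [absN_dv hx, ← Finset.prod_pow]
  exact eq_inv_of_mul_eq_one_left (prod_formula A hx)

theorem prod_norm_pos {x : F} (hx : x ≠ 0) : 0 < ∏ i, ‖A.emb i x‖ :=
  Finset.prod_pos fun _ _ => norm_pos_iff.2 ((map_ne_zero _).2 hx)

theorem prod_norm_eq {x : F} (hx : x ≠ 0) : ∏ i, ‖A.emb i x‖ = √(absN (dv x)) := by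
  rw [← prod_norm_sq A hx, Real.sqrt_sq (prod_norm_pos A hx).le]

end arch

variable {F M : Type} [Field F] [NumberField F] [Field M] [NumberField M] [Algebra F M]
variable (Z : Setup F M)

namespace Setup

/-! ### `Phi` depends only on the class of `u` -/

theorem aψ_ne_zero {m : Dv F} (h : Z.aψ m ≠ 0) : 0 ≤ m := by
  by_contra hc
  exact h (Z.aψ_eq_zero_of_not_nonneg hc)

open Classical in
/-- the Whittaker coefficient with general `S`-part `κ` -/
noncomputable def coefK (κ : F → ℂ) (ν : Dv F) (u : F) (α : F) : ℂ :=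
  ((√(absN ν))⁻¹ : ℝ) * (κ α * Z.aψ (Z.off (dv α) + ν + Z.δ) * ef (-(α * u)))

theorem coef_eq_coefK (s : M → ℂ) (ν : Dv F) (u : F) (α : F) :
    Z.coef s ν u α = Z.coefK (Z.cS s) ν u α := rfl

/-- the Whittaker series with general `S`-part `κ` -/
noncomputable def PhiK (κ : F → ℂ) (ν : Dv F) (u : F) (P : XI Z.A) : ℂ :=
  ∑' α : Fˣ, Z.coefK κ ν u α * W Z.A α P

theorem Phi_eq_PhiK (s : M → ℂ) (ν : Dv F) (u : F) (P : XI Z.A) :
    Z.Phi s ν u P = Z.PhiK (Z.cS s) ν u P := rfl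

/-- admissible `S`-parts of the Whittaker coefficients -/
def IsKap (κ : F → ℂ) : Prop := ∀ α : F, α ≠ 0 → κ α ≠ 0 → ∀ w ∈ Z.S, -(Z.N1 : ℤ) ≤ ov w α

theorem isKap_cS {s : M → ℂ} (hs : Z.IsSch s) : Z.IsKap (Z.cS s) := fun α _ h w hw => by
  have h1 := Z.cS_supp hs h hw
  have h2 := Z.hN1
  omega

theorem IsKap.mul_eS {κ : F → ℂ} (hκ : Z.IsKap κ) (b : F) :
    Z.IsKap fun α => κ α * Z.eS (b * α) := fun α h0 h => hκ α h0 (left_ne_zero_of_mul h)

/-- lower bounds for the valuations of `α` in the support of the Whittaker coefficients -/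
theorem coefK_supp {κ : F → ℂ} (hκ : Z.IsKap κ) {ν : Dv F} {u : F} {α : Fˣ}
    (h : Z.coefK κ ν u α ≠ 0) :
    (∀ w ∈ Z.S, -(Z.N1 : ℤ) ≤ ov w (α : F)) ∧ (∀ w ∉ Z.S, -(ν w) - dF F w ≤ ov w (α : F)) := by
  unfold coefK at h
  have h1 := right_ne_zero_of_mul h
  have h2 := left_ne_zero_of_mul h1
  have hc := left_ne_zero_of_mul h2
  have ha := Z.aψ_ne_zero (right_ne_zero_of_mul h2)
  refine ⟨fun w hw => hκ _ α.ne_zero hc w hw, fun w hw => ?_⟩
  have h3 := ha w
  rw [Finsupp.add_apply, Finsupp.add_apply, Z.off_of_not_mem _ hw, δ, Z.off_of_not_mem _ hw] at h3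
  simp only [Finsupp.coe_zero, Pi.zero_apply, dv_apply] at h3
  omega

theorem coefK_ne_zero {κ : F → ℂ} {ν : Dv F} {u : F} {α : F}
    (h0 : κ α * Z.aψ (Z.off (dv α) + ν + Z.δ) ≠ 0) : Z.coefK κ ν u α ≠ 0 := by
  unfold coefK
  refine mul_ne_zero ?_ (mul_ne_zero h0 (efNe _))
  have := absN_pos ν
  have h3 : (√(absN ν))⁻¹ ≠ 0 := inv_ne_zero (Real.sqrt_pos.2 this).ne'
  exact_mod_cast h3

theorem coefK_congr {κ : F → ℂ} (hκ : Z.IsKap κ) {ν : Dv F} {u u' : F}
    (h1 : ∀ w ∉ Z.S, w.valuation F (u - u') ≤ exp (-(ν w)))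
    (h2 : ∀ w ∈ Z.S, w.valuation F (u - u') ≤ exp (-(Z.N1 : ℤ))) (α : Fˣ) :
    Z.coefK κ ν u α = Z.coefK κ ν u' α := by
  by_cases h0 : κ (α : F) * Z.aψ (Z.off (dv (α : F)) + ν + Z.δ) = 0
  · unfold coefK; rw [h0]; ring
  obtain ⟨h3, h4⟩ := Z.coefK_supp hκ (Z.coefK_ne_zero (u := u) h0)
  unfold coefK
  congr 2
  refine ef_congr fun w => ?_
  have h5 : -((α : F) * u) - -((α : F) * u') = -((α : F) * (u - u')) := by ring
  rw [h5, Valuation.map_neg, map_mul, val_eq w α.ne_zero, Finsupp.neg_apply, neg_neg]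
  by_cases hw : w ∈ Z.S
  · calc _ ≤ exp (-(ov w (α : F))) * exp (-(Z.N1 : ℤ)) := mul_le_mul_right (h2 w hw) _
      _ ≤ _ := by
        rw [← WithZero.exp_add, WithZero.exp_le_exp]
        have := h3 w hw
        have := dF_apply_nonneg (F := F) w
        omega
  · calc _ ≤ exp (-(ov w (α : F))) * exp (-(ν w)) := mul_le_mul_right (h1 w hw) _
      _ ≤ _ := by
        rw [← WithZero.exp_add, WithZero.exp_le_exp]
        have := h4 w hw
        omega

theorem PhiK_congr {κ : F → ℂ} (hκ : Z.IsKap κ) {ν : Dv F} {u u' : F}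
    (h1 : ∀ w ∉ Z.S, w.valuation F (u - u') ≤ exp (-(ν w)))
    (h2 : ∀ w ∈ Z.S, w.valuation F (u - u') ≤ exp (-(Z.N1 : ℤ))) (P : XI Z.A) :
    Z.PhiK κ ν u P = Z.PhiK κ ν u' P := by
  unfold PhiK
  refine tsum_congr fun α => ?_
  rw [Z.coefK_congr hκ h1 h2]

/-! ### coordinates -/

/-- `(ν, u)` are good-part coordinates of `y`. -/
structure Co {U : Level F} (y : Y U) (ν : Dv F) (u : F) : Prop where
  nu : ∀ w ∈ Z.S, ν w = 0
  uS : ∀ w ∈ Z.S, w.valuation F u ≤ exp (-(Z.N1 : ℤ))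
  loc : ∀ w ∉ Z.S, ∃ a : Fˣ, ov w (a : F) = ν w ∧ y w = ((un u * dg a : G2 F) : Yl U w)

/-- the level is prime to the complement of `S` -/
def Good (U : Level F) : Prop := ∀ w ∉ Z.S, U.n w = 0

theorem ov_eq_of_val_eq {w : Pl F} {x y : F} (h : w.valuation F x = w.valuation F y) :
    ov w x = ov w y := by rw [ov, h, ov]

/-- local comparison of coordinates -/
theorem tri_rel (w : Pl F) (u u' : F) (a a' : Fˣ) :
    (un u * dg a)⁻¹ * (un u' * dg a') ∈ stdH w ↔
      ov w (a : F) = ov w (a' : F) ∧ w.valuation F (u' - u) ≤ exp (-(ov w (a : F))) := by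
  have h1 : (un u * dg a)⁻¹ * (un u' * dg a') = un ((u' - u) / a) * dg (a⁻¹ * a') := by
    rw [inv_mul_eq_iff_eq_mul]
    apply G2_ext' <;> simp only [mul00, mul01, mul10, mul11, un00, un01, un10, un11, dg00, dg01,
        dg10, dg11, Units.val_mul, Units.val_inv_eq_inv_val] <;> field_simp <;> ring
  have hd : (un ((u' - u) / a) * dg (a⁻¹ * a')).1.det = ((a⁻¹ * a' : Fˣ) : F) := by
    rw [det_eq]; simp [mul00, mul01, mul10, mul11]
  rw [h1, mem_stdH_iff' w _ hd]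
  simp only [mul00, mul01, mul10, mul11, un00, un01, un10, un11, dg00, dg01, dg10, dg11, mul_one,
    one_mul, mul_zero, zero_mul, add_zero, zero_add, map_one, map_zero]
  have hp : 0 < av w ((a⁻¹ * a' : Fˣ) : F) := (av w).pos (Units.ne_zero _)
  have hav : av w ((a⁻¹ * a' : Fˣ) : F) = 1 ↔ ov w (a : F) = ov w (a' : F) := by
    rw [Units.val_mul, Units.val_inv_eq_inv_val, map_mul, map_inv₀, ← av_eq_av_iff w a.ne_zero a'.ne_zero]
    have h3 : av w (a : F) ≠ 0 := (av w).ne_zero a.ne_zero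
    rw [inv_mul_eq_one₀ h3]
  constructor
  · rintro ⟨h2, h3, -, h4⟩
    have h5 : av w ((a⁻¹ * a' : Fˣ) : F) = 1 := by
      apply le_antisymm
      · rw [sq] at h2
        exact le_of_mul_le_mul_right (by rwa [one_mul]) hp
      · simpa using h4
    refine ⟨hav.1 h5, ?_⟩
    rw [h5, sq_le_one_iff' ((av w).nonneg _), map_div₀, div_le_one₀ ((av w).pos a.ne_zero),
      av_eq_zpow w a.ne_zero, av_le_zpow_iff] at h3
    exact h3
  · rintro ⟨h2, h3⟩
    rw [hav.2 h2]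
    refine ⟨by norm_num, ?_, by norm_num, by norm_num⟩
    rw [sq_le_one_iff' ((av w).nonneg _), map_div₀, div_le_one₀ ((av w).pos a.ne_zero),
      av_eq_zpow w a.ne_zero, av_le_zpow_iff]
    exact h3

theorem mk_eq_mk_iff {U : Level F} {w : Pl F} (hw : U.n w = 0) (g h : G2 F) :
    ((g : G2 F) : Yl U w) = (h : Yl U w) ↔ g⁻¹ * h ∈ stdH w := by
  rw [QuotientGroup.eq, U.H_eq hw]

theorem exists_dv_ov (ν : Pl F → ℤ) (w : Pl F) : ∃ a : Fˣ, ov w (a : F) = ν w := by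
  obtain ⟨d, hd0, hd⟩ := exists_ov_eq {w} ν
  exact ⟨Units.mk0 d hd0, ov_of_val w (hd w (Finset.mem_singleton_self w))⟩

theorem exists_Co {U : Level F} (hU : Z.Good U) (y : Y U) : ∃ ν u, Z.Co y ν u := by
  classical
  have hloc : ∀ w : Pl F, ∃ (u : F) (a : Fˣ), (w ∉ Z.S → y w = ((un u * dg a : G2 F) : Yl U w)) ∧
      (y w = ((1 : G2 F) : Yl U w) → u = 0 ∧ a = 1) ∧ (w ∈ Z.S → a = 1) := by
    intro w
    by_cases hS : w ∈ Z.S
    · exact ⟨0, 1, fun h => absurd hS h, fun _ => ⟨rfl, rfl⟩, fun _ => rfl⟩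
    by_cases h : y w = ((1 : G2 F) : Yl U w)
    · refine ⟨0, 1, fun _ => ?_, fun _ => ⟨rfl, rfl⟩, fun h => absurd h hS⟩
      rw [h, un_zero, dg_one, one_mul]
    · obtain ⟨g, hg⟩ := QuotientGroup.mk_surjective (y w)
      obtain ⟨u, a, hua⟩ := iwasawa w g
      refine ⟨u, a, fun _ => ?_, fun h' => absurd h' h, fun h => absurd h hS⟩
      rw [← hg]
      exact ((mk_eq_mk_iff (hU w hS) _ _).2 hua).symm
  choose u a h1 h2 h3 using hloc
  have hfin : {w : Pl F | ov w (a w : F) ≠ 0}.Finite := by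
    refine y.fin.subset fun w hw h => hw ?_
    rw [(h2 w h).2]; simp
  set ν : Dv F := Finsupp.ofSupportFinite (fun w => ov w (a w : F)) hfin with hν
  have hνw : ∀ w, ν w = ov w (a w : F) := fun w => rfl
  obtain ⟨v, hv1, hv2⟩ := strong_approx (y.fin.toFinset ∪ Z.S)
    (fun w => if w ∈ Z.S then 0 else u w) (fun w => if w ∈ Z.S then (Z.N1 : ℤ) else ν w) 0
  refine ⟨ν, v, ?_, ?_, ?_⟩
  · intro w hw
    rw [hνw, h3 w hw]; simp
  · intro w hw
    have := hv1 w (Finset.mem_union_right _ hw)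
    rwa [if_pos hw, if_pos hw, sub_zero] at this
  · intro w hw
    refine ⟨a w, rfl, ?_⟩
    rw [h1 w hw, mk_eq_mk_iff (hU w hw), tri_rel]
    refine ⟨rfl, ?_⟩
    by_cases h : y w = ((1 : G2 F) : Yl U w)
    · have h4 : w ∉ y.fin.toFinset ∪ Z.S := by
        rw [Finset.mem_union, Set.Finite.mem_toFinset]
        rintro (h5 | h5)
        · exact h5 h
        · exact hw h5
      have h5 := hv2 w h4
      rw [(h2 w h).1, (h2 w h).2, sub_zero]
      simpa using h5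
    · have h4 : w ∈ y.fin.toFinset ∪ Z.S := by
        rw [Finset.mem_union, Set.Finite.mem_toFinset]
        exact Or.inl h
      have h5 := hv1 w h4
      rw [if_neg hw, if_neg hw] at h5
      exact h5

theorem Co.unique {U : Level F} (hU : Z.Good U) {y y' : Y U} (hy : ∀ w ∉ Z.S, y w = y' w)
    {ν ν' : Dv F} {u u' : F} (h : Z.Co y ν u) (h' : Z.Co y' ν' u') :
    ν = ν' ∧ (∀ w ∉ Z.S, w.valuation F (u - u') ≤ exp (-(ν w))) ∧
      (∀ w ∈ Z.S, w.valuation F (u - u') ≤ exp (-(Z.N1 : ℤ))) := by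
  have key : ∀ w ∉ Z.S, ν w = ν' w ∧ w.valuation F (u - u') ≤ exp (-(ν w)) := by
    intro w hw
    obtain ⟨a, ha, hya⟩ := h.loc w hw
    obtain ⟨a', ha', hya'⟩ := h'.loc w hw
    have h1 := hya'.symm.trans ((hy w hw).symm.trans hya)
    rw [mk_eq_mk_iff (hU w hw), tri_rel] at h1
    refine ⟨by rw [← ha, ← ha']; exact h1.1.symm, ?_⟩
    rw [← ha, ← h1.1]; exact h1.2
  refine ⟨?_, fun w hw => (key w hw).2, fun w hw => ?_⟩
  · ext w
    by_cases hw : w ∈ Z.S
    · rw [h.nu w hw, h'.nu w hw]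
    · exact (key w hw).1
  · exact ((w.valuation F).map_sub _ _).trans (max_le (h.uS w hw) (h'.uS w hw))

/-- the function `Φ_κ` on `X` -/
noncomputable def fn {U : Level F} (hU : Z.Good U) (κ : F → ℂ) (P : XI Z.A) (y : Y U) : ℂ :=
  Z.PhiK κ (Z.exists_Co hU y).choose (Z.exists_Co hU y).choose_spec.choose P

theorem fn_eq {U : Level F} (hU : Z.Good U) {κ : F → ℂ} (hκ : Z.IsKap κ) (P : XI Z.A) {y y' : Y U}
    (hy : ∀ w ∉ Z.S, y w = y' w)
    {ν : Dv F} {u : F} (h : Z.Co y' ν u) : Z.fn hU κ P y = Z.PhiK κ ν u P := by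
  have h1 := (Z.exists_Co hU y).choose_spec.choose_spec
  obtain ⟨h2, h3, h4⟩ := Co.unique Z hU hy h1 h
  unfold fn
  rw [Z.PhiK_congr hκ h3 h4, h2]

theorem fn_congr {U : Level F} (hU : Z.Good U) {κ : F → ℂ} (hκ : Z.IsKap κ) (P : XI Z.A) {y y' : Y U}
    (hy : ∀ w ∉ Z.S, y w = y' w) : Z.fn hU κ P y = Z.fn hU κ P y' := by
  have h1 := (Z.exists_Co hU y').choose_spec.choose_spec
  rw [Z.fn_eq hU hκ P hy h1]; rfl

/-- translation of coordinates -/
theorem Co.un {U : Level F} {y : Y U} {ν : Dv F} {u : F} (h : Z.Co y ν u) (hU : Z.Good U) {b b' : F}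
    (h1 : ∀ w ∉ Z.S, w.valuation F (b' - b) ≤ exp (-(ν w)))
    (h2 : ∀ w ∈ Z.S, w.valuation F b' ≤ exp (-(Z.N1 : ℤ))) :
    Z.Co (Fermat.LT.un b • y) ν (u + b') := by
  refine ⟨h.nu, fun w hw => ?_, fun w hw => ?_⟩
  · exact ((w.valuation F).map_add _ _).trans (max_le (h.uS w hw) (h2 w hw))
  · obtain ⟨a, ha, hya⟩ := h.loc w hw
    refine ⟨a, ha, ?_⟩
    rw [G2_smul_apply, hya]
    change ((Fermat.LT.un b * (Fermat.LT.un u * dg a) : G2 F) : Yl U w) = _
    rw [← mul_assoc, ← un_add, mk_eq_mk_iff (hU w hw), tri_rel]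
    refine ⟨rfl, ?_⟩
    have : u + b' - (b + u) = b' - b := by ring
    rw [this, ha]
    exact h1 w hw

theorem Co.dg {U : Level F} {y : Y U} {ν : Dv F} {u : F} (h : Z.Co y ν u) {a : Fˣ}
    (ha : ∀ w ∈ Z.S, w.valuation F (a : F) = 1) :
    Z.Co (Fermat.LT.dg a • y) (ν + dv (a : F)) (a * u) := by
  refine ⟨fun w hw => ?_, fun w hw => ?_, fun w hw => ?_⟩
  · rw [Finsupp.add_apply, h.nu w hw, dv_apply, ov_eq_zero_of_val w (ha w hw)]; rfl
  · rw [map_mul, ha w hw, one_mul]; exact h.uS w hw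
  · obtain ⟨a', ha', hya⟩ := h.loc w hw
    refine ⟨a * a', ?_, ?_⟩
    · rw [Units.val_mul, ov_mul w a.ne_zero a'.ne_zero, ha', Finsupp.add_apply, dv_apply, add_comm]
    · rw [G2_smul_apply, hya]
      change ((Fermat.LT.dg a * (Fermat.LT.un u * Fermat.LT.dg a') : G2 F) : Yl U w) = _
      rw [← mul_assoc, dg_un, mul_assoc, ← dg_mul]

theorem exists_trans (ν : Dv F) (b : F) : ∃ b' : F,
    (∀ w ∉ Z.S, w.valuation F (b' - b) ≤ exp (-(ν w))) ∧
    (∀ w ∈ Z.S, w.valuation F b' ≤ exp (-(Z.N1 : ℤ))) := by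
  classical
  set T : Finset (Pl F) := Z.S ∪ (ov_finite b).toFinset ∪ ν.support with hT
  obtain ⟨v, hv1, hv2⟩ := strong_approx T (fun w => if w ∈ Z.S then 0 else b)
    (fun w => if w ∈ Z.S then (Z.N1 : ℤ) else ν w) 0
  refine ⟨v, fun w hw => ?_, fun w hw => ?_⟩
  · by_cases h : w ∈ T
    · have := hv1 w h
      rwa [if_neg hw, if_neg hw] at this
    · have h1 := hv2 w h
      rw [hT, Finset.mem_union, Finset.mem_union, not_or, not_or, Set.Finite.mem_toFinset] at h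
      obtain ⟨⟨-, h2⟩, h3⟩ := h
      have h4 : ov w b = 0 := by
        by_contra hc; exact h2 hc
      have h5 : w.valuation F b ≤ 1 := by
        by_cases hb : b = 0
        · rw [hb, map_zero]; exact zero_le
        · rw [val_eq w hb, h4]; simp
      rw [Finsupp.notMem_support_iff.1 h3]
      refine ((w.valuation F).map_sub _ _).trans (max_le (by simpa using h1) (by simpa using h5))
  · have := hv1 w (by rw [hT, Finset.mem_union, Finset.mem_union]; exact Or.inl (Or.inl hw))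
    rwa [if_pos hw, if_pos hw, sub_zero] at this

/-- **(1)** translation by `b` -/
theorem fn_un {U : Level F} (hU : Z.Good U) {κ : F → ℂ} (hκ : Z.IsKap κ) (b : F)
    (P : XI Z.A) (y : Y U) :
    Z.fn hU κ (Fermat.LT.un b • P) (Fermat.LT.un b • y) =
      Z.fn hU (fun α => κ α * Z.eS (b * α)) P y := by
  obtain ⟨ν, u, h⟩ := Z.exists_Co hU y
  obtain ⟨b', hb1, hb2⟩ := Z.exists_trans ν b
  rw [Z.fn_eq hU hκ _ (fun _ _ => rfl) (h.un Z hU hb1 hb2),
    Z.fn_eq hU (hκ.mul_eS Z b) _ (fun _ _ => rfl) h]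
  unfold PhiK
  refine tsum_congr fun α => ?_
  rw [W_un]
  by_cases h0 : κ (α : F) * Z.aψ (Z.off (dv (α : F)) + ν + Z.δ) = 0
  · unfold coefK
    have h1 : κ (α : F) * Z.eS (b * α) * Z.aψ (Z.off (dv (α : F)) + ν + Z.δ) = 0 := by
      rw [mul_right_comm, h0, zero_mul]
    rw [h0, h1]; ring
  obtain ⟨h3, h4⟩ := Z.coefK_supp hκ (Z.coefK_ne_zero (u := u) h0)
  unfold coefK
  have h5 : ef (-((α : F) * (u + b'))) * ef ((α : F) * b) = ef (-((α : F) * u)) * Z.eS (b * α) := by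
    have e1 : Z.eS (b * α) = Z.eS ((α : F) * (b - b')) := by
      refine Z.eS_congr fun w hw => ?_
      have : b * (α : F) - α * (b - b') = α * b' := by ring
      rw [this, map_mul, val_eq w α.ne_zero]
      calc _ ≤ exp (-(ov w (α : F))) * exp (-(Z.N1 : ℤ)) := mul_le_mul_right (hb2 w hw) _
        _ ≤ _ := by
          rw [← WithZero.exp_add, WithZero.exp_le_exp]
          have := h3 w hw
          have := dF_apply_nonneg (F := F) w
          omega
    have e2 : Z.eS ((α : F) * (b - b')) = ef ((α : F) * (b - b')) := by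
      refine Z.eS_of_off fun w hw => ?_
      rw [map_mul, val_eq w α.ne_zero, Valuation.map_sub_swap]
      calc _ ≤ exp (-(ov w (α : F))) * exp (-(ν w)) := mul_le_mul_right (hb1 w hw) _
        _ ≤ _ := by
          rw [← WithZero.exp_add, WithZero.exp_le_exp]
          have := h4 w hw
          omega
    rw [e1, e2, ← efAdd, ← efAdd]
    congr 1; ring
  linear_combination (((√(absN ν))⁻¹ : ℝ) : ℂ) * κ (α : F) *
    Z.aψ (Z.off (dv (α : F)) + ν + Z.δ) * W Z.A α P * h5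

/-- **(1')** action of the diagonal matrices with unit entries at `S` -/
theorem fn_dg {U : Level F} (hU : Z.Good U) {κ : F → ℂ} (hκ : Z.IsKap κ)
    {a : Fˣ} (ha : ∀ w ∈ Z.S, w.valuation F (a : F) = 1)
    (hκ' : Z.IsKap fun α => κ ((a : F)⁻¹ * α)) (P : XI Z.A) (y : Y U) :
    Z.fn hU κ (Fermat.LT.dg a • P) (Fermat.LT.dg a • y) =
      Z.fn hU (fun α => κ ((a : F)⁻¹ * α)) P y := by
  obtain ⟨ν, u, h⟩ := Z.exists_Co hU y
  rw [Z.fn_eq hU hκ _ (fun _ _ => rfl) (h.dg Z ha), Z.fn_eq hU hκ' _ (fun _ _ => rfl) h]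
  unfold PhiK
  conv_rhs => rw [← (Equiv.mulLeft a).tsum_eq]
  refine tsum_congr fun α => ?_
  rw [W_dg]
  simp only [Equiv.coe_mulLeft, Units.val_mul]
  have h1 : Z.coefK (fun α => κ ((a : F)⁻¹ * α)) ν u ((a : F) * α) =
      ((∏ i, ‖Z.A.emb i a‖ : ℝ) : ℂ) * Z.coefK κ (ν + dv (a : F)) (a * u) α := by
    unfold coefK
    have e1 : Z.off (dv (α : F)) + (ν + dv (a : F)) + Z.δ = Z.off (dv ((a : F) * α)) + ν + Z.δ := by
      rw [dv_mul a.ne_zero α.ne_zero]
      ext w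
      simp only [Finsupp.add_apply]
      by_cases hw : w ∈ Z.S
      · rw [Z.off_of_mem _ hw, Z.off_of_mem _ hw, dv_apply, ov_eq_zero_of_val w (ha w hw)]; ring
      · rw [Z.off_of_not_mem _ hw, Z.off_of_not_mem _ hw, Finsupp.add_apply]; ring
    simp only [inv_mul_cancel_left₀ a.ne_zero]
    rw [e1, prod_norm_eq Z.A a.ne_zero, absN_add,
      Real.sqrt_mul (absN_pos ν).le, mul_inv]
    have h2 : (√(absN (dv (a : F)))) ≠ 0 := (Real.sqrt_pos.2 (absN_pos _)).ne'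
    have h3 : ((√(absN (dv (a : F))) : ℝ) : ℂ) ≠ 0 := by exact_mod_cast h2
    have e2 : -((α : F) * ((a : F) * u)) = -((a : F) * α * u) := by ring
    rw [e2]
    push_cast
    field_simp
  rw [h1]
  ring

theorem IsKap.comp_mul {κ : F → ℂ} (hκ : Z.IsKap κ) {a : F} (ha0 : a ≠ 0)
    (ha : ∀ w ∈ Z.S, w.valuation F a = 1) : Z.IsKap fun α => κ (a * α) := fun α h0 h w hw => by
  have h1 := hκ (a * α) (mul_ne_zero ha0 h0) h w hw
  rwa [ov_mul w ha0 h0, ov_eq_zero_of_val w (ha w hw), zero_add] at h1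

theorem fn_add {U : Level F} (hU : Z.Good U) {ι : Type*} (T : Finset ι) (κ : ι → F → ℂ)
    (P : XI Z.A) (y : Y U)
    (hs : ∀ i ∈ T, ∀ ν u, Z.Co y ν u → Summable fun α : Fˣ => Z.coefK (κ i) ν u α * W Z.A α P) :
    Z.fn hU (fun α => ∑ i ∈ T, κ i α) P y = ∑ i ∈ T, Z.fn hU (κ i) P y := by
  unfold fn PhiK
  rw [← Summable.tsum_finsetSum]
  · refine tsum_congr fun α => ?_
    unfold coefK
    rw [← Finset.sum_mul]
    congr 1
    simp only [Finset.sum_mul, Finset.mul_sum]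
  · intro i hi
    exact hs i hi _ _ (Z.exists_Co hU y).choose_spec.choose_spec

end Setup

end Fermat.Agent.LT.I
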