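import Fermat.Agent.LT.I.Data

/-!
# LT, piece I: the additive characters, the coefficients `aψ` and `cS`
-/

set_option autoImplicit false
set_option linter.unusedSectionVars false

open NumberField IsDedekindDomain Matrix WithZero Module
open scoped Real nonZeroDivisors

namespace Fermat.Agent.LT.I

open Fermat.LT Fermat.Agent.CFT

section ef

variable {F : Type} [Field F] [NumberField F]

theorem fid_dF : fid (dF F) = ((differentIdeal ℤ (𝓞 F) : Ideal (𝓞 F)) : FractionalIdeal (𝓞 F)⁰ F) :=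
  (exists_fid (F := F) (I := (differentIdeal ℤ (𝓞 F) : Ideal (𝓞 F)))
    (FractionalIdeal.coeIdeal_ne_zero.2 differentIdeal_ne_bot)).choose_spec

theorem dF_nonneg : 0 ≤ dF F := by
  rw [← fid_le_fid, fid_dF, fid_zero]
  exact FractionalIdeal.coeIdeal_le_one

theorem dF_apply_nonneg (w : Pl F) : 0 ≤ dF F w := dF_nonneg w

theorem mem_InL_neg_dF {x : F} :
    x ∈ InL (-dF F) ↔ ∀ y : 𝓞 F, ∃ n : ℤ, Algebra.trace ℚ F (x * y) = n := by
  rw [← mem_fid, fid_neg, fid_dF, coeIdeal_differentIdeal ℤ ℚ F, inv_inv,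
    FractionalIdeal.mem_dual (A := ℤ) (K := ℚ) (one_ne_zero' (FractionalIdeal (𝓞 F)⁰ F))]
  constructor
  · intro h y
    obtain ⟨n, hn⟩ := h (y : F) ((FractionalIdeal.mem_one_iff _).2 ⟨y, rfl⟩)
    refine ⟨n, ?_⟩
    rw [← Algebra.traceForm_apply, ← hn]; rfl
  · intro h a ha
    obtain ⟨y, rfl⟩ := (FractionalIdeal.mem_one_iff _).1 ha
    obtain ⟨n, hn⟩ := h y
    exact ⟨n, by rw [Algebra.traceForm_apply]; exact hn.symm⟩

theorem trace_of_mem {x : F} (hx : x ∈ InL (-dF F)) : ∃ n : ℤ, Algebra.trace ℚ F x = n := by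
  have := mem_InL_neg_dF.1 hx 1
  simpa using this

theorem efAdd (x y : F) : ef (x + y) = ef x * ef y := by
  unfold ef
  rw [← Complex.exp_add, map_add]
  congr 1
  push_cast
  ring

@[simp] theorem efZero : ef (0 : F) = 1 := by simp [ef]

theorem efNeg (x : F) : ef (-x) = (ef x)⁻¹ := by
  have h := efAdd x (-x)
  rw [add_neg_cancel, efZero] at h
  exact eq_inv_of_mul_eq_one_right h.symm

theorem normEf (x : F) : ‖ef x‖ = 1 := by
  have h : 2 * (π : ℂ) * Complex.I * (((Algebra.trace ℚ F x : ℚ) : ℝ) : ℂ) =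
      ((2 * π * ((Algebra.trace ℚ F x : ℚ) : ℝ) : ℝ) : ℂ) * Complex.I := by push_cast; ring
  rw [ef, h, Complex.norm_exp_ofReal_mul_I]

theorem efNe (x : F) : ef x ≠ 0 := by
  rw [← norm_ne_zero_iff, normEf]; exact one_ne_zero

theorem ef_eq_one {x : F} (hx : x ∈ InL (-dF F)) : ef x = 1 := by
  obtain ⟨n, hn⟩ := trace_of_mem hx
  rw [ef, hn]
  have : 2 * (π : ℂ) * Complex.I * ((((n : ℚ) : ℝ)) : ℂ) = (n : ℂ) * (2 * π * Complex.I) := by
    push_cast; ring
  rw [this]
  exact Complex.exp_int_mul_two_pi_mul_I n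

theorem ef_congr {x y : F} (h : x - y ∈ InL (-dF F)) : ef x = ef y := by
  have : x = (x - y) + y := by ring
  rw [this, efAdd, ef_eq_one h, one_mul]

end ef

variable {F M : Type} [Field F] [NumberField F] [Field M] [NumberField M] [Algebra F M]
variable (Z : Setup F M)

namespace Setup

/-! ### the `S`-adic character -/

theorem exists_S (x : F) : ∃ x' : F, (∀ w ∈ Z.S, w.valuation F (x' - x) ≤ exp (dF F w)) ∧
    ∀ w ∉ Z.S, w.valuation F x' ≤ exp (dF F w) := by
  obtain ⟨u, h1, h2⟩ := strong_approx Z.S (fun _ => x) (fun w => -dF F w) (-dF F)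
  refine ⟨u, fun w hw => ?_, fun w hw => ?_⟩
  · simpa using h1 w hw
  · simpa using h2 w hw

/-- the `S`-component of the character `ef` -/
noncomputable def eS (x : F) : ℂ := ef (Z.exists_S x).choose

theorem eS_eq {x x' : F} (h1 : ∀ w ∈ Z.S, w.valuation F (x' - x) ≤ exp (dF F w))
    (h2 : ∀ w ∉ Z.S, w.valuation F x' ≤ exp (dF F w)) : Z.eS x = ef x' := by
  obtain ⟨h3, h4⟩ := (Z.exists_S x).choose_spec
  refine ef_congr fun w => ?_
  rw [Finsupp.neg_apply, neg_neg]
  by_cases hw : w ∈ Z.S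
  · have : (Z.exists_S x).choose - x' = ((Z.exists_S x).choose - x) - (x' - x) := by ring
    rw [this]
    exact ((w.valuation F).map_sub _ _).trans (max_le (h3 w hw) (h1 w hw))
  · exact ((w.valuation F).map_sub _ _).trans (max_le (h4 w hw) (h2 w hw))

theorem eS_add (x y : F) : Z.eS (x + y) = Z.eS x * Z.eS y := by
  obtain ⟨x', h1, h2⟩ := Z.exists_S x
  obtain ⟨y', h3, h4⟩ := Z.exists_S y
  rw [Z.eS_eq h1 h2, Z.eS_eq h3 h4, ← efAdd]
  refine Z.eS_eq (fun w hw => ?_) fun w hw => ?_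
  · have : x' + y' - (x + y) = (x' - x) + (y' - y) := by ring
    rw [this]
    exact ((w.valuation F).map_add _ _).trans (max_le (h1 w hw) (h3 w hw))
  · exact ((w.valuation F).map_add _ _).trans (max_le (h2 w hw) (h4 w hw))

theorem eS_of_S {x : F} (h : ∀ w ∈ Z.S, w.valuation F x ≤ exp (dF F w)) : Z.eS x = 1 := by
  rw [Z.eS_eq (x' := 0) (fun w hw => ?_) fun w hw => ?_, efZero]
  · rw [zero_sub, Valuation.map_neg]; exact h w hw
  · rw [map_zero]; exact zero_le

theorem eS_of_off {x : F} (h : ∀ w ∉ Z.S, w.valuation F x ≤ exp (dF F w)) : Z.eS x = ef x := by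
  refine Z.eS_eq (fun w hw => ?_) h
  rw [sub_self, map_zero]; exact zero_le

@[simp] theorem eS_zero : Z.eS 0 = 1 := Z.eS_of_S fun w _ => by rw [map_zero]; exact zero_le

theorem eS_neg (x : F) : Z.eS (-x) = (Z.eS x)⁻¹ := by
  have h := Z.eS_add x (-x)
  rw [add_neg_cancel, eS_zero] at h
  exact eq_inv_of_mul_eq_one_right h.symm

theorem norm_eS (x : F) : ‖Z.eS x‖ = 1 := normEf _

theorem eS_ne_zero (x : F) : Z.eS x ≠ 0 := efNe _

theorem eS_congr {x y : F} (h : ∀ w ∈ Z.S, w.valuation F (x - y) ≤ exp (dF F w)) :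
    Z.eS x = Z.eS y := by
  have : x = (x - y) + y := by ring
  rw [this, Z.eS_add, Z.eS_of_S h, one_mul]

/-! ### effective divisors of given norm -/

theorem mem_Eff {m : Dv F} {b : Dv M} :
    b ∈ Z.Eff m ↔ 0 ≤ b ∧ (∀ P, Z.Bad P → b P = 0) ∧ Z.Nm b = m := Iff.rfl

theorem Eff_le {m : Dv F} {b : Dv M} (hb : b ∈ Z.Eff m) (P : Pl M) :
    b P ≤ m (SUH.below F P) := by
  obtain ⟨h0, -, rfl⟩ := hb
  rw [Quad.Nm_below]
  have := h0 (Z.cP P)
  simpa using this

theorem Eff_nonneg {m : Dv F} {b : Dv M} (hb : b ∈ Z.Eff m) : 0 ≤ m := by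
  intro w
  obtain ⟨h0, -, rfl⟩ := hb
  obtain ⟨P, rfl⟩ := SUH.exists_above (F := M) w
  rw [Quad.Nm_below]
  exact add_nonneg (h0 P) (h0 _)

theorem aψ_eq_zero_of_not_nonneg {m : Dv F} (h : ¬ 0 ≤ m) : Z.aψ m = 0 := by
  have : IsEmpty (Z.Eff m) := ⟨fun b => h (Z.Eff_nonneg b.2)⟩
  unfold aψ
  exact finsum_of_isEmpty _

theorem Eff_injOn (m : Dv F) : Set.InjOn (fun b : Dv M => fun w : Pl F => b (up M w)) (Z.Eff m) := by
  intro b hb b' hb' h
  have h1 : ∀ w : Pl F, b (up M w) = b' (up M w) := fun w => congrFun h w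
  have h2 : Z.Nm b = Z.Nm b' := hb.2.2.trans hb'.2.2.symm
  ext P
  rcases Z.eq_or_eq_cP (P := P) (P' := up M (SUH.below F P)) (by simp) with h3 | h3
  · rw [← h3]; exact h1 _
  · have h4 := DFunLike.congr_fun h2 (SUH.below F P)
    rw [Quad.Nm_below, Quad.Nm_below] at h4
    have h5 := h1 (SUH.below F P)
    rw [h3] at h5
    omega

/-- The number of effective divisors of norm `m` is at most `absN m`. -/
theorem Eff_card (m : Dv F) : (Z.Eff m).Finite ∧ ((Z.Eff m).ncard : ℝ) ≤ absN m := by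
  classical
  by_cases hm : 0 ≤ m
  swap
  · have : Z.Eff m = ∅ := by
      rw [Set.eq_empty_iff_forall_notMem]
      exact fun b hb => hm (Z.Eff_nonneg hb)
    rw [this]
    refine ⟨Set.finite_empty, ?_⟩
    rw [Set.ncard_empty, Nat.cast_zero]
    exact (absN_pos m).le
  let f : Z.Eff m → (w : m.support) → Fin ((m w).toNat + 1) := fun b w =>
    ⟨(b.1 (up M w.1)).toNat, by
      have h1 := Z.Eff_le b.2 (up M w.1)
      rw [below_up] at h1
      have := b.2.1 (up M w.1)
      simp only [Finsupp.coe_zero, Pi.zero_apply] at this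
      omega⟩
  have hf : Function.Injective f := by
    intro b b' h
    apply Subtype.ext
    apply Z.Eff_injOn m b.2 b'.2
    funext w
    have h0 := b.2.1 (up M w)
    have h0' := b'.2.1 (up M w)
    simp only [Finsupp.coe_zero, Pi.zero_apply] at h0 h0'
    by_cases hw : w ∈ m.support
    · have h1 := congrArg Fin.val (congrFun h ⟨w, hw⟩)
      simp only [f] at h1
      show b.1 (up M w) = b'.1 (up M w)
      omega
    · have h1 := Z.Eff_le b.2 (up M w)
      have h2 := Z.Eff_le b'.2 (up M w)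
      rw [below_up, Finsupp.notMem_support_iff.1 hw] at h1 h2
      show b.1 (up M w) = b'.1 (up M w)
      omega
  have hfin : Finite (Z.Eff m) := Finite.of_injective f hf
  refine ⟨hfin, ?_⟩
  have h1 : Nat.card (Z.Eff m) ≤ Nat.card ((w : m.support) → Fin ((m w).toNat + 1)) :=
    Nat.card_le_card_of_injective f hf
  rw [Nat.card_pi] at h1
  simp only [Nat.card_eq_fintype_card, Fintype.card_fin] at h1
  have h2 : ((∏ w : m.support, ((m w).toNat + 1) : ℕ) : ℝ) ≤ absN m := by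
    rw [absN, Finsupp.prod, Nat.cast_prod, Finset.prod_coe_sort m.support
      (fun w => (((m w).toNat + 1 : ℕ) : ℝ))]
    refine Finset.prod_le_prod (fun w _ => by positivity) fun w _ => ?_
    have h3 : ((m w).toNat : ℤ) = m w := Int.toNat_of_nonneg (hm w)
    have h4 : (2 : ℝ) ≤ qv w := by
      rw [qv]
      have := NumberField.HeightOneSpectrum.one_lt_absNorm_nnreal w
      have h5 : 1 < Ideal.absNorm w.asIdeal := NumberField.HeightOneSpectrum.one_lt_absNorm w
      exact_mod_cast h5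
    calc (((m w).toNat + 1 : ℕ) : ℝ) ≤ 2 ^ (m w).toNat := by
          have h6 : (m w).toNat + 1 ≤ 2 ^ (m w).toNat := Nat.lt_two_pow_self
          exact_mod_cast h6
      _ ≤ qv w ^ (m w).toNat := pow_le_pow_left₀ (by norm_num) h4 _
      _ = qv w ^ (m w) := by rw [← zpow_natCast, h3]
  refine le_trans ?_ h2
  rw [Nat.card_coe_set_eq] at h1
  exact_mod_cast h1

theorem norm_aψ_le (m : Dv F) : ‖Z.aψ m‖ ≤ absN m := by
  classical
  obtain ⟨h1, h2⟩ := Z.Eff_card m
  have : Fintype (Z.Eff m) := h1.fintype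
  unfold aψ
  rw [finsum_eq_sum_of_fintype]
  refine (norm_sum_le _ _).trans ?_
  simp only [Z.norm_psi, Finset.sum_const, nsmul_eq_mul, mul_one, Finset.card_univ]
  rw [← Nat.card_eq_fintype_card, Nat.card_coe_set_eq]
  exact h2

end Setup

end Fermat.Agent.LT.I
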