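import Fermat.Agent.LT.I.CS

/-!
# LT, piece I: pull back of divisors, and the Fourier transform at `S`
-/

set_option autoImplicit false
set_option linter.unusedSectionVars false

open NumberField IsDedekindDomain Matrix WithZero Module
open scoped Real nonZeroDivisors

namespace Fermat.Agent.LT.I

open Fermat.LT Fermat.Agent.CFT

variable {F M : Type} [Field F] [NumberField F] [Field M] [NumberField M] [Algebra F M]

/-- pull back of divisors (the conorm, at unramified places) -/
noncomputable def con (M : Type) [Field M] [NumberField M] [Algebra F M] : Dv F →+ Dv M where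
  toFun l := Finsupp.ofSupportFinite (fun P => l (SUH.below F P)) (by
    have h : {P : Pl M | l (SUH.below F P) ≠ 0} = SUH.above M (l.support : Set (Pl F)) := by
      ext P
      simp [SUH.above]
    change {P : Pl M | l (SUH.below F P) ≠ 0}.Finite
    rw [h]
    exact SUH.finite_above (F := M) l.support.finite_toSet)
  map_zero' := by ext w; rfl
  map_add' l l' := by
    ext w
    simp only [Finsupp.ofSupportFinite_coe, Finsupp.add_apply]

@[simp] theorem con_apply (l : Dv F) (P : Pl M) : con M l P = l (SUH.below F P) := rfl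

theorem Quad.Nm_apply (Q : Quad F M) (l : Dv M) (w : Pl F) :
    Q.Nm l w = l (up M w) + l (Q.cP (up M w)) := rfl

theorem Quad.Nm_con (Q : Quad F M) (l : Dv F) : Q.Nm (con M l) = l + l := by
  ext w
  rw [Q.Nm_apply, con_apply, con_apply, Q.below_cP, below_up, Finsupp.add_apply]

namespace Setup

variable (Z : Setup F M)

theorem off_add (l l' : Dv F) : Z.off (l + l') = Z.off l + Z.off l' := by
  ext w
  by_cases hw : w ∈ Z.S
  · simp [Z.off_of_mem _ hw]
  · simp [Z.off_of_not_mem _ hw]

theorem off_neg (l : Dv F) : Z.off (-l) = -Z.off l := by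
  ext w
  by_cases hw : w ∈ Z.S
  · simp [Z.off_of_mem _ hw]
  · simp [Z.off_of_not_mem _ hw]

theorem off_eq_self {l : Dv F} (h : ∀ w ∈ Z.S, l w = 0) : Z.off l = l := by
  ext w
  by_cases hw : w ∈ Z.S
  · rw [Z.off_of_mem _ hw, h w hw]
  · rw [Z.off_of_not_mem _ hw]

theorem psi_con_single (w : Pl F) (hw : w ∉ Z.S) (n : ℤ) :
    Z.psi (con M (Finsupp.single w n)) = (Z.chi w : ℂ) ^ n := by
  classical
  have hb : SUH.below F (up M w) ∉ Z.S := by rw [below_up]; exact hw
  by_cases h : Z.cP (up M w) = up M w
  · have h1 : con M (Finsupp.single w n) = Finsupp.single (up M w) n := by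
      ext P
      rw [con_apply, Finsupp.single_apply, Finsupp.single_apply]
      by_cases hP : up M w = P
      · rw [if_pos hP, if_pos (by rw [← hP, below_up])]
      · rw [if_neg hP, if_neg]
        intro h2
        rcases Z.eq_or_eq_cP (P := up M w) (P' := P) (by rw [below_up]; exact h2) with h3 | h3
        · exact hP h3.symm
        · exact hP (by rw [h3, h])
    rw [h1, Z.psi_single, Z.ψ_inert _ hb h]
    have h2 : Z.chi w = -1 := by
      have h' : Z.Inert w := h
      unfold Quad.chi; rw [if_pos h']
    rw [h2]; simp
  · have h1 : con M (Finsupp.single w n) = Finsupp.single (up M w) n + Finsupp.single (Z.cP (up M w)) n := by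
      ext P
      rw [con_apply, Finsupp.add_apply, Finsupp.single_apply, Finsupp.single_apply, Finsupp.single_apply]
      by_cases h2 : w = SUH.below F P
      · rw [if_pos h2]
        rcases Z.eq_or_eq_cP (P := up M w) (P' := P) (by rw [below_up]; exact h2) with h3 | h3
        · rw [if_pos h3.symm, if_neg (by rw [h3]; exact h), add_zero]
        · rw [if_neg (by rw [h3]; exact fun h4 => h h4.symm), if_pos h3.symm, zero_add]
      · rw [if_neg h2, if_neg, if_neg, add_zero]
        · rintro rfl
          apply h2; rw [Z.below_cP, below_up]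
        · rintro rfl
          apply h2; rw [below_up]
    rw [h1, Z.psi_add, Z.psi_single, Z.psi_single, ← mul_zpow, ← Units.val_mul, Z.ψ_cP _ hb]
    have h2 : Z.chi w = 1 := by
      have h' : ¬ Z.Inert w := h
      unfold Quad.chi; rw [if_neg h']
    rw [h2]; simp

/-- `ψ` of a conorm is a sign -/
theorem psi_con_sq (l : Dv F) (hl : ∀ w ∈ Z.S, l w = 0) : Z.psi (con M l) * Z.psi (con M l) = 1 := by
  classical
  have key : ∀ (l : Dv F), (∀ w ∈ Z.S, l w = 0) → Z.psi (con M (l + l)) = 1 := by
    intro l
    induction l using Finsupp.induction with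
    | zero => intro _; simp
    | single_add w n l hwl hn ih =>
      intro hl
      have hw : w ∉ Z.S := by
        intro hw
        have h1 := hl w hw
        rw [Finsupp.add_apply, Finsupp.single_eq_same, Finsupp.notMem_support_iff.1 hwl, add_zero] at h1
        exact hn h1
      have hl' : ∀ v ∈ Z.S, l v = 0 := by
        intro v hv
        have h1 := hl v hv
        rwa [Finsupp.add_apply, Finsupp.single_eq_of_ne (by rintro rfl; exact hw hv), zero_add] at h1
      have h2 : Finsupp.single w n + l + (Finsupp.single w n + l) =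
          (Finsupp.single w n + Finsupp.single w n) + (l + l) := by abel
      rw [h2, map_add, Z.psi_add, ih hl', mul_one, map_add, Z.psi_add, Z.psi_con_single w hw,
        ← mul_zpow]
      have h3 : ((Z.chi w : ℤ) : ℂ) * (Z.chi w : ℂ) = 1 := by
        unfold Quad.chi; split_ifs <;> simp
      rw [h3, _root_.one_zpow]
  rw [← Z.psi_add, ← map_add]
  exact key l hl

theorem psi_con_neg (l : Dv F) (hl : ∀ w ∈ Z.S, l w = 0) : Z.psi (con M (-l)) = Z.psi (con M l) := by
  rw [map_neg, Z.psi_neg]
  exact (eq_inv_of_mul_eq_one_left (Z.psi_con_sq l hl)).symm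

/-- `ψ ∘ con ∘ Nm = 1` outside `S` -/
theorem psi_con_Nm (l : Dv M) (hl : ∀ P, Z.Bad P → l P = 0) : Z.psi (con M (Z.Nm l)) = 1 := by
  classical
  have key : ∀ (l : Dv M), (∀ P, Z.Bad P → l P = 0) → Z.psi (con M (Z.Nm l)) = 1 := by
    intro l
    induction l using Finsupp.induction with
    | zero => intro _; simp
    | single_add P n l hPl hn ih =>
      intro hl
      have hP : ¬ Z.Bad P := by
        intro hP
        have h1 := hl P hP
        rw [Finsupp.add_apply, Finsupp.single_eq_same, Finsupp.notMem_support_iff.1 hPl, add_zero] at h1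
        exact hn h1
      have hl' : ∀ P', Z.Bad P' → l P' = 0 := by
        intro v hv
        have h1 := hl v hv
        rwa [Finsupp.add_apply, Finsupp.single_eq_of_ne (by rintro rfl; exact hP hv), zero_add] at h1
      rw [map_add, map_add, Z.psi_add, ih hl', mul_one]
      have h1 : con M (Z.Nm (Finsupp.single P n)) = Finsupp.single P n + Finsupp.single (Z.cP P) n := by
        ext P'
        rw [con_apply, Quad.Nm_below, Finsupp.add_apply]
        congr 1
        rw [Finsupp.single_apply, Finsupp.single_apply]
        have : P = Z.cP P' ↔ Z.cP P = P' := by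
          constructor
          · intro h; rw [h, Z.cP_cP]
          · intro h; rw [← h, Z.cP_cP]
        by_cases h2 : P = Z.cP P'
        · rw [if_pos h2, if_pos (this.1 h2)]
        · rw [if_neg h2, if_neg fun h => h2 (this.2 h)]
      rw [h1, Z.psi_add, Z.psi_single, Z.psi_single, ← mul_zpow, ← Units.val_mul, Z.ψ_cP _ hP]
      simp
  exact key l hl

/-! ### The Fourier transform at `S` -/

/-- the trace `M → F` of `ξ · c η` -/
noncomputable def BF (ξ η : M) : F := Algebra.trace F M (ξ * Z.c η)

open Classical in
/-- the Fourier transform at `S` (not normalised) -/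
noncomputable def FT (s : M → ℂ) (η : M) : ℂ :=
  if η ∈ Z.Lam then
    ∑ᶠ q : Z.Lam ⧸ Z.LamD.addSubgroupOf Z.Lam, s ((q.out : Z.Lam) : M) *
      Z.eS (Z.BF ((q.out : Z.Lam) : M) η)
  else 0

end Setup

end Fermat.Agent.LT.I
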