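import Fermat.Agent.LT.I.Gauss

/-!
# Torus integrals of the theta Gaussian: the Bessel function `K₀`
-/

set_option autoImplicit false

open MeasureTheory Complex Set
open scoped Real ComplexConjugate

namespace Fermat.Agent.LT.I

/-- `∫_0^∞ exp (- x cosh u) du` (the Bessel function `K₀ (x)`). -/
noncomputable def kz (x : ℝ) : ℝ := ∫ u in Ioi (0:ℝ), Real.exp (-(x * Real.cosh u))

theorem kz_nonneg (x : ℝ) : 0 ≤ kz x := setIntegral_nonneg measurableSet_Ioi fun _ _ => (Real.exp_pos _).le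

theorem one_add_sq_div_four_le_cosh (u : ℝ) : 1 + u ^ 2 / 4 ≤ Real.cosh u := by
  rw [← Real.cosh_abs, Real.cosh_eq]
  have h1 := Real.quadratic_le_exp_of_nonneg (abs_nonneg u)
  have h2 := Real.add_one_le_exp (-|u|)
  rw [sq_abs] at h1
  linarith

theorem integrable_exp_neg_cosh {x : ℝ} (hx : 0 < x) :
    Integrable fun u : ℝ => Real.exp (-(x * Real.cosh u)) := by
  have h1 : Integrable fun u : ℝ => Real.exp (-(x/4) * u ^ 2) :=
    integrable_exp_neg_mul_sq (by positivity)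
  refine h1.mono' (by fun_prop) (Filter.Eventually.of_forall fun u => ?_)
  rw [Real.norm_eq_abs, abs_of_pos (Real.exp_pos _), Real.exp_le_exp]
  have h2 := one_add_sq_div_four_le_cosh u
  nlinarith

theorem integral_exp_neg_cosh (x : ℝ) :
    ∫ u : ℝ, Real.exp (-(x * Real.cosh u)) = 2 * kz x := by
  have h := integral_comp_abs (f := fun u : ℝ => Real.exp (-(x * Real.cosh u)))
  simp only [Real.cosh_abs] at h
  exact h

/-- substitution in the torus integral -/
theorem aux_cosh {A B : ℝ} (hA : 0 < A) (hB : 0 < B) (s : ℝ) :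
    A * Real.exp (s + Real.log (B / A) / 2) + B / Real.exp (s + Real.log (B / A) / 2) =
      2 * √(A * B) * Real.cosh s := by
  have h1 : Real.exp (Real.log (B / A) / 2) = √(B / A) := by
    rw [← Real.log_sqrt (by positivity), Real.exp_log (by positivity)]
  rw [Real.exp_add, h1, Real.cosh_eq, Real.exp_neg]
  have h2 : A * √(B / A) = √(A * B) := by
    rw [Real.sqrt_div hB.le, Real.sqrt_mul hA.le]
    have := Real.mul_self_sqrt hA.le
    have h3 : √A ≠ 0 := (Real.sqrt_pos.mpr hA).ne'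
    field_simp
    rw [sq]
    nlinarith [Real.mul_self_sqrt hA.le]
  have h3 : B / √(B / A) = √(A * B) := by
    rw [← h2, div_eq_iff (by positivity), mul_assoc, Real.mul_self_sqrt (by positivity)]
    field_simp
  have h4 : B / (Real.exp s * √(B / A)) = √(A * B) / Real.exp s := by
    rw [← h3]; field_simp
  rw [h4, ← h2]
  have := (Real.exp_pos s).ne'
  field_simp

/-- The torus integral in one variable. -/
theorem integral_torus {A B : ℝ} (hA : 0 < A) (hB : 0 < B) :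
    ∫ s : ℝ, Real.exp (-(A * Real.exp s + B / Real.exp s)) = 2 * kz (2 * √(A * B)) := by
  rw [← integral_exp_neg_cosh, ← integral_add_right_eq_self _ (Real.log (B / A) / 2)]
  congr 1
  funext s
  rw [aux_cosh hA hB]

theorem integrable_torus {A B : ℝ} (hA : 0 < A) (hB : 0 < B) :
    Integrable fun s : ℝ => Real.exp (-(A * Real.exp s + B / Real.exp s)) := by
  have h : Integrable fun s : ℝ => Real.exp (-(2 * √(A * B) * Real.cosh s)) :=
    integrable_exp_neg_cosh (by positivity)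
  have h2 := h.comp_sub_right (Real.log (B / A) / 2)
  refine h2.congr (Filter.Eventually.of_forall fun s => ?_)
  simp only
  rw [← aux_cosh hA hB, sub_add_cancel]

/-- The character `exp (4 π i Re (z v₁ v₂))`. -/
noncomputable def chz (z : ℂ) (v : ℂ × ℂ) : ℂ := cexp (((4 * π * (z * v.1 * v.2).re : ℝ) : ℂ) * I)

theorem norm_chz (z : ℂ) (v : ℂ × ℂ) : ‖chz z v‖ = 1 := by
  unfold chz; rw [Complex.norm_exp_ofReal_mul_I]

theorem gs_exp (z : ℂ) (t s : ℝ) (v : ℂ × ℂ) :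
    gs z t (Real.exp s) v = chz z v * ((Real.exp (-(2 * π * t * ‖v.1‖ ^ 2 * Real.exp s +
      2 * π * t * ‖v.2‖ ^ 2 / Real.exp s)) : ℝ) : ℂ) := by
  unfold gs chz
  rw [Complex.ofReal_exp, ← Complex.exp_add, add_comm]
  congr 1
  congr 1
  push_cast
  ring

theorem integrable_gs_exp (z : ℂ) {t : ℝ} (ht : 0 < t) {v : ℂ × ℂ} (h1 : v.1 ≠ 0) (h2 : v.2 ≠ 0) :
    Integrable fun s : ℝ => gs z t (Real.exp s) v := by
  have h3 : 0 < ‖v.1‖ := norm_pos_iff.mpr h1
  have h4 : 0 < ‖v.2‖ := norm_pos_iff.mpr h2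
  simp_rw [gs_exp]
  exact (integrable_torus (A := 2 * π * t * ‖v.1‖ ^ 2) (B := 2 * π * t * ‖v.2‖ ^ 2)
    (by positivity) (by positivity)).ofReal.const_mul _

theorem integral_gs_exp (z : ℂ) {t : ℝ} (ht : 0 < t) {v : ℂ × ℂ} (h1 : v.1 ≠ 0) (h2 : v.2 ≠ 0) :
    ∫ s : ℝ, gs z t (Real.exp s) v =
      chz z v * ((2 * kz (4 * π * t * ‖v.1 * v.2‖) : ℝ) : ℂ) := by
  have h3 : 0 < ‖v.1‖ := norm_pos_iff.mpr h1
  have h4 : 0 < ‖v.2‖ := norm_pos_iff.mpr h2
  simp_rw [gs_exp]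
  rw [integral_const_mul]
  congr 1
  have h5 : 2 * π * t * ‖v.1‖ ^ 2 * (2 * π * t * ‖v.2‖ ^ 2) =
      (2 * π * t * (‖v.1‖ * ‖v.2‖)) ^ 2 := by ring
  rw [integral_complex_ofReal, integral_torus (by positivity) (by positivity), h5,
    Real.sqrt_sq (by positivity), norm_mul]
  congr 3
  ring

section pi

variable {ι : Type*} [Fintype ι]

/-- The product of the archimedean Gaussians. -/
noncomputable def gsI (z : ι → ℂ) (t k : ι → ℝ) (v : ι → ℂ × ℂ) : ℂ := ∏ i, gs (z i) (t i) (k i) (v i)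

theorem integrable_gsI (z : ι → ℂ) {t : ι → ℝ} (ht : ∀ i, 0 < t i) {v : ι → ℂ × ℂ}
    (h1 : ∀ i, (v i).1 ≠ 0) (h2 : ∀ i, (v i).2 ≠ 0) :
    Integrable fun s : ι → ℝ => gsI z t (fun i => Real.exp (s i)) v :=
  Integrable.fintype_prod (f := fun i (s : ℝ) => gs (z i) (t i) (Real.exp s) (v i))
    fun i => integrable_gs_exp (z i) (ht i) (h1 i) (h2 i)

theorem integral_gsI (z : ι → ℂ) {t : ι → ℝ} (ht : ∀ i, 0 < t i) {v : ι → ℂ × ℂ}
    (h1 : ∀ i, (v i).1 ≠ 0) (h2 : ∀ i, (v i).2 ≠ 0) :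
    ∫ s : ι → ℝ, gsI z t (fun i => Real.exp (s i)) v =
      ∏ i, (chz (z i) (v i) * ((2 * kz (4 * π * t i * ‖(v i).1 * (v i).2‖) : ℝ) : ℂ)) := by
  unfold gsI
  rw [integral_fintype_prod_volume_eq_prod (fun i (s : ℝ) => gs (z i) (t i) (Real.exp s) (v i))]
  exact Finset.prod_congr rfl fun i _ => integral_gs_exp (z i) (ht i) (h1 i) (h2 i)

theorem norm_gsI (z : ι → ℂ) (t k : ι → ℝ) (v : ι → ℂ × ℂ) :
    ‖gsI z t k v‖ = Real.exp (-(∑ i, 2 * π * t i * (k i * ‖(v i).1‖ ^ 2 + ‖(v i).2‖ ^ 2 / k i))) := by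
  unfold gsI
  rw [norm_prod, Finset.prod_congr rfl fun i _ => norm_gs (z i) (t i) (k i) (v i),
    ← Real.exp_sum, Finset.sum_neg_distrib]

end pi

end Fermat.Agent.LT.I
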