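import Fermat.Agent.LT.I.Approx
import Fermat.Agent.LT.I.K0Int

/-!
# LT, piece I: the data of the construction and the Whittaker series `Φ[s]`

* `Setup F M`: quadratic extension `M/F`, bad places `S`, Hecke character `ψ` of `M`, depth
  parameters `N ≪ N1 ≪ N2`.
* `IsSch s`: the `S`-adic Schwartz functions `s : M → ℂ` used.
* `aψ m = ∑ ψ(𝔅)` over effective divisors `𝔅` of `M` outside `S` of norm `m`.
* `cS s α`: sum of `s ξ · ψ(dv ξ)⁻¹` over `ξ ∈ Mˣ/U` with `α ≡ nrm ξ`.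
* `Phi s ν u P = ∑ coef s ν u α * W α P`.
-/

set_option autoImplicit false
set_option linter.unusedSectionVars false

open NumberField IsDedekindDomain Matrix WithZero Module
open scoped Real

namespace Fermat.Agent.LT.I

open Fermat.LT Fermat.Agent.CFT

section general

variable {F : Type} [Field F] [NumberField F]

/-- the additive character `e(Tr x)` -/
noncomputable def ef (x : F) : ℂ :=
  Complex.exp (2 * π * Complex.I * (((Algebra.trace ℚ F x : ℚ) : ℝ) : ℂ))

/-- the divisor of the different of `F / ℚ` -/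
noncomputable def dF (F : Type) [Field F] [NumberField F] : Dv F :=
  (exists_fid (F := F) (I := (differentIdeal ℤ (𝓞 F) : Ideal (𝓞 F)))
    (FractionalIdeal.coeIdeal_ne_zero.2 differentIdeal_ne_bot)).choose

/-- the Whittaker function of parameter `0` -/
noncomputable def W (A : Arch F) (α : F) (P : XI A) : ℂ :=
  ∏ i, (((P i).t * kz (4 * π * (P i).t * ‖A.emb i α‖) : ℝ) : ℂ) *
    Complex.exp (((4 * π * (A.emb i α * (P i).z).re : ℝ) : ℂ) * Complex.I)

end general

variable (F M : Type) [Field F] [NumberField F] [Field M] [NumberField M] [Algebra F M]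

/-- The data of the construction. -/
structure Setup extends Quad F M where
  /-- bad places of `F` -/
  S : Finset (Pl F)
  unr : ∀ w, w ∉ S → Unr M w
  /-- the Hecke character -/
  ψ : Pl M → ℂˣ
  ψ_S : ∀ P, SUH.below F P ∈ S → ψ P = 1
  ψ_four : ∀ P, ψ P ^ 4 = 1
  ψ_cP : ∀ P, SUH.below F P ∉ S → ψ P * ψ (toQuad.cP P) = 1
  ψ_inert : ∀ P, SUH.below F P ∉ S → toQuad.cP P = P → ψ P = -1
  ψ_sq : ∃ P, SUH.below F P ∉ S ∧ ψ P ^ 2 = -1
  /-- conductor exponent of `ψ` -/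
  e0 : ℕ
  ψ_dv : ∀ x : Mˣ, (∀ P : Pl M, SUH.below F P ∈ S → P.valuation M ((x : M) - 1) ≤ exp (-(e0 : ℤ))) →
    ((dv (x : M)).prod fun P n => ψ P ^ n) = 1
  /-- depth of the Schwartz functions -/
  N : ℕ
  dM_le : ∀ P : Pl M, SUH.below F P ∈ S → dF M P ≤ N
  /-- depth of the congruence `α ≡ nrm ξ` -/
  N1 : ℕ
  hN1 : 2 * N + 1 ≤ N1
  /-- depth of the group of multipliers -/
  N2 : ℕ
  hN2 : 2 * N1 ≤ N2
  he0 : e0 ≤ N2

variable {F M}
variable (Z : Setup F M)

namespace Setup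

/-- The value of `ψ` on a divisor. -/
noncomputable def psi (l : Dv M) : ℂ := ((l.prod fun P n => Z.ψ P ^ n : ℂˣ) : ℂ)

theorem psi_add (l l' : Dv M) : Z.psi (l + l') = Z.psi l * Z.psi l' := by
  unfold psi
  rw [← Units.val_mul]
  congr 1
  exact Finsupp.prod_add_index' (fun w => by simp) (fun w a b => zpow_add _ _ _)

@[simp] theorem psi_zero : Z.psi 0 = 1 := by
  unfold psi; rw [Finsupp.prod_zero_index]; rfl

theorem psi_ne_zero (l : Dv M) : Z.psi l ≠ 0 := Units.ne_zero _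

theorem psi_neg (l : Dv M) : Z.psi (-l) = (Z.psi l)⁻¹ := by
  have h := Z.psi_add l (-l)
  rw [add_neg_cancel, psi_zero] at h
  exact eq_inv_of_mul_eq_one_right h.symm

theorem psi_single (P : Pl M) (n : ℤ) : Z.psi (Finsupp.single P n) = ((Z.ψ P : ℂˣ) : ℂ) ^ n := by
  unfold psi
  rw [Finsupp.prod_single_index (by simp)]
  simp

theorem norm_ψ (P : Pl M) : ‖((Z.ψ P : ℂˣ) : ℂ)‖ = 1 := by
  have h := congrArg (fun x : ℂˣ => ‖(x : ℂ)‖) (Z.ψ_four P)
  simp only [Units.val_pow_eq_pow_val, norm_pow, Units.val_one, norm_one] at h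
  exact (pow_eq_one_iff_of_nonneg (norm_nonneg _) (by norm_num)).1 h

theorem norm_psi (l : Dv M) : ‖Z.psi l‖ = 1 := by
  unfold psi Finsupp.prod
  rw [Units.coe_prod, norm_prod]
  refine Finset.prod_eq_one fun P _ => ?_
  rw [Units.val_zpow_eq_zpow_val, norm_zpow, Z.norm_ψ, _root_.one_zpow]

/-- `P` lies over a bad place -/
def Bad (P : Pl M) : Prop := SUH.below F P ∈ Z.S

/-- the part of a divisor of `F` outside `S` -/
noncomputable def off (l : Dv F) : Dv F := by
  classical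
  exact l.filter fun w => w ∉ Z.S

open Classical in
theorem off_apply (l : Dv F) (w : Pl F) : Z.off l w = if w ∈ Z.S then 0 else l w := by
  unfold off
  rw [Finsupp.filter_apply]
  by_cases h : w ∈ Z.S <;> simp [h]

theorem off_of_mem (l : Dv F) {w : Pl F} (h : w ∈ Z.S) : Z.off l w = 0 := by
  rw [off_apply, if_pos h]

theorem off_of_not_mem (l : Dv F) {w : Pl F} (h : w ∉ Z.S) : Z.off l w = l w := by
  rw [off_apply, if_neg h]

/-- the different of `F` outside `S` -/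
noncomputable def δ : Dv F := Z.off (dF F)

/-- the lattice `{ξ | v_P(ξ) ≥ -N, P | S}` -/
def Lam : AddSubgroup M where
  carrier := {ξ | ∀ P : Pl M, Z.Bad P → P.valuation M ξ ≤ exp (Z.N : ℤ)}
  add_mem' := fun {x y} hx hy P hP =>
    ((P.valuation M).map_add x y).trans (max_le (hx P hP) (hy P hP))
  zero_mem' := fun P _ => by simp
  neg_mem' := fun {x} hx P hP => by
    change P.valuation M (-x) ≤ _
    rw [Valuation.map_neg]; exact hx P hP

theorem mem_Lam {ξ : M} : ξ ∈ Z.Lam ↔ ∀ P : Pl M, Z.Bad P → P.valuation M ξ ≤ exp (Z.N : ℤ) := Iff.rfl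

/-- the dual lattice of `Lam` : `{ξ | v_P(ξ) ≥ N - d_P, P | S}` -/
def LamD : AddSubgroup M where
  carrier := {ξ | ∀ P : Pl M, Z.Bad P → P.valuation M ξ ≤ exp (-(Z.N - dF M P : ℤ))}
  add_mem' := fun {x y} hx hy P hP =>
    ((P.valuation M).map_add x y).trans (max_le (hx P hP) (hy P hP))
  zero_mem' := fun P _ => by simp
  neg_mem' := fun {x} hx P hP => by
    change P.valuation M (-x) ≤ _
    rw [Valuation.map_neg]; exact hx P hP

theorem mem_LamD {ξ : M} : ξ ∈ Z.LamD ↔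
    ∀ P : Pl M, Z.Bad P → P.valuation M ξ ≤ exp (-(Z.N - dF M P : ℤ)) := Iff.rfl

theorem LamD_le : Z.LamD ≤ Z.Lam := fun x hx P hP => by
  refine (hx P hP).trans ?_
  rw [WithZero.exp_le_exp]
  have := Z.dM_le P hP
  omega

/-- The `S`-adic Schwartz functions of depth `N`. -/
structure IsSch (s : M → ℂ) : Prop where
  supp : ∀ ξ, s ξ ≠ 0 → ξ ∈ Z.Lam
  per : ∀ ξ η, η ∈ Z.LamD → s (ξ + η) = s ξ

/-- The group of multipliers `{m | m ≡ 1 mod S^{N2}}` -/
def US : Subgroup Mˣ where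
  carrier := {m | ∀ P : Pl M, Z.Bad P → P.valuation M (m : M) = 1 ∧
    P.valuation M ((m : M) - 1) ≤ exp (-(Z.N2 : ℤ))}
  one_mem' := fun P _ => by simp
  mul_mem' := by
    intro a b ha hb P hP
    obtain ⟨ha1, ha2⟩ := ha P hP
    obtain ⟨hb1, hb2⟩ := hb P hP
    refine ⟨by rw [Units.val_mul, map_mul, ha1, hb1, one_mul], ?_⟩
    have : ((a * b : Mˣ) : M) - 1 = a * (b - 1) + (a - 1) := by rw [Units.val_mul]; ring
    rw [this]
    refine ((P.valuation M).map_add _ _).trans (max_le ?_ ha2)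
    rw [map_mul, ha1, one_mul]; exact hb2
  inv_mem' := by
    intro a ha P hP
    obtain ⟨ha1, ha2⟩ := ha P hP
    refine ⟨by rw [Units.val_inv_eq_inv_val, map_inv₀, ha1, inv_one], ?_⟩
    have : ((a⁻¹ : Mˣ) : M) - 1 = -(a : M)⁻¹ * (a - 1) := by
      rw [Units.val_inv_eq_inv_val]
      field_simp
      ring
    rw [this, map_mul, Valuation.map_neg, map_inv₀, ha1, inv_one, one_mul]
    exact ha2

theorem mem_US {m : Mˣ} : m ∈ Z.US ↔ ∀ P : Pl M, Z.Bad P → P.valuation M (m : M) = 1 ∧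
    P.valuation M ((m : M) - 1) ≤ exp (-(Z.N2 : ℤ)) := Iff.rfl

/-- `x ≡ 1 mod S^{N1}` -/
def Near1 (x : F) : Prop := ∀ w ∈ Z.S, w.valuation F (x - 1) ≤ exp (-(Z.N1 : ℤ))

open Classical in
/-- the `S`-part of the Whittaker coefficient -/
noncomputable def cS (s : M → ℂ) (α : F) : ℂ :=
  ∑ᶠ q : Mˣ ⧸ Z.US, if Z.Near1 (α / nrm (q.out : M)) then
    s (q.out : M) * (Z.psi (dv (q.out : M)))⁻¹ else 0

/-- effective divisors of `M` outside `S` with norm `m` -/
def Eff (m : Dv F) : Set (Dv M) := {b | 0 ≤ b ∧ (∀ P, Z.Bad P → b P = 0) ∧ Z.Nm b = m}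

/-- the unramified part of the Whittaker coefficient -/
noncomputable def aψ (m : Dv F) : ℂ := ∑ᶠ b : Z.Eff m, Z.psi b

/-- the Whittaker coefficient -/
noncomputable def coef (s : M → ℂ) (ν : Dv F) (u : F) (α : F) : ℂ :=
  ((√(absN ν))⁻¹ : ℝ) * (Z.cS s α * Z.aψ (Z.off (dv α) + ν + Z.δ) * ef (-(α * u)))

/-- the Whittaker series -/
noncomputable def Phi (s : M → ℂ) (ν : Dv F) (u : F) (P : XI Z.A) : ℂ :=
  ∑' α : Fˣ, Z.coef s ν u α * W Z.A α P

end Setup

end Fermat.Agent.LT.I
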