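import Fermat.Agent.LT.I.SchOps
import Fermat.Agent.LT.I.Conorm

/-!
# LT, piece I: duality of lattices
-/

set_option autoImplicit false
set_option linter.unusedSectionVars false

open NumberField IsDedekindDomain Matrix WithZero Module MeasureTheory
open scoped Real ComplexConjugate nonZeroDivisors

namespace Fermat.Agent.LT.I

open Fermat.LT Fermat.Agent.CFT

section general

variable {K : Type} [Field K] [NumberField K]

theorem dual_fid (l : Dv K) : FractionalIdeal.dual ℤ ℚ (fid l) = fid (-l - dF K) := by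
  rw [FractionalIdeal.dual_eq_mul_inv, sub_eq_add_neg, fid_add, fid_neg, fid_neg, fid_dF,
    coeIdeal_differentIdeal ℤ ℚ K (𝓞 K), inv_inv, mul_comm]

/-- **Duality** with respect to the trace form. -/
theorem mem_dual_iff (l : Dv K) (x : K) :
    (∀ y ∈ InL l, ∃ n : ℤ, Algebra.trace ℚ K (y * x) = n) ↔ x ∈ InL (-l - dF K) := by
  rw [← mem_fid, ← dual_fid, FractionalIdeal.mem_dual (fid_ne_zero l)]
  constructor
  · intro h y hy
    obtain ⟨n, hn⟩ := h y (mem_fid.mp hy)
    refine ⟨n, ?_⟩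
    rw [Algebra.traceForm_apply, mul_comm, hn]
    simp
  · intro h y hy
    obtain ⟨n, hn⟩ := h y (mem_fid.mpr hy)
    refine ⟨n, ?_⟩
    rw [Algebra.traceForm_apply, mul_comm] at hn
    rw [← hn]
    simp

theorem coe_mem_InL (a : 𝓞 K) : (a : K) ∈ InL (0 : Dv K) := fun w => by
  rw [Finsupp.zero_apply, neg_zero, WithZero.exp_zero]
  exact w.valuation_le_one a

theorem exists_coe_of_mem {x : K} (h : x ∈ InL (0 : Dv K)) : ∃ a : 𝓞 K, (a : K) = x := by
  have := mem_fid.mpr h
  rw [fid_zero, FractionalIdeal.mem_one_iff] at this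
  exact this

/-- conductor of the character `a ↦ ef (v a)` of `𝓞 K` -/
theorem ef_mul_iff (v : K) : (∀ b : 𝓞 K, ef (v * (b : K)) = 1) ↔ v ∈ InL (-dF K) := by
  constructor
  · intro h
    have := (mem_dual_iff (0 : Dv K) v).mp (fun y hy => by
      obtain ⟨b, rfl⟩ := exists_coe_of_mem hy
      have h1 := h b
      rw [ef_eq] at h1
      obtain ⟨n, hn⟩ := eQ_eq_one h1
      exact ⟨n, by rw [mul_comm, hn]⟩)
    rwa [neg_zero, zero_sub] at this
  · intro h b
    apply ef_eq_one
    have := mul_mem_InL h (coe_mem_InL b)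
    rwa [add_zero] at this

theorem InL_injective : Function.Injective (InL : Dv K → AddSubgroup K) := by
  intro l l' h
  apply fid_injective
  ext x
  rw [mem_fid, mem_fid, h]

end general

section quad

variable {F M : Type} [Field F] [NumberField F] [Field M] [NumberField M] [Algebra F M]
  (Q : Quad F M)

/-- conjugation of divisors -/
noncomputable def Quad.cD (l : Dv M) : Dv M :=
  l.equivMapDomain ⟨Q.cP, Q.cP, Q.cP_cP, Q.cP_cP⟩

@[simp] theorem Quad.cD_apply (l : Dv M) (P : Pl M) : Q.cD l P = l (Q.cP P) := rfl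

theorem Quad.mem_cD {l : Dv M} {x : M} : x ∈ InL (Q.cD l) ↔ Q.c x ∈ InL l := by
  rw [mem_InL, mem_InL]
  constructor
  · intro h P
    have := h (Q.cP P)
    rwa [Q.val_cP, Q.cD_apply, Q.cP_cP] at this
  · intro h P
    have := h (Q.cP P)
    rwa [Q.val_cP, Q.c_c] at this

theorem Quad.cD_dF : Q.cD (dF M) = dF M := by
  have h1 : InL (-Q.cD (dF M)) = InL (-(dF M)) := by
    have h2 : -Q.cD (dF M) = Q.cD (-(dF M)) := by ext P; simp
    rw [h2]
    ext x
    rw [Q.mem_cD]
    have h3 := mem_dual_iff (0 : Dv M) x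
    have h4 := mem_dual_iff (0 : Dv M) (Q.c x)
    rw [neg_zero, zero_sub] at h3 h4
    rw [← h3, ← h4]
    constructor
    · intro h y hy
      have hy' : Q.c y ∈ InL (0 : Dv M) := by
        rw [← Q.mem_cD]
        have : Q.cD (0 : Dv M) = 0 := by ext P; simp
        rwa [this]
      obtain ⟨n, hn⟩ := h _ hy'
      refine ⟨n, ?_⟩
      rw [← hn, ← map_mul, trace_conj Q]
    · intro h y hy
      have hy' : Q.c y ∈ InL (0 : Dv M) := by
        rw [← Q.mem_cD]
        have : Q.cD (0 : Dv M) = 0 := by ext P; simp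
        rwa [this]
      obtain ⟨n, hn⟩ := h _ hy'
      refine ⟨n, ?_⟩
      rw [← hn, ← trace_conj Q, map_mul, Q.c_c]
  exact neg_injective (InL_injective h1)

theorem Quad.dF_cP (P : Pl M) : dF M (Q.cP P) = dF M P := by
  have := congrArg (fun l : Dv M => l P) Q.cD_dF
  simpa using this

/-- the divisor of the dual lattice with respect to `Tr (ξ η̄)` -/
noncomputable def Quad.dul (l : Dv M) : Dv M := -Q.cD l - dF M

@[simp] theorem Quad.dul_apply (l : Dv M) (P : Pl M) : Q.dul l P = -l (Q.cP P) - dF M P := by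
  simp [Quad.dul]

/-- **Duality** with respect to `Tr (ξ η̄)`. -/
theorem Quad.mem_dul {l : Dv M} {η : M} : η ∈ InL (Q.dul l) ↔ ∀ ξ ∈ InL l, ∃ n : ℤ, Q.B ξ η = n := by
  have h : Q.dul l = Q.cD (-l - dF M) := by
    ext P; simp [Q.dF_cP]
  rw [h, Q.mem_cD, ← mem_dual_iff]
  rfl

theorem Quad.eQ_B_eq_one {l : Dv M} {ξ η : M} (hξ : ξ ∈ InL l) (hη : η ∈ InL (Q.dul l)) :
    eQ (Q.B ξ η) = 1 := by
  obtain ⟨n, hn⟩ := Q.mem_dul.mp hη ξ hξ
  rw [hn, eQ_int]

theorem Quad.dul_dul (l : Dv M) : Q.dul (Q.dul l) = l := by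
  ext P; simp [Q.dF_cP]

theorem Quad.dul_anti {l l' : Dv M} (h : l ≤ l') : Q.dul l' ≤ Q.dul l := by
  intro P
  have := h (Q.cP P)
  simp only [Quad.dul_apply]
  omega

end quad

end Fermat.Agent.LT.I
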