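import Fermat.Agent.LT.I.Ext
import Fermat.Agent.LT.Geo.EThree
import Fermat.Agent.LT.CTree.Val

/-!
# LT, piece I: extension of a function from a coset `β w` at the places `w ∈ S`, general level

`U` an arbitrary level, `S` a finite set of places, `β w ∈ GL₂(F)` base points (`w ∈ S`).

* `ExtT.exists_gamma` (E1) : every `y : Y U` can be moved to `β w` at all places `w ∈ S`;
* `ExtT.exists_ext` (E3) : if `f : XI A → Y U → ℂ` is invariant under the elements `δ` which fix the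
  base points, there is a `PG F`-invariant `φ` on `X ⟨A, U⟩` with
  `φ (P, y) = f (γ⁻¹ • P) (γ⁻¹ • y)` for every `γ` which moves `y` to the base points;
* `ExtT.inv_of_fix` (E2') : the case of the level `HT w M` at `w ∈ S` and of the base points
  `dg (t w)`: it suffices that `f` is invariant under `un b`, `v(b) > v(t)`, `lo c`,
  `v(c) > -v(t)`, `v(c) ≥ M - v(t)`, `dg a`, `v(a) = 0`.
(E4): see `Ext.decomp`.
-/

set_option autoImplicit false
set_option linter.unusedSectionVars false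

open NumberField IsDedekindDomain WithZero Module Matrix

namespace Fermat.Agent.LT.I

open Fermat.LT Fermat.Agent.CFT Fermat.Agent.LT.H

variable {F : Type} [Field F] [NumberField F]

namespace ExtT

open Ext

variable {U : Level F} {S : Finset (Pl F)} {β : Pl F → G2 F}

/-- (E1) every point can be moved to the base points at all places of `S` -/
theorem exists_gamma (S : Finset (Pl F)) (β : Pl F → G2 F) (y : Y U) :
    ∃ γ : G2 F, ∀ w ∈ S, (γ⁻¹ • y) w = (β w : Yl U w) := by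
  classical
  rcases S.eq_empty_or_nonempty with rfl | ⟨w0, hw0⟩
  · exact ⟨1, fun w hw => absurd hw (Finset.notMem_empty w)⟩
  have hrep : ∀ w, ∃ g : G2 F, (g : Yl U w) = y w := fun w => QuotientGroup.mk_surjective (y w)
  choose g hg using hrep
  set n : Pl F → ℕ := fun w => max (U.n w) 1 with hn
  have hn1 : ∀ w, 1 ≤ n w := fun w => le_max_right _ _
  have hcong : ∀ w, congGL w (n w) ≤ U.H w := by
    intro w
    refine le_trans ?_ (U.cong_le w)
    intro k hk
    refine ⟨hk.1, hk.2.trans ?_⟩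
    exact pow_le_pow_of_le_one (inv_nonneg.2 (qv_pos w).le)
      (inv_le_one_of_one_le₀ (one_lt_qv w).le) (le_max_left _ _)
  set h : Pl F → G2 F := fun w => g w * (β w)⁻¹ with hh
  set ε : Pl F → ℝ := fun w => (qv w)⁻¹ ^ (n w) / (nm w ((g w)⁻¹).1 * nm w (β w).1) with hε
  have hε0 : ∀ w ∈ S, 0 < ε w := fun w _ =>
    div_pos (qinv_pos w _) (mul_pos (nm_pos w _) (nm_pos w _))
  have h2 : ∀ i j : Fin 2, ∃ u : F, ∀ w ∈ S, av w (u - (h w).1 i j) ≤ ε w := fun i j =>
    approx S (fun w => (h w).1 i j) ε hε0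
  choose u hu using h2
  set M : Matrix (Fin 2) (Fin 2) F := Matrix.of u with hM
  have key : ∀ w ∈ S, nm w (((g w)⁻¹).1 * M * (β w).1 - 1) ≤ (qv w)⁻¹ ^ (n w) := by
    intro w hw
    have e : ((g w)⁻¹).1 * M * (β w).1 - 1 = ((g w)⁻¹).1 * (M - (h w).1) * (β w).1 := by
      have e1 : ((g w)⁻¹).1 * (h w).1 * (β w).1 = 1 := by
        rw [← Units.val_mul, ← Units.val_mul, hh]
        simp
      rw [mul_sub, sub_mul, e1]
    rw [e]
    have h3 : nm w (M - (h w).1) ≤ ε w := by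
      rw [nm_le_iff]
      intro i j
      exact hu i j w hw
    calc nm w (((g w)⁻¹).1 * (M - (h w).1) * (β w).1)
        ≤ nm w (((g w)⁻¹).1 * (M - (h w).1)) * nm w (β w).1 := nm_mul_le w _ _
      _ ≤ (nm w ((g w)⁻¹).1 * nm w (M - (h w).1)) * nm w (β w).1 :=
          mul_le_mul_of_nonneg_right (nm_mul_le w _ _) (nm_nonneg w _)
      _ ≤ (nm w ((g w)⁻¹).1 * ε w) * nm w (β w).1 :=
          mul_le_mul_of_nonneg_right (mul_le_mul_of_nonneg_left h3 (nm_nonneg w _))
            (nm_nonneg w _)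
      _ = (qv w)⁻¹ ^ (n w) := by
          rw [hε]
          have := (nm_pos w (g w)⁻¹).ne'
          have := (nm_pos w (β w)).ne'
          field_simp
  have hdet : M.det ≠ 0 := by
    intro h0
    have hlt := qinv_lt_one w0 (hn1 w0)
    have h3 := av_eq_one_of w0 ((av_det_sub_one_le w0 hlt.le (key w0 hw0)).trans_lt hlt)
    rw [Matrix.det_mul, Matrix.det_mul, h0, mul_zero, zero_mul, map_zero] at h3
    exact zero_ne_one h3
  refine ⟨Matrix.GeneralLinearGroup.mkOfDetNeZero M hdet, fun w hw => ?_⟩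
  set γ : G2 F := Matrix.GeneralLinearGroup.mkOfDetNeZero M hdet with hγ
  have h4 : (g w)⁻¹ * γ * β w ∈ congGL w (n w) := by
    apply mem_congGL_of w (hn1 w)
    rw [Units.val_mul, Units.val_mul]
    exact key w hw
  rw [G2_smul_apply, ← hg w]
  change ((γ⁻¹ * g w : G2 F) : Yl U w) = _
  rw [QuotientGroup.eq]
  have h5 : (γ⁻¹ * g w)⁻¹ * β w = (g w)⁻¹ * γ * β w := by group
  rw [h5]
  exact hcong w h4

section ext

variable {A : Arch F} {f : XI A → Y U → ℂ}

/-- (E3) **The invariant extension.** -/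
theorem exists_ext (S : Finset (Pl F)) (β : Pl F → G2 F) (f : XI A → Y U → ℂ)
    (hf : ∀ δ : G2 F, (∀ w ∈ S, δ • (β w : Yl U w) = (β w : Yl U w)) →
      ∀ P y, f (δ • P) (δ • y) = f P y) :
    ∃ φ : X (⟨A, U⟩ : Datum F) → ℂ, (∀ (g : PG F) x, φ (g • x) = φ x) ∧
      ∀ (P : XI A) (y : Y U) (γ : G2 F), (∀ w ∈ S, (γ⁻¹ • y) w = (β w : Yl U w)) →
        φ (P, y) = f (γ⁻¹ • P) (γ⁻¹ • y) := by
  have hE1 := exists_gamma (U := U) S β
  choose γ hγ using hE1
  have hmain : ∀ (P : XI A) (y : Y U) (g g' : G2 F),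
      (∀ w ∈ S, (g⁻¹ • y) w = (β w : Yl U w)) →
      (∀ w ∈ S, (g'⁻¹ • y) w = (β w : Yl U w)) →
      f (g⁻¹ • P) (g⁻¹ • y) = f (g'⁻¹ • P) (g'⁻¹ • y) := by
    intro P y g g' hg hg'
    have hδ : ∀ w ∈ S, (g⁻¹ * g') • (β w : Yl U w) = (β w : Yl U w) := by
      intro w hw
      have a : g'⁻¹ • y w = (β w : Yl U w) := hg' w hw
      have b : g⁻¹ • y w = (β w : Yl U w) := hg w hw
      conv_lhs => rw [← a]
      rw [smul_smul, mul_assoc, mul_inv_cancel, mul_one, b]
    have h2 := hf _ hδ (g'⁻¹ • P) (g'⁻¹ • y)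
    rw [smul_smul, smul_smul, mul_assoc, mul_inv_cancel, mul_one] at h2
    exact h2
  refine ⟨fun x => f ((γ x.2)⁻¹ • x.1) ((γ x.2)⁻¹ • x.2), fun g x => ?_, fun P y g hg => ?_⟩
  · obtain ⟨g, rfl⟩ := Matrix.ProjGenLinGroup.mk_surjective g
    change f ((γ (g • x.2))⁻¹ • (g • x.1)) ((γ (g • x.2))⁻¹ • (g • x.2)) = _
    have h3 : ∀ w ∈ S, ((g * γ x.2)⁻¹ • (g • x.2)) w = (β w : Yl U w) := by
      intro w hw
      rw [smul_smul, _root_.mul_inv_rev, inv_mul_cancel_right]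
      exact hγ x.2 w hw
    rw [hmain (g • x.1) (g • x.2) _ _ (hγ (g • x.2)) h3, smul_smul, smul_smul,
      _root_.mul_inv_rev, inv_mul_cancel_right]
  · exact hmain P y _ _ (hγ y) hg

/-- (E3), the case where `f P y` depends only on `y` off `S`: the value at a point whose components
at `S` are the base points. -/
theorem ext_apply {φ : X (⟨A, U⟩ : Datum F) → ℂ}
    (hφ : ∀ (P : XI A) (y : Y U) (γ : G2 F), (∀ w ∈ S, (γ⁻¹ • y) w = (β w : Yl U w)) →
        φ (P, y) = f (γ⁻¹ • P) (γ⁻¹ • y)) (P : XI A) (y : Y U)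
    (hy : ∀ w ∈ S, y w = (β w : Yl U w)) : φ (P, y) = f P y := by
  rw [hφ P y 1 (fun w hw => by rw [inv_one, one_smul]; exact hy w hw), inv_one, one_smul, one_smul]

end ext

section E2

set_option linter.unusedSimpArgs false in
/-- entries of the conjugate by `dg t` -/
theorem conj_dg (t : Fˣ) (δ : G2 F) :
    ((dg t)⁻¹ * δ * dg t).1 0 0 = δ.1 0 0 ∧ ((dg t)⁻¹ * δ * dg t).1 0 1 = (t : F)⁻¹ * δ.1 0 1 ∧
    ((dg t)⁻¹ * δ * dg t).1 1 0 = (t : F) * δ.1 1 0 ∧ ((dg t)⁻¹ * δ * dg t).1 1 1 = δ.1 1 1 := by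
  have ht : (t : F) ≠ 0 := t.ne_zero
  rw [dg_inv]
  refine ⟨?_, ?_, ?_, ?_⟩
  · simp only [mul00, mul01, dg00, dg01, dg10, dg11]
    rw [Units.val_inv_eq_inv_val]
    field_simp
    try ring
  · simp only [mul00, mul01, dg00, dg01, dg10, dg11]
    rw [Units.val_inv_eq_inv_val]
    field_simp
    try ring
  · simp only [mul10, mul11, dg00, dg01, dg10, dg11]
    ring
  · simp only [mul10, mul11, dg00, dg01, dg10, dg11]
    ring

theorem conj_dg_det (t : Fˣ) (δ : G2 F) : ((dg t)⁻¹ * δ * dg t).1.det = δ.1.det := by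
  obtain ⟨h1, h2, h3, h4⟩ := conj_dg t δ
  rw [det_eq, det_eq, h1, h2, h3, h4]
  have ht : (t : F) ≠ 0 := t.ne_zero
  field_simp

/-- the valuations of the entries of an element of `HT w M` -/
theorem HT_entries (w : Pl F) (M : ℕ) {g : G2 F} (hg : g ∈ HT w M) :
    av w (g.1 0 0) = nm w g.1 ∧ av w (g.1 1 1) = nm w g.1 ∧ av w g.1.det = nm w g.1 * nm w g.1 := by
  rw [mem_HT'] at hg
  obtain ⟨h1, ⟨h2, -⟩, h3⟩ := hg
  have hp := nm_pos w g
  have hdet : av w g.1.det = nm w g.1 * nm w g.1 := by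
    have h4 : nm w g.1 * nm w (g⁻¹).1 = 1 :=
      le_antisymm ((mem_stdH w g).1 h1) (nm_mul_inv_ge w g)
    rw [inv_val, nm_smul, nm_adjugate, map_inv₀] at h4
    have h5 : av w g.1.det ≠ 0 := ((av w).pos (det_ne_zero' g)).ne'
    field_simp at h4
    rw [← h4]; ring
  have h6 : av w (g.1 0 0 * g.1 1 1) = nm w g.1 * nm w g.1 := by
    have h7 : av w (g.1 0 1 * g.1 1 0) < nm w g.1 * nm w g.1 := by
      rw [map_mul]
      exact mul_lt_mul'' h3 h2 ((av w).nonneg _) ((av w).nonneg _)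
    apply le_antisymm
    · rw [map_mul]
      exact mul_le_mul (av_le_nm w _ _ _) (av_le_nm w _ _ _) ((av w).nonneg _) hp.le
    · have h8 := av_add_le w (g.1 0 0 * g.1 1 1) (-(g.1 0 1 * g.1 1 0))
      rw [(av w).map_neg, ← sub_eq_add_neg, ← det_eq, hdet] at h8
      rcases le_max_iff.1 h8 with h9 | h9
      · exact h9
      · exact absurd h9 (not_le.2 h7)
  rw [map_mul] at h6
  have h00 := av_le_nm w g.1 0 0
  have h11 := av_le_nm w g.1 1 1
  refine ⟨le_antisymm h00 ?_, le_antisymm h11 ?_, hdet⟩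
  · by_contra h
    push Not at h
    have : av w (g.1 0 0) * av w (g.1 1 1) < nm w g.1 * nm w g.1 :=
      mul_lt_mul h h11 ((av w).pos (by
        intro h0
        rw [h0, map_zero, mul_zero] at h6
        exact absurd h6 (mul_pos hp hp).ne)) hp.le
    exact absurd h6 this.ne
  · by_contra h
    push Not at h
    have : av w (g.1 0 0) * av w (g.1 1 1) < nm w g.1 * nm w g.1 := by
      rw [mul_comm (av w (g.1 0 0))]
      exact mul_lt_mul h h00 ((av w).pos (by
        intro h0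
        rw [h0, map_zero, zero_mul] at h6
        exact absurd h6 (mul_pos hp hp).ne)) hp.le
    exact absurd h6 this.ne

variable {A : Arch F} {f : XI A → Y U → ℂ} {M : ℕ} {t : Pl F → Fˣ}

/-- (E2'), with real absolute values -/
theorem inv_of_fix_av (hU : ∀ w ∈ S, U.H w = HT w M)
    (i1 : ∀ b : F, (∀ w ∈ S, av w b < av w (t w : F)) → ∀ P y, f (un b • P) (un b • y) = f P y)
    (i2 : ∀ c : F, (∀ w ∈ S, av w (t w : F) * av w c < 1) →
      (∀ w ∈ S, av w (t w : F) * av w c ≤ (qv w)⁻¹ ^ M) →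
      ∀ P y, f (lo c • P) (lo c • y) = f P y)
    (i3 : ∀ a : Fˣ, (∀ w ∈ S, av w (a : F) = 1) → ∀ P y, f (dg a • P) (dg a • y) = f P y)
    {δ : G2 F} (hδ : ∀ w ∈ S, δ • ((dg (t w) : G2 F) : Yl U w) = ((dg (t w) : G2 F) : Yl U w)) :
    ∀ P y, f (δ • P) (δ • y) = f P y := by
  change δ ∈ Inv f
  have core : ∀ g : G2 F, g.1 0 0 ≠ 0 → (∀ w ∈ S, (dg (t w))⁻¹ * g * dg (t w) ∈ HT w M) →
      g ∈ Inv f := by
    intro g h00 hg
    have hent : ∀ w ∈ S, 0 < nm w ((dg (t w))⁻¹ * g * dg (t w)).1 ∧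
        av w (g.1 0 0) = nm w ((dg (t w))⁻¹ * g * dg (t w)).1 ∧
        av w g.1.det = nm w ((dg (t w))⁻¹ * g * dg (t w)).1 * nm w ((dg (t w))⁻¹ * g * dg (t w)).1 ∧
        av w (g.1 0 1) < av w (t w : F) * nm w ((dg (t w))⁻¹ * g * dg (t w)).1 ∧
        av w (t w : F) * av w (g.1 1 0) < nm w ((dg (t w))⁻¹ * g * dg (t w)).1 ∧
        av w (t w : F) * av w (g.1 1 0) ≤
          nm w ((dg (t w))⁻¹ * g * dg (t w)).1 * (qv w)⁻¹ ^ M := by
      intro w hw
      obtain ⟨e1, -, e3⟩ := HT_entries w M (hg w hw)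
      obtain ⟨c1, c2, c3, -⟩ := conj_dg (t w) g
      rw [conj_dg_det] at e3
      rw [c1] at e1
      obtain ⟨-, ⟨m1, m2⟩, m3⟩ := (mem_HT' w M).1 (hg w hw)
      rw [c3, map_mul] at m1 m2
      rw [c2, map_mul, map_inv₀] at m3
      refine ⟨nm_pos w _, e1, e3, ?_, m1, m2⟩
      have ht : 0 < av w (t w : F) := (av w).pos (t w).ne_zero
      rwa [inv_mul_lt_iff₀ ht] at m3
    rw [lu g h00]
    refine mul_mem (mul_mem (mul_mem ?_ (sc_mem_Inv _)) ?_) ?_
    · refine i2 _ (fun w hw => ?_) (fun w hw => ?_)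
      · obtain ⟨p0, p1, -, -, p4, -⟩ := hent w hw
        rw [map_div₀, p1, ← mul_div_assoc, div_lt_one p0]
        exact p4
      · obtain ⟨p0, p1, -, -, -, p5⟩ := hent w hw
        rw [map_div₀, p1, ← mul_div_assoc, div_le_iff₀ p0, mul_comm ((qv w)⁻¹ ^ M)]
        exact p5
    · refine i3 _ (fun w hw => ?_)
      obtain ⟨p0, p1, p2, -⟩ := hent w hw
      rw [Units.val_mk0, map_div₀, map_pow, p1, p2]
      field_simp
    · refine i1 _ (fun w hw => ?_)
      obtain ⟨p0, p1, -, p3, -⟩ := hent w hw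
      rw [map_div₀, p1, div_lt_iff₀ p0]
      exact p3
  have hδ' : ∀ w ∈ S, (dg (t w))⁻¹ * δ * dg (t w) ∈ HT w M := by
    intro w hw
    have h1 := hδ w hw
    change ((δ * dg (t w) : G2 F) : Yl U w) = _ at h1
    rw [eq_comm, QuotientGroup.eq, hU w hw, ← mul_assoc] at h1
    exact h1
  rcases S.eq_empty_or_nonempty with rfl | ⟨w0, hw0⟩
  · by_cases h00 : δ.1 0 0 = 0
    · have h1 : (un 1 * δ).1 0 0 ≠ 0 := by
        rw [mul00, un00, un01, h00]
        intro h
        apply det_ne_zero' δ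
        rw [det_eq, h00]
        linear_combination -(δ.1 0 1) * h
      have h2 := core (un 1 * δ) h1 (fun w hw => absurd hw (Finset.notMem_empty w))
      have h3 : un (1 : F) ∈ Inv f := i1 1 (fun w hw => absurd hw (Finset.notMem_empty w))
      have h4 := mul_mem (inv_mem h3) h2
      rwa [inv_mul_cancel_left] at h4
    · exact core δ h00 hδ'
  · refine core δ (fun h0 => ?_) hδ'
    obtain ⟨e1, -⟩ := HT_entries w0 M (hδ' w0 hw0)
    rw [(conj_dg (t w0) δ).1, h0, map_zero] at e1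
    exact absurd e1 (nm_pos w0 _).ne

theorem val_lt_iff_av (w : Pl F) (x : F) {y : F} (hy : y ≠ 0) :
    w.valuation F x < w.valuation F y ↔ av w x < av w y := by
  have h1 : 0 < av w y := (av w).pos hy
  have h2 : (0 : ℤᵐ⁰) < w.valuation F y := zero_lt_iff.2 ((Valuation.ne_zero_iff _).2 hy)
  rw [← div_lt_one h1, ← map_div₀, CTree.av_lt_one_iff_valuation, map_div₀, div_lt_one₀ h2]

/-- (E2') `f` is invariant under every `δ` which fixes the base points `dg (t w)`, `w ∈ S`, the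
level being `HT w M` at `w ∈ S`. -/
theorem inv_of_fix (hU : ∀ w ∈ S, U.H w = HT w M)
    (i1 : ∀ b : F, (∀ w ∈ S, w.valuation F b < w.valuation F (t w : F)) →
      ∀ P y, f (un b • P) (un b • y) = f P y)
    (i2 : ∀ c : F, (∀ w ∈ S, w.valuation F ((t w : F) * c) ≤ exp (-((max M 1 : ℕ) : ℤ))) →
      ∀ P y, f (lo c • P) (lo c • y) = f P y)
    (i3 : ∀ a : Fˣ, (∀ w ∈ S, w.valuation F (a : F) = 1) → ∀ P y, f (dg a • P) (dg a • y) = f P y)
    {δ : G2 F} (hδ : ∀ w ∈ S, δ • ((dg (t w) : G2 F) : Yl U w) = ((dg (t w) : G2 F) : Yl U w)) :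
    ∀ P y, f (δ • P) (δ • y) = f P y := by
  refine inv_of_fix_av hU (fun b hb => i1 b fun w hw =>
      (val_lt_iff_av w _ (t w).ne_zero).2 (hb w hw))
    (fun c hc hc' => i2 c fun w hw => ?_)
    (fun a ha => i3 a fun w hw => ?_) hδ
  · rw [val_le_iff, map_mul]
    rcases le_total M 1 with hM | hM
    · rw [max_eq_right hM, ← map_mul, pow_one]
      have h1 := hc w hw
      rw [← map_mul] at h1
      exact (CTree.av_lt_one_iff_le w).1 h1
    · rw [max_eq_left hM]
      exact hc' w hw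
  · have h1 := ha w hw
    exact le_antisymm ((CTree.av_le_one_iff_valuation w).1 h1.le)
      (le_of_not_gt fun h => h1.not_lt ((CTree.av_lt_one_iff_valuation w).2 h))

end E2

end ExtT

end Fermat.Agent.LT.I
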