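import Mathlib

/-!
# Quadratic extensions of number fields: conjugation, norm and trace on rings of integers
-/

set_option autoImplicit false
set_option linter.unusedSectionVars false

open NumberField

namespace Fermat.Agent.LT.I.GS

variable {F M : Type} [Field F] [NumberField F] [Field M] [NumberField M] [Algebra F M]

/-- Conjugation of a quadratic extension, with norm and trace on the rings of integers. -/
structure Quad (F M : Type) [Field F] [NumberField F] [Field M] [NumberField M] [Algebra F M] where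
  deg : Module.finrank F M = 2
  s : M ≃ₐ[F] M
  s_ne : s ≠ 1

namespace Quad

variable (Q : Quad F M)

instance : FiniteDimensional F M := Module.Finite.of_restrictScalars_finite ℚ F M

include Q in
theorem isQuad : Algebra.IsQuadraticExtension F M := { finrank_eq_two' := Q.deg }

include Q in
theorem isGalois : IsGalois F M := by
  have := Q.isQuad
  infer_instance

include Q in
theorem card_gal : Nat.card (M ≃ₐ[F] M) = 2 := by
  have := Q.isGalois
  rw [IsGalois.card_aut_eq_finrank, Q.deg]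

theorem eq_one_or (g : M ≃ₐ[F] M) : g = 1 ∨ g = Q.s := by
  classical
  have h : Fintype.card (M ≃ₐ[F] M) = 2 := by
    rw [← Nat.card_eq_fintype_card, Q.card_gal]
  by_contra hc
  push Not at hc
  have h2 : ({1, Q.s, g} : Finset (M ≃ₐ[F] M)).card = 3 := by
    rw [Finset.card_eq_three]
    exact ⟨1, Q.s, g, Q.s_ne.symm, hc.1.symm, hc.2.symm, rfl⟩
  have h3 := Finset.card_le_univ ({1, Q.s, g} : Finset (M ≃ₐ[F] M))
  omega

theorem s_s (x : M) : Q.s (Q.s x) = x := by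
  have h : Q.s * Q.s = 1 := by
    rcases Q.eq_one_or (Q.s * Q.s) with h | h
    · exact h
    · exact absurd (mul_eq_left.mp h) Q.s_ne
  exact AlgEquiv.congr_fun h x

open Classical in
theorem univ_gal : (Finset.univ : Finset (M ≃ₐ[F] M)) = {1, Q.s} := by
  ext g
  simp only [Finset.mem_univ, Finset.mem_insert, Finset.mem_singleton, true_iff]
  exact Q.eq_one_or g

theorem norm_eq (x : M) : algebraMap F M (Algebra.norm F x) = x * Q.s x := by
  classical
  have := Q.isGalois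
  rw [Algebra.norm_eq_prod_automorphisms, Q.univ_gal, Finset.prod_pair Q.s_ne.symm]
  rfl

theorem trace_eq (x : M) : algebraMap F M (Algebra.trace F M x) = x + Q.s x := by
  classical
  have := Q.isGalois
  rw [trace_eq_sum_automorphisms, Q.univ_gal, Finset.sum_pair Q.s_ne.symm]
  rfl

/-- conjugation on the ring of integers -/
noncomputable def sg : 𝓞 M ≃+* 𝓞 M := RingOfIntegers.mapRingEquiv (Q.s : M ≃+* M)

@[simp] theorem coe_sg (x : 𝓞 M) : ((Q.sg x : 𝓞 M) : M) = Q.s x := rfl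

@[simp] theorem sg_sg (x : 𝓞 M) : Q.sg (Q.sg x) = x := RingOfIntegers.ext (Q.s_s x)

@[simp] theorem sg_algebraMap (a : 𝓞 F) : Q.sg (algebraMap (𝓞 F) (𝓞 M) a) = algebraMap (𝓞 F) (𝓞 M) a := by
  apply RingOfIntegers.ext
  rw [coe_sg]
  exact Q.s.commutes (a : F)

/-- norm on the rings of integers -/
noncomputable def nm (x : 𝓞 M) : 𝓞 F :=
  ⟨Algebra.norm F (x : M), Algebra.isIntegral_norm F x.isIntegral_coe⟩

/-- trace on the rings of integers -/
noncomputable def tr (x : 𝓞 M) : 𝓞 F :=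
  ⟨Algebra.trace F M (x : M), Algebra.isIntegral_trace x.isIntegral_coe⟩

@[simp] theorem coe_nm (x : 𝓞 M) : ((nm x : 𝓞 F) : F) = Algebra.norm F (x : M) := rfl
@[simp] theorem coe_tr (x : 𝓞 M) : ((tr x : 𝓞 F) : F) = Algebra.trace F M (x : M) := rfl

theorem coe_algebraMap (a : 𝓞 F) : ((algebraMap (𝓞 F) (𝓞 M) a : 𝓞 M) : M) = algebraMap F M (a : F) := rfl

theorem nm_spec (x : 𝓞 M) : algebraMap (𝓞 F) (𝓞 M) (nm x) = x * Q.sg x := by
  apply RingOfIntegers.ext
  rw [coe_algebraMap, coe_nm, Q.norm_eq]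
  rfl

theorem tr_spec (x : 𝓞 M) : algebraMap (𝓞 F) (𝓞 M) (tr x) = x + Q.sg x := by
  apply RingOfIntegers.ext
  rw [coe_algebraMap, coe_tr, Q.trace_eq]
  rfl

theorem algebraMap_inj {a b : 𝓞 F} (h : algebraMap (𝓞 F) (𝓞 M) a = algebraMap (𝓞 F) (𝓞 M) b) :
    a = b := by
  apply RingOfIntegers.ext
  have h2 := congrArg (fun x : 𝓞 M => (x : M)) h
  simp only [coe_algebraMap] at h2
  exact (algebraMap F M).injective h2

theorem nm_mul (x y : 𝓞 M) : (nm (x * y) : 𝓞 F) = nm x * nm y := by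
  apply RingOfIntegers.ext
  change Algebra.norm F ((x : M) * (y : M)) = Algebra.norm F (x : M) * Algebra.norm F (y : M)
  rw [map_mul]

theorem nm_one : (nm (1 : 𝓞 M) : 𝓞 F) = 1 := by
  apply RingOfIntegers.ext
  change Algebra.norm F (1 : M) = 1
  rw [map_one]

theorem tr_add (x y : 𝓞 M) : (tr (x + y) : 𝓞 F) = tr x + tr y := by
  apply RingOfIntegers.ext
  change Algebra.trace F M ((x : M) + (y : M)) = Algebra.trace F M (x : M) + Algebra.trace F M (y : M)
  rw [map_add]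

theorem tr_mul_algebraMap (x : 𝓞 M) (a : 𝓞 F) :
    (tr (x * algebraMap (𝓞 F) (𝓞 M) a) : 𝓞 F) = tr x * a := by
  apply RingOfIntegers.ext
  change Algebra.trace F M ((x : M) * algebraMap F M (a : F)) = Algebra.trace F M (x : M) * (a : F)
  rw [mul_comm, ← Algebra.smul_def, map_smul, smul_eq_mul, mul_comm]

theorem nm_add (x y : 𝓞 M) : (nm (x + y) : 𝓞 F) = nm x + tr (x * Q.sg y) + nm y := by
  apply Quad.algebraMap_inj (M := M)
  rw [map_add, map_add, Q.nm_spec, Q.nm_spec, Q.nm_spec, Q.tr_spec, map_add, map_mul, sg_sg]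
  ring

include Q in
theorem nm_algebraMap_mul (x : 𝓞 M) (a : 𝓞 F) :
    (nm (x * algebraMap (𝓞 F) (𝓞 M) a) : 𝓞 F) = nm x * a ^ 2 := by
  apply RingOfIntegers.ext
  change Algebra.norm F ((x : M) * algebraMap F M (a : F)) = Algebra.norm F (x : M) * (a : F) ^ 2
  rw [map_mul, Algebra.norm_algebraMap, Q.deg]

/-- extension of ideals -/
noncomputable abbrev ext (I : Ideal (𝓞 F)) : Ideal (𝓞 M) := I.map (algebraMap (𝓞 F) (𝓞 M))

/-- conjugate ideal -/
noncomputable abbrev cj (J : Ideal (𝓞 M)) : Ideal (𝓞 M) := J.map (Q.sg : 𝓞 M →+* 𝓞 M)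

theorem mem_cj {J : Ideal (𝓞 M)} {x : 𝓞 M} : x ∈ Q.cj J ↔ Q.sg x ∈ J := by
  constructor
  · intro h
    have h2 : Q.cj J = J.comap (Q.sg : 𝓞 M →+* 𝓞 M) := by
      have h3 : (Q.sg : 𝓞 M ≃+* 𝓞 M).symm = Q.sg := by
        apply RingEquiv.ext
        intro x
        rw [RingEquiv.symm_apply_eq, Q.sg_sg]
      have h4 := Ideal.map_comap_of_equiv (I := J) Q.sg
      rw [h3] at h4
      exact h4
    rw [h2] at h
    exact h
  · intro h
    have h2 : x = (Q.sg : 𝓞 M →+* 𝓞 M) (Q.sg x) := (Q.sg_sg x).symm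
    rw [h2]
    exact Ideal.mem_map_of_mem _ h

theorem sg_mem_cj {J : Ideal (𝓞 M)} {x : 𝓞 M} : Q.sg x ∈ Q.cj J ↔ x ∈ J := by
  rw [mem_cj, sg_sg]

theorem cj_ext (I : Ideal (𝓞 F)) : Q.cj (ext I) = ext I := by
  unfold cj ext
  rw [Ideal.map_map]
  congr 1
  ext x
  simp

theorem mem_ext_iff {I : Ideal (𝓞 F)} {a : 𝓞 F} : algebraMap (𝓞 F) (𝓞 M) a ∈ (ext I : Ideal (𝓞 M)) ↔ a ∈ I := by
  have h := Ideal.comap_map_eq_self_of_faithfullyFlat (A := 𝓞 F) (B := 𝓞 M) I
  constructor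
  · intro h1
    rw [← h]
    exact h1
  · exact fun h1 => Ideal.mem_map_of_mem _ h1

theorem ext_ne_bot {I : Ideal (𝓞 F)} (h : I ≠ ⊥) : (ext I : Ideal (𝓞 M)) ≠ ⊥ := by
  obtain ⟨a, ha, ha0⟩ := Submodule.exists_mem_ne_zero_of_ne_bot h
  intro h2
  have h3 : algebraMap (𝓞 F) (𝓞 M) a ∈ (ext I : Ideal (𝓞 M)) := Ideal.mem_map_of_mem _ ha
  rw [h2, Ideal.mem_bot] at h3
  exact ha0 (Quad.algebraMap_inj (M := M) (by rw [h3, map_zero]))

theorem ext_mul (I J : Ideal (𝓞 F)) : (ext (I * J) : Ideal (𝓞 M)) = ext I * ext J := Ideal.map_mul _ _ _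

theorem ext_le_ext {I J : Ideal (𝓞 F)} : (ext I : Ideal (𝓞 M)) ≤ ext J ↔ I ≤ J := by
  constructor
  · intro h a ha
    rw [← mem_ext_iff (M := M)]
    exact h (Ideal.mem_map_of_mem _ ha)
  · exact fun h => Ideal.map_mono h

theorem mul_le_mul_cancel {R : Type*} [CommRing R] [IsDedekindDomain R] {I J K : Ideal R}
    (hI : I ≠ ⊥) (h : I * J ≤ I * K) : J ≤ K := by
  rw [← Ideal.dvd_iff_le] at h ⊢
  exact (mul_dvd_mul_iff_left (by simpa using hI)).mp h

include Q in
theorem tr_mem {I : Ideal (𝓞 F)} {x : 𝓞 M} (h : x ∈ (ext I : Ideal (𝓞 M))) : tr x ∈ I := by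
  rw [← mem_ext_iff (M := M), Q.tr_spec]
  refine add_mem h ?_
  rw [← Q.mem_cj, Q.cj_ext]
  exact h

end Quad

end Fermat.Agent.LT.I.GS
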