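import Fermat.Agent.LT.I.Mean
import Fermat.Agent.LT.I.Quad

/-!
# Quadratic Gauss sums attached to the norm form of a quadratic extension
-/

set_option autoImplicit false
set_option linter.unusedSectionVars false

open NumberField

namespace Fermat.Agent.LT.I.GS

section finite

theorem sum_eq_units {K : Type*} [Field K] [Fintype K] [DecidableEq K] (f : K → ℂ) :
    ∑ x, f x = f 0 + ∑ u : Kˣ, f u := by
  rw [← Finset.add_sum_erase _ _ (Finset.mem_univ (0 : K))]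
  congr 1
  have h1 : ∑ u : Kˣ, f u = ∑ x : {a : K // a ≠ 0}, f x :=
    Equiv.sum_comp unitsEquivNeZero (fun x : {a : K // a ≠ 0} => f x)
  rw [h1]
  refine Finset.sum_subtype _ (fun x => ?_) f
  simp

/-- The norm form of the quadratic extension of a finite field. -/
theorem sum_norm_finite {k K : Type*} [Field k] [Fintype k] [Field K] [Fintype K] [Algebra k K]
    (h2 : Module.finrank k K = 2) (χ : AddChar k ℂ) (hχ : χ ≠ 1) :
    (Fintype.card K : ℂ)⁻¹ * ∑ x : K, χ (Algebra.norm k x) = -(Fintype.card k : ℂ)⁻¹ := by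
  classical
  have h0 := AddChar.sum_eq_zero_of_ne_one hχ
  rw [sum_eq_units, AddChar.map_zero_eq_one] at h0
  rw [sum_eq_units]
  have hz : Algebra.norm k (0 : K) = 0 := by
    rw [Algebra.norm_zero]
  rw [hz, AddChar.map_zero_eq_one]
  have h1 := avg_surj (MonoidHom.toAdditive (Units.map (Algebra.norm k (S := K))))
    (fun x => FiniteField.unitsMap_norm_surjective k K x) (fun u : Additive kˣ => χ (u.toMul : kˣ))
  have hK : Fintype.card K = Fintype.card k ^ 2 := by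
    rw [Module.card_eq_pow_finrank (K := k) (V := K), h2]
  have hk1 : 1 < Fintype.card k := Fintype.one_lt_card
  have hcK : (Fintype.card (Additive Kˣ) : ℂ) = (Fintype.card k : ℂ) ^ 2 - 1 := by
    have : Fintype.card (Additive Kˣ) = Fintype.card K - 1 := by
      rw [← Fintype.card_units K]
      exact Fintype.card_congr Additive.toMul
    rw [this, hK, Nat.cast_sub (Nat.one_le_pow _ _ (by omega))]
    push_cast
    rfl
  have hck : (Fintype.card (Additive kˣ) : ℂ) = (Fintype.card k : ℂ) - 1 := by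
    have : Fintype.card (Additive kˣ) = Fintype.card k - 1 := by
      rw [← Fintype.card_units k]
      exact Fintype.card_congr Additive.toMul
    rw [this, Nat.cast_sub (by omega)]
    push_cast
    rfl
  rw [hcK, hck] at h1
  have h3 : ∑ q : Additive kˣ, χ ((Additive.toMul q : kˣ) : k) = -1 := by
    rw [eq_neg_iff_add_eq_zero, add_comm, ← h0]
    congr 1
    exact Equiv.sum_comp Additive.toMul (fun u : kˣ => χ (u : k))
  have h4 : ∑ t : Additive Kˣ, χ (((MonoidHom.toAdditive (Units.map (Algebra.norm k (S := K)))) t).toMul : kˣ) =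
      ∑ u : Kˣ, χ (Algebra.norm k (u : K)) :=
    Equiv.sum_comp Additive.toMul (fun u : Kˣ => χ (Algebra.norm k (u : K)))
  rw [h3, h4] at h1
  set S := ∑ u : Kˣ, χ (Algebra.norm k (u : K)) with hS
  have hq0 : (Fintype.card k : ℂ) ≠ 0 := by exact_mod_cast Fintype.card_ne_zero
  have hq1 : (Fintype.card k : ℂ) - 1 ≠ 0 := by
    rw [sub_ne_zero]; exact_mod_cast hk1.ne'
  have hq2 : (Fintype.card k : ℂ) ^ 2 - 1 ≠ 0 := by
    rw [sub_ne_zero]
    have : 1 < Fintype.card k ^ 2 := by nlinarith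
    exact_mod_cast this.ne'
  have hS2 : S = -((Fintype.card k : ℂ) + 1) := by
    field_simp at h1
    have h5 : ((Fintype.card k : ℂ) - 1) * S = ((Fintype.card k : ℂ) - 1) * -((Fintype.card k : ℂ) + 1) := by
      rw [mul_comm, h1]; ring
    exact mul_left_cancel₀ hq1 h5
  rw [hS2, hK]
  push_cast
  field_simp
  ring

end finite

section nf

variable {F M : Type} [Field F] [NumberField F] [Field M] [NumberField M] [Algebra F M]

theorem finiteIndex_ideal {K : Type} [Field K] [NumberField K] {J : Ideal (𝓞 K)} (hJ : J ≠ ⊥) :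
    J.toAddSubgroup.FiniteIndex := by
  constructor
  have h := Ideal.absNorm_eq_zero_iff (I := J)
  rw [Ideal.absNorm_apply] at h
  exact fun h0 => hJ (h.mp h0)

theorem index_ideal {K : Type} [Field K] [NumberField K] (J : Ideal (𝓞 K)) :
    J.toAddSubgroup.index = Ideal.absNorm J := by
  rw [Ideal.absNorm_apply]; rfl

/-- `ψ` has conductor exactly `q`. -/
def Prim (q : Ideal (𝓞 F)) (ψ : AddChar (𝓞 F) ℂ) : Prop := ∀ a, (∀ b, ψ (a * b) = 1) ↔ a ∈ q

theorem Prim.eq_one {q : Ideal (𝓞 F)} {ψ : AddChar (𝓞 F) ℂ} (h : Prim q ψ) {a : 𝓞 F} (ha : a ∈ q) :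
    ψ a = 1 := by
  have := (h a).mpr ha 1
  rwa [mul_one] at this

/-- The mean of `ψ ∘ N`. -/
noncomputable def gm (M : Type) [Field M] [NumberField M] [Algebra F M] (ψ : AddChar (𝓞 F) ℂ) : ℂ :=
  mean (fun x : 𝓞 M => ψ (Quad.nm x))

open Quad

variable (Q : Quad F M)

include Q in
theorem perMod_nm {q : Ideal (𝓞 F)} {ψ : AddChar (𝓞 F) ℂ} (h : Prim q ψ) :
    PerMod (ext q : Ideal (𝓞 M)).toAddSubgroup (fun x : 𝓞 M => ψ (nm x)) := by
  intro z hz x
  have hz' : z ∈ (ext q : Ideal (𝓞 M)) := hz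
  have hz2 : Q.sg z ∈ (ext q : Ideal (𝓞 M)) := by
    rw [← Q.mem_cj, Q.cj_ext]; exact hz'
  simp only
  have hz3 : nm z ∈ q := by
    rw [← mem_ext_iff (M := M), Q.nm_spec]
    exact Ideal.mul_mem_right _ _ hz'
  rw [Q.nm_add, AddChar.map_add_eq_mul, AddChar.map_add_eq_mul,
    h.eq_one (Q.tr_mem (Ideal.mul_mem_left _ _ hz2)), mul_one, h.eq_one hz3, mul_one]

include Q in
theorem per_nm {q : Ideal (𝓞 F)} (hq : q ≠ ⊥) {ψ : AddChar (𝓞 F) ℂ} (h : Prim q ψ) :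
    Per (fun x : 𝓞 M => ψ (nm x)) :=
  ⟨_, finiteIndex_ideal (ext_ne_bot hq), perMod_nm Q h⟩

theorem mem_nm_of_mem {A : Ideal (𝓞 M)} {n : Ideal (𝓞 F)} (hA : (ext n : Ideal (𝓞 M)) = A * Q.cj A)
    {α : 𝓞 M} (h : α ∈ A) : nm α ∈ n := by
  rw [← mem_ext_iff (M := M), Q.nm_spec, hA]
  exact Ideal.mul_mem_mul h (Q.sg_mem_cj.mpr h)

theorem gm_red_aux1 (A : Ideal (𝓞 M)) (n q : Ideal (𝓞 F))
    (hA : (ext n : Ideal (𝓞 M)) = A * Q.cj A) {b : 𝓞 M} (hb : b ∈ A * (ext q : Ideal (𝓞 M))) :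
    nm b ∈ n * q := by
  rw [← mem_ext_iff (M := M), Q.nm_spec, ext_mul, hA]
  have hb1 : b ∈ A := Ideal.mul_le_left hb
  have hb2 : Q.sg b ∈ Q.cj A := Q.sg_mem_cj.mpr hb1
  have h := Ideal.mul_mem_mul hb hb2
  have e : A * (ext q : Ideal (𝓞 M)) * Q.cj A = A * Q.cj A * ext q := by ring
  rwa [e] at h

theorem gm_red_aux2 (A : Ideal (𝓞 M)) (n q : Ideal (𝓞 F))
    (hA : (ext n : Ideal (𝓞 M)) = A * Q.cj A) {g b : 𝓞 M} (hg : g ∈ A)
    (hb : b ∈ A * (ext q : Ideal (𝓞 M))) : tr (g * Q.sg b) ∈ n * q := by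
  apply Q.tr_mem
  rw [ext_mul, hA]
  have hb2 : Q.sg b ∈ Q.cj (A * (ext q : Ideal (𝓞 M))) := Q.sg_mem_cj.mpr hb
  have h := Ideal.mul_mem_mul hg hb2
  have e : A * Q.cj (A * (ext q : Ideal (𝓞 M))) = A * Q.cj A * ext q := by
    unfold cj
    rw [Ideal.map_mul, ← mul_assoc]
    congr 1
    exact Q.cj_ext q
  rwa [e] at h

theorem mul_mem_cancel {n q : Ideal (𝓞 F)} (hq : q ≠ ⊥) {t : 𝓞 F} (h : ∀ b ∈ q, t * b ∈ n * q) :
    t ∈ n := by
  have h6 : q * Ideal.span {t} ≤ q * n := by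
    rw [Ideal.mul_le]
    intro r hr s hs
    obtain ⟨c, rfl⟩ := Ideal.mem_span_singleton'.mp hs
    have h2 := Ideal.mul_mem_left _ c (h r hr)
    rw [mul_comm q n]
    have e : r * (c * t) = c * (t * r) := by ring
    rwa [e]
  exact (mul_le_mul_cancel hq h6) (Ideal.mem_span_singleton_self _)

theorem gm_red_aux3 (A : Ideal (𝓞 M)) (n q : Ideal (𝓞 F)) (hn : n ≠ ⊥) (hq : q ≠ ⊥)
    (hA : (ext n : Ideal (𝓞 M)) = A * Q.cj A)
    (ND : ∀ x : 𝓞 M, (∀ y ∈ A, tr (x * Q.sg y) ∈ n) → x ∈ A)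
    {ψ : AddChar (𝓞 F) ℂ} (hψ : Prim (n * q) ψ) :
    gm M ψ = (Ideal.absNorm A : ℂ)⁻¹ * mean (fun a : A.toAddSubgroup => ψ (nm (a : 𝓞 M))) := by
  have hA0 : A ≠ ⊥ := by
    rintro rfl
    rw [Ideal.bot_mul] at hA
    exact ext_ne_bot hn hA
  have hfA := finiteIndex_ideal hA0
  rw [← index_ideal]
  refine mean_isotropic (per_nm Q (mul_ne_zero hn hq) hψ)
    (A * (ext q : Ideal (𝓞 M))).toAddSubgroup A.toAddSubgroup ?_ ?_
  · intro g hg b hb
    rw [Q.nm_add, AddChar.map_add_eq_mul, AddChar.map_add_eq_mul,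
      hψ.eq_one (gm_red_aux2 Q A n q hA hg hb), mul_one, hψ.eq_one (gm_red_aux1 Q A n q hA hb),
      mul_one]
  · intro g hg
    have h4 : ∃ y ∈ A, tr (g * Q.sg y) ∉ n := by
      by_contra hc
      push Not at hc
      exact hg (ND g hc)
    obtain ⟨y, hy, hy2⟩ := h4
    have h5 : ∃ b ∈ q, tr (g * Q.sg y) * b ∉ n * q := by
      by_contra hc
      push Not at hc
      exact hy2 (mul_mem_cancel hq hc)
    obtain ⟨b, hb, hb2⟩ := h5
    have h6 : ∃ c, ψ (tr (g * Q.sg y) * b * c) ≠ 1 := by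
      by_contra hc
      push Not at hc
      exact hb2 ((hψ _).mp hc)
    obtain ⟨c, hc⟩ := h6
    have hmem : y * algebraMap (𝓞 F) (𝓞 M) (b * c) ∈ A * (ext q : Ideal (𝓞 M)) :=
      Ideal.mul_mem_mul hy (Ideal.mem_map_of_mem _ (Ideal.mul_mem_right _ _ hb))
    refine ⟨_, hc, _, hmem, fun z hz => ?_⟩
    have hz1 : nm (z + y * algebraMap (𝓞 F) (𝓞 M) (b * c)) ∈ n * q :=
      gm_red_aux1 Q A n q hA (add_mem hz hmem)
    have hz2 : nm z ∈ n * q := gm_red_aux1 Q A n q hA hz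
    rw [Q.nm_add g, AddChar.map_add_eq_mul, AddChar.map_add_eq_mul, hψ.eq_one hz1, mul_one,
      Q.nm_add g, AddChar.map_add_eq_mul, AddChar.map_add_eq_mul, hψ.eq_one hz2, mul_one,
      map_add, mul_add, tr_add, AddChar.map_add_eq_mul, map_mul Q.sg, sg_algebraMap, ← mul_assoc g,
      tr_mul_algebraMap, mul_assoc (tr _) b c]
    ring

theorem gm_red_aux4 (A : Ideal (𝓞 M)) (n q : Ideal (𝓞 F)) (hn : n ≠ ⊥)
    (hA : (ext n : Ideal (𝓞 M)) = A * Q.cj A) {α : 𝓞 M}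
    (hα : (ext (n * q) : Ideal (𝓞 M)) ⊔ Ideal.span {α} = A) {a : 𝓞 F} (h : nm α * a ∈ n * q) :
    a ∈ q := by
  have h5 : (ext n : Ideal (𝓞 M)) ≤ ext (n * q) ⊔ Ideal.span {algebraMap (𝓞 F) (𝓞 M) (nm α)} := by
    rw [hA, Ideal.mul_le]
    intro r hr t ht
    rw [← hα, Submodule.mem_sup] at hr
    have ht' : Q.sg t ∈ A := Q.mem_cj.mp ht
    rw [← hα, Submodule.mem_sup] at ht'
    obtain ⟨r1, hr1, r2, hr2, rfl⟩ := hr
    obtain ⟨t1, ht1, t2, ht2, ht3⟩ := ht'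
    obtain ⟨r3, rfl⟩ := Ideal.mem_span_singleton'.mp hr2
    obtain ⟨t3, rfl⟩ := Ideal.mem_span_singleton'.mp ht2
    have ht4 : t = Q.sg t1 + Q.sg t3 * Q.sg α := by
      rw [← map_mul, ← map_add, ht3, sg_sg]
    have ht5 : Q.sg t1 ∈ (ext (n * q) : Ideal (𝓞 M)) := by
      rw [← Q.cj_ext, Q.sg_mem_cj]; exact ht1
    rw [ht4]
    have e1 : (r1 + r3 * α) * (Q.sg t1 + Q.sg t3 * Q.sg α) =
        (r1 * (Q.sg t1 + Q.sg t3 * Q.sg α) + r3 * α * Q.sg t1) + (r3 * Q.sg t3) * (α * Q.sg α) := by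
      ring
    rw [e1, ← Q.nm_spec]
    exact Submodule.add_mem_sup (add_mem (Ideal.mul_mem_right _ _ hr1)
      (Ideal.mul_mem_left _ _ ht5)) (Ideal.mul_mem_left _ _ (Ideal.mem_span_singleton_self _))
  have h4 : (ext n : Ideal (𝓞 M)) * Ideal.span {algebraMap (𝓞 F) (𝓞 M) a} ≤ ext n * ext q := by
    rw [← ext_mul]
    refine (Ideal.mul_mono_left h5).trans ?_
    rw [Ideal.sup_mul]
    refine sup_le Ideal.mul_le_left ?_
    rw [Ideal.span_singleton_mul_span_singleton, ← map_mul, Ideal.span_singleton_le_iff_mem]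
    exact Ideal.mem_map_of_mem _ h
  have h6 := mul_le_mul_cancel (ext_ne_bot hn) h4
  rw [← mem_ext_iff (M := M)]
  exact h6 (Ideal.mem_span_singleton_self _)

/-- **Isotropic reduction.** -/
theorem gm_red (A : Ideal (𝓞 M)) (n q : Ideal (𝓞 F)) (hn : n ≠ ⊥) (hq : q ≠ ⊥)
    (hA : (ext n : Ideal (𝓞 M)) = A * Q.cj A)
    (ND : ∀ x : 𝓞 M, (∀ y ∈ A, tr (x * Q.sg y) ∈ n) → x ∈ A)
    {ψ : AddChar (𝓞 F) ℂ} (hψ : Prim (n * q) ψ) :
    ∃ a : 𝓞 F, Prim q (ψ.mulShift a) ∧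
      gm M ψ = (Ideal.absNorm A : ℂ)⁻¹ * gm M (ψ.mulShift a) := by
  have hnq : n * q ≠ ⊥ := mul_ne_zero hn hq
  have hqA : (ext (n * q) : Ideal (𝓞 M)) ≤ A := by
    rw [ext_mul, hA, mul_assoc]
    exact Ideal.mul_le_left
  obtain ⟨α, hα⟩ := IsDedekindDomain.exists_sup_span_eq hqA (ext_ne_bot hnq)
  have hαA : α ∈ A := by
    rw [← hα]; exact Ideal.mem_sup_right (Ideal.mem_span_singleton_self _)
  refine ⟨nm α, ?_, ?_⟩
  · intro a
    have h2 : (∀ b, (ψ.mulShift (nm α)) (a * b) = 1) ↔ nm α * a ∈ n * q := by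
      rw [← hψ]
      simp only [AddChar.mulShift_apply, mul_assoc]
    rw [h2]
    exact ⟨gm_red_aux4 Q A n q hn hA hα, fun ha => Ideal.mul_mem_mul (mem_nm_of_mem Q hA hαA) ha⟩
  · rw [gm_red_aux3 Q A n q hn hq hA ND hψ]
    congr 1
    let φ : 𝓞 M →+ A.toAddSubgroup :=
      { toFun := fun x => ⟨α * x, A.mul_mem_right x hαA⟩
        map_zero' := by ext; simp
        map_add' := by intro x y; ext; simp [mul_add] }
    have hfin := finiteIndex_ideal (ext_ne_bot (M := M) hnq)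
    have h2 := mean_comp φ ((ext (n * q) : Ideal (𝓞 M)).toAddSubgroup.addSubgroupOf A.toAddSubgroup)
      (f := fun a : A.toAddSubgroup => ψ (nm (a : 𝓞 M))) (fun g => by
        have hg : (g : 𝓞 M) ∈ (ext (n * q) : Ideal (𝓞 M)) ⊔ Ideal.span {α} := hα.symm ▸ g.2
        obtain ⟨y, hy, z, hz, hyz⟩ := Submodule.mem_sup.mp hg
        obtain ⟨c, rfl⟩ := Ideal.mem_span_singleton'.mp hz
        refine ⟨c, ?_⟩
        change (g : 𝓞 M) - α * c ∈ (ext (n * q) : Ideal (𝓞 M))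
        rw [← hyz]
        have : y + c * α - α * c = y := by ring
        rw [this]
        exact hy) (fun z hz b => perMod_nm Q hψ z hz b)
    rw [← h2]
    unfold gm
    congr 1
    funext x
    change ψ (nm (α * x)) = _
    rw [nm_mul, AddChar.mulShift_apply]

include Q in
/-- Independence at coprime conductors. -/
theorem gm_indep (p q : Ideal (𝓞 F)) (hp : p ≠ ⊥) (hq : q ≠ ⊥) (hpq : p ⊔ q = ⊤)
    {ψ : AddChar (𝓞 F) ℂ} (hψ : Prim (p * q) ψ) :
    ∃ e f : 𝓞 F, Prim p (ψ.mulShift e) ∧ Prim q (ψ.mulShift f) ∧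
      gm M ψ = gm M (ψ.mulShift e) * gm M (ψ.mulShift f) := by
  obtain ⟨f, hf, e, he, hfe⟩ := Submodule.mem_sup.mp (hpq ▸ Submodule.mem_top : (1 : 𝓞 F) ∈ p ⊔ q)
  have h1 : Prim p (ψ.mulShift e) := by
    intro a
    have h2 : (∀ b, (ψ.mulShift e) (a * b) = 1) ↔ e * a ∈ p * q := by
      rw [← hψ]
      simp only [AddChar.mulShift_apply, mul_assoc]
    rw [h2]
    constructor
    · intro h3
      have h4 : e * a ∈ p := Ideal.mul_le_left h3
      have h5 : a = f * a + e * a := by rw [← add_mul, hfe, one_mul]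
      rw [h5]
      exact add_mem (Ideal.mul_mem_right _ _ hf) h4
    · intro ha
      rw [mul_comm e a]
      exact Ideal.mul_mem_mul ha he
  have h2 : Prim q (ψ.mulShift f) := by
    intro a
    have h2 : (∀ b, (ψ.mulShift f) (a * b) = 1) ↔ f * a ∈ p * q := by
      rw [← hψ]
      simp only [AddChar.mulShift_apply, mul_assoc]
    rw [h2]
    constructor
    · intro h3
      have h4 : f * a ∈ q := Ideal.mul_le_right h3
      have h5 : a = f * a + e * a := by rw [← add_mul, hfe, one_mul]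
      rw [h5]
      exact add_mem h4 (Ideal.mul_mem_right _ _ he)
    · intro ha
      exact Ideal.mul_mem_mul hf ha
  refine ⟨e, f, h1, h2, ?_⟩
  have := finiteIndex_ideal (ext_ne_bot (M := M) hp)
  have := finiteIndex_ideal (ext_ne_bot (M := M) hq)
  unfold gm
  rw [← mean_mul_indep _ _ (perMod_nm Q h1) (perMod_nm Q h2)]
  · congr 1
    funext x
    rw [AddChar.mulShift_apply, AddChar.mulShift_apply, ← AddChar.map_add_eq_mul, ← add_mul,
      add_comm e f, hfe, one_mul]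
  · intro g
    refine ⟨algebraMap (𝓞 F) (𝓞 M) f * g, Ideal.mul_mem_right _ _ (Ideal.mem_map_of_mem _ hf), ?_⟩
    have : g - algebraMap (𝓞 F) (𝓞 M) f * g = algebraMap (𝓞 F) (𝓞 M) e * g := by
      rw [sub_eq_iff_eq_add, ← add_mul, ← map_add, add_comm e f, hfe, map_one, one_mul]
    rw [this]
    exact Ideal.mul_mem_right _ _ (Ideal.mem_map_of_mem _ he)

/-- A prime of `F` is inert in `M`. -/
def Inert (M : Type) [Field M] [NumberField M] [Algebra F M] (p : Ideal (𝓞 F)) : Prop :=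
  (ext p : Ideal (𝓞 M)).IsPrime

/-- A prime of `F` splits in `M`. -/
def Split (Q : Quad F M) (p : Ideal (𝓞 F)) : Prop :=
  ∃ P : Ideal (𝓞 M), P.IsPrime ∧ P ≠ Q.cj P ∧ (ext p : Ideal (𝓞 M)) = P * Q.cj P

section inert

variable (p : Ideal (𝓞 F)) (hp0 : p ≠ ⊥) [hp : p.IsPrime]

theorem inert_aux (hin : Inert M p) (hp0 : p ≠ ⊥) : ∃ y : 𝓞 M, Q.sg y - y ∉ (ext p : Ideal (𝓞 M)) := by
  have hpm : p.IsMaximal := hp.isMaximal hp0
  have hPm : (ext p : Ideal (𝓞 M)).IsMaximal := Ideal.IsPrime.isMaximal hin (ext_ne_bot hp0)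
  by_contra hc
  push Not at hc
  let _ := Ideal.Quotient.field p
  let _ := Ideal.Quotient.field (ext p : Ideal (𝓞 M))
  have hfin : Finite (𝓞 M ⧸ (ext p : Ideal (𝓞 M))) := Ideal.finiteQuotientOfFreeOfNeBot _ (ext_ne_bot hp0)
  have hrank : Module.finrank (𝓞 F ⧸ p) (𝓞 M ⧸ (ext p : Ideal (𝓞 M))) = 2 := by
    rw [Ideal.finrank_quotient_map p F M, Q.deg]
  have hsurj : Function.Surjective (algebraMap (𝓞 F ⧸ p) (𝓞 M ⧸ (ext p : Ideal (𝓞 M)))) := by
    have hlift : ∀ (a : 𝓞 F), algebraMap (𝓞 F ⧸ p) (𝓞 M ⧸ (ext p : Ideal (𝓞 M)))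
        (Ideal.Quotient.mk p a) = Ideal.Quotient.mk _ (algebraMap (𝓞 F) (𝓞 M) a) := fun a => rfl
    by_cases h2 : ringChar (𝓞 M ⧸ (ext p : Ideal (𝓞 M))) = 2
    · intro x
      obtain ⟨y, hy⟩ := FiniteField.isSquare_of_char_two h2 x
      obtain ⟨y, rfl⟩ := Ideal.Quotient.mk_surjective y
      refine ⟨Ideal.Quotient.mk p (nm y), ?_⟩
      rw [hlift, hy, Q.nm_spec, ← map_mul, Ideal.Quotient.eq]
      have : y * Q.sg y - y * y = y * (Q.sg y - y) := by ring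
      rw [this]
      exact Ideal.mul_mem_left _ _ (hc y)
    · have h3 : (2 : 𝓞 M ⧸ (ext p : Ideal (𝓞 M))) ≠ 0 := Ring.two_ne_zero h2
      intro x
      obtain ⟨y, hy⟩ := Ideal.Quotient.mk_surjective ((2 : 𝓞 M ⧸ (ext p : Ideal (𝓞 M)))⁻¹ * x)
      refine ⟨Ideal.Quotient.mk p (tr y), ?_⟩
      have h4 : x = 2 * Ideal.Quotient.mk _ y := by
        rw [hy, ← mul_assoc, mul_inv_cancel₀ h3, one_mul]
      rw [hlift, h4, Q.tr_spec, two_mul, ← map_add, Ideal.Quotient.eq]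
      have : y + Q.sg y - (y + y) = Q.sg y - y := by ring
      rw [this]
      exact hc y
  have h5 : Module.finrank (𝓞 F ⧸ p) (𝓞 M ⧸ (ext p : Ideal (𝓞 M))) = 1 := by
    refine finrank_eq_one 1 one_ne_zero fun w => ?_
    obtain ⟨c, rfl⟩ := hsurj w
    exact ⟨c, by rw [Algebra.smul_def, mul_one]⟩
  omega

include Q in
theorem gm_inert (hin : Inert M p) (hp0 : p ≠ ⊥) {ψ : AddChar (𝓞 F) ℂ} (hψ : Prim p ψ) :
    gm M ψ = -(Ideal.absNorm p : ℂ)⁻¹ := by
  classical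
  obtain ⟨y0, hy0⟩ := inert_aux Q p hin hp0
  have hpm : p.IsMaximal := hp.isMaximal hp0
  have hPm : (ext p : Ideal (𝓞 M)).IsMaximal := Ideal.IsPrime.isMaximal hin (ext_ne_bot hp0)
  let _ := Ideal.Quotient.field p
  let _ := Ideal.Quotient.field (ext p : Ideal (𝓞 M))
  have hfin : Finite (𝓞 M ⧸ (ext p : Ideal (𝓞 M))) :=
    Ideal.finiteQuotientOfFreeOfNeBot _ (ext_ne_bot hp0)
  have hfin2 : Finite (𝓞 F ⧸ p) := Ideal.finiteQuotientOfFreeOfNeBot _ hp0
  have := Fintype.ofFinite (𝓞 M ⧸ (ext p : Ideal (𝓞 M)))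
  have := Fintype.ofFinite (𝓞 F ⧸ p)
  have hrank : Module.finrank (𝓞 F ⧸ p) (𝓞 M ⧸ (ext p : Ideal (𝓞 M))) = 2 := by
    rw [Ideal.finrank_quotient_map p F M, Q.deg]
  have hlift : ∀ (a : 𝓞 F), algebraMap (𝓞 F ⧸ p) (𝓞 M ⧸ (ext p : Ideal (𝓞 M)))
      (Ideal.Quotient.mk p a) = Ideal.Quotient.mk _ (algebraMap (𝓞 F) (𝓞 M) a) := fun a => rfl
  -- the conjugation on the residue field
  let sb : (𝓞 M ⧸ (ext p : Ideal (𝓞 M))) ≃ₐ[𝓞 F ⧸ p] (𝓞 M ⧸ (ext p : Ideal (𝓞 M))) :=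
    AlgEquiv.ofRingEquiv (f := Ideal.quotientEquiv (ext p) (ext p) Q.sg (Q.cj_ext p).symm) (by
      intro x
      obtain ⟨a, rfl⟩ := Ideal.Quotient.mk_surjective x
      rw [hlift]
      change Ideal.Quotient.mk _ (Q.sg _) = _
      rw [sg_algebraMap])
  have hsb : ∀ x : 𝓞 M, sb (Ideal.Quotient.mk _ x) = Ideal.Quotient.mk _ (Q.sg x) := fun x => rfl
  have hsb1 : sb ≠ 1 := by
    intro h
    apply hy0
    rw [← Ideal.Quotient.eq, ← hsb, h]
    rfl
  have hcard : Fintype.card ((𝓞 M ⧸ (ext p : Ideal (𝓞 M))) ≃ₐ[𝓞 F ⧸ p]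
      (𝓞 M ⧸ (ext p : Ideal (𝓞 M)))) = 2 := by
    rw [← Nat.card_eq_fintype_card, IsGalois.card_aut_eq_finrank, hrank]
  have huniv : (Finset.univ : Finset ((𝓞 M ⧸ (ext p : Ideal (𝓞 M))) ≃ₐ[𝓞 F ⧸ p]
      (𝓞 M ⧸ (ext p : Ideal (𝓞 M))))) = {1, sb} := by
    symm
    apply Finset.eq_univ_of_card
    rw [hcard, Finset.card_pair hsb1.symm]
  have hnorm : ∀ x : 𝓞 M, Algebra.norm (𝓞 F ⧸ p) (Ideal.Quotient.mk (ext p : Ideal (𝓞 M)) x) =
      Ideal.Quotient.mk p (nm x) := by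
    intro x
    apply (algebraMap (𝓞 F ⧸ p) (𝓞 M ⧸ (ext p : Ideal (𝓞 M)))).injective
    rw [Algebra.norm_eq_prod_automorphisms, huniv, Finset.prod_pair hsb1.symm, hlift, Q.nm_spec,
      map_mul, ← hsb]
    rfl
  -- the character on the residue field
  obtain ⟨r, hr⟩ := (Ideal.Quotient.mk_surjective (I := p)).hasRightInverse
  have hr2 : ∀ a, ψ (r (Ideal.Quotient.mk p a)) = ψ a := by
    intro a
    have h1 : r (Ideal.Quotient.mk p a) - a ∈ p := by
      rw [← Ideal.Quotient.eq]; exact hr _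
    have h2 : r (Ideal.Quotient.mk p a) = a + (r (Ideal.Quotient.mk p a) - a) := by ring
    rw [h2, AddChar.map_add_eq_mul, hψ.eq_one h1, mul_one]
  let χ : AddChar (𝓞 F ⧸ p) ℂ :=
    { toFun := fun x => ψ (r x)
      map_zero_eq_one' := by
        rw [← map_zero (Ideal.Quotient.mk p), hr2, AddChar.map_zero_eq_one]
      map_add_eq_mul' := by
        intro x y
        obtain ⟨a, rfl⟩ := Ideal.Quotient.mk_surjective x
        obtain ⟨b, rfl⟩ := Ideal.Quotient.mk_surjective y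
        rw [← map_add, hr2, hr2, hr2, AddChar.map_add_eq_mul] }
  have hχ : ∀ a, χ (Ideal.Quotient.mk p a) = ψ a := hr2
  have hχ1 : χ ≠ 1 := by
    intro h
    apply hp.ne_top
    rw [Ideal.eq_top_iff_one, ← hψ 1]
    intro b
    rw [one_mul, ← hχ, h, AddChar.one_apply]
  have h1 := sum_norm_finite hrank χ hχ1
  have h2 : (Fintype.card (𝓞 F ⧸ p) : ℂ) = (Ideal.absNorm p : ℂ) := by
    rw [Ideal.absNorm_apply, Submodule.cardQuot_apply, Nat.card_eq_fintype_card]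
  rw [h2] at h1
  rw [← h1]
  unfold gm
  rw [← mean_factor (Ideal.Quotient.mk (ext p : Ideal (𝓞 M))).toAddMonoidHom
    Ideal.Quotient.mk_surjective]
  congr 1
  funext x
  change _ = χ (Algebra.norm (𝓞 F ⧸ p) (Ideal.Quotient.mk (ext p : Ideal (𝓞 M)) x))
  rw [hnorm, hχ]

theorem nd_inert (hin : Inert M p) (hp0 : p ≠ ⊥) (x : 𝓞 M) (h : ∀ y : 𝓞 M, tr (x * Q.sg y) ∈ p) :
    x ∈ (ext p : Ideal (𝓞 M)) := by
  obtain ⟨y0, hy0⟩ := inert_aux Q p hin hp0
  have h1 : ∀ y : 𝓞 M, x * Q.sg y + Q.sg x * y ∈ (ext p : Ideal (𝓞 M)) := by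
    intro y
    have h2 := h y
    rw [← mem_ext_iff (M := M), Q.tr_spec, map_mul, sg_sg] at h2
    exact h2
  have h2 : x + Q.sg x ∈ (ext p : Ideal (𝓞 M)) := by
    have := h1 1
    rwa [map_one, mul_one, mul_one] at this
  have h3 : x * (Q.sg y0 - y0) ∈ (ext p : Ideal (𝓞 M)) := by
    have h4 := sub_mem (h1 y0) (Ideal.mul_mem_right y0 _ h2)
    convert h4 using 1
    ring
  exact (hin.mem_or_mem h3).resolve_right hy0

theorem nd_inert' (hin : Inert M p) (hp0 : p ≠ ⊥) (x : 𝓞 M)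
    (h : ∀ y ∈ (ext p : Ideal (𝓞 M)), tr (x * Q.sg y) ∈ p * p) :
    x ∈ (ext p : Ideal (𝓞 M)) := by
  refine nd_inert Q p hin hp0 x fun y => ?_
  refine mul_mem_cancel hp0 fun b hb => ?_
  have h1 := h (y * algebraMap (𝓞 F) (𝓞 M) b) (Ideal.mul_mem_left _ _ (Ideal.mem_map_of_mem _ hb))
  rwa [map_mul, sg_algebraMap, ← mul_assoc, tr_mul_algebraMap] at h1

end inert

theorem nd_split {p : Ideal (𝓞 F)} (hp0 : p ≠ ⊥) {P : Ideal (𝓞 M)} (hP : P.IsPrime)
    (hne : P ≠ Q.cj P) (h : (ext p : Ideal (𝓞 M)) = P * Q.cj P) (x : 𝓞 M)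
    (hx : ∀ y ∈ P, tr (x * Q.sg y) ∈ p) : x ∈ P := by
  have hP0 : P ≠ ⊥ := by
    rintro rfl
    rw [Ideal.bot_mul] at h
    exact ext_ne_bot hp0 h
  have hPm : P.IsMaximal := hP.isMaximal hP0
  have h1 : ∃ y ∈ P, y ∉ Q.cj P := by
    by_contra hc
    push Not at hc
    apply hne
    refine hPm.eq_of_le ?_ hc
    have hcp : (Q.cj P).IsPrime := Ideal.map_isPrime_of_equiv Q.sg
    exact hcp.ne_top
  obtain ⟨y, hy, hy2⟩ := h1
  have h2 := hx y hy
  rw [← mem_ext_iff (M := M), Q.tr_spec, map_mul, sg_sg, h] at h2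
  have h3 : x * Q.sg y ∈ P := by
    have h4 := sub_mem (Ideal.mul_le_left h2) (Ideal.mul_mem_left P (Q.sg x) hy)
    convert h4 using 1
    ring
  refine (hP.mem_or_mem h3).resolve_right fun h5 => hy2 ?_
  rw [Q.mem_cj]
  exact h5

include Q in
theorem absNorm_ext (I : Ideal (𝓞 F)) :
    Ideal.absNorm (ext I : Ideal (𝓞 M)) = Ideal.absNorm I ^ 2 := by
  rw [Ideal.absNorm_algebraMap, ← IsFractionRing.finrank_eq (𝓞 F) F (𝓞 M) M, Q.deg]

theorem absNorm_cj (J : Ideal (𝓞 M)) : Ideal.absNorm (Q.cj J) = Ideal.absNorm J := by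
  rw [Ideal.absNorm_apply, Ideal.absNorm_apply, Submodule.cardQuot_apply, Submodule.cardQuot_apply]
  exact Nat.card_congr (Ideal.quotientEquiv J (Q.cj J) Q.sg rfl).symm.toEquiv

theorem absNorm_split {n : Ideal (𝓞 F)} {A : Ideal (𝓞 M)} (h : (ext n : Ideal (𝓞 M)) = A * Q.cj A) :
    Ideal.absNorm A = Ideal.absNorm n := by
  have h1 := congrArg Ideal.absNorm h
  rw [absNorm_ext Q, map_mul, absNorm_cj, ← sq] at h1
  exact (Nat.pow_left_injective (n := 2) (by norm_num) h1).symm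

theorem Split.not_inert {p : Ideal (𝓞 F)} (hp0 : p ≠ ⊥) (h : Split Q p) : ¬ Inert M p := by
  obtain ⟨P, hP, hne, h⟩ := h
  intro hin
  have hP0 : P ≠ ⊥ := by
    rintro rfl
    rw [Ideal.bot_mul] at h
    exact ext_ne_bot hp0 h
  have hcp : (Q.cj P).IsPrime := Ideal.map_isPrime_of_equiv Q.sg
  have h1 : (ext p : Ideal (𝓞 M)) ≤ P := by rw [h]; exact Ideal.mul_le_left
  have h2 : (ext p : Ideal (𝓞 M)) ≤ Q.cj P := by rw [h]; exact Ideal.mul_le_right
  have hm : (ext p : Ideal (𝓞 M)).IsMaximal := Ideal.IsPrime.isMaximal hin (ext_ne_bot hp0)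
  exact hne ((hm.eq_of_le hP.ne_top h1).symm.trans (hm.eq_of_le hcp.ne_top h2))

open Classical in
/-- The quadratic character of `M/F` on ideals of `F`: `∏ (-1)^{v_p}` over inert `p`. -/
noncomputable def chi (M : Type) [Field M] [NumberField M] [Algebra F M] (q : Ideal (𝓞 F)) : ℂ :=
  ((UniqueFactorizationMonoid.normalizedFactors q).map
    (fun p => if Inert M p then (-1 : ℂ) else 1)).prod

theorem chi_mul {p q : Ideal (𝓞 F)} (hp : p ≠ ⊥) (hq : q ≠ ⊥) : chi M (p * q) = chi M p * chi M q := by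
  unfold chi
  rw [UniqueFactorizationMonoid.normalizedFactors_mul (by simpa using hp) (by simpa using hq),
    Multiset.map_add, Multiset.prod_add]

theorem chi_top : chi M (⊤ : Ideal (𝓞 F)) = 1 := by
  unfold chi
  rw [← Ideal.one_eq_top, UniqueFactorizationMonoid.normalizedFactors_one, Multiset.map_zero,
    Multiset.prod_zero]

open Classical in
theorem chi_prime {p : Ideal (𝓞 F)} (hp0 : p ≠ ⊥) (hp : p.IsPrime) :
    chi M p = if Inert M p then -1 else 1 := by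
  unfold chi
  rw [UniqueFactorizationMonoid.normalizedFactors_irreducible
    (Ideal.prime_of_isPrime hp0 hp).irreducible, Multiset.map_singleton, Multiset.prod_singleton,
    normalize_eq]

theorem chi_sq (q : Ideal (𝓞 F)) : chi M q * chi M q = 1 := by
  classical
  unfold chi
  rw [← Multiset.prod_map_mul]
  refine Multiset.prod_eq_one fun x hx => ?_
  obtain ⟨p, _, rfl⟩ := Multiset.mem_map.mp hx
  split_ifs <;> norm_num

/-- **The Gauss sum of the norm form.** -/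
theorem gm_eq {q : Ideal (𝓞 F)} (hq : q ≠ ⊥)
    (hloc : ∀ p : Ideal (𝓞 F), p.IsPrime → p ≠ ⊥ → q ≤ p → Inert M p ∨ Split Q p)
    {ψ : AddChar (𝓞 F) ℂ} (hψ : Prim q ψ) :
    gm M ψ = chi M q * (Ideal.absNorm q : ℂ)⁻¹ := by
  classical
  obtain ⟨n, hn⟩ : ∃ n, Ideal.absNorm q = n := ⟨_, rfl⟩
  induction n using Nat.strong_induction_on generalizing q ψ with
  | _ n IH =>
  by_cases htop : q = ⊤
  · subst htop
    have h1 : ∀ a, ψ a = 1 := fun a => hψ.eq_one Submodule.mem_top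
    unfold gm
    simp_rw [h1]
    rw [mean_const, chi_top, Ideal.absNorm_top]
    simp
  obtain ⟨p, hpm, hqp⟩ := Ideal.exists_le_maximal q htop
  have hp : p.IsPrime := hpm.isPrime
  have hp0 : p ≠ ⊥ := fun h => hq (by rw [h] at hqp; exact le_bot_iff.mp hqp)
  obtain ⟨q', rfl⟩ := Ideal.dvd_iff_le.mpr hqp
  have hq'0 : q' ≠ ⊥ := by rintro rfl; exact hq (Ideal.mul_bot _)
  have hNp : 1 < Ideal.absNorm p := by
    have h1 : Ideal.absNorm p ≠ 0 := Ideal.absNorm_eq_zero_iff.not.mpr hp0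
    have h2 : Ideal.absNorm p ≠ 1 := Ideal.absNorm_eq_one_iff.not.mpr hp.ne_top
    omega
  have hNp0 : (Ideal.absNorm p : ℂ) ≠ 0 := by exact_mod_cast (by omega : Ideal.absNorm p ≠ 0)
  have hNq' : 0 < Ideal.absNorm q' :=
    Nat.pos_of_ne_zero (Ideal.absNorm_eq_zero_iff.not.mpr hq'0)
  have hNlt : Ideal.absNorm q' < n := by
    rw [← hn, map_mul]
    nlinarith
  have hloc' : ∀ p' : Ideal (𝓞 F), p'.IsPrime → p' ≠ ⊥ → q' ≤ p' → Inert M p' ∨ Split Q p' :=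
    fun p' h1 h2 h3 => hloc p' h1 h2 (Ideal.mul_le_right.trans h3)
  rw [chi_mul hp0 hq'0, chi_prime hp0 hp, map_mul]
  rcases hloc p hp hp0 Ideal.mul_le_left with hin | hsp
  · rw [if_pos hin]
    by_cases hpq : q' ≤ p
    · obtain ⟨q'', rfl⟩ := Ideal.dvd_iff_le.mpr hpq
      have hq''0 : q'' ≠ ⊥ := by rintro rfl; exact hq'0 (Ideal.mul_bot _)
      rw [← mul_assoc] at hψ
      obtain ⟨a, ha, h1⟩ := gm_red Q (ext p) (p * p) q'' (mul_ne_zero hp0 hp0) hq''0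
        (by rw [ext_mul, Q.cj_ext]) (fun x hx => nd_inert' Q p hin hp0 x hx) hψ
      have hNlt2 : Ideal.absNorm q'' < n := by
        refine lt_of_le_of_lt ?_ hNlt
        rw [map_mul]
        exact Nat.le_mul_of_pos_left _ (by omega)
      rw [h1, IH _ hNlt2 hq''0 (fun p' h1 h2 h3 => hloc' p' h1 h2 (Ideal.mul_le_right.trans h3)) ha rfl,
        chi_mul hp0 hq''0, chi_prime hp0 hp, if_pos hin, absNorm_ext Q, map_mul]
      push_cast
      field_simp
    · have hcop : p ⊔ q' = ⊤ := by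
        by_contra hc
        obtain ⟨m, hm, hle⟩ := Ideal.exists_le_maximal _ hc
        have h1 : p = m := hpm.eq_of_le hm.ne_top (le_sup_left.trans hle)
        exact hpq (h1 ▸ (le_sup_right.trans hle))
      obtain ⟨e, f, he, hf, h1⟩ := gm_indep Q (M := M) p q' hp0 hq'0 hcop hψ
      rw [h1, gm_inert Q p hin hp0 he, IH _ hNlt hq'0 hloc' hf rfl]
      push_cast
      ring
  · rw [if_neg (hsp.not_inert Q hp0)]
    obtain ⟨P, hP, hne, h⟩ := hsp
    obtain ⟨a, ha, h1⟩ := gm_red Q P p q' hp0 hq'0 h (nd_split Q hp0 hP hne h) hψ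
    rw [h1, IH _ hNlt hq'0 hloc' ha rfl, absNorm_split Q h]
    push_cast
    ring

end nf

end Fermat.Agent.LT.I.GS
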