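import Fermat.Agent.LT.I.ThetaP
import Fermat.Agent.LT.I.GaussSum

/-!
# LT, piece I: finite Schwartz functions on a number field
-/

set_option autoImplicit false
set_option linter.unusedSectionVars false

open NumberField IsDedekindDomain Matrix WithZero Module MeasureTheory
open scoped Real ComplexConjugate

namespace Fermat.Agent.LT.I

open Fermat.LT

variable {M : Type} [Field M] [NumberField M]

theorem oc_mul (a b : 𝓞 M) : ((a * b : 𝓞 M) : M) = (a : M) * (b : M) := rfl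
theorem oc_add (a b : 𝓞 M) : ((a + b : 𝓞 M) : M) = (a : M) + (b : M) := rfl
theorem oc_sub (a b : 𝓞 M) : ((a - b : 𝓞 M) : M) = (a : M) - (b : M) := rfl
theorem oc_nat (n : ℕ) : ((n : 𝓞 M) : M) = n := by
  change algebraMap (𝓞 M) M n = n
  rw [map_natCast]

/-- `f` is a finite Schwartz function with denominators and period `N`. -/
structure Sch (N : ℕ) (f : M → ℂ) : Prop where
  ne : N ≠ 0
  per : ∀ (ξ : M) (a : 𝓞 M), f (ξ + N * a) = f ξ
  supp : ∀ ξ, f ξ ≠ 0 → ∃ a : 𝓞 M, (a : M) = N * ξ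

/-- finite Schwartz functions on `M` -/
def FSch (f : M → ℂ) : Prop := ∃ N : ℕ, Sch N f

theorem Sch.cast_ne {N : ℕ} {f : M → ℂ} (h : Sch N f) : (N : M) ≠ 0 := Nat.cast_ne_zero.mpr h.ne

theorem Sch.mul {N : ℕ} {f : M → ℂ} (h : Sch N f) {m : ℕ} (hm : m ≠ 0) : Sch (N * m) f where
  ne := mul_ne_zero h.ne hm
  per ξ a := by
    have := h.per ξ ((m : 𝓞 M) * a)
    rw [← this]
    congr 2
    rw [oc_mul, oc_nat]
    push_cast
    ring
  supp ξ hξ := by
    obtain ⟨a, ha⟩ := h.supp ξ hξ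
    refine ⟨(m : 𝓞 M) * a, ?_⟩
    rw [oc_mul, oc_nat, ha]
    push_cast
    ring

theorem Sch.mul' {N : ℕ} {f : M → ℂ} (h : Sch N f) {m : ℕ} (hm : m ≠ 0) : Sch (m * N) f := by
  rw [mul_comm]; exact h.mul hm

theorem FSch.add {f g : M → ℂ} (hf : FSch f) (hg : FSch g) : FSch fun ξ => f ξ + g ξ := by
  obtain ⟨N, hN⟩ := hf
  obtain ⟨N', hN'⟩ := hg
  have h1 := hN.mul hN'.ne
  have h2 := hN'.mul' hN.ne
  refine ⟨N * N', h1.ne, fun ξ a => ?_, fun ξ hξ => ?_⟩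
  · rw [h1.per, h2.per]
  · by_cases h : f ξ = 0
    · exact h2.supp ξ fun h3 => hξ (by rw [h, h3, add_zero])
    · exact h1.supp ξ h

theorem FSch.const_mul {f : M → ℂ} (c : ℂ) (hf : FSch f) : FSch fun ξ => c * f ξ := by
  obtain ⟨N, hN⟩ := hf
  exact ⟨N, hN.ne, fun ξ a => by rw [hN.per], fun ξ hξ => hN.supp ξ (right_ne_zero_of_mul hξ)⟩

/-- the ideal `N 𝓞` as a subgroup -/
abbrev nsub (M : Type) [Field M] [NumberField M] (N : ℕ) : AddSubgroup (𝓞 M) :=
  (Ideal.span {(N : 𝓞 M)}).toAddSubgroup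

theorem mem_nsub {N : ℕ} {a : 𝓞 M} : a ∈ nsub M N ↔ ∃ b : 𝓞 M, (N : 𝓞 M) * b = a := by
  change a ∈ Ideal.span {(N : 𝓞 M)} ↔ _
  rw [Ideal.mem_span_singleton]
  exact ⟨fun ⟨b, hb⟩ => ⟨b, hb.symm⟩, fun ⟨b, hb⟩ => ⟨b, hb.symm⟩⟩

theorem finiteIndex_nsub {N : ℕ} (hN : N ≠ 0) : (nsub M N).FiniteIndex := by
  refine GS.finiteIndex_ideal ?_
  rw [Ne, Ideal.span_singleton_eq_bot]
  exact Nat.cast_ne_zero.mpr hN

theorem index_nsub (N : ℕ) : (nsub M N).index = N ^ finrank ℚ M := by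
  rw [GS.index_ideal, Ideal.absNorm_span_singleton]
  have h : (N : 𝓞 M) = algebraMap ℤ (𝓞 M) (N : ℤ) := by simp
  rw [h, Algebra.norm_algebraMap, RingOfIntegers.rank, Int.natAbs_pow, Int.natAbs_natCast]

theorem Sch.perMod {N : ℕ} {f : M → ℂ} (h : Sch N f) :
    PerMod (nsub M (N * N)) (fun a : 𝓞 M => f ((a : M) / N)) := by
  intro x hx a
  obtain ⟨b, rfl⟩ := mem_nsub.mp hx
  simp only
  rw [← h.per ((a : M) / N) b]
  congr 1
  have := h.cast_ne
  rw [oc_add, oc_mul, oc_nat]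
  push_cast
  field_simp

theorem Sch.perf {N : ℕ} {f : M → ℂ} (h : Sch N f) : Per (fun a : 𝓞 M => f ((a : M) / N)) :=
  ⟨_, finiteIndex_nsub (mul_ne_zero h.ne h.ne), h.perMod⟩

/-- change of denominators -/
theorem Sch.mean_mul {N : ℕ} {f : M → ℂ} (h : Sch N f) {m : ℕ} (hm : m ≠ 0) :
    mean (fun a : 𝓞 M => f ((a : M) / (N * m : ℕ))) =
      ((m : ℂ) ^ finrank ℚ M)⁻¹ * mean (fun a : 𝓞 M => f ((a : M) / N)) := by
  have hfin := finiteIndex_nsub (M := M) hm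
  have hN := h.cast_ne
  have hm' : (m : M) ≠ 0 := Nat.cast_ne_zero.mpr hm
  rw [mean_restrict (h.mul hm).perf (nsub M m)]
  · rw [index_nsub]
    push_cast
    congr 1
    let φ : 𝓞 M →+ nsub M m :=
      { toFun := fun a => ⟨(m : 𝓞 M) * a, mem_nsub.mpr ⟨a, rfl⟩⟩
        map_zero' := by ext; simp
        map_add' := by intro x y; ext; simp [mul_add] }
    have hφ : Function.Surjective φ := by
      rintro ⟨a, ha⟩
      obtain ⟨b, rfl⟩ := mem_nsub.mp ha
      exact ⟨b, rfl⟩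
    have h1 := mean_comp_surj φ hφ (f := fun b : nsub M m => f (((b : 𝓞 M) : M) / (N * m : ℕ)))
      ((h.mul hm).perf.comp (nsub M m).subtype)
    push_cast at h1
    rw [← h1]
    congr 1
    funext a
    congr 1
    change (((m : 𝓞 M) * a : 𝓞 M) : M) / _ = _
    rw [oc_mul, oc_nat]
    field_simp
  · intro a ha
    by_contra h0
    apply ha
    obtain ⟨c, hc⟩ := h.supp _ h0
    rw [mem_nsub]
    refine ⟨c, RingOfIntegers.ext ?_⟩
    rw [oc_mul, oc_nat, hc]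
    push_cast
    field_simp

open Classical in
/-- the integral of a finite Schwartz function over the finite adeles, normalised by
`∫ 1_{𝓞} = 1` -/
noncomputable def haar (f : M → ℂ) : ℂ :=
  if h : FSch f then (h.choose : ℂ) ^ finrank ℚ M *
    mean (fun a : 𝓞 M => f ((a : M) / (h.choose : ℕ))) else 0

theorem Sch.haar_aux {N : ℕ} {f : M → ℂ} (h : Sch N f) {m : ℕ} (hm : m ≠ 0) :
    ((N * m : ℕ) : ℂ) ^ finrank ℚ M * mean (fun a : 𝓞 M => f ((a : M) / (N * m : ℕ))) =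
      (N : ℂ) ^ finrank ℚ M * mean (fun a : 𝓞 M => f ((a : M) / N)) := by
  rw [h.mean_mul hm]
  have : (m : ℂ) ^ finrank ℚ M ≠ 0 := pow_ne_zero _ (Nat.cast_ne_zero.mpr hm)
  push_cast
  rw [mul_pow]
  field_simp

theorem Sch.haar_eq {N : ℕ} {f : M → ℂ} (h : Sch N f) :
    haar f = (N : ℂ) ^ finrank ℚ M * mean (fun a : 𝓞 M => f ((a : M) / N)) := by
  have hf : FSch f := ⟨N, h⟩
  rw [haar, dif_pos hf]
  have h2 := hf.choose_spec
  rw [← h.haar_aux h2.ne, ← h2.haar_aux h.ne, mul_comm hf.choose N]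

theorem haar_const_mul {f : M → ℂ} (hf : FSch f) (c : ℂ) : haar (fun ξ => c * f ξ) = c * haar f := by
  obtain ⟨N, hN⟩ := hf
  have h2 : Sch N (fun ξ => c * f ξ) :=
    ⟨hN.ne, fun ξ a => by rw [hN.per], fun ξ hξ => hN.supp ξ (right_ne_zero_of_mul hξ)⟩
  rw [h2.haar_eq, hN.haar_eq, mean_const_mul c hN.perf]
  ring

/-- common denominators -/
theorem exists_den (x : M) : ∃ m : ℕ, m ≠ 0 ∧ ∃ a : 𝓞 M, (a : M) = m * x := by
  have halg : IsAlgebraic ℤ x := by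
    have := (IsFractionRing.isAlgebraic_iff ℤ ℚ M (x := x)).mpr (Algebra.IsAlgebraic.isAlgebraic x)
    exact this
  obtain ⟨y, hy, hint⟩ := halg.exists_integral_multiple
  refine ⟨y.natAbs, by simpa using hy, ?_⟩
  have h1 : IsIntegral ℤ ((y.natAbs : M) * x) := by
    rcases Int.natAbs_eq y with h | h
    · rw [h, zsmul_eq_mul] at hint
      simpa using hint
    · rw [h, zsmul_eq_mul] at hint
      have := hint.neg
      simpa using this
  exact ⟨⟨_, h1⟩, rfl⟩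

theorem haar_shift {f : M → ℂ} (hf : FSch f) (x : M) : haar (fun ξ => f (ξ + x)) = haar f := by
  obtain ⟨N, hN⟩ := hf
  obtain ⟨m, hm, b, hb⟩ := exists_den x
  have h1 := hN.mul hm
  have h2 : Sch (N * m) (fun ξ => f (ξ + x)) := by
    refine ⟨h1.ne, fun ξ a => ?_, fun ξ hξ => ?_⟩
    · have := h1.per (ξ + x) a
      rw [← this]
      congr 1
      ring
    · obtain ⟨c, hc⟩ := h1.supp _ hξ
      refine ⟨c - N * b, ?_⟩
      rw [oc_sub, oc_mul, oc_nat, hc, hb]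
      push_cast
      ring
  rw [h2.haar_eq, h1.haar_eq]
  congr 1
  rw [← mean_shift h1.perf ((N : 𝓞 M) * b)]
  congr 1
  funext a
  congr 1
  have := hN.cast_ne
  have hm' : (m : M) ≠ 0 := Nat.cast_ne_zero.mpr hm
  rw [oc_add, oc_mul, oc_nat, hb]
  push_cast
  field_simp

end Fermat.Agent.LT.I
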