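import Fermat.Agent.LT.I.SFormula

/-!
# LT, piece I: the S-formula — Fourier transform of `1_{x0+L} · e(-Tr u N ξ)`
-/

set_option autoImplicit false
set_option linter.unusedSectionVars false

open NumberField IsDedekindDomain Matrix WithZero Module MeasureTheory
open scoped Real ComplexConjugate nonZeroDivisors

namespace Fermat.Agent.LT.I

open Fermat.LT Fermat.Agent.CFT

variable {F M : Type} [Field F] [NumberField F] [Field M] [NumberField M] [Algebra F M]
  (Q : Quad F M)

/-- the character `x ↦ eQ (B x η)` is periodic -/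
theorem Quad.per_eQ (l : Dv M) (η : M) : Per (fun x : InL l => eQ (Q.B (x : M) η)) := by
  classical
  by_cases hη : η = 0
  · subst hη
    have : (fun x : InL l => eQ (Q.B (x : M) 0)) = fun _ => 1 := by
      funext x
      have : Q.B (x : M) 0 = 0 := by unfold Quad.B; rw [map_zero, mul_zero, map_zero]
      rw [this]; simpa using eQ_int 0
    rw [this]; exact Per.const 1
  · refine ⟨(InL (l ⊔ Q.dul (dv η))).addSubgroupOf (InL l), finiteIndex_InL le_sup_left,
      fun x hx g => ?_⟩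
    have h1 : (x : M) ∈ InL (Q.dul (dv η)) :=
      InL_mono le_sup_right (AddSubgroup.mem_addSubgroupOf.mp hx)
    have h2 : η ∈ InL (dv η) := (mem_InL_iff hη).mpr fun P => le_rfl
    simp only [AddSubgroup.coe_add]
    rw [Q.B_add_left, eQ_add, Q.B_comm (x : M), Q.eQ_B_eq_one h2 h1, mul_one]

namespace SHyp

variable {Q} {l : Dv M} {x0 : M} {u u' : F} {q : Dv F}

/-- decomposition of the dual lattice -/
theorem exists_decomp (h : SHyp Q l x0 u u' q) {η : M} (hη : η ∈ InL (Q.dul (l + con M q))) :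
    ∃ ξ ∈ InL l, ∃ η0 ∈ InL (Q.dul l), η = algebraMap F M u * ξ + η0 := by
  classical
  by_cases hu : u = 0
  · have hq : q = 0 := by
      ext w
      rw [Finsupp.zero_apply]
      by_contra hw
      have h1 := h.q0 w
      rw [Finsupp.zero_apply] at h1
      exact h.u_ne (w := w) (by omega) hu
    refine ⟨0, zero_mem _, η, ?_, by rw [mul_zero, zero_add]⟩
    rwa [hq, map_zero, add_zero] at hη
  · have hu' : algebraMap F M u ≠ 0 := (map_ne_zero _).mpr hu
    have h1 : (dv (algebraMap F M u) + l) ⊓ Q.dul l ≤ Q.dul (l + con M q) := by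
      intro P
      rw [Finsupp.inf_apply, Finsupp.add_apply, dv_apply, Quad.dul_apply, Quad.dul_apply,
        Finsupp.add_apply, con_apply, Q.below_cP]
      by_cases hP : 0 < q (SUH.below F P)
      · have hunr := h.unr _ hP
        refine (min_le_left _ _).trans ?_
        have h2 := h.cond _ hP
        rw [val_eq _ hu, WithZero.exp_inj] at h2
        rw [hunr.ov_eq rfl, Q.dF_unr P hunr]
        rw [Q.Nm_below] at h2
        omega
      · have h2 := h.q0 (SUH.below F P)
        rw [Finsupp.zero_apply] at h2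
        refine (min_le_right _ _).trans ?_
        omega
    obtain ⟨a, ha, b, hb, hab⟩ := exists_add_of_mem_InL (InL_mono h1 hη)
    have h3 : algebraMap F M u * (a / algebraMap F M u) = a := mul_div_cancel₀ _ hu'
    refine ⟨a / algebraMap F M u, ?_, b, hb, by rw [h3, hab]⟩
    rw [← smul_mem_InL_iff hu', h3]; exact ha

theorem trace_mem {ξ η : M} (hξ : ξ ∈ InL l) (hη : η ∈ InL (Q.dul l)) :
    Algebra.trace F M (ξ * Q.c η) ∈ InL (-dF F) := by
  rw [← ef_mul_iff]
  intro b
  have h1 : algebraMap F M (b : F) * ξ ∈ InL l := by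
    have h2 := mul_mem_InL (coe_mem_InL (algebraMap (𝓞 F) (𝓞 M) b)) hξ
    rwa [zero_add] at h2
  rw [mul_comm, ef_eq, ← B_alg]
  exact Q.eQ_B_eq_one h1 hη

theorem ef_swap (h : SHyp Q l x0 u u' q) {ξ η0 : M} (hξ : ξ ∈ InL l) (hη : η0 ∈ InL (Q.dul l)) :
    ef (u * nrm ξ) = ef (-(u' * nrm (algebraMap F M u * ξ + η0))) := by
  apply ef_congr
  set T := Algebra.trace F M (ξ * Q.c η0) with hT
  have h1 : nrm (F := F) (algebraMap F M u * ξ + η0) = u ^ 2 * nrm ξ + u * T + nrm η0 := by
    rw [Q.nrm_add, nrm_mul]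
    congr 2
    · rw [nrm, Algebra.norm_algebraMap, Q.deg]
    · rw [mul_assoc, ← Algebra.smul_def, map_smul, smul_eq_mul]
  have h2 : u * nrm ξ - -(u' * nrm (F := F) (algebraMap F M u * ξ + η0)) =
      (u * nrm ξ) * (1 + u * u') + (1 + u * u') * T - T + u' * nrm η0 := by
    rw [h1]; ring
  rw [h2]
  have hT' : T ∈ InL (-dF F) := trace_mem hξ hη
  have huu : (1 + u * u') ∈ InL (0 : Dv F) := fun w => by
    refine (h.uu w).trans ?_
    rw [WithZero.exp_le_exp, Finsupp.zero_apply]
    have := h.q0 w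
    rw [Finsupp.zero_apply] at this
    omega
  refine add_mem (sub_mem (add_mem ?_ ?_) hT') ?_
  · intro w
    rw [map_mul, Finsupp.neg_apply, neg_neg]
    calc _ ≤ exp (dF F w + q w) * exp (-(q w)) := mul_le_mul' (h.int ξ hξ w) (h.uu w)
      _ = _ := by rw [← WithZero.exp_add]; congr 1; ring
  · have := mul_mem_InL huu hT'
    rwa [zero_add] at this
  · intro w
    rw [Finsupp.neg_apply, neg_neg]
    exact h.u'1 η0 hη w

theorem perF (h : SHyp Q l x0 u u' q) (η : M) :
    Per (fun x : InL l => ef (-(u * nrm (x : M))) * eQ (Q.B (x : M) η)) :=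
  h.per.mul (Q.per_eQ l η)

/-- the mean over the lattice, `η` in the dual lattice -/
theorem mean_in (h : SHyp Q l x0 u u' q) {η : M} (hη : η ∈ InL (Q.dul (l + con M q))) :
    mean (fun x : InL l => ef (-(u * nrm (x : M))) * eQ (Q.B (x : M) η)) =
      ef (-(u' * nrm η)) * (Q.chiD q * ((absN q : ℝ) : ℂ)⁻¹) := by
  obtain ⟨ξ, hξ, η0, hη0, rfl⟩ := h.exists_decomp hη
  have h1 : (fun x : InL l => ef (-(u * nrm (x : M))) *
      eQ (Q.B (x : M) (algebraMap F M u * ξ + η0))) =
      fun x : InL l => ef (u * nrm ξ) *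
        (fun y : InL l => ef (-(u * nrm (y : M)))) (x + (-⟨ξ, hξ⟩)) := by
    funext x
    simp only [AddSubgroup.coe_add, AddSubgroup.coe_neg]
    rw [Q.B_add_right, eQ_add, Q.eQ_B_eq_one x.2 hη0, mul_one, B_alg', B_alg, ← ef_eq, ← ef_add,
      ← ef_add, Q.nrm_add, map_neg, mul_neg, map_neg]
    congr 1
    have : nrm (F := F) (-ξ) = nrm ξ := by
      have h2 : -ξ = (-1) * ξ := by ring
      have h3 : nrm (F := F) (-1 : M) = 1 := by
        have : (-1 : M) = algebraMap F M (-1) := by rw [map_neg, map_one]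
        rw [this, nrm, Algebra.norm_algebraMap, Q.deg]; norm_num
      rw [h2, nrm_mul, h3, one_mul]
    rw [this]
    ring
  rw [h1, mean_const_mul _ (h.per.shift _), mean_shift h.per, h.mean_gauss, h.ef_swap hξ hη0]

/-- the mean over the lattice, `η` not in the dual lattice -/
theorem mean_out (h : SHyp Q l x0 u u' q) {η : M} (hη : η ∉ InL (Q.dul (l + con M q))) :
    mean (fun x : InL l => ef (-(u * nrm (x : M))) * eQ (Q.B (x : M) η)) = 0 := by
  rw [Q.mem_dul] at hη
  push Not at hη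
  obtain ⟨ξ, hξ, hn⟩ := hη
  have h1 : eQ (Q.B ξ η) ≠ 1 := fun h2 => by
    obtain ⟨n, h3⟩ := eQ_eq_one h2
    exact hn n h3
  refine mean_char (h.perF η) h1 ⟨ξ, h.mem_sub hξ⟩ fun x => ?_
  simp only [AddSubgroup.coe_add]
  rw [h.ef_per x.2 hξ, Q.B_add_left, eQ_add]
  ring

open Classical in
/-- the coset function -/
noncomputable def cf (l : Dv M) (x0 : M) (u : F) (ξ : M) : ℂ :=
  if ξ - x0 ∈ InL l then ef (-(u * nrm ξ)) else 0

include Q in
theorem FSch_cf (l : Dv M) (x0 : M) (u : F) : FSch (cf l x0 u) := by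
  classical
  have h1 := FSch.mul_chu Q (FSch_coset l x0) (-u)
  have h2 : chu (-u) (fun ξ => if ξ - x0 ∈ InL l then (1 : ℂ) else 0) = cf l x0 u := by
    funext ξ
    unfold chu cf
    rw [mul_ite, mul_one, mul_zero, neg_mul]
  rwa [h2] at h1

open Classical in
/-- **The S-formula**: Fourier transform of `1_{x0+L} · e(-Tr u N ξ)`. -/
theorem ft_coset (h : SHyp Q l x0 u u' q) (η : M) :
    Q.ft (cf l x0 u) η =
      Q.C * ((absN l : ℝ) : ℂ)⁻¹ * (Q.chiD q * ((absN q : ℝ) : ℂ)⁻¹) *
        (if η ∈ InL (Q.dul (l + con M q)) then eQ (Q.B x0 η) * ef (-(u' * nrm η)) else 0) := by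
  unfold Quad.ft
  have hg : (fun ξ => cf l x0 u ξ * eQ (Q.B ξ η)) =
      fun ξ => if ξ - x0 ∈ InL l then ef (-(u * nrm ξ)) * eQ (Q.B ξ η) else 0 := by
    funext ξ
    unfold cf
    rw [ite_mul, zero_mul]
  have hsch : FSch (fun ξ => cf l x0 u ξ * eQ (Q.B ξ η)) := by
    obtain ⟨N, hN⟩ := FSch_cf (Q := Q) l x0 u
    exact hN.mul_char' Q η
  have hkey : (fun x : InL l => ef (-(u * nrm (x0 + (x : M)))) * eQ (Q.B (x0 + (x : M)) η)) =
      fun x : InL l => eQ (Q.B x0 η) * (ef (-(u * nrm (x : M))) * eQ (Q.B (x : M) η)) := by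
    funext x
    have h1 : -(u * nrm (F := F) (x0 + (x : M))) = -(u * nrm x0) +
        (-(u * Algebra.trace F M (x0 * Q.c (x : M)))) + (-(u * nrm (x : M))) := by
      rw [Q.nrm_add]; ring
    have h2 : ef (-(u * nrm (F := F) x0)) = 1 := by
      have h3 := h.x1
      have h4 := ef_add (u * nrm (F := F) x0) (-(u * nrm x0))
      rw [add_neg_cancel, ef_zero, h3, one_mul] at h4
      exact h4.symm
    have h3 : ef (-(u * Algebra.trace F M (x0 * Q.c (x : M)))) = 1 := by
      have h5 : -(u * Algebra.trace F M (x0 * Q.c (x : M))) = (-u) * Algebra.trace F M (x0 * Q.c (x : M)) := by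
        ring
      rw [h5, ef_eq, ← B_alg, Q.B_comm]
      refine Q.eQ_B_eq_one x.2 ?_
      rw [map_neg, neg_mul]
      exact neg_mem h.x2
    rw [h1, ef_add, ef_add, h2, h3, Q.B_add_left, eQ_add]
    ring
  have hper : Per (fun x : InL l => ef (-(u * nrm (x0 + (x : M)))) * eQ (Q.B (x0 + (x : M)) η)) := by
    rw [hkey]
    exact (Per.const _).mul (h.perF η)
  rw [hg] at hsch ⊢
  rw [haar_coset hsch hper, hkey, mean_const_mul _ (h.perF η)]
  by_cases hη : η ∈ InL (Q.dul (l + con M q))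
  · rw [if_pos hη, h.mean_in hη]; ring
  · rw [if_neg hη, h.mean_out hη]; ring

end SHyp

end Fermat.Agent.LT.I
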