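import Fermat.Agent.LT.I.UnrExt

/-!
# LT, piece I: indices of lattices, integrals over cosets of lattices
-/

set_option autoImplicit false
set_option linter.unusedSectionVars false

open NumberField IsDedekindDomain Matrix WithZero Module MeasureTheory
open scoped Real ComplexConjugate nonZeroDivisors

namespace Fermat.Agent.LT.I

open Fermat.LT Fermat.Agent.CFT

section general

variable {K : Type} [Field K] [NumberField K]

/-- the integral ideal attached to an effective divisor -/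
theorem exists_idl {l : Dv K} (hl : 0 ≤ l) :
    ∃ I : Ideal (𝓞 K), (I : FractionalIdeal (𝓞 K)⁰ K) = fid l ∧ (∀ a : 𝓞 K, a ∈ I ↔ (a : K) ∈ InL l) ∧
      (Ideal.absNorm I : ℝ) = absN l ∧ I ≠ ⊥ := by
  obtain ⟨I, hI⟩ := FractionalIdeal.le_one_iff_exists_coeIdeal.mp (fid_le_one hl)
  refine ⟨I, hI, fun a => ?_, ?_, ?_⟩
  · rw [← mem_fid, ← hI]
    constructor
    · intro h; exact FractionalIdeal.mem_coeIdeal_of_mem _ h
    · intro h
      obtain ⟨b, hb, hab⟩ := (FractionalIdeal.mem_coeIdeal _).mp h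
      have : b = a := RingOfIntegers.ext hab
      rwa [← this]
  · rw [← absNorm_fid, ← hI, FractionalIdeal.coeIdeal_absNorm]
    simp
  · rintro rfl
    exact fid_ne_zero l (by rw [← hI]; simp)

theorem exists_ne_zero_mem (l : Dv K) (w0 : Pl K) : ∃ y : K, y ≠ 0 ∧ y ∈ InL l := by
  obtain ⟨a, ha0, ha1, ha2⟩ := exists_val_eq w0 (l w0) l
  refine ⟨a, ha0, fun w => ?_⟩
  by_cases h : w = w0
  · rw [h, val_eq w0 ha0, ha1]
  · exact ha2 w h

theorem exists_place (K : Type) [Field K] [NumberField K] : Nonempty (Pl K) := by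
  obtain ⟨p, hp⟩ := Ideal.exists_maximal (𝓞 K)
  by_cases h : p = ⊥
  · exfalso
    rw [h] at hp
    exact Ring.ne_bot_of_isMaximal_of_not_isField hp (RingOfIntegers.not_isField K) rfl
  · exact ⟨⟨p, hp.isPrime, h⟩⟩

/-- a natural number in a given lattice -/
theorem exists_nat_mem (l : Dv K) : ∃ N : ℕ, N ≠ 0 ∧ (N : K) ∈ InL l := by
  obtain ⟨w0⟩ := exists_place K
  obtain ⟨y, hy0, hy⟩ := exists_ne_zero_mem (l ⊔ 0) w0
  obtain ⟨a, rfl⟩ := exists_coe_of_mem (InL_mono le_sup_right hy)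
  have ha0 : a ≠ 0 := by rintro rfl; exact hy0 rfl
  have h1 := Ideal.absNorm_mem (Ideal.span {a})
  obtain ⟨c, hc⟩ := Ideal.mem_span_singleton'.mp h1
  refine ⟨Ideal.absNorm (Ideal.span {a}), ?_, ?_⟩
  · rw [Ne, Ideal.absNorm_eq_zero_iff, Ideal.span_singleton_eq_bot]
    exact ha0
  · have h2 : ((Ideal.absNorm (Ideal.span {a}) : ℕ) : K) = (c : K) * (a : K) := by
      rw [← oc_mul, hc, oc_nat]
    rw [h2]
    have h3 := mul_mem_InL (coe_mem_InL c) (InL_mono (le_sup_left : l ≤ l ⊔ 0) hy)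
    rwa [zero_add] at h3

theorem absN_dv_nat {N : ℕ} (hN : N ≠ 0) : absN (dv (N : K)) = (N : ℝ) ^ finrank ℚ K := by
  have hN' : (N : K) ≠ 0 := Nat.cast_ne_zero.mpr hN
  rw [← absNorm_fid, fid_dv hN', FractionalIdeal.absNorm_span_singleton]
  have : (N : K) = algebraMap ℚ K (N : ℚ) := by simp
  rw [this, Algebra.norm_algebraMap]
  simp

theorem finiteIndex_InL {l l' : Dv K} (h : l ≤ l') :
    ((InL l').addSubgroupOf (InL l)).FiniteIndex := by
  obtain ⟨N, hN, hNl⟩ := exists_nat_mem (-l)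
  have hN' : (N : K) ≠ 0 := Nat.cast_ne_zero.mpr hN
  have hpos : 0 ≤ dv (N : K) + l' := by
    intro w
    have h1 := (mem_InL_iff hN').mp hNl w
    have h2 := h w
    simp only [Finsupp.zero_apply, Finsupp.add_apply, Finsupp.neg_apply, dv_apply] at *
    omega
  obtain ⟨J, hJ1, hJ2, hJ3, hJ4⟩ := exists_idl hpos
  have hint : ∀ x : InL l, ∃ a : 𝓞 K, (a : K) = N * (x : K) := by
    intro x
    apply exists_coe_of_mem
    have := mul_mem_InL hNl x.2
    rwa [neg_add_cancel] at this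
  choose g hg using hint
  let φ : InL l →+ 𝓞 K :=
    { toFun := g
      map_zero' := RingOfIntegers.ext (by rw [hg]; simp)
      map_add' := by
        intro x y
        apply RingOfIntegers.ext
        rw [oc_add, hg, hg, hg, AddSubgroup.coe_add]; ring }
  have hfin := GS.finiteIndex_ideal hJ4
  have h1 : (InL l').addSubgroupOf (InL l) = J.toAddSubgroup.comap φ := by
    ext x
    rw [AddSubgroup.mem_addSubgroupOf, AddSubgroup.mem_comap]
    change _ ↔ g x ∈ J
    rw [hJ2, hg, smul_mem_InL_iff hN']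
  rw [h1]
  infer_instance

/-- Means over lattices are integrals. -/
theorem haar_lat {l : Dv K} {h : K → ℂ} (hf : FSch fun ξ => by classical exact if ξ ∈ InL l then h ξ else 0)
    (hp : Per fun x : InL l => h x) :
    haar (fun ξ => by classical exact if ξ ∈ InL l then h ξ else 0) =
      ((absN l : ℝ) : ℂ)⁻¹ * mean (fun x : InL l => h x) := by
  classical
  obtain ⟨N0, hN0⟩ := hf
  obtain ⟨m, hm, hml⟩ := exists_nat_mem (-l)
  have hN := hN0.mul hm
  set N := N0 * m with hNdef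
  have hN' : (N : K) ≠ 0 := hN.cast_ne
  have hpos : 0 ≤ dv (N : K) + l := by
    intro w
    have hm' : (m : K) ≠ 0 := Nat.cast_ne_zero.mpr hm
    have h1 := (mem_InL_iff hm').mp hml w
    have h2 : dv (N : K) = dv (N0 : K) + dv (m : K) := by
      rw [← dv_mul hN0.cast_ne hm', hNdef]; push_cast; rfl
    have h3 : 0 ≤ ov w (N0 : K) := by
      have := ov_nonneg w (N0 : 𝓞 K)
      rwa [oc_nat] at this
    simp only [Finsupp.zero_apply, Finsupp.add_apply, Finsupp.neg_apply, dv_apply, h2] at *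
    omega
  obtain ⟨J, hJ1, hJ2, hJ3, hJ4⟩ := exists_idl hpos
  have hfin := GS.finiteIndex_ideal hJ4
  have hmem : ∀ a : 𝓞 K, a ∈ J ↔ (a : K) / N ∈ InL l := by
    intro a
    have h1 : (a : K) = N * ((a : K) / N) := (mul_div_cancel₀ _ hN').symm
    rw [hJ2, h1, smul_mem_InL_iff hN', ← h1]
  rw [hN.haar_eq, mean_restrict hN.perf J.toAddSubgroup]
  · rw [GS.index_ideal]
    have h1 : (Ideal.absNorm J : ℂ) = ((absN l : ℝ) : ℂ) * (N : ℂ) ^ finrank ℚ K := by
      have h2 : (Ideal.absNorm J : ℝ) = absN l * (N : ℝ) ^ finrank ℚ K := by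
        rw [hJ3, absN_add, absN_dv_nat hN.ne, mul_comm]
      exact_mod_cast congrArg (fun x : ℝ => (x : ℂ)) h2
    have h3 : (N : ℂ) ^ finrank ℚ K ≠ 0 := pow_ne_zero _ (Nat.cast_ne_zero.mpr hN.ne)
    have h4 : ((absN l : ℝ) : ℂ) ≠ 0 := by exact_mod_cast (absN_pos l).ne'
    let φ : J.toAddSubgroup →+ InL l :=
      { toFun := fun a => ⟨((a : 𝓞 K) : K) / N, (hmem _).mp a.2⟩
        map_zero' := by ext; simp
        map_add' := by
          intro x y
          ext
          simp only [AddSubgroup.coe_add, oc_add, add_div] }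
    have hφ : Function.Surjective φ := by
      rintro ⟨x, hx⟩
      have h5 : (N : K) * x ∈ InL (0 : Dv K) := by
        have := (smul_mem_InL_iff hN').mpr hx
        exact InL_mono hpos this
      obtain ⟨a, ha⟩ := exists_coe_of_mem h5
      have h6 : (a : K) / N = x := by rw [ha, mul_div_cancel_left₀ _ hN']
      refine ⟨⟨a, (hmem a).mpr (by rw [h6]; exact hx)⟩, Subtype.ext h6⟩
    rw [← mean_comp_surj φ hφ hp, h1]
    have h7 : (fun b : J.toAddSubgroup => if ((b : 𝓞 K) : K) / N ∈ InL l then h (((b : 𝓞 K) : K) / N) else 0) =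
        fun b : J.toAddSubgroup => h ((φ b : InL l) : K) := by
      funext b
      rw [if_pos ((hmem _).mp b.2)]
      rfl
    rw [h7]
    field_simp
  · intro a ha
    rw [if_neg]
    exact fun h1 => ha ((hmem a).mpr h1)

open Classical in
/-- integral over a coset of a lattice -/
theorem haar_coset {l : Dv K} {x0 : K} {g : K → ℂ}
    (hf : FSch fun ξ => if ξ - x0 ∈ InL l then g ξ else 0)
    (hp : Per fun x : InL l => g (x0 + x)) :
    haar (fun ξ => if ξ - x0 ∈ InL l then g ξ else 0) =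
      ((absN l : ℝ) : ℂ)⁻¹ * mean (fun x : InL l => g (x0 + x)) := by
  have h1 := haar_shift hf x0
  have h2 : (fun ξ : K => if ξ + x0 - x0 ∈ InL l then g (ξ + x0) else 0) =
      fun ξ : K => if ξ ∈ InL l then g (x0 + ξ) else 0 := by
    funext ξ
    rw [add_sub_cancel_right, add_comm]
  rw [← h1, h2]
  refine haar_lat (h := fun ξ => g (x0 + ξ)) ?_ hp
  obtain ⟨N, hN⟩ := hf
  obtain ⟨m, hm, b, hb⟩ := exists_den x0
  have h3 := hN.mul hm
  refine ⟨N * m, h3.ne, fun ξ a => ?_, fun ξ hξ => ?_⟩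
  · have h4 := h3.per (ξ + x0) a
    have h5 : ξ + x0 + ((N * m : ℕ) : K) * (a : K) - x0 = ξ + ((N * m : ℕ) : K) * (a : K) := by ring
    have h6 : ξ + x0 + ((N * m : ℕ) : K) * (a : K) = x0 + (ξ + ((N * m : ℕ) : K) * (a : K)) := by ring
    rw [h5, h6, add_sub_cancel_right, add_comm ξ x0] at h4
    exact h4
  · have h4 : (if ξ + x0 - x0 ∈ InL l then g (ξ + x0) else 0) ≠ 0 := by
      rw [add_sub_cancel_right, add_comm]; exact hξ
    obtain ⟨a, ha⟩ := h3.supp _ h4
    refine ⟨a - N * b, ?_⟩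
    rw [oc_sub, oc_mul, oc_nat, ha, hb]
    push_cast
    ring

open Classical in
/-- the indicator function of a coset -/
theorem FSch_coset (l : Dv K) (x0 : K) : FSch fun ξ => if ξ - x0 ∈ InL l then (1 : ℂ) else 0 := by
  obtain ⟨N1, hN1, h1⟩ := exists_nat_mem l
  obtain ⟨N2, hN2, h2⟩ := exists_nat_mem (-l)
  obtain ⟨m, hm, b, hb⟩ := exists_den x0
  refine ⟨N1 * N2 * m, mul_ne_zero (mul_ne_zero hN1 hN2) hm, fun ξ a => ?_, fun ξ hξ => ?_⟩
  · have h3 : ((N1 * N2 * m : ℕ) : K) * (a : K) ∈ InL l := by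
      have h4 := mul_mem_InL h1 (coe_mem_InL ((N2 : 𝓞 K) * (m : 𝓞 K) * a))
      rw [add_zero] at h4
      convert h4 using 1
      rw [oc_mul, oc_mul, oc_nat, oc_nat]
      push_cast
      ring
    have h5 : ξ + ((N1 * N2 * m : ℕ) : K) * (a : K) - x0 ∈ InL l ↔ ξ - x0 ∈ InL l := by
      have h6 : ξ + ((N1 * N2 * m : ℕ) : K) * (a : K) - x0 = (ξ - x0) + ((N1 * N2 * m : ℕ) : K) * (a : K) := by ring
      rw [h6]
      exact ⟨fun h => by simpa using sub_mem h h3, fun h => add_mem h h3⟩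
    simp only [h5]
  · have h3 : ξ - x0 ∈ InL l := by
      by_contra h
      exact hξ (if_neg h)
    have h4 := mul_mem_InL h2 h3
    rw [neg_add_cancel] at h4
    obtain ⟨c, hc⟩ := exists_coe_of_mem h4
    refine ⟨(N1 : 𝓞 K) * ((m : 𝓞 K) * c + (N2 : 𝓞 K) * b), ?_⟩
    rw [oc_mul, oc_add, oc_mul, oc_mul, oc_nat, oc_nat, oc_nat, hc, hb]
    push_cast
    ring

end general

end Fermat.Agent.LT.I
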