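import Mathlib

/-!
# Convergence of Gaussian sums over the integers of a number field
-/

set_option autoImplicit false

open NumberField Module

namespace Fermat.Agent.LT.I

variable {M : Type*} [Field M] [NumberField M]

theorem exp_neg_le {x : ℝ} (hx : 0 < x) (n : ℕ) : Real.exp (-x) ≤ n.factorial * x⁻¹ ^ n := by
  have h := Real.pow_div_factorial_le_exp x hx.le n
  rw [Real.exp_neg, inv_pow, ← div_eq_mul_inv, le_div_iff₀ (by positivity),
    inv_mul_le_iff₀ (Real.exp_pos _)]
  rwa [div_le_iff₀ (by positivity)] at h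

theorem summable_gauss_int {c : ℝ} (hc : 0 < c) :
    Summable fun x : 𝓞 M => Real.exp (-(c * ∑ w : InfinitePlace M, w (x : M) ^ 2)) := by
  classical
  set L := mixedEmbedding.integerLattice M with hL
  set n := finrank ℤ L + 1 with hn
  have h1 : Summable fun z : L => ‖z‖⁻¹ ^ (2 * n) :=
    ZLattice.summable_norm_pow_inv L (2 * n) (by omega)
  have h2 : Summable fun z : L => (n.factorial * c⁻¹ ^ n) * ‖z‖⁻¹ ^ (2 * n) +
      (if z = 0 then (1 : ℝ) else 0) :=
    (h1.mul_left _).add (hasSum_ite_eq 0 (1:ℝ)).summable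
  let j : 𝓞 M → L := fun x => ⟨mixedEmbedding M (x : M), by
    refine ⟨x, ?_⟩
    rfl⟩
  have hj : Function.Injective j := by
    intro x y hxy
    have := congrArg Subtype.val hxy
    exact RingOfIntegers.ext ((mixedEmbedding_injective M) this)
  refine (h2.comp_injective hj).of_nonneg_of_le (fun _ => (Real.exp_pos _).le) fun x => ?_
  simp only [Function.comp_apply]
  by_cases hx : x = 0
  · subst hx
    have : j 0 = 0 := by
      apply Subtype.ext
      change mixedEmbedding M ((0 : 𝓞 M) : M) = 0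
      simp
    rw [this]
    simp
  · have hj0 : j x ≠ 0 := by
      intro h
      apply hx
      apply hj
      rw [h]
      apply Subtype.ext
      change 0 = mixedEmbedding M ((0 : 𝓞 M) : M)
      simp
    rw [if_neg hj0, add_zero]
    have hpos : 0 < ‖j x‖ := norm_pos_iff.mpr hj0
    have h3 : ‖j x‖ ^ 2 ≤ ∑ w : InfinitePlace M, w (x : M) ^ 2 := by
      have h4 : ‖j x‖ = ‖mixedEmbedding M (x : M)‖ := rfl
      rw [h4, mixedEmbedding.norm_eq_sup'_normAtPlace]
      obtain ⟨w, _, hw⟩ := Finset.exists_mem_eq_sup' (Finset.univ_nonempty (α := InfinitePlace M))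
        (fun w => mixedEmbedding.normAtPlace w (mixedEmbedding M (x : M)))
      rw [hw, mixedEmbedding.normAtPlace_apply]
      exact Finset.single_le_sum (f := fun w : InfinitePlace M => w (x : M) ^ 2)
        (fun _ _ => sq_nonneg _) (Finset.mem_univ w)
    calc Real.exp (-(c * ∑ w : InfinitePlace M, w (x : M) ^ 2))
        ≤ Real.exp (-(c * ‖j x‖ ^ 2)) := by
          rw [Real.exp_le_exp]
          have := mul_le_mul_of_nonneg_left h3 hc.le
          linarith
      _ ≤ n.factorial * (c * ‖j x‖ ^ 2)⁻¹ ^ n := exp_neg_le (by positivity) n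
      _ = (n.factorial * c⁻¹ ^ n) * ‖j x‖⁻¹ ^ (2 * n) := by
          rw [mul_inv, mul_pow, pow_mul, inv_pow ‖j x‖ 2, mul_assoc]

/-- functions on `M` which are bounded and have bounded denominators. -/
structure Bdd (φ : M → ℂ) : Prop where
  bdd : ∃ C : ℝ, ∀ ξ, ‖φ ξ‖ ≤ C
  den : ∃ N : ℕ, N ≠ 0 ∧ ∀ ξ, φ ξ ≠ 0 → IsIntegral ℤ ((N : M) * ξ)

theorem Bdd.summable {φ : M → ℂ} (hφ : Bdd φ) {c : ℝ} (hc : 0 < c) :
    Summable fun ξ : M => ‖φ ξ‖ * Real.exp (-(c * ∑ w : InfinitePlace M, w ξ ^ 2)) := by
  obtain ⟨C, hC⟩ := hφ.bdd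
  obtain ⟨N, hN, hden⟩ := hφ.den
  have hN' : (N : M) ≠ 0 := by exact_mod_cast hN
  let i : 𝓞 M → M := fun x => (x : M) / N
  have hi : Function.Injective i := by
    intro x y hxy
    simp only [i] at hxy
    rw [div_left_inj' hN'] at hxy
    exact RingOfIntegers.ext hxy
  rw [← hi.summable_iff]
  · have h1 := (summable_gauss_int (M := M) (c := c / N ^ 2) (by positivity)).mul_left C
    refine h1.of_nonneg_of_le (fun x => by simp only [Function.comp_apply]; positivity) fun x => ?_
    simp only [Function.comp_apply, i]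
    refine mul_le_mul (hC _) (le_of_eq ?_) (Real.exp_pos _).le ((norm_nonneg _).trans (hC 0))
    congr 2
    rw [div_mul_eq_mul_div, Finset.mul_sum, Finset.mul_sum, Finset.sum_div]
    refine Finset.sum_congr rfl fun w _ => ?_
    have hwN : w (N : M) = N := by
      rw [← InfinitePlace.norm_embedding_eq, map_natCast, Complex.norm_natCast]
    rw [map_div₀, hwN, div_pow]
    ring
  · intro ξ hξ
    by_cases h : φ ξ = 0
    · rw [h, norm_zero, zero_mul]
    · exfalso
      apply hξ
      refine ⟨⟨(N : M) * ξ, hden ξ h⟩, ?_⟩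
      simp only [i]
      change (N : M) * ξ / N = ξ
      field_simp

end Fermat.Agent.LT.I
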