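import Fermat.Agent.LT.I.TrS
import Fermat.Agent.LT.I.Ext
import Fermat.Agent.LT.I.FtSch
import Fermat.Agent.LT.I.Co
import Fermat.Agent.LT.I.WhitSum

/-!
# LT, piece I: consequences of the `J`-relation

Invariance under lower triangular matrices, and the reduction of an arbitrary `g ∈ GL₂(F)` to an upper
triangular one.
-/

set_option autoImplicit false
set_option linter.unusedSectionVars false
set_option linter.unusedSimpArgs false

open NumberField IsDedekindDomain Matrix WithZero Module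
open scoped Real nonZeroDivisors

namespace Fermat.Agent.LT.I

open Fermat.LT Fermat.Agent.CFT

section tri

variable {F : Type} [Field F] [NumberField F]

theorem exists_tri (β : G2 F) (h : β.1 1 0 = 0) : ∃ (z a : Fˣ) (b : F),
    β = sc z * Fermat.LT.un b * dg a := by
  have hd := det_ne_zero'' β
  rw [h, mul_zero, sub_zero] at hd
  have h0 : β.1 0 0 ≠ 0 := left_ne_zero_of_mul hd
  have h1 : β.1 1 1 ≠ 0 := right_ne_zero_of_mul hd
  refine ⟨Units.mk0 _ h1, Units.mk0 _ (div_ne_zero h0 h1), β.1 0 1 / β.1 1 1, ?_⟩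
  apply G2_ext'
  · simp only [mul00, mul01, mul10, mul11, un00, un01, un10, un11, dg00, dg01,
        dg10, dg11, sc00, sc01, sc10, sc11, Units.val_mk0]
    field_simp
    ring
  · simp only [mul00, mul01, mul10, mul11, un00, un01, un10, un11, dg00, dg01,
        dg10, dg11, sc00, sc01, sc10, sc11, Units.val_mk0]
    field_simp
    ring
  · simp only [mul00, mul01, mul10, mul11, un00, un01, un10, un11, dg00, dg01,
        dg10, dg11, sc00, sc01, sc10, sc11, Units.val_mk0, h]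
    ring
  · simp only [mul00, mul01, mul10, mul11, un00, un01, un10, un11, dg00, dg01,
        dg10, dg11, sc00, sc01, sc10, sc11, Units.val_mk0]
    ring

theorem dg_lo (a : Fˣ) (c : F) : dg a⁻¹ * lo c = lo (c * a) * dg a⁻¹ := by
  apply G2_ext' <;> simp [mul00, mul01, mul10, mul11]

theorem J0_inv_lo (c : F) : (J0 : G2 F)⁻¹ * lo c = Fermat.LT.un (-c) * (J0 : G2 F)⁻¹ := by
  have h1 : (J0 : G2 F) * Fermat.LT.un (-c) = lo c * J0 := by
    apply G2_ext' <;> simp [mul00, mul01, mul10, mul11]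
  rw [inv_mul_eq_iff_eq_mul, ← mul_assoc, h1, mul_inv_cancel_right]

end tri

variable {F M : Type} [Field F] [NumberField F] [Field M] [NumberField M] [Algebra F M]
variable (Z : Setup F M)

namespace Setup

/-- the `J`-relation -/
def JRel {U : Level F} (hU : Z.Good U) : Prop :=
  ∀ s : M → ℂ, Z.IsSch s → ∃ κ0 : ℂ, ∀ (P : XI Z.A) (y : Y U),
    Z.fn hU (Z.cS s) ((J0 : G2 F) • P) ((J0 : G2 F) • y) = κ0 * Z.fn hU (Z.cS (Z.FT s)) P y

variable {Z} {U : Level F} {hU : Z.Good U}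

theorem JRel.out (hJ : Z.JRel hU) {s : M → ℂ} (hs : Z.IsSch s) : ∃ κ0 : ℂ, ∀ (P : XI Z.A) (y : Y U),
    Z.fn hU (Z.cS s) P y =
      κ0 * Z.fn hU (Z.cS (Z.FT s)) ((J0 : G2 F)⁻¹ • P) ((J0 : G2 F)⁻¹ • y) := by
  obtain ⟨κ0, h⟩ := hJ s hs
  refine ⟨κ0, fun P y => ?_⟩
  have := h ((J0 : G2 F)⁻¹ • P) ((J0 : G2 F)⁻¹ • y)
  rwa [smul_inv_smul, smul_inv_smul] at this

/-- invariance under deep lower triangular matrices -/
theorem fn_lo (hJ : Z.JRel hU) {s : M → ℂ} (hs : Z.IsSch s) {c : F}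
    (hc : ∀ w ∈ Z.S, w.valuation F c ≤ exp (-((2 * Z.N : ℕ) : ℤ))) (P : XI Z.A) (y : Y U) :
    Z.fn hU (Z.cS s) (lo c • P) (lo c • y) = Z.fn hU (Z.cS s) P y := by
  obtain ⟨κ0, h⟩ := hJ.out hs
  rw [h, h, ← mul_smul, ← mul_smul, J0_inv_lo, mul_smul, mul_smul,
    Z.fn_un hU (Z.isKap_cS (Z.isSch_FT s))]
  congr 2
  funext α
  by_cases h0 : Z.cS (Z.FT s) α = 0
  · rw [h0, zero_mul]
  by_cases hα : α = 0
  · rw [hα, mul_zero, Z.eS_zero, mul_one]
  rw [Z.eS_of_S fun w hw => ?_, mul_one]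
  have h1 := Z.cS_supp (Z.isSch_FT s) h0 hw
  rw [map_mul, Valuation.map_neg, val_eq w hα]
  calc _ ≤ exp (-((2 * Z.N : ℕ) : ℤ)) * exp (-(ov w α)) := mul_le_mul_left (hc w hw) _
    _ ≤ _ := by
      rw [← WithZero.exp_add, WithZero.exp_le_exp]
      have := dF_apply_nonneg (F := F) w
      push_cast
      omega

theorem fn_un_int {s : M → ℂ} (hs : Z.IsSch s) {b : F} (hb : ∀ w ∈ Z.S, w.valuation F b ≤ 1)
    (P : XI Z.A) (y : Y U) :
    Z.fn hU (Z.cS s) (Fermat.LT.un b • P) (Fermat.LT.un b • y) =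
      Z.fn hU (Z.cS fun ξ => s ξ * Z.eS (b * nrm ξ)) P y := by
  rw [Z.fn_un hU (Z.isKap_cS hs)]
  congr 2
  funext α
  rw [Z.cS_eS hs hb, mul_comm]

theorem sc_fn (κ : F → ℂ) (z : Fˣ) (P : XI Z.A) (y : Y U) :
    Z.fn hU κ (sc z • P) (sc z • y) = Z.fn hU κ P y := by
  rw [sc_smul_XI, sc_smul_Y]

/-- the action of the integral lower triangular matrices -/
theorem fn_lo_int (hJ : Z.JRel hU) {s : M → ℂ} (hs : Z.IsSch s) {c : F}
    (hc : ∀ w ∈ Z.S, w.valuation F c ≤ 1) : ∃ (s' : M → ℂ) (κ : ℂ), Z.IsSch s' ∧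
    ∀ (P : XI Z.A) (y : Y U), Z.fn hU (Z.cS s) (lo c • P) (lo c • y) = κ * Z.fn hU (Z.cS s') P y := by
  obtain ⟨κ1, h1⟩ := hJ.out hs
  have hc' : ∀ w ∈ Z.S, w.valuation F (-c) ≤ 1 := fun w hw => by
    rw [Valuation.map_neg]; exact hc w hw
  set s2 : M → ℂ := fun ξ => Z.FT s ξ * Z.eS (-c * nrm ξ) with hs2
  have hs2' : Z.IsSch s2 := IsSch.mul_eS Z (Z.isSch_FT s) hc'
  obtain ⟨κ2, h2⟩ := hJ s2 hs2'
  refine ⟨Z.FT s2, κ1 * κ2, Z.isSch_FT s2, fun P y => ?_⟩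
  rw [h1, ← mul_smul, ← mul_smul, J0_inv_lo, mul_smul, mul_smul, fn_un_int (Z.isSch_FT s) hc', ← hs2]
  have h3 : (J0 : G2 F)⁻¹ = sc (-1) * J0 := by
    rw [inv_eq_iff_mul_eq_one]
    apply G2_ext' <;> simp [mul00, mul01, mul10, mul11]
  rw [h3, mul_smul, mul_smul, sc_fn, h2]
  ring

/-- reduction of an arbitrary `g` to an upper triangular matrix -/
theorem fn_g (hJ : Z.JRel hU) {s : M → ℂ} (hs : Z.IsSch s) (g : G2 F) :
    ∃ (z a : Fˣ) (b : F) (s' : M → ℂ) (κ : ℂ), Z.IsSch s' ∧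
    ∀ (P : XI Z.A) (y : Y U), Z.fn hU (Z.cS s) (g • P) (g • y) =
      κ * Z.fn hU (Z.cS s') ((sc z * Fermat.LT.un b * dg a) • P) ((sc z * Fermat.LT.un b * dg a) • y) := by
  obtain ⟨β, c, b, hβ, hg, hc, hb⟩ := Ext.decomp Z.S g⁻¹
  have hg' : g = Fermat.LT.un (-b) * (lo (-c) * β⁻¹) := by
    rw [← inv_inv g, hg, _root_.mul_inv_rev, _root_.mul_inv_rev, un_neg, lo_neg]
  have hβ' : (β⁻¹).1 1 0 = 0 := by
    rw [inv_val]
    simp [Matrix.adjugate_fin_two, hβ]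
  obtain ⟨z, a, b', hzab⟩ := exists_tri β⁻¹ hβ'
  have hb' : ∀ w ∈ Z.S, w.valuation F (-b) ≤ 1 := fun w hw => by
    rw [Valuation.map_neg]; exact hb w hw
  have hc' : ∀ w ∈ Z.S, w.valuation F (-c) ≤ 1 := fun w hw => by
    rw [Valuation.map_neg]; exact hc w hw
  obtain ⟨s', κ, hs', h⟩ := fn_lo_int hJ (IsSch.mul_eS Z hs hb') hc'
  refine ⟨z, a, b', s', κ, hs', fun P y => ?_⟩
  rw [hg', mul_smul (Fermat.LT.un (-b)) _ P, mul_smul (Fermat.LT.un (-b)) _ y, fn_un_int hs hb',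
    mul_smul, mul_smul, h, ← hzab]

end Setup

end Fermat.Agent.LT.I
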