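import Mathlib

/-!
# Mean values of periodic functions on abelian groups
-/

set_option autoImplicit false

namespace Fermat.Agent.LT.I

/-- Averages over a finite group factor through surjections. -/
theorem avg_surj {T Q : Type*} [AddCommGroup T] [AddCommGroup Q] [Fintype T] [Fintype Q]
    (π : T →+ Q) (hπ : Function.Surjective π) (F : Q → ℂ) :
    (Fintype.card T : ℂ)⁻¹ * ∑ t, F (π t) = (Fintype.card Q : ℂ)⁻¹ * ∑ q, F q := by
  classical
  have h1 : ∑ t, F (π t) = ∑ q, ∑ t ∈ Finset.univ.filter (fun t => π t = q), F (π t) :=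
    (Finset.sum_fiberwise _ _ _).symm
  set n : ℕ := (Finset.univ.filter (fun t => π t = 0)).card with hn
  have h2 : ∀ q, (Finset.univ.filter (fun t => π t = q)).card = n := fun q =>
    AddMonoidHom.card_fiber_eq_of_mem_range π (hπ q) (hπ 0)
  have h3 : ∀ q, ∑ t ∈ Finset.univ.filter (fun t => π t = q), F (π t) = n * F q := by
    intro q
    rw [Finset.sum_congr rfl (g := fun _ => F q) fun t ht => by rw [(Finset.mem_filter.mp ht).2],
      Finset.sum_const, h2, nsmul_eq_mul]
  have h4 : (Fintype.card T : ℂ) = n * Fintype.card Q := by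
    have h5 : Fintype.card T = ∑ q, (Finset.univ.filter (fun t => π t = q)).card := by
      rw [← Finset.card_univ]
      exact Finset.card_eq_sum_card_fiberwise (fun t _ => Finset.mem_univ _)
    rw [h5]
    simp_rw [h2]
    rw [Finset.sum_const, Finset.card_univ, smul_eq_mul]
    push_cast
    ring
  have hn0 : (n : ℂ) ≠ 0 := by
    intro h0
    rw [h0, zero_mul] at h4
    have : (Fintype.card T : ℂ) ≠ 0 := by exact_mod_cast Fintype.card_ne_zero
    exact this h4
  have hQ0 : (Fintype.card Q : ℂ) ≠ 0 := by exact_mod_cast Fintype.card_ne_zero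
  rw [h1]
  simp_rw [h3]
  rw [← Finset.mul_sum, h4]
  field_simp

variable {G : Type*} [AddCommGroup G]

/-- `f` is periodic modulo `H`. -/
def PerMod (H : AddSubgroup G) (f : G → ℂ) : Prop := ∀ h ∈ H, ∀ g, f (g + h) = f g

theorem PerMod.mono {H K : AddSubgroup G} {f : G → ℂ} (hf : PerMod H f) (hK : K ≤ H) :
    PerMod K f := fun h hh g => hf h (hK hh) g

/-- the function on the quotient -/
noncomputable def desc (H : AddSubgroup G) (f : G → ℂ) : G ⧸ H → ℂ := fun q => f q.out

theorem desc_mk {H : AddSubgroup G} {f : G → ℂ} (hf : PerMod H f) (g : G) :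
    desc H f (QuotientAddGroup.mk g) = f g := by
  obtain ⟨h, hh⟩ := QuotientAddGroup.mk_out_eq_add H g
  unfold desc
  rw [hh]
  exact hf _ h.2 _

instance finiteIndex_comap' {G' : Type*} [AddCommGroup G'] (φ : G' →+ G) (H : AddSubgroup G)
    [H.FiniteIndex] : (H.comap φ).FiniteIndex :=
  ⟨by
    rw [AddSubgroup.index_comap]
    exact AddSubgroup.FiniteIndex.index_ne_zero (H := H.addSubgroupOf φ.range)⟩

/-- average over `G ⧸ H` -/
noncomputable def avg (H : AddSubgroup G) (f : G → ℂ) : ℂ :=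
  (Nat.card (G ⧸ H) : ℂ)⁻¹ * ∑ᶠ q : G ⧸ H, desc H f q

theorem avg_def (H : AddSubgroup G) [Fintype (G ⧸ H)] (f : G → ℂ) :
    avg H f = (Fintype.card (G ⧸ H) : ℂ)⁻¹ * ∑ q : G ⧸ H, desc H f q := by
  unfold avg
  rw [Nat.card_eq_fintype_card, finsum_eq_sum_of_fintype]

/-- Averages pull back along homomorphisms that are surjective modulo `H`. -/
theorem avg_comp {G' : Type*} [AddCommGroup G'] (φ : G' →+ G) (H : AddSubgroup G) [H.FiniteIndex]
    (K : AddSubgroup G') [K.FiniteIndex] (hK : K ≤ H.comap φ)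
    (hφ : ∀ g, ∃ g', g - φ g' ∈ H) {f : G → ℂ} (hf : PerMod H f) :
    avg K (fun g' => f (φ g')) = avg H f := by
  have : Fintype (G ⧸ H) := AddSubgroup.fintypeQuotientOfFiniteIndex
  have : Fintype (G' ⧸ K) := AddSubgroup.fintypeQuotientOfFiniteIndex
  have hf' : PerMod K (fun g' => f (φ g')) := by
    intro h hh g
    simp only [map_add]
    exact hf _ (hK hh) _
  rw [avg_def, avg_def, ← avg_surj (QuotientAddGroup.map K H φ hK)]
  · congr 1
    refine Finset.sum_congr rfl fun t _ => ?_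
    obtain ⟨g', rfl⟩ := QuotientAddGroup.mk_surjective t
    rw [desc_mk hf', QuotientAddGroup.map_mk, desc_mk hf]
  · intro q
    obtain ⟨g, rfl⟩ := QuotientAddGroup.mk_surjective q
    obtain ⟨g', hg'⟩ := hφ g
    refine ⟨QuotientAddGroup.mk g', ?_⟩
    rw [QuotientAddGroup.map_mk, QuotientAddGroup.eq]
    have : -φ g' + g = g - φ g' := by abel
    rw [this]
    exact hg'

theorem avg_of_le {H K : AddSubgroup G} [H.FiniteIndex] [K.FiniteIndex] (hK : K ≤ H) {f : G → ℂ}
    (hf : PerMod H f) : avg K f = avg H f :=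
  avg_comp (AddMonoidHom.id G) H K hK (fun g => ⟨g, by simp⟩) hf

theorem avg_indep {H K : AddSubgroup G} [H.FiniteIndex] [K.FiniteIndex] {f : G → ℂ}
    (hf : PerMod H f) (hf' : PerMod K f) : avg K f = avg H f := by
  rw [← avg_of_le (inf_le_left : H ⊓ K ≤ H) hf, ← avg_of_le (inf_le_right : H ⊓ K ≤ K) hf']

/-- `f` is periodic modulo a subgroup of finite index -/
def Per (f : G → ℂ) : Prop := ∃ H : AddSubgroup G, H.FiniteIndex ∧ PerMod H f

open Classical in
/-- the mean value -/
noncomputable def mean (f : G → ℂ) : ℂ := if h : Per f then avg h.choose f else 0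

theorem mean_eq (H : AddSubgroup G) [H.FiniteIndex] {f : G → ℂ} (hf : PerMod H f) :
    mean f = avg H f := by
  have h : Per f := ⟨H, ‹_›, hf⟩
  rw [mean, dif_pos h]
  have := h.choose_spec.1
  exact avg_indep hf h.choose_spec.2

theorem mean_eq' (H : AddSubgroup G) [H.FiniteIndex] [Fintype (G ⧸ H)] {f : G → ℂ} {F : G ⧸ H → ℂ}
    (hf : ∀ g, f g = F (QuotientAddGroup.mk g)) :
    mean f = (Fintype.card (G ⧸ H) : ℂ)⁻¹ * ∑ q, F q := by
  have hp : PerMod H f := by
    intro h hh g
    rw [hf, hf]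
    congr 1
    rw [QuotientAddGroup.eq]
    simpa using hh
  rw [mean_eq H hp, avg_def]
  congr 1
  refine Finset.sum_congr rfl fun q _ => ?_
  obtain ⟨g, rfl⟩ := QuotientAddGroup.mk_surjective q
  rw [desc_mk hp, hf]

theorem Per.comp {G' : Type*} [AddCommGroup G'] (φ : G' →+ G) {f : G → ℂ} (hf : Per f) :
    Per (fun g' => f (φ g')) := by
  obtain ⟨H, h1, h2⟩ := hf
  refine ⟨H.comap φ, inferInstance, fun h hh g => ?_⟩
  simp only [map_add]
  exact h2 _ hh _

theorem Per.shift {f : G → ℂ} (hf : Per f) (a : G) : Per (fun g => f (g + a)) := by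
  obtain ⟨H, h1, h2⟩ := hf
  refine ⟨H, h1, fun h hh g => ?_⟩
  simp only
  rw [add_right_comm]
  exact h2 _ hh _

theorem Per.shift' {f : G → ℂ} (hf : Per f) (a : G) : Per (fun g => f (a + g)) := by
  simp_rw [add_comm a]
  exact hf.shift a

theorem Per.mul {f f' : G → ℂ} (hf : Per f) (hf' : Per f') : Per (fun g => f g * f' g) := by
  obtain ⟨H, h1, h2⟩ := hf
  obtain ⟨K, h3, h4⟩ := hf'
  refine ⟨H ⊓ K, inferInstance, fun h hh g => ?_⟩
  simp only
  rw [h2 _ hh.1, h4 _ hh.2]

theorem Per.const (c : ℂ) : Per (fun _ : G => c) := ⟨⊤, inferInstance, fun _ _ _ => rfl⟩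

theorem mean_comp {G' : Type*} [AddCommGroup G'] (φ : G' →+ G) (H : AddSubgroup G) [H.FiniteIndex]
    (hφ : ∀ g, ∃ g', g - φ g' ∈ H) {f : G → ℂ} (hf : PerMod H f) :
    mean (fun g' => f (φ g')) = mean f := by
  rw [mean_eq H hf, ← avg_comp φ H (H.comap φ) le_rfl hφ hf]
  refine mean_eq (H.comap φ) fun h hh g => ?_
  simp only [map_add]
  exact hf _ hh _

theorem mean_comp_surj {G' : Type*} [AddCommGroup G'] (φ : G' →+ G) (hφ : Function.Surjective φ)
    {f : G → ℂ} (hf : Per f) : mean (fun g' => f (φ g')) = mean f := by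
  obtain ⟨H, h1, h2⟩ := hf
  refine mean_comp φ H (fun g => ?_) h2
  obtain ⟨g', rfl⟩ := hφ g
  exact ⟨g', by simp⟩

theorem mean_const (c : ℂ) : mean (fun _ : G => c) = c := by
  have : Fintype (G ⧸ (⊤ : AddSubgroup G)) := AddSubgroup.fintypeQuotientOfFiniteIndex
  rw [mean_eq' (⊤ : AddSubgroup G) (F := fun _ => c) fun _ => rfl, Finset.sum_const,
    Finset.card_univ, nsmul_eq_mul, ← mul_assoc, inv_mul_cancel₀, one_mul]
  exact_mod_cast Fintype.card_ne_zero

theorem mean_const_mul (c : ℂ) {f : G → ℂ} (hf : Per f) : mean (fun g => c * f g) = c * mean f := by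
  obtain ⟨H, h1, h2⟩ := hf
  have : Fintype (G ⧸ H) := AddSubgroup.fintypeQuotientOfFiniteIndex
  have h3 : PerMod H (fun g => c * f g) := fun h hh g => by simp only; rw [h2 h hh]
  rw [mean_eq H h2, mean_eq H h3, avg_def, avg_def]
  unfold desc
  rw [← Finset.mul_sum]
  ring

theorem mean_shift {f : G → ℂ} (hf : Per f) (a : G) : mean (fun g => f (g + a)) = mean f := by
  obtain ⟨H, h1, h2⟩ := hf
  have : Fintype (G ⧸ H) := AddSubgroup.fintypeQuotientOfFiniteIndex
  rw [mean_eq' H (F := fun q => desc H f (q + QuotientAddGroup.mk a)) fun g => by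
      rw [← QuotientAddGroup.mk_add, desc_mk h2],
    mean_eq' H (F := desc H f) fun g => (desc_mk h2 g).symm]
  congr 1
  exact Equiv.sum_comp (Equiv.addRight (QuotientAddGroup.mk a : G ⧸ H)) (desc H f)

theorem mean_shift' {f : G → ℂ} (hf : Per f) (a : G) : mean (fun g => f (a + g)) = mean f := by
  simp_rw [add_comm a]
  exact mean_shift hf a

/-- Averaging over a subgroup first does not change the mean. -/
theorem mean_fiber {A : Type*} [AddCommGroup A] (φ : A →+ G) {f : G → ℂ} (hf : Per f) :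
    mean (fun g => mean (fun a => f (g + φ a))) = mean f := by
  obtain ⟨H, h1, h2⟩ := hf
  have : Fintype (G ⧸ H) := AddSubgroup.fintypeQuotientOfFiniteIndex
  have : Fintype (A ⧸ H.comap φ) := AddSubgroup.fintypeQuotientOfFiniteIndex
  have h3 : ∀ g, mean (fun a => f (g + φ a)) = (Fintype.card (A ⧸ H.comap φ) : ℂ)⁻¹ *
      ∑ q : A ⧸ H.comap φ, f (g + φ q.out) := by
    intro g
    rw [mean_eq (H.comap φ), avg_def]
    · rfl
    · intro h hh a
      simp only [map_add]
      rw [← add_assoc]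
      exact h2 _ hh _
  simp_rw [h3]
  have h4 : ∀ q : A ⧸ H.comap φ, PerMod H (fun g => f (g + φ q.out)) := by
    intro q h hh g
    simp only
    rw [add_right_comm]
    exact h2 _ hh _
  have h5 : PerMod H (fun g => (Fintype.card (A ⧸ H.comap φ) : ℂ)⁻¹ *
      ∑ q : A ⧸ H.comap φ, f (g + φ q.out)) := by
    intro h hh g
    simp only
    congr 1
    exact Finset.sum_congr rfl fun q _ => h4 q h hh g
  rw [mean_eq H h5, avg_def]
  unfold desc
  rw [← Finset.mul_sum, Finset.sum_comm]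
  have h6 : ∀ q : A ⧸ H.comap φ, ∑ x : G ⧸ H, f (x.out + φ q.out) =
      Fintype.card (G ⧸ H) * mean f := by
    intro q
    have h7 := mean_shift (⟨H, h1, h2⟩ : Per f) (φ q.out)
    rw [mean_eq H (h4 q), avg_def] at h7
    rw [← h7]
    unfold desc
    rw [← mul_assoc, mul_inv_cancel₀ (by exact_mod_cast Fintype.card_ne_zero), one_mul]
  simp_rw [h6]
  rw [Finset.sum_const, Finset.card_univ, nsmul_eq_mul]
  have h8 : (Fintype.card (A ⧸ H.comap φ) : ℂ) ≠ 0 := by exact_mod_cast Fintype.card_ne_zero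
  have h9 : (Fintype.card (G ⧸ H) : ℂ) ≠ 0 := by exact_mod_cast Fintype.card_ne_zero
  field_simp

/-- The mean of a nontrivial character vanishes. -/
theorem mean_char {f : G → ℂ} (hf : Per f) {c : ℂ} (hc : c ≠ 1) (a : G)
    (h : ∀ g, f (g + a) = c * f g) : mean f = 0 := by
  have h1 := mean_shift hf a
  simp_rw [h] at h1
  rw [mean_const_mul c hf] at h1
  have h2 : (c - 1) * mean f = 0 := by rw [sub_mul, h1, one_mul, sub_self]
  exact (mul_eq_zero.mp h2).resolve_left (sub_ne_zero.mpr hc)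

open Classical in
theorem mean_indicator (B : AddSubgroup G) [B.FiniteIndex] :
    mean (fun g => if g ∈ B then (1 : ℂ) else 0) = (B.index : ℂ)⁻¹ := by
  have : Fintype (G ⧸ B) := AddSubgroup.fintypeQuotientOfFiniteIndex
  rw [mean_eq' B (F := fun q => if q = 0 then 1 else 0), Finset.sum_ite_eq']
  · simp [AddSubgroup.index, Nat.card_eq_fintype_card]
  · intro g
    simp [QuotientAddGroup.eq_zero_iff]

/-- The mean of a function supported on a subgroup. -/
theorem mean_restrict {f : G → ℂ} (hf : Per f) (B : AddSubgroup G) [B.FiniteIndex]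
    (h0 : ∀ g, g ∉ B → f g = 0) : mean f = (B.index : ℂ)⁻¹ * mean (fun b : B => f b) := by
  classical
  rw [← mean_fiber B.subtype hf]
  have h1 : ∀ g, mean (fun b : B => f (g + B.subtype b)) =
      mean (fun b : B => f b) * (if g ∈ B then (1 : ℂ) else 0) := by
    intro g
    split_ifs with hg
    · rw [mul_one]
      exact mean_shift' (hf.comp B.subtype) ⟨g, hg⟩
    · rw [mul_zero, ← mean_const (G := B) 0]
      congr 1
      funext b
      refine h0 _ fun hb => hg ?_
      simpa using sub_mem hb b.2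
  simp_rw [h1]
  rw [mean_const_mul, mean_indicator, mul_comm]
  refine ⟨B, ‹_›, fun h hh g => ?_⟩
  have : g + h ∈ B ↔ g ∈ B := ⟨fun h1 => by simpa using sub_mem h1 hh, fun h1 => add_mem h1 hh⟩
  simp only [this]

/-- Isotropic reduction, abstract form. -/
theorem mean_isotropic {f : G → ℂ} (hf : Per f) (B A : AddSubgroup G) [A.FiniteIndex]
    (h1 : ∀ g ∈ A, ∀ b ∈ B, f (g + b) = f g)
    (h2 : ∀ g, g ∉ A → ∃ c : ℂ, c ≠ 1 ∧ ∃ b0 ∈ B, ∀ b ∈ B, f (g + (b + b0)) = c * f (g + b)) :
    mean f = (A.index : ℂ)⁻¹ * mean (fun a : A => f a) := by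
  classical
  have h3 : ∀ g, mean (fun b : B => f (g + B.subtype b)) = if g ∈ A then f g else 0 := by
    intro g
    split_ifs with hg
    · rw [← mean_const (G := B) (f g)]
      congr 1
      funext b
      exact h1 g hg _ b.2
    · obtain ⟨c, hc, b0, hb0, h4⟩ := h2 g hg
      refine mean_char ((hf.shift' g).comp B.subtype) hc ⟨b0, hb0⟩ fun b => ?_
      exact h4 _ b.2
  rw [← mean_fiber B.subtype hf]
  simp_rw [h3]
  rw [mean_restrict _ A (fun g hg => if_neg hg)]
  · congr 2
    funext a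
    rw [if_pos a.2]
  · obtain ⟨H, hH1, hH2⟩ := hf
    refine ⟨H ⊓ A, inferInstance, fun h hh g => ?_⟩
    have h7 : g + h ∈ A ↔ g ∈ A :=
      ⟨fun h1 => by simpa using sub_mem h1 hh.2, fun h1 => add_mem h1 hh.2⟩
    simp only [h7, hH2 h hh.1 g]

/-- Means over finite groups. -/
theorem mean_fintype {K : Type*} [AddCommGroup K] [Fintype K] (f : K → ℂ) :
    mean f = (Fintype.card K : ℂ)⁻¹ * ∑ x, f x := by
  have h1 : PerMod (⊥ : AddSubgroup K) f := by
    intro h hh g
    rw [AddSubgroup.mem_bot] at hh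
    rw [hh, add_zero]
  have : (⊥ : AddSubgroup K).FiniteIndex := ⟨by
    rw [AddSubgroup.index_bot]
    exact Nat.card_pos.ne'⟩
  have : Fintype (K ⧸ (⊥ : AddSubgroup K)) := AddSubgroup.fintypeQuotientOfFiniteIndex
  rw [mean_eq ⊥ h1, avg_def, ← avg_surj (QuotientAddGroup.mk' (⊥ : AddSubgroup K))
    (QuotientAddGroup.mk'_surjective _)]
  congr 1
  exact Finset.sum_congr rfl fun x _ => desc_mk h1 x

/-- Means of functions factoring through a finite quotient. -/
theorem mean_factor {K : Type*} [AddCommGroup K] [Fintype K] (π : G →+ K)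
    (hπ : Function.Surjective π) (f : K → ℂ) :
    mean (fun g => f (π g)) = (Fintype.card K : ℂ)⁻¹ * ∑ x, f x := by
  rw [← mean_fintype, mean_comp_surj π hπ]
  refine ⟨⊥, ⟨by rw [AddSubgroup.index_bot]; exact Nat.card_pos.ne'⟩, fun h hh g => ?_⟩
  rw [AddSubgroup.mem_bot] at hh
  rw [hh, add_zero]

/-- Independence. -/
theorem mean_mul_indep {f f' : G → ℂ} (H K : AddSubgroup G) [H.FiniteIndex] [K.FiniteIndex]
    (hf : PerMod H f) (hf' : PerMod K f') (hHK : ∀ g, ∃ h ∈ H, g - h ∈ K) :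
    mean (fun g => f g * f' g) = mean f * mean f' := by
  rw [← mean_fiber H.subtype (Per.mul ⟨H, ‹_›, hf⟩ ⟨K, ‹_›, hf'⟩)]
  have h1 : ∀ g, mean (fun h : H => f (g + H.subtype h) * f' (g + H.subtype h)) =
      mean f' * f g := by
    intro g
    have h2 : ∀ h : H, f (g + H.subtype h) = f g := fun h => hf _ h.2 g
    simp_rw [h2]
    have h3 : PerMod K (fun a => f' (g + a)) := by
      intro h hh a
      simp only
      rw [← add_assoc]
      exact hf' _ hh _
    rw [mean_const_mul]
    · rw [mul_comm, ← mean_shift' ⟨K, ‹_›, hf'⟩ g]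
      congr 1
      refine mean_comp H.subtype K (fun a => ?_) h3
      obtain ⟨h, hh, hk⟩ := hHK a
      exact ⟨⟨h, hh⟩, hk⟩
    · exact Per.comp H.subtype (f := fun a => f' (g + a)) ⟨K, ‹_›, h3⟩
  simp_rw [h1]
  rw [mean_const_mul _ ⟨H, ‹_›, hf⟩, mul_comm]

end Fermat.Agent.LT.I
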