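import Mathlib

/-!
# Norm one units of a quadratic extension of a totally complex field
-/

set_option autoImplicit false

open NumberField NumberField.Units NumberField.Units.dirichletUnitTheorem Module

namespace Fermat.Agent.LT.I

/-- A totally complex number field with an involution `c`, and a choice of embeddings
representing the pairs of places `(w, w ∘ c)`. -/
structure QArch (M : Type*) [Field M] [NumberField M] (I : Type*) where
  /-- the involution -/
  c : M ≃+* M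
  cc : ∀ x, c (c x) = x
  /-- the embeddings -/
  e : I → M →+* ℂ
  bij : Function.Bijective (Sum.elim (fun i => InfinitePlace.mk (e i))
    (fun i => InfinitePlace.mk ((e i).comp (c : M →+* M))))
  cx : ∀ i, ¬ ComplexEmbedding.IsReal (e i)

namespace QArch

variable {M : Type*} [Field M] [NumberField M] {I : Type*} (Q : QArch M I)

/-- the first embedding as a place -/
noncomputable def w1 (i : I) : InfinitePlace M := InfinitePlace.mk (Q.e i)
/-- the second embedding as a place -/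
noncomputable def w2 (i : I) : InfinitePlace M := InfinitePlace.mk ((Q.e i).comp (Q.c : M →+* M))

/-- the places -/
noncomputable def eqv : I ⊕ I ≃ InfinitePlace M := Equiv.ofBijective _ Q.bij

theorem eqv_inl (i : I) : Q.eqv (Sum.inl i) = Q.w1 i := rfl
theorem eqv_inr (i : I) : Q.eqv (Sum.inr i) = Q.w2 i := rfl

theorem w1_apply (i : I) (x : M) : Q.w1 i x = ‖Q.e i x‖ := rfl
theorem w2_apply (i : I) (x : M) : Q.w2 i x = ‖Q.e i (Q.c x)‖ := rfl

theorem isComplex_w1 (i : I) : (Q.w1 i).IsComplex :=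
  InfinitePlace.isComplex_iff.mpr fun h => Q.cx i <| by
    have : Q.e i = (Q.w1 i).embedding ∨ ComplexEmbedding.conjugate (Q.e i) = (Q.w1 i).embedding := by
      rcases InfinitePlace.embedding_mk_eq (Q.e i) with h | h
      · exact Or.inl h.symm
      · exact Or.inr h.symm
    rcases this with h1 | h1
    · rw [h1]; exact h
    · rw [← h1] at h
      exact ComplexEmbedding.isReal_conjugate_iff.mp h

theorem isComplex_w2 (i : I) : (Q.w2 i).IsComplex := by
  refine InfinitePlace.isComplex_iff.mpr fun h => Q.cx i ?_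
  have h0 : ComplexEmbedding.IsReal ((Q.e i).comp (Q.c : M →+* M)) := by
    have : (Q.e i).comp (Q.c : M →+* M) = (Q.w2 i).embedding ∨
        ComplexEmbedding.conjugate ((Q.e i).comp (Q.c : M →+* M)) = (Q.w2 i).embedding := by
      rcases InfinitePlace.embedding_mk_eq ((Q.e i).comp (Q.c : M →+* M)) with h | h
      · exact Or.inl h.symm
      · exact Or.inr h.symm
    rcases this with h1 | h1
    · rw [h1]; exact h
    · rw [← h1] at h
      exact ComplexEmbedding.isReal_conjugate_iff.mp h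
  rw [ComplexEmbedding.isReal_iff] at h0 ⊢
  refine RingHom.ext fun x => ?_
  have h1 := RingHom.congr_fun h0 (Q.c x)
  rw [ComplexEmbedding.conjugate_coe_eq] at h1 ⊢
  simpa [Q.cc] using h1

include Q in
theorem mult_eq (w : InfinitePlace M) : w.mult = 2 := by
  obtain ⟨x, rfl⟩ := Q.eqv.surjective w
  rcases x with i | i
  · rw [eqv_inl]; exact InfinitePlace.mult_isComplex ⟨_, Q.isComplex_w1 i⟩
  · rw [eqv_inr]; exact InfinitePlace.mult_isComplex ⟨_, Q.isComplex_w2 i⟩

/-- The involution on units. -/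
noncomputable def cu (u : (𝓞 M)ˣ) : (𝓞 M)ˣ := Units.map (RingOfIntegers.mapRingEquiv Q.c : 𝓞 M →* 𝓞 M) u

theorem cu_coe (u : (𝓞 M)ˣ) : ((Q.cu u : 𝓞 M) : M) = Q.c ((u : 𝓞 M) : M) := rfl

theorem cu_mul (u v : (𝓞 M)ˣ) : Q.cu (u * v) = Q.cu u * Q.cu v := by
  unfold cu; rw [map_mul]

theorem cu_inv (u : (𝓞 M)ˣ) : Q.cu u⁻¹ = (Q.cu u)⁻¹ := by
  unfold cu; rw [map_inv]

theorem cu_pow (u : (𝓞 M)ˣ) (n : ℕ) : Q.cu (u ^ n) = Q.cu u ^ n := by
  unfold cu; rw [map_pow]

theorem cu_cu (u : (𝓞 M)ˣ) : Q.cu (Q.cu u) = u := by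
  apply Units.ext
  apply RingOfIntegers.ext
  rw [cu_coe, cu_coe, Q.cc]

/-- the logarithm vector -/
noncomputable def lg (x : M) (i : I) : ℝ := 2 * Real.log ‖Q.e i x‖

theorem lg_mul {x y : M} (hx : x ≠ 0) (hy : y ≠ 0) : Q.lg (x * y) = Q.lg x + Q.lg y := by
  funext i
  have h1 : ‖Q.e i x‖ ≠ 0 := norm_ne_zero_iff.mpr ((map_ne_zero _).mpr hx)
  have h2 : ‖Q.e i y‖ ≠ 0 := norm_ne_zero_iff.mpr ((map_ne_zero _).mpr hy)
  simp only [lg, Pi.add_apply, map_mul, norm_mul, Real.log_mul h1 h2]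
  ring

theorem lg_one : Q.lg 1 = 0 := by
  funext i; simp [lg]

theorem lg_inv (x : M) : Q.lg x⁻¹ = - Q.lg x := by
  funext i; simp [lg, map_inv₀, norm_inv, Real.log_inv]

theorem lg_pow {x : M} (n : ℕ) : Q.lg (x ^ n) = n • Q.lg x := by
  funext i; simp only [lg, map_pow, norm_pow, Real.log_pow, Pi.smul_apply, nsmul_eq_mul]; ring

/-- The logarithm vectors of the elements `u / c(u)` span. -/
theorem span_lg [Fintype I] :
    Submodule.span ℝ (Set.range fun u : (𝓞 M)ˣ => Q.lg (((u / Q.cu u : (𝓞 M)ˣ) : 𝓞 M) : M)) = ⊤ := by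
  classical
  -- the linear map
  let ext : logSpace M →ₗ[ℝ] (InfinitePlace M → ℝ) :=
    { toFun := fun x w => if h : w = w₀ then - ∑ w' , x w' else x ⟨w, h⟩
      map_add' := fun x y => by
        funext w
        by_cases h : w = w₀
        · simp [h, Finset.sum_add_distrib, add_comm]
        · simp [h]
      map_smul' := fun a x => by
        funext w
        by_cases h : w = w₀
        · simp [h, Finset.mul_sum]
        · simp [h] }
  let T : logSpace M →ₗ[ℝ] (I → ℝ) :=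
    { toFun := fun x i => ext x (Q.w1 i) - ext x (Q.w2 i)
      map_add' := fun x y => by funext i; simp; ring
      map_smul' := fun a x => by funext i; simp; ring }
  have hext : ∀ u : (𝓞 M)ˣ, ∀ w, ext (logEmbedding M (Additive.ofMul u)) w =
      2 * Real.log (w ((u : 𝓞 M) : M)) := by
    intro u w
    by_cases h : w = w₀
    · subst h
      have := sum_logEmbedding_component u
      simp only [ext, LinearMap.coe_mk, AddHom.coe_mk, dif_pos]
      rw [this, Q.mult_eq]
      push_cast; ring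
    · simp only [ext, LinearMap.coe_mk, AddHom.coe_mk, dif_neg h]
      rw [logEmbedding_component, Q.mult_eq]
      push_cast; ring
  have hT : ∀ u : (𝓞 M)ˣ, T (logEmbedding M (Additive.ofMul u)) =
      Q.lg (((u / Q.cu u : (𝓞 M)ˣ) : 𝓞 M) : M) := by
    intro u
    funext i
    have h1 : T (logEmbedding M (Additive.ofMul u)) i =
      ext (logEmbedding M (Additive.ofMul u)) (Q.w1 i) -
        ext (logEmbedding M (Additive.ofMul u)) (Q.w2 i) := rfl
    rw [h1, hext, hext, w1_apply, w2_apply]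
    have h2 : (((u / Q.cu u : (𝓞 M)ˣ) : 𝓞 M) : M) = ((u : 𝓞 M) : M) * (Q.c ((u : 𝓞 M) : M))⁻¹ := by
      rw [← cu_coe, ← div_eq_mul_inv, eq_div_iff]
      · rw [← map_mul, ← Units.val_mul, div_mul_cancel]
      · exact (Units.coe_ne_zero _)
    rw [h2, Q.lg_mul (Units.coe_ne_zero _) (inv_ne_zero ((map_ne_zero _).mpr (Units.coe_ne_zero _))),
      lg_inv]
    simp only [lg, Pi.add_apply, Pi.neg_apply]
    ring
  have hTs : Function.Surjective T := by
    intro y
    let y' : InfinitePlace M → ℝ := fun w => Sum.elim (fun i => y i / 2) (fun i => -(y i / 2)) (Q.eqv.symm w)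
    have hsum : ∑ w, y' w = 0 := by
      rw [← Q.eqv.sum_comp]
      simp [y', Fintype.sum_sum_type]
    refine ⟨fun w => y' w.1, ?_⟩
    have h1 : ∀ w, ext (fun w => y' w.1) w = y' w := by
      intro w
      by_cases h : w = w₀
      · subst h
        simp only [ext, LinearMap.coe_mk, AddHom.coe_mk, dif_pos]
        rw [Fintype.sum_eq_add_sum_subtype_ne _ w₀] at hsum
        linarith
      · simp only [ext, LinearMap.coe_mk, AddHom.coe_mk, dif_neg h]
    funext i
    have h2 : T (fun w => y' w.1) i = ext (fun w => y' w.1) (Q.w1 i) - ext (fun w => y' w.1) (Q.w2 i) := rfl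
    rw [h2, h1, h1, ← eqv_inl, ← eqv_inr]
    simp [y']
  rw [eq_top_iff]
  have h3 := congrArg (Submodule.map T) (unitLattice_span_eq_top M)
  rw [Submodule.map_top, LinearMap.range_eq_top.mpr hTs, Submodule.map_span] at h3
  rw [← h3]
  refine Submodule.span_mono ?_
  rintro _ ⟨_, ⟨x, _, rfl⟩, rfl⟩
  exact ⟨x.toMul, (hT x.toMul).symm⟩

theorem exists_torus [Fintype I] (𝔣 : Ideal (𝓞 M)) (h𝔣 : 𝔣 ≠ ⊥) :
    ∃ (ε : I → (𝓞 M)ˣ) (b : Basis I ℝ (I → ℝ)), (∀ j, ε j * Q.cu (ε j) = 1) ∧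
      (∀ j, (ε j : 𝓞 M) - 1 ∈ 𝔣) ∧ ∀ j, b j = Q.lg ((ε j : 𝓞 M) : M) := by
  classical
  set B0 := Basis.ofSpan (Q.span_lg.ge) with hB0
  have hmem : ∀ j, B0 j ∈ Set.range fun u : (𝓞 M)ˣ => Q.lg (((u / Q.cu u : (𝓞 M)ˣ) : 𝓞 M) : M) :=
    fun j => Basis.ofSpan_subset (Q.span_lg.ge) ⟨j, rfl⟩
  choose u hu using hmem
  -- reindex
  have := Fintype.ofFinite ((linearIndepOn_empty ℝ id).extend (Set.empty_subset
    (Set.range fun u : (𝓞 M)ˣ => Q.lg (((u / Q.cu u : (𝓞 M)ˣ) : 𝓞 M) : M))))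
  have hcard := Module.finrank_eq_card_basis B0
  rw [Module.finrank_fintype_fun_eq_card] at hcard
  let eI := Fintype.equivOfCardEq hcard
  have hfin : Finite (𝓞 M ⧸ 𝔣) := Ideal.finiteQuotientOfFreeOfNeBot 𝔣 h𝔣
  set m := Nat.card (𝓞 M ⧸ 𝔣)ˣ with hm
  have hm0 : (m : ℝ) ≠ 0 := by exact_mod_cast Nat.card_pos.ne'
  refine ⟨fun j => (u (eI j) / Q.cu (u (eI j))) ^ m,
    (B0.reindex eI.symm).isUnitSMul (w := fun _ => (m : ℝ)) (fun _ => hm0.isUnit), fun j => ?_, fun j => ?_, fun j => ?_⟩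
  · rw [Q.cu_pow, ← mul_pow, div_eq_mul_inv, Q.cu_mul, Q.cu_inv, Q.cu_cu]
    rw [show u (eI j) * (Q.cu (u (eI j)))⁻¹ * (Q.cu (u (eI j)) * (u (eI j))⁻¹) = 1 by group, one_pow]
  · rw [← Ideal.Quotient.eq_zero_iff_mem, map_sub, map_one, sub_eq_zero]
    have h1 := pow_card_eq_one' (x := Units.map (Ideal.Quotient.mk 𝔣 : 𝓞 M →* 𝓞 M ⧸ 𝔣)
      (u (eI j) / Q.cu (u (eI j))))
    rw [← map_pow] at h1
    have h2 := congrArg Units.val h1
    rw [Units.coe_map, Units.val_one] at h2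
    exact h2
  · rw [Basis.isUnitSMul_apply, Basis.reindex_apply, Equiv.symm_symm, ← hu (eI j)]
    have h1 : ((((u (eI j) / Q.cu (u (eI j))) ^ m : (𝓞 M)ˣ) : 𝓞 M) : M) =
      (((u (eI j) / Q.cu (u (eI j)) : (𝓞 M)ˣ) : 𝓞 M) : M) ^ m := by
      rw [Units.val_pow_eq_pow_val]; exact map_pow (algebraMap (𝓞 M) M) _ _
    rw [h1, lg_pow, ← Nat.cast_smul_eq_nsmul ℝ]

end QArch

end Fermat.Agent.LT.I
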