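import Fermat.Agent.LT.I.NewFn
import Fermat.Agent.LT.I.ExtT
import Fermat.Agent.LT.I.Approx
import Fermat.Agent.LT.I.Coef
import Fermat.Agent.LT.B.FinKer

/-!
# LT, piece I: from the abstract output of the theta construction to the form on `X ⟨A, U⟩`

`exists_form`: if `NewFn A U S K lam f`, the level `U` is full outside `S` and `HT w M` at `w ∈ S`
(`K ≤ M + 1`), there is a nonzero cusp form on `X ⟨A, U⟩` with the eigenvalues `lam w`, `w ∉ S`, the
archimedean parameters `0`, and vanishing sums over `g * un (rep w c)` at `w ∈ S`.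
-/

set_option autoImplicit false
set_option linter.unusedSectionVars false

open NumberField IsDedekindDomain Matrix WithZero Module

namespace Fermat.Agent.LT.I

open Fermat.LT Fermat.Agent.CFT Fermat.Agent.LT.CTree Fermat.Agent.LT.CArch Fermat.Agent.LT.H

variable {F : Type} [Field F] [NumberField F]

namespace PiLAbs

section local_lemmas

variable (w : Pl F)

theorem nm_un {s : F} (hs : av w s ≤ 1) : nm w (un s).1 = 1 := by
  apply le_antisymm
  · rw [nm_le_iff]
    intro i j
    fin_cases i <;> fin_cases j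
    · change av w ((un s).1 0 0) ≤ 1
      rw [un00, map_one]
    · change av w ((un s).1 0 1) ≤ 1
      rw [un01]; exact hs
    · change av w ((un s).1 1 0) ≤ 1
      rw [un10, map_zero]; exact zero_le_one
    · change av w ((un s).1 1 1) ≤ 1
      rw [un11, map_one]
  · have h := av_le_nm w (un s).1 0 0
    rwa [un00, map_one] at h

theorem un_mem_stdH {s : F} (hs : av w s ≤ 1) : un s ∈ stdH w := by
  rw [mem_stdH, ← un_neg, nm_un w hs, nm_un w (by rwa [(av w).map_neg]), mul_one]

theorem mem_HT_conj {M : ℕ} {k : G2 F} (hk : k ∈ HT w M) {s r : F} (hs : av w s ≤ 1)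
    (hr : av w r ≤ 1) (h : av w (s * k.1 1 1 + k.1 0 0 * r) < nm w k.1) :
    un s * k * un r ∈ HT w M := by
  obtain ⟨h1, ⟨h2, h3⟩, h4⟩ := (mem_HT' w M).1 hk
  have e10 : (un s * k * un r).1 1 0 = k.1 1 0 := by
    simp only [mul10, mul11, un00, un10, un11]; ring
  have e01 : (un s * k * un r).1 0 1 = (s * k.1 1 1 + k.1 0 0 * r) + (s * k.1 1 0 * r + k.1 0 1) := by
    simp only [mul00, mul01, un00, un01, un11]; ring
  have hnm : nm w (un s * k * un r).1 = nm w k.1 := by
    rw [nm_mul_of_mem w (un_mem_stdH w hr), nm_mul_of_mem w h1, nm_un w hs, nm_un w hr, one_mul,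
      mul_one]
  rw [mem_HT', e10, e01, hnm]
  refine ⟨mul_mem (mul_mem (un_mem_stdH w hs) h1) (un_mem_stdH w hr), ⟨h2, h3⟩, ?_⟩
  refine (av_add_le w _ _).trans_lt (max_lt h ((av_add_le w _ _).trans_lt (max_lt ?_ h4)))
  rw [map_mul, map_mul]
  calc av w s * av w (k.1 1 0) * av w r ≤ 1 * av w (k.1 1 0) * 1 := by
        refine mul_le_mul (mul_le_mul_of_nonneg_right hs ((av w).nonneg _)) hr ((av w).nonneg _) ?_
        rw [one_mul]; exact (av w).nonneg _
    _ = av w (k.1 1 0) := by ring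
    _ < nm w k.1 := h2

end local_lemmas

variable {A : Arch F} {U : Level F} {S : Finset (Pl F)} {K : ℕ} {lam : Pl F → ℂ}
  {f : XI A → Y U → ℂ}

/-- elements of given valuation -/
theorem exists_ov (w : Pl F) (m : ℤ) : ∃ t : Fˣ, ov w (t : F) = m := by
  obtain ⟨ϖ, hϖ⟩ := exists_unif w
  refine ⟨ϖ ^ m, ?_⟩
  unfold ov
  unfold lv at hϖ
  rw [Units.val_zpow_eq_zpow_val, map_zpow₀, WithZero.log_zpow, hϖ]
  simp

theorem smul_upd' (g : G2 F) (y : Y U) (w : Pl F) (z : Yl U w) :
    g • B.upd y w z = B.upd (g • y) w (g • z) := by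
  refine Y.ext' fun v => ?_
  rw [G2_smul_apply]
  by_cases h : v = w
  · subst h; rw [B.upd_same, B.upd_same]
  · rw [B.upd_ne _ h, B.upd_ne _ h, G2_smul_apply]

/-- change of the components at `S` -/
theorem exists_mod (S : Finset (Pl F)) (z : ∀ w, Yl U w) (y : Y U) :
    ∃ y' : Y U, (∀ w ∈ S, y' w = z w) ∧ ∀ w ∉ S, y' w = y w := by
  classical
  refine ⟨⟨fun w => if w ∈ S then z w else y w, ?_⟩, fun w hw => if_pos hw, fun w hw => if_neg hw⟩
  refine (S.finite_toSet.union y.fin).subset fun w hw => ?_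
  by_cases h : w ∈ S
  · exact Or.inl h
  · refine Or.inr ?_
    have h1 : (if w ∈ S then z w else y w) ≠ ((1 : G2 F) : Yl U w) := hw
    rwa [if_neg h] at h1

/-- **The form attached to the abstract output of the theta construction.** -/
theorem exists_form (h : NewFn A U S K lam f) {M : ℕ} (hH : ∀ w ∈ S, U.H w = HT w M)
    (hKM : K ≤ M + 1) :
    ∃ φ : X (⟨A, U⟩ : Datum F) → ℂ, B.IsCusp φ ∧
      (∀ w ∉ S, ∀ x, B.TX w φ x = (sq w : ℂ) * lam w * φ x) ∧
      (∀ i g, IsTest g → ∀ x, B.RX i g φ x = hat g 0 * φ x) ∧ φ ≠ 0 ∧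
      ∀ w ∈ S, ∀ (P : XI A) (y : Y U) (g : G2 F), y w = (g : Yl U w) →
        ∑ c : 𝓞 F ⧸ w.asIdeal, φ (P, B.upd y w ((g * un (rep w c) : G2 F) : Yl U w)) = 0 := by
  classical
  choose t ht using fun w : Pl F => exists_ov w (-1 - dF F w)
  have hvt : ∀ w, w.valuation F (t w : F) = exp (dF F w) * exp 1 := by
    intro w
    rw [val_eq w (t w).ne_zero, ht w, ← exp_add]
    congr 1
    ring
  have hf : ∀ δ : G2 F, (∀ w ∈ S, δ • ((dg (t w) : G2 F) : Yl U w) = ((dg (t w) : G2 F) : Yl U w)) →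
      ∀ P y, f (δ • P) (δ • y) = f P y := by
    intro δ hδ
    refine ExtT.inv_of_fix hH (fun b hb => h.un b fun w hw => ?_)
      (fun c hc => h.lo c fun w hw => ?_) (fun a ha => h.dg a ha) hδ
    · have h1 := hb w hw
      rw [hvt, lt_mul_exp_iff_le exp_ne_zero] at h1
      exact h1
    · have h1 := hc w hw
      rw [map_mul, hvt, ← exp_add] at h1
      have h2 : w.valuation F c = exp (-(dF F w + 1)) * (exp (dF F w + 1) * w.valuation F c) := by
        rw [← mul_assoc, ← exp_add, neg_add_cancel, exp_zero, one_mul]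
      rw [h2]
      calc exp (-(dF F w + 1)) * (exp (dF F w + 1) * w.valuation F c)
          ≤ exp (-(dF F w + 1)) * exp (-((max M 1 : ℕ) : ℤ)) := mul_le_mul_right h1 _
        _ = exp (-(dF F w + 1) + -((max M 1 : ℕ) : ℤ)) := by rw [exp_add]
        _ ≤ exp (-(K : ℤ)) := by
            rw [exp_le_exp]
            have h3 := dF_apply_nonneg (F := F) w
            have h4 : (M : ℤ) ≤ ((max M 1 : ℕ) : ℤ) := by exact_mod_cast le_max_left M 1
            have h5 : (K : ℤ) ≤ M + 1 := by exact_mod_cast hKM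
            linarith
  obtain ⟨φ, hinv, hφ⟩ := ExtT.exists_ext S (fun w => dg (t w)) f hf
  have hexp : ∀ y : Y U, ∃ c : Fˣ → ℂ, Cf A c ∧
      ∀ P, HasSum (fun α : Fˣ => c α * W A α P) (φ (P, y)) := by
    intro y
    obtain ⟨γ, hγ⟩ := ExtT.exists_gamma (U := U) S (fun w => dg (t w)) y
    obtain ⟨c, hc, hs⟩ := h.exp γ⁻¹ y
    refine ⟨c, hc, fun P => ?_⟩
    rw [hφ P y γ hγ]
    exact hs P
  choose c hc hs using hexp
  have hW : Whit φ c := ⟨hinv, hs, fun y => (hc y).lat, fun y => (hc y).bd⟩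
  refine ⟨φ, hW.isCusp, ?_, fun i g hg x => hW.RX_eq i hg x, ?_, ?_⟩
  · rintro w hw ⟨P, y⟩
    obtain ⟨γ, hγ⟩ := ExtT.exists_gamma (U := U) S (fun w => dg (t w)) y
    have h1 : ∀ z, φ (P, B.upd y w z) = f (γ⁻¹ • P) (B.upd (γ⁻¹ • y) w (γ⁻¹ • z)) := by
      intro z
      rw [← smul_upd']
      refine hφ P _ γ fun w' hw' => ?_
      have hne : w' ≠ w := fun e => hw (e ▸ hw')
      rw [smul_upd', B.upd_ne _ hne]
      exact hγ w' hw'
    change Tl w δ₁ (fun z => φ (P, B.upd y w z)) (y w) = _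
    simp_rw [h1]
    rw [← Tl_equivariant δ₁ (fun z => f (γ⁻¹ • P) (B.upd (γ⁻¹ • y) w z)) γ⁻¹ (y w)]
    have h2 := h.hecke w hw (γ⁻¹ • P) (γ⁻¹ • y)
    rw [hφ P y γ hγ]
    exact h2
  · obtain ⟨y, c0, hc0, hs0, α, hα⟩ := h.ne
    obtain ⟨y', h1, h2⟩ := exists_mod S (fun w => ((dg (t w) : G2 F) : Yl U w)) y
    have hW' : Whit φ (fun z => if z = y' then c0 else c z) := by
      refine ⟨hinv, fun z P => ?_, fun z => ?_, fun z => ?_⟩
      · by_cases hz : z = y'
        · subst hz
          simp only [if_true]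
          rw [ExtT.ext_apply hφ P z h1, ← h.off P y z fun w hw => (h2 w hw).symm]
          exact hs0 P
        · simp only [if_neg hz]
          exact hs z P
      · by_cases hz : z = y'
        · simp only [if_pos hz]; exact hc0.lat
        · simp only [if_neg hz]; exact (hc z).lat
      · by_cases hz : z = y'
        · simp only [if_pos hz]; exact hc0.bd
        · simp only [if_neg hz]; exact (hc z).bd
    refine hW'.ne_zero ⟨y', α, ?_⟩
    simp only [if_true]
    exact hα
  · intro w hw P y g hg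
    obtain ⟨γ, hγ⟩ := ExtT.exists_gamma (U := U) S (fun w => dg (t w)) y
    set k : G2 F := (dg (t w))⁻¹ * (γ⁻¹ * g) with hk
    have hkH : k ∈ HT w M := by
      have h1 := hγ w hw
      rw [G2_smul_apply, hg] at h1
      change ((γ⁻¹ * g : G2 F) : Yl U w) = _ at h1
      rw [eq_comm, QuotientGroup.eq, hH w hw] at h1
      exact h1
    obtain ⟨e00, e11, -⟩ := ExtT.HT_entries w M hkH
    have hk0 := nm_pos w k
    have hk11 : k.1 1 1 ≠ 0 := by
      intro h0
      rw [h0, map_zero] at e11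
      exact hk0.ne e11
    have hρ : ∀ c : 𝓞 F ⧸ w.asIdeal, ∃ c' : 𝓞 F ⧸ w.asIdeal,
        av w (rep w c' * k.1 1 1 + k.1 0 0 * rep w c) < nm w k.1 := by
      intro c
      obtain ⟨c', hc'⟩ := exists_rep w (x := -(k.1 0 0 / k.1 1 1 * rep w c)) (by
        rw [(av w).map_neg, map_mul, map_div₀, e00, e11, div_self hk0.ne', one_mul]
        exact av_rep_le w c)
      refine ⟨c', ?_⟩
      have e1 : rep w c' * k.1 1 1 + k.1 0 0 * rep w c =
          -((-(k.1 0 0 / k.1 1 1 * rep w c) - rep w c') * k.1 1 1) := by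
        field_simp
        ring
      rw [e1, (av w).map_neg, map_mul, e11]
      exact mul_lt_of_lt_one_left hk0 hc'
    choose ρ hρ using hρ
    have hρi : Function.Injective ρ := by
      intro c c' hcc
      rw [← rep_close w]
      have e1 : k.1 0 0 * (rep w c - rep w c') = (rep w (ρ c) * k.1 1 1 + k.1 0 0 * rep w c) +
          -(rep w (ρ c') * k.1 1 1 + k.1 0 0 * rep w c') := by
        rw [hcc]; ring
      have h1 : av w (k.1 0 0 * (rep w c - rep w c')) < nm w k.1 := by
        rw [e1]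
        refine (av_add_le w _ _).trans_lt (max_lt (hρ c) ?_)
        rw [(av w).map_neg]
        exact hρ c'
      rw [map_mul, e00] at h1
      exact (mul_lt_iff_lt_one_right hk0).1 h1
    have hρb : Function.Bijective ρ := Finite.injective_iff_bijective.1 hρi
    have hB : ∀ c : 𝓞 F ⧸ w.asIdeal, ∃ b : F,
        w.valuation F (b - t w * rep w c) ≤ exp (dF F w) ∧
        ∀ w' ∈ S, w' ≠ w → w'.valuation F b ≤ exp (dF F w') := by
      intro c
      obtain ⟨u, hu, -⟩ := strong_approx S (fun w' => if w' = w then (t w : F) * rep w c else 0)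
        (fun w' => -dF F w') 0
      refine ⟨u, ?_, fun w' hw' hne => ?_⟩
      · have := hu w hw
        rw [if_pos rfl, neg_neg] at this
        exact this
      · have := hu w' hw'
        rw [if_neg hne, neg_neg, sub_zero] at this
        exact this
    choose b hb1 hb2 using hB
    have h0 := h.sum0 w hw (t w) (ht w) b hb1 hb2 (γ⁻¹ • P) (γ⁻¹ • y)
    rw [← h0, ← hρb.sum_comp (fun c => f (un (b c) • γ⁻¹ • P) (un (b c) • γ⁻¹ • y))]
    refine Finset.sum_congr rfl fun c _ => ?_
    set y' : Y U := B.upd y w ((g * un (rep w c) : G2 F) : Yl U w) with hy'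
    set β : F := b (ρ c) with hβ
    have einv : (γ * un (-β))⁻¹ = un β * γ⁻¹ := by
      rw [_root_.mul_inv_rev, ← un_neg, neg_neg]
    have hγc : ∀ w' ∈ S, ((γ * un (-β))⁻¹ • y') w' = ((dg (t w') : G2 F) : Yl U w') := by
      intro w' hw'
      rw [einv, G2_smul_apply]
      by_cases hne : w' = w
      · subst hne
        rw [hy', B.upd_same]
        change ((un β * γ⁻¹ * (g * un (rep w' c)) : G2 F) : Yl U w') = _
        rw [eq_comm, QuotientGroup.eq, hH w' hw']
        have ht0 : (t w' : F) ≠ 0 := (t w').ne_zero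
        have e1 : (dg (t w'))⁻¹ * (un β * γ⁻¹ * (g * un (rep w' c))) =
            un ((t w' : F)⁻¹ * β) * k * un (rep w' c) := by
          have e2 : (dg (t w'))⁻¹ * un β = un ((t w' : F)⁻¹ * β) * (dg (t w'))⁻¹ := by
            rw [dg_inv, dg_mul_un, Units.val_inv_eq_inv_val]
          rw [hk]
          calc (dg (t w'))⁻¹ * (un β * γ⁻¹ * (g * un (rep w' c)))
              = ((dg (t w'))⁻¹ * un β) * (γ⁻¹ * g) * un (rep w' c) := by group
            _ = _ := by rw [e2]; group
        rw [e1]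
        have h3 : av w' ((t w' : F)⁻¹ * β - rep w' (ρ c)) < 1 := by
          have e3 : (t w' : F)⁻¹ * β - rep w' (ρ c) = (t w' : F)⁻¹ * (β - t w' * rep w' (ρ c)) := by
            field_simp
          rw [e3, av_lt_one_iff_valuation, map_mul, map_inv₀, hvt]
          have h4 := hb1 (ρ c)
          calc (exp (dF F w') * exp 1)⁻¹ * w'.valuation F (β - t w' * rep w' (ρ c))
              ≤ (exp (dF F w') * exp 1)⁻¹ * exp (dF F w') := mul_le_mul_right h4 _
            _ = exp (-1) := by
                rw [← exp_add, ← WithZero.exp_neg, ← exp_add]; congr 1; ring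
            _ < 1 := by rw [← exp_zero, exp_lt_exp]; norm_num
        have h5 : av w' ((t w' : F)⁻¹ * β) ≤ 1 := by
          have e3 : (t w' : F)⁻¹ * β = ((t w' : F)⁻¹ * β - rep w' (ρ c)) + rep w' (ρ c) := by ring
          rw [e3]
          exact (av_add_le w' _ _).trans (max_le h3.le (av_rep_le w' _))
        apply mem_HT_conj w' hkH h5 (av_rep_le w' _)
        have e4 : (t w' : F)⁻¹ * β * k.1 1 1 + k.1 0 0 * rep w' c =
            ((t w' : F)⁻¹ * β - rep w' (ρ c)) * k.1 1 1 +
              (rep w' (ρ c) * k.1 1 1 + k.1 0 0 * rep w' c) := by ring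
        rw [e4]
        refine (av_add_le w' _ _).trans_lt (max_lt ?_ (hρ c))
        rw [map_mul, e11]
        exact mul_lt_of_lt_one_left hk0 h3
      · rw [hy', B.upd_ne _ hne]
        have h3 : γ⁻¹ • y w' = ((dg (t w') : G2 F) : Yl U w') := hγ w' hw'
        rw [mul_smul, h3]
        change ((un β * dg (t w') : G2 F) : Yl U w') = _
        rw [eq_comm, QuotientGroup.eq, hH w' hw']
        have e2 : (dg (t w'))⁻¹ * (un β * dg (t w')) = un ((t w' : F)⁻¹ * β) := by
          rw [← mul_assoc, dg_inv, dg_mul_un, Units.val_inv_eq_inv_val, mul_assoc, ← dg_inv,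
            inv_mul_cancel, mul_one]
        rw [e2]
        have h4 : av w' ((t w' : F)⁻¹ * β) < 1 := by
          rw [av_lt_one_iff_valuation, map_mul, map_inv₀, hvt]
          calc (exp (dF F w') * exp 1)⁻¹ * w'.valuation F β
              ≤ (exp (dF F w') * exp 1)⁻¹ * exp (dF F w') := mul_le_mul_right (hb2 _ w' hw' hne) _
            _ = exp (-1) := by
                rw [← exp_add, ← WithZero.exp_neg, ← exp_add]; congr 1; ring
            _ < 1 := by rw [← exp_zero, exp_lt_exp]; norm_num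
        have h5 := mem_HT_conj w' (one_mem (HT w' M)) h4.le (r := 0) (by rw [map_zero]; exact zero_le_one)
          (by
            rw [Units.val_one, nm_one]
            simpa using h4)
        rwa [mul_one, un_zero, mul_one] at h5
    rw [hφ P y' (γ * un (-β)) hγc, einv, mul_smul, mul_smul]
    refine h.off _ _ _ fun w' hw' => ?_
    have hne : w' ≠ w := fun e => hw' (e ▸ hw)
    rw [G2_smul_apply, G2_smul_apply, G2_smul_apply, G2_smul_apply, hy', B.upd_ne _ hne]

/-- the same, in the form used by the wiring -/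
theorem exists_form' (h : NewFn A U S K lam f) {M : ℕ} (hH : ∀ w ∈ S, U.H w = HT w M)
    (hKM : K ≤ M) :
    ∃ φ : X (⟨A, U⟩ : Datum F) → ℂ, B.IsCusp φ ∧ φ ≠ 0 ∧
      (∀ w ∉ S, ∀ x, B.TX w φ x = (sq w : ℂ) * lam w * φ x) ∧
      (∀ i g, IsTest g → ∀ x, B.RX i g φ x = hat g 0 * φ x) ∧
      ∀ w ∈ S, ∀ (x : X (⟨A, U⟩ : Datum F)) (g : G2 F),
        ∑ᶠ c : 𝓞 F ⧸ w.asIdeal, φ (x.1, B.upd x.2 w ((g * un (rep w c) : G2 F) : Yl U w)) = 0 := by
  obtain ⟨φ, h1, h2, h3, h4, h5⟩ := exists_form h hH (hKM.trans (Nat.le_succ M))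
  refine ⟨φ, h1, h4, h2, h3, fun w hw x g => ?_⟩
  rw [finsum_eq_sum_of_fintype]
  have h6 := h5 w hw x.1 (B.upd x.2 w (g : Yl U w)) g (B.upd_same _ _ _)
  simpa only [B.upd_upd] using h6

end PiLAbs

end Fermat.Agent.LT.I
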