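import Fermat.Agent.LT.I.Poisson
import Fermat.Agent.LT.I.Gauss

/-!
# Poisson summation for functions with exponential decay, on general lattices
-/

set_option autoImplicit false
set_option linter.unusedSectionVars false

open MeasureTheory Set Filter Topology
open scoped Real

namespace Fermat.Agent.LT.I

variable {d : Type} [Fintype d]

/-- Products of summable sequences are summable on `ℤ^d`. -/
theorem summable_prod_int {g : ℤ → ℝ} (h0 : ∀ n, 0 ≤ g n) (hg : Summable g) :
    Summable fun m : d → ℤ => ∏ i, g (m i) := by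
  classical
  refine summable_of_sum_le (c := ∏ _i : d, ∑' n, g n)
    (fun m => Finset.prod_nonneg fun i _ => h0 _) fun u => ?_
  have hsub : u ⊆ Fintype.piFinset fun i => u.image fun m => m i := by
    intro m hm
    rw [Fintype.mem_piFinset]
    intro i
    exact Finset.mem_image_of_mem _ hm
  refine (Finset.sum_le_sum_of_subset_of_nonneg hsub
    fun m _ _ => Finset.prod_nonneg fun i _ => h0 _).trans ?_
  rw [← Finset.prod_univ_sum]
  exact Finset.prod_le_prod (fun i _ => Finset.sum_nonneg fun j _ => h0 _)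
    fun i _ => hg.sum_le_tsum _ fun j _ => h0 _

theorem summable_exp_int {c : ℝ} (hc : 0 < c) : Summable fun n : ℤ => Real.exp (-(c * |(n : ℝ)|)) := by
  have h1 : Summable fun n : ℕ => Real.exp (-(c * (n : ℝ))) := by
    have h := summable_geometric_of_lt_one (Real.exp_pos (-c)).le (Real.exp_lt_one_iff.mpr (by linarith))
    refine h.congr fun n => ?_
    rw [← Real.exp_nat_mul]; congr 1; ring
  refine Summable.of_nat_of_neg ?_ ?_
  · refine h1.congr fun n => ?_
    simp
  · refine h1.congr fun n => ?_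
    simp

theorem summable_exp_pi {c : ℝ} (hc : 0 < c) :
    Summable fun m : d → ℤ => Real.exp (-(c * ∑ i, |(m i : ℝ)|)) := by
  refine (summable_prod_int (fun n => (Real.exp_pos _).le) (summable_exp_int hc)).congr fun m => ?_
  rw [← Real.exp_sum, Finset.mul_sum, Finset.sum_neg_distrib]

/-- Exponential decay on a normed space. -/
def ExpDecay {V : Type} [Norm V] (f : V → ℂ) : Prop :=
  ∃ C c : ℝ, 0 < c ∧ ∀ v, ‖f v‖ ≤ C * Real.exp (-(c * ‖v‖))

/-- Exponential decay in coordinates implies the summability hypothesis of `hasSum_poisson`. -/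
theorem LocBd.of_exp {f : (d → ℝ) → ℂ} {C c : ℝ} (hc : 0 < c)
    (h : ∀ x, ‖f x‖ ≤ C * Real.exp (-(c * ∑ i, |x i|))) : LocBd f := by
  intro R
  refine ⟨fun m => C * Real.exp (c * (Fintype.card d * R)) *
    Real.exp (-(c * ∑ i, |(m i : ℝ)|)), (summable_exp_pi hc).mul_left _, fun m x hx => ?_⟩
  have hC : 0 ≤ C := by
    have h0 := (norm_nonneg _).trans (h 0)
    simp at h0
    exact h0
  refine (h _).trans ?_
  simp only []
  rw [mul_assoc, ← Real.exp_add]
  refine mul_le_mul_of_nonneg_left ?_ hC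
  rw [Real.exp_le_exp]
  have h1 : ∑ i, |(m i : ℝ)| ≤ ∑ i, |(x + zv m) i| + Fintype.card d * R := by
    have h2 : (Fintype.card d : ℝ) * R = ∑ _i : d, R := by simp
    rw [h2, ← Finset.sum_add_distrib]
    refine Finset.sum_le_sum fun i _ => ?_
    have h3 := hx i
    have h4 : (m i : ℝ) = (x + zv m) i - x i := by simp [zv]
    rw [h4]
    exact (abs_sub _ _).trans (add_le_add_right h3 _)
  nlinarith [mul_le_mul_of_nonneg_left h1 hc.le]

section basis

variable {V : Type} [NormedAddCommGroup V] [NormedSpace ℝ V] [FiniteDimensional ℝ V]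

theorem exists_repr_bound (b : Module.Basis d ℝ V) :
    ∃ K : ℝ, 0 < K ∧ ∀ v, ∑ i, |b.repr v i| ≤ K * ‖v‖ := by
  refine ⟨∑ i, ‖LinearMap.toContinuousLinearMap (b.coord i)‖ + 1,
    add_pos_of_nonneg_of_pos (Finset.sum_nonneg fun _ _ => norm_nonneg _) one_pos, fun v => ?_⟩
  rw [add_mul, Finset.sum_mul]
  refine (Finset.sum_le_sum fun i _ => ?_).trans (le_add_of_nonneg_right (by positivity))
  exact (LinearMap.toContinuousLinearMap (b.coord i)).le_opNorm v

theorem ExpDecay.comp_basis {f : V → ℂ} (hf : ExpDecay f) (b : Module.Basis d ℝ V) :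
    ∃ C c : ℝ, 0 < c ∧ ∀ x : d → ℝ, ‖f (b.equivFun.symm x)‖ ≤ C * Real.exp (-(c * ∑ i, |x i|)) := by
  obtain ⟨C, c, hc, h⟩ := hf
  obtain ⟨K, hK, hb⟩ := exists_repr_bound b
  refine ⟨C, c / K, by positivity, fun x => (h _).trans ?_⟩
  have hC : 0 ≤ C := by
    have h0 := (norm_nonneg _).trans (h 0)
    simp at h0
    exact h0
  refine mul_le_mul_of_nonneg_left ?_ hC
  rw [Real.exp_le_exp, neg_le_neg_iff]
  have h1 := hb (b.equivFun.symm x)
  have h2 : ∀ i, b.repr (b.equivFun.symm x) i = x i := by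
    intro i
    exact congrFun (b.equivFun.apply_symm_apply x) i
  simp only [h2] at h1
  rw [div_mul_eq_mul_div, div_le_iff₀ hK]
  nlinarith [mul_le_mul_of_nonneg_left h1 hc.le]

theorem ExpDecay.summable {f : V → ℂ} (hf : ExpDecay f) (b : Module.Basis d ℝ V) (v0 : V) :
    Summable fun m : d → ℤ => f (v0 + ∑ i, (m i : ℝ) • b i) := by
  obtain ⟨C, c, hc, h⟩ := hf.comp_basis b
  have h1 := (LocBd.of_exp hc h).summable (b.equivFun v0)
  refine h1.congr fun m => ?_
  congr 1
  rw [map_add, LinearEquiv.symm_apply_apply, b.equivFun_symm_apply]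
  rfl

variable [MeasurableSpace V] [BorelSpace V]

/-- Additive Haar measure in coordinates. -/
theorem map_equivFun (μ : Measure V) [μ.IsAddHaarMeasure] (b : Module.Basis d ℝ V) :
    μ.map b.equivFun = μ (ZSpan.fundamentalDomain b) • (volume : Measure (d → ℝ)) := by
  classical
  have h0 := b.equivFun.toContinuousLinearEquiv.isAddHaarMeasure_map μ
  change (μ.map b.equivFun).IsAddHaarMeasure at h0
  have h1 := Measure.isAddLeftInvariant_eq_smul (μ.map b.equivFun) (volume : Measure (d → ℝ))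
  have hset : b.equivFun ⁻¹' (Set.pi univ fun _ => Ico (0 : ℝ) 1) = ZSpan.fundamentalDomain b := by
    ext v
    simp [ZSpan.mem_fundamentalDomain, Module.Basis.equivFun_apply]
  have hmeas : MeasurableSet (Set.pi univ fun _ : d => Ico (0 : ℝ) 1) :=
    MeasurableSet.univ_pi fun _ => measurableSet_Ico
  have hcont : Continuous b.equivFun := LinearMap.continuous_of_finiteDimensional
    (b.equivFun : V →ₗ[ℝ] (d → ℝ))
  have h2 : (μ.map b.equivFun) (Set.pi univ fun _ => Ico (0 : ℝ) 1) =
      μ (ZSpan.fundamentalDomain b) := by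
    rw [Measure.map_apply hcont.measurable hmeas, hset]
  have h3 : (volume : Measure (d → ℝ)) (Set.pi univ fun _ => Ico (0 : ℝ) 1) = 1 := by
    rw [Real.volume_pi_Ico]; simp
  rw [h1] at h2
  rw [Measure.smul_apply, h3] at h2
  rw [← h2]
  refine h1.trans ?_
  congr 1
  exact (mul_one _).symm

/-- **Poisson summation** for the lattice spanned by a basis. -/
theorem hasSum_poisson_basis (μ : Measure V) [μ.IsAddHaarMeasure] (b : Module.Basis d ℝ V)
    {f : V → ℂ} (hf : Continuous f) (hb : ExpDecay f) (v0 : V)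
    (hs : Summable fun m : d → ℤ =>
      ∫ v, f v * Complex.exp ((-(2 * π * ∑ i, (m i : ℝ) * b.repr v i) : ℝ) * Complex.I) ∂μ) :
    HasSum (fun m : d → ℤ =>
      (∫ v, f v * Complex.exp ((-(2 * π * ∑ i, (m i : ℝ) * b.repr v i) : ℝ) * Complex.I) ∂μ) *
        Complex.exp ((2 * π * ∑ i, (m i : ℝ) * b.repr v0 i : ℝ) * Complex.I))
      ((μ.real (ZSpan.fundamentalDomain b) : ℂ) * ∑' k : d → ℤ, f (v0 + ∑ i, (k i : ℝ) • b i)) := by
  classical
  set g : (d → ℝ) → ℂ := fun x => f (b.equivFun.symm x) with hg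
  have hcs : Continuous b.equivFun.symm := LinearMap.continuous_of_finiteDimensional
    (b.equivFun.symm : (d → ℝ) →ₗ[ℝ] V)
  have hc : Continuous b.equivFun := LinearMap.continuous_of_finiteDimensional
    (b.equivFun : V →ₗ[ℝ] (d → ℝ))
  have hgc : Continuous g := hf.comp hcs
  obtain ⟨C, c, hc0, h1⟩ := hb.comp_basis b
  have hgb : LocBd g := LocBd.of_exp hc0 h1
  set κ : ℝ := μ.real (ZSpan.fundamentalDomain b) with hκ
  have hκ0 : κ ≠ 0 := by
    rw [hκ, measureReal_ne_zero_iff (Bornology.IsBounded.measure_lt_top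
      (ZSpan.fundamentalDomain_isBounded b)).ne]
    exact ZSpan.measure_fundamentalDomain_ne_zero b
  have hex : ∀ (m : d → ℤ) (x : d → ℝ), ex m x =
      Complex.exp ((2 * π * ∑ i, (m i : ℝ) * x i : ℝ) * Complex.I) := by
    intro m x
    unfold ex
    congr 1
    push_cast
    ring
  have hF : ∀ m : d → ℤ,
      (∫ v, f v * Complex.exp ((-(2 * π * ∑ i, (m i : ℝ) * b.repr v i) : ℝ) * Complex.I) ∂μ) =
        κ * ft g m := by
    intro m
    let e : V ≃ₜ (d → ℝ) := ⟨b.equivFun.toEquiv, hc, hcs⟩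
    have h2 : ∫ x, ex (-m) x * g x ∂(μ.map b.equivFun) =
        ∫ v, ex (-m) (b.equivFun v) * g (b.equivFun v) ∂μ :=
      e.measurableEmbedding.integral_map (fun x => ex (-m) x * g x)
    rw [map_equivFun, integral_smul_measure] at h2
    have h3 : (∫ v, f v * Complex.exp ((-(2 * π * ∑ i, (m i : ℝ) * b.repr v i) : ℝ) * Complex.I) ∂μ)
        = ∫ v, ex (-m) (b.equivFun v) * g (b.equivFun v) ∂μ := by
      refine integral_congr_ae (Eventually.of_forall fun v => ?_)
      simp only [hg, LinearEquiv.symm_apply_apply]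
      rw [mul_comm, hex]
      congr 3
      simp only [Pi.neg_apply, Int.cast_neg, Module.Basis.equivFun_apply]
      push_cast
      simp only [neg_mul, Finset.sum_neg_distrib]
      ring
    rw [h3, ← h2]
    unfold ft
    rw [hκ, Complex.real_smul]
    rfl
  have hs' : Summable (ft g) := by
    have h4 := hs.mul_left ((κ : ℂ)⁻¹)
    refine h4.congr fun m => ?_
    rw [hF, ← mul_assoc, inv_mul_cancel₀ (by exact_mod_cast hκ0), one_mul]
  have h5 := (hasSum_poisson hgc hgb hs' (b.equivFun v0)).mul_left (κ : ℂ)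
  have h6 : ∀ k : d → ℤ, g (b.equivFun v0 + zv k) = f (v0 + ∑ i, (k i : ℝ) • b i) := by
    intro k
    simp only [hg]
    rw [map_add, LinearEquiv.symm_apply_apply, b.equivFun_symm_apply]
    rfl
  simp only [h6] at h5
  refine h5.congr_fun fun m => ?_
  rw [hF, hex, mul_assoc]
  rfl

end basis

end Fermat.Agent.LT.I
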