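import Fermat.Agent.LT.I.LatIdx

/-!
# LT, piece I: the S-formula — Fourier transform of `1_{x0+L} · e(-Tr u N ξ)`
-/

set_option autoImplicit false
set_option linter.unusedSectionVars false

open NumberField IsDedekindDomain Matrix WithZero Module MeasureTheory
open scoped Real ComplexConjugate nonZeroDivisors

namespace Fermat.Agent.LT.I

open Fermat.LT Fermat.Agent.CFT

variable {F M : Type} [Field F] [NumberField F] [Field M] [NumberField M] [Algebra F M]
  (Q : Quad F M)

/-- the character `χ` on divisors -/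
noncomputable def Quad.chiD (q : Dv F) : ℂ := q.prod fun w n => ((Q.chi w : ℤ) : ℂ) ^ n

theorem Quad.chi_ne_zero (w : Pl F) : ((Q.chi w : ℤ) : ℂ) ≠ 0 := by
  unfold Quad.chi
  split_ifs <;> norm_num

theorem Quad.chiD_add (q q' : Dv F) : Q.chiD (q + q') = Q.chiD q * Q.chiD q' :=
  Finsupp.prod_add_index' (fun w => by simp) (fun w a b => zpow_add₀ (Q.chi_ne_zero w) _ _)

/-- The hypotheses of the S-formula. -/
structure SHyp (l : Dv M) (x0 : M) (u u' : F) (q : Dv F) : Prop where
  q0 : 0 ≤ q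
  unr : ∀ w, 0 < q w → Unr M w
  cond : ∀ w, 0 < q w → w.valuation F u = exp (dF F w + Q.Nm l w + q w)
  int : ∀ ξ ∈ InL l, ∀ w : Pl F, w.valuation F (u * nrm ξ) ≤ exp (dF F w + q w)
  intM : ∀ P : Pl M, P.valuation M (algebraMap F M u) ≤
    exp (l P + l (Q.cP P) + dF M P + q (SUH.below F P))
  x1 : ef (u * nrm x0) = 1
  x2 : algebraMap F M u * x0 ∈ InL (Q.dul l)
  uu : ∀ w : Pl F, w.valuation F (1 + u * u') ≤ exp (-(q w))
  u'1 : ∀ η ∈ InL (Q.dul l), ∀ w : Pl F, w.valuation F (u' * nrm η) ≤ exp (dF F w)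

namespace SHyp

variable {Q} {l : Dv M} {x0 : M} {u u' : F} {q : Dv F}

theorem u_ne (h : SHyp Q l x0 u u' q) {w : Pl F} (hw : 0 < q w) : u ≠ 0 := by
  rintro rfl
  have := h.cond w hw
  rw [map_zero] at this
  exact WithZero.exp_ne_zero this.symm

theorem u_mem (h : SHyp Q l x0 u u' q) {ξ : M} (hξ : ξ ∈ InL l) :
    algebraMap F M u * ξ ∈ InL (Q.dul (l + con M q)) := by
  intro P
  rw [map_mul]
  refine (mul_le_mul' (h.intM P) (hξ P)).trans ?_
  rw [← WithZero.exp_add, WithZero.exp_le_exp]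
  simp only [Quad.dul_apply, Finsupp.add_apply, con_apply, Q.below_cP]
  omega

theorem B_alg (a : F) (ξ η : M) :
    Q.B (algebraMap F M a * ξ) η = Algebra.trace ℚ F (a * Algebra.trace F M (ξ * Q.c η)) := by
  unfold Quad.B
  rw [← Algebra.trace_trace (S := F)]
  congr 1
  rw [mul_assoc, ← Algebra.smul_def, map_smul, smul_eq_mul]

theorem B_alg' (a : F) (ξ η : M) : Q.B ξ (algebraMap F M a * η) = Q.B (algebraMap F M a * ξ) η := by
  unfold Quad.B
  rw [map_mul Q.c, AlgEquiv.commutes]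
  congr 1
  ring

theorem mem_sub (h : SHyp Q l x0 u u' q) : InL (l + con M q) ≤ InL l := by
  refine InL_mono fun P => ?_
  have := h.q0 (SUH.below F P)
  simp only [Finsupp.add_apply, con_apply, Finsupp.zero_apply] at *
  omega

/-- `u N(ξ)` is trace-integral on the small lattice -/
theorem ef_small (h : SHyp Q l x0 u u' q) {ξ : M} (hξ : ξ ∈ InL (l + con M q)) :
    ef (-(u * nrm ξ)) = 1 := by
  by_cases hξ0 : ξ = 0
  · rw [hξ0, nrm_zero, mul_zero, neg_zero, ef_zero]
  apply ef_eq_one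
  apply neg_mem
  intro w
  rw [Finsupp.neg_apply, neg_neg]
  by_cases hw : 0 < q w
  · obtain ⟨P, hP⟩ : ∃ P : Pl M, SUH.below F P = w := ⟨up M w, below_up w⟩
    have hunr := h.unr w hw
    rw [map_mul, h.cond w hw, val_eq w (nrm_ne_zero hξ0), ← WithZero.exp_add, WithZero.exp_le_exp]
    subst hP
    rw [Q.ov_nrm hunr hξ0, Q.Nm_below]
    have h1 := (mem_InL_iff hξ0).mp hξ P
    have h2 := (mem_InL_iff hξ0).mp hξ (Q.cP P)
    simp only [Finsupp.add_apply, con_apply, Q.below_cP] at h1 h2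
    omega
  · have h1 := h.int ξ (h.mem_sub hξ) w
    have h2 := h.q0 w
    rw [Finsupp.zero_apply] at h2
    have h3 : q w = 0 := by omega
    rwa [h3, add_zero] at h1

/-- periodicity -/
theorem ef_per (h : SHyp Q l x0 u u' q) {ξ η : M} (hξ : ξ ∈ InL l) (hη : η ∈ InL (l + con M q)) :
    ef (-(u * nrm (ξ + η))) = ef (-(u * nrm ξ)) := by
  have h1 : -(u * nrm (F := F) (ξ + η)) = -(u * nrm ξ) + (-(u * Algebra.trace F M (ξ * Q.c η))) +
      (-(u * nrm η)) := by
    rw [Q.nrm_add]; ring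
  rw [h1, ef_add, ef_add, h.ef_small hη, mul_one]
  have h2 : ef (-(u * Algebra.trace F M (ξ * Q.c η))) = 1 := by
    have h3 : -(u * Algebra.trace F M (ξ * Q.c η)) = (-u) * Algebra.trace F M (ξ * Q.c η) := by ring
    rw [h3, ef_eq, ← B_alg, Q.B_comm]
    refine Q.eQ_B_eq_one hη ?_
    rw [map_neg, neg_mul]
    exact neg_mem (h.u_mem hξ)
  rw [h2, mul_one]


/-! ### The Gauss sum -/

theorem finIdx (h : SHyp Q l x0 u u' q) : ((InL (l + con M q)).addSubgroupOf (InL l)).FiniteIndex := by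
  refine finiteIndex_InL fun P => ?_
  have := h.q0 (SUH.below F P)
  simp only [Finsupp.add_apply, con_apply, Finsupp.zero_apply] at *
  omega

theorem perMod (h : SHyp Q l x0 u u' q) :
    PerMod ((InL (l + con M q)).addSubgroupOf (InL l)) (fun x : InL l => ef (-(u * nrm (x : M)))) := by
  intro y hy x
  exact h.ef_per x.2 (AddSubgroup.mem_addSubgroupOf.mp hy)

theorem per (h : SHyp Q l x0 u u' q) : Per (fun x : InL l => ef (-(u * nrm (x : M)))) :=
  ⟨_, h.finIdx, h.perMod⟩

end SHyp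

/-- an element generating `InL l` at finitely many places -/
theorem exists_gen {K : Type} [Field K] [NumberField K] (l : Dv K) (T : Finset (Pl K)) :
    ∃ y : K, y ≠ 0 ∧ y ∈ InL l ∧ ∀ P ∈ T, ov P y = l P := by
  classical
  obtain ⟨P0⟩ := exists_place K
  set T' := insert P0 T with hT'
  obtain ⟨d, hd0, hd⟩ := exists_ov_eq T' (fun P => l P)
  obtain ⟨y, hy1, hy2⟩ := strong_approx T' (fun _ => d) (fun P => l P + 1) l
  have h1 : ∀ P ∈ T', P.valuation K y = exp (-(l P)) := by
    intro P hP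
    have h2 : y = d + (y - d) := by ring
    have h3 : P.valuation K (y - d) < P.valuation K d := by
      refine lt_of_le_of_lt (hy1 P hP) ?_
      rw [hd P hP, WithZero.exp_lt_exp]
      omega
    rw [h2, Valuation.map_add_eq_of_lt_left _ h3, hd P hP]
  have hy0 : y ≠ 0 := by
    rintro rfl
    have := h1 P0 (Finset.mem_insert_self _ _)
    rw [map_zero] at this
    exact WithZero.exp_ne_zero this.symm
  refine ⟨y, hy0, fun P => ?_, fun P hP => ov_of_val P (h1 P (Finset.mem_insert_of_mem hP))⟩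
  by_cases hP : P ∈ T'
  · exact (h1 P hP).le
  · exact hy2 P hP

theorem chi_pow' {p : Ideal (𝓞 F)} (hp : p ≠ ⊥) (n : ℕ) : GS.chi M (p ^ n) = GS.chi M p ^ n := by
  induction n with
  | zero => rw [pow_zero, pow_zero, Ideal.one_eq_top, GS.chi_top]
  | succ n ih => rw [pow_succ, pow_succ, GS.chi_mul (pow_ne_zero n hp) hp, ih]

theorem chi_prod' {ι : Type*} (s : Finset ι) (f : ι → Ideal (𝓞 F)) (hf : ∀ i ∈ s, f i ≠ ⊥) :
    GS.chi M (∏ i ∈ s, f i) = ∏ i ∈ s, GS.chi M (f i) := by
  classical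
  induction s using Finset.induction_on with
  | empty => rw [Finset.prod_empty, Finset.prod_empty, Ideal.one_eq_top, GS.chi_top]
  | insert i s hi ih =>
    rw [Finset.prod_insert hi, Finset.prod_insert hi, GS.chi_mul (hf i (Finset.mem_insert_self i s)),
      ih fun j hj => hf j (Finset.mem_insert_of_mem hj)]
    exact Finset.prod_ne_zero_iff.2 fun j hj => hf j (Finset.mem_insert_of_mem hj)

theorem Quad.chi_asIdeal {w : Pl F} (hw : Unr M w) :
    GS.chi M w.asIdeal = ((Q.chi w : ℤ) : ℂ) := by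
  classical
  rw [GS.chi_prime w.ne_bot w.isPrime]
  have hb : SUH.below F (up M w) = w := below_up w
  have h := Q.inert_or_split (up M w) (by rw [hb]; exact hw)
  rw [hb] at h
  unfold Quad.chi Quad.Inert
  rcases h with ⟨h1, h2⟩ | ⟨h1, h2⟩
  · rw [if_pos h2, if_pos h1]; norm_num
  · rw [if_neg (GS.Split.not_inert Q.gq w.ne_bot h2), if_neg h1]; norm_num

theorem Quad.chi_idl {q : Dv F} (q0 : 0 ≤ q) (unr : ∀ w, 0 < q w → Unr M w) {I : Ideal (𝓞 F)}
    (hI : (I : FractionalIdeal (𝓞 F)⁰ F) = fid q) : GS.chi M I = Q.chiD q := by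
  have h1 : I = ∏ w ∈ q.support, w.asIdeal ^ (q w).toNat := by
    apply FractionalIdeal.coeIdeal_injective (K := F)
    change (I : FractionalIdeal (𝓞 F)⁰ F) =
      FractionalIdeal.coeIdealHom (𝓞 F)⁰ F (∏ w ∈ q.support, w.asIdeal ^ (q w).toNat)
    rw [hI, map_prod, fid, Finsupp.prod]
    refine Finset.prod_congr rfl fun w _ => ?_
    have h2 := q0 w
    rw [Finsupp.zero_apply] at h2
    rw [map_pow, ← zpow_natCast, Int.toNat_of_nonneg h2]
    rfl
  rw [h1, chi_prod' _ _ fun w _ => pow_ne_zero _ w.ne_bot]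
  unfold Quad.chiD Finsupp.prod
  refine Finset.prod_congr rfl fun w hw => ?_
  have h2 := q0 w
  rw [Finsupp.zero_apply] at h2
  rw [Finsupp.mem_support_iff] at hw
  rw [chi_pow' w.ne_bot, Q.chi_asIdeal (unr w (by omega)), ← zpow_natCast, Int.toNat_of_nonneg h2]

namespace SHyp

variable {Q} {l : Dv M} {x0 : M} {u u' : F} {q : Dv F}

/-- **the Gauss sum** -/
theorem mean_gauss (h : SHyp Q l x0 u u' q) :
    mean (fun x : InL l => ef (-(u * nrm (x : M)))) = Q.chiD q * ((absN q : ℝ) : ℂ)⁻¹ := by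
  classical
  have hfin : {P : Pl M | q (SUH.below F P) ≠ 0}.Finite := by
    have h1 : {P : Pl M | q (SUH.below F P) ≠ 0} = SUH.above M (q.support : Set (Pl F)) := by
      ext P
      simp [SUH.above]
    rw [h1]
    exact SUH.finite_above (F := M) q.support.finite_toSet
  obtain ⟨y, hy0, hyl, hy⟩ := exists_gen l hfin.toFinset
  have hyP : ∀ P, 0 < q (SUH.below F P) → ov P y = l P := fun P hP => hy P (by
    rw [Set.Finite.mem_toFinset]; exact hP.ne')
  have hF := h.finIdx
  let φ : 𝓞 M →+ InL l :=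
    { toFun := fun a => ⟨y * (a : M), by
        have := mul_mem_InL hyl (coe_mem_InL a)
        rwa [add_zero] at this⟩
      map_zero' := by ext; simp
      map_add' := by
        intro a b
        ext
        simp only [AddSubgroup.coe_add, oc_add, mul_add] }
  have hφ : ∀ g : InL l, ∃ a : 𝓞 M, g - φ a ∈ (InL (l + con M q)).addSubgroupOf (InL l) := by
    rintro ⟨x, hx⟩
    have h1 : dv y ⊓ (l + con M q) ≤ l := by
      intro P
      rw [Finsupp.inf_apply, dv_apply, Finsupp.add_apply, con_apply]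
      by_cases hP : 0 < q (SUH.below F P)
      · rw [hyP P hP]; exact min_le_left _ _
      · have h2 := h.q0 (SUH.below F P)
        rw [Finsupp.zero_apply] at h2
        refine (min_le_right _ _).trans ?_
        omega
    obtain ⟨a, ha, b, hb, hab⟩ := exists_add_of_mem_InL (InL_mono h1 hx)
    have h3 : y * (a / y) = a := mul_div_cancel₀ _ hy0
    have h4 : a / y ∈ InL (0 : Dv M) := by
      rw [← smul_mem_InL_iff hy0, h3, add_zero]; exact ha
    obtain ⟨c, hc⟩ := exists_coe_of_mem h4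
    refine ⟨c, ?_⟩
    rw [AddSubgroup.mem_addSubgroupOf]
    have h5 : x - y * (c : M) = b := by rw [hc, h3, ← hab]; ring
    change x - y * (c : M) ∈ _
    rw [h5]; exact hb
  have h1 := mean_comp φ _ hφ h.perMod
  rw [← h1]
  set v : F := -(u * nrm y) with hv
  let ψ : AddChar (𝓞 F) ℂ :=
    { toFun := fun b => ef (v * (b : F))
      map_zero_eq_one' := by
        change ef (v * ((0 : 𝓞 F) : F)) = 1
        rw [show ((0 : 𝓞 F) : F) = 0 from rfl, mul_zero, ef_zero]
      map_add_eq_mul' := by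
        intro a b
        change ef (v * ((a + b : 𝓞 F) : F)) = _
        rw [oc_add, mul_add, ef_add] }
  have h2 : (fun a : 𝓞 M => ef (-(u * nrm ((φ a : InL l) : M)))) = fun a => ψ (GS.Quad.nm a) := by
    funext a
    change ef (-(u * nrm (y * (a : M)))) = ef (v * nrm (a : M))
    rw [nrm_mul, hv]
    congr 1
    ring
  rw [h2]
  change GS.gm M ψ = _
  obtain ⟨I, hI1, hI2, hI3, hI4⟩ := exists_idl h.q0
  have hprim : GS.Prim I ψ := by
    intro a
    have h3 : (∀ b, ψ (a * b) = 1) ↔ v * (a : F) ∈ InL (-dF F) := by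
      rw [← ef_mul_iff]
      refine forall_congr' fun b => ?_
      change ef (v * ((a * b : 𝓞 F) : F)) = 1 ↔ _
      rw [oc_mul, mul_assoc]
    rw [h3, hI2]
    by_cases ha0 : a = 0
    · subst ha0
      rw [show ((0 : 𝓞 F) : F) = 0 from rfl, mul_zero]
      exact ⟨fun _ => zero_mem _, fun _ => zero_mem _⟩
    have ha0' : (a : F) ≠ 0 := fun h0 => ha0 (RingOfIntegers.ext h0)
    rw [mem_InL, mem_InL_iff ha0']
    refine forall_congr' fun w => ?_
    rw [Finsupp.neg_apply, neg_neg]
    by_cases hw : 0 < q w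
    · have hu := h.u_ne hw
      have hv0 : u * nrm (F := F) y ≠ 0 := mul_ne_zero hu (nrm_ne_zero hy0)
      have h4 := h.cond w hw
      rw [val_eq w hu, WithZero.exp_inj] at h4
      obtain ⟨P, hP⟩ : ∃ P : Pl M, SUH.below F P = w := ⟨up M w, below_up w⟩
      have h5 : ov w (nrm (F := F) y) = Q.Nm l w := by
        subst hP
        rw [Q.ov_nrm (h.unr _ hw) hy0, Q.Nm_below, hyP P hw, hyP _ (by rwa [Q.below_cP])]
      rw [hv, neg_mul, Valuation.map_neg, val_eq w (mul_ne_zero hv0 ha0'), WithZero.exp_le_exp,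
        ov_mul w hv0 ha0', ov_mul w hu (nrm_ne_zero hy0), h5]
      constructor <;> intro h6 <;> omega
    · have h4 := h.q0 w
      rw [Finsupp.zero_apply] at h4
      have h5 : q w = 0 := by omega
      have h6 := h.int y hyl w
      rw [h5, add_zero] at h6
      have h7 : w.valuation F (a : F) ≤ 1 := w.valuation_le_one a
      have h8 := ov_nonneg w a
      rw [h5]
      refine ⟨fun _ => h8, fun _ => ?_⟩
      rw [hv, neg_mul, Valuation.map_neg, map_mul]
      calc _ ≤ exp (dF F w) * 1 := mul_le_mul' h6 h7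
        _ = _ := mul_one _
  have hloc : ∀ p : Ideal (𝓞 F), p.IsPrime → p ≠ ⊥ → I ≤ p → GS.Inert M p ∨ GS.Split Q.gq p := by
    intro p hp hp0 hIp
    let w : Pl F := ⟨p, hp, hp0⟩
    have h3 : Finsupp.single w 1 ≤ q := by
      rw [← fid_le_fid, fid_single, zpow_one, ← hI1]
      exact (FractionalIdeal.coeIdeal_le_coeIdeal F).2 hIp
    have h4 := h3 w
    rw [Finsupp.single_eq_same] at h4
    have h5 : Unr M w := h.unr w (by omega)
    have hb : SUH.below F (up M w) = w := below_up w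
    have h6 := Q.inert_or_split (up M w) (by rw [hb]; exact h5)
    rw [hb] at h6
    rcases h6 with ⟨-, h6⟩ | ⟨-, h6⟩
    · exact Or.inl h6
    · exact Or.inr h6
  rw [GS.gm_eq Q.gq hI4 hloc hprim, Q.chi_idl h.q0 h.unr hI1]
  congr 2
  exact_mod_cast congrArg (fun x : ℝ => (x : ℂ)) hI3

end SHyp

end Fermat.Agent.LT.I
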