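import Fermat.Agent.LT.I.ThetaJ

/-!
# LT, piece I: closure properties of finite Schwartz functions
-/

set_option autoImplicit false
set_option linter.unusedSectionVars false

open NumberField IsDedekindDomain Matrix WithZero Module MeasureTheory
open scoped Real ComplexConjugate

namespace Fermat.Agent.LT.I

open Fermat.LT

variable {F M : Type} [Field F] [NumberField F] [Field M] [NumberField M] [Algebra F M]
  (Q : Quad F M)

theorem exists_den_finset {ι : Type*} (s : Finset ι) (x : ι → M) :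
    ∃ m : ℕ, m ≠ 0 ∧ ∀ i ∈ s, ∃ a : 𝓞 M, (a : M) = m * x i := by
  classical
  induction s using Finset.induction_on with
  | empty => exact ⟨1, one_ne_zero, by simp⟩
  | insert i s hi ih =>
    obtain ⟨m, hm, h⟩ := ih
    obtain ⟨n, hn, a, ha⟩ := exists_den (x i)
    refine ⟨m * n, mul_ne_zero hm hn, fun j hj => ?_⟩
    rcases Finset.mem_insert.mp hj with rfl | hj
    · exact ⟨(m : 𝓞 M) * a, by rw [oc_mul, oc_nat, ha]; push_cast; ring⟩
    · obtain ⟨b, hb⟩ := h j hj
      exact ⟨(n : 𝓞 M) * b, by rw [oc_mul, oc_nat, hb]; push_cast; ring⟩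

theorem exists_den_Dl : ∃ D : ℕ, D ≠ 0 ∧ ∀ η ∈ Q.Dl, ∃ a : 𝓞 M, (a : M) = D * η := by
  obtain ⟨D, hD, h⟩ := exists_den_finset Finset.univ (fun i => Q.dualB (integralBasis M) i)
  refine ⟨D, hD, fun η hη => ?_⟩
  obtain ⟨m, hm⟩ := Q.eD.surjective ⟨η, hη⟩
  choose a ha using fun i => h i (Finset.mem_univ i)
  refine ⟨∑ i, (m i : 𝓞 M) * a i, ?_⟩
  have h1 : η = ∑ i, (m i : M) * Q.dualB (integralBasis M) i := by
    rw [← Q.coe_eD, hm]
  rw [h1, Finset.mul_sum]
  change algebraMap (𝓞 M) M _ = _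
  rw [map_sum]
  refine Finset.sum_congr rfl fun i _ => ?_
  rw [map_mul, map_intCast]
  change (m i : M) * ((a i : 𝓞 M) : M) = _
  rw [ha]
  ring

theorem FSch.fourier {f : M → ℂ} (hf : FSch f) : FSch (Q.ft f) := by
  obtain ⟨N, hN⟩ := hf
  obtain ⟨D, hD, hDl⟩ := exists_den_Dl Q
  have hper : ∀ (η : M) (b : 𝓞 M), Q.ft f (η + N * b) = Q.ft f η := by
    intro η b
    unfold Quad.ft
    congr 2
    funext ξ
    by_cases h0 : f ξ = 0
    · rw [h0, zero_mul, zero_mul]
    · obtain ⟨a, ha⟩ := hN.supp ξ h0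
      have h1 : Q.B ξ ((N : M) * (b : M)) = Q.B (a : M) (b : M) := by
        rw [ha]
        unfold Quad.B
        rw [map_mul Q.c, map_natCast]
        congr 1
        ring
      obtain ⟨n, hn⟩ := Q.int_mem_Dl b a
      rw [Q.B_add_right, h1, hn, eQ_add, eQ_int, mul_one]
  refine ⟨N * D, mul_ne_zero hN.ne hD, fun η b => ?_, fun η hη => ?_⟩
  · have := hper η ((D : 𝓞 M) * b)
    rw [← this]
    congr 2
    rw [oc_mul, oc_nat]
    push_cast
    ring
  · have h1 : (N : M) * η ∈ Q.Dl := by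
      by_contra h2
      apply hη
      unfold Quad.ft
      rw [hN.haar_char_eq_zero Q h2, mul_zero]
    obtain ⟨a, ha⟩ := hDl _ h1
    refine ⟨a, ?_⟩
    rw [ha]
    push_cast
    ring

theorem Quad.nrm_add (ξ η : M) :
    nrm (F := F) (ξ + η) = nrm ξ + Algebra.trace F M (ξ * Q.c η) + nrm η := by
  apply (algebraMap F M).injective
  rw [map_add, map_add, Q.alg_nrm, Q.alg_nrm, Q.alg_nrm, Q.alg_trace, map_add, map_mul, Q.c_c]
  ring

theorem trace_int {K : Type} [Field K] [NumberField K] (a : 𝓞 K) :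
    ∃ n : ℤ, Algebra.trace ℚ K (a : K) = n := by
  have h2 : IsIntegral ℤ (Algebra.trace ℚ K (a : K)) := Algebra.isIntegral_trace a.isIntegral_coe
  obtain ⟨n, hn⟩ := IsIntegrallyClosed.isIntegral_iff.mp h2
  exact ⟨n, hn.symm⟩

theorem ef_int (a : 𝓞 F) : ef (a : F) = 1 := by
  obtain ⟨n, hn⟩ := trace_int a
  rw [ef_eq, hn, eQ_int]

/-- the associated structure of `GS` -/
def Quad.gq : GS.Quad F M := ⟨Q.deg, Q.c, Q.c_ne⟩

include Q in
theorem FSch.mul_chu {f : M → ℂ} (hf : FSch f) (b : F) : FSch (chu b f) := by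
  obtain ⟨N, hN⟩ := hf
  obtain ⟨m, hm, c, hc⟩ := exists_den b
  have hNM : (N : M) ≠ 0 := hN.cast_ne
  have h1 := (hN.mul (mul_ne_zero hN.ne hm))
  refine ⟨N * (N * m), h1.ne, fun ξ a => ?_, fun ξ hξ => h1.supp ξ (right_ne_zero_of_mul hξ)⟩
  unfold chu
  rw [h1.per]
  by_cases h0 : f ξ = 0
  · rw [h0, mul_zero, mul_zero]
  · obtain ⟨x, hx⟩ := hN.supp ξ h0
    have hξ : ξ = (x : M) / N := by rw [hx]; field_simp
    congr 1
    rw [Q.nrm_add, mul_add, mul_add, ef_add, ef_add]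
    have h2 : b * Algebra.trace F M (ξ * Q.c (((N * (N * m) : ℕ) : M) * (a : M))) =
        ((c * (N : 𝓞 F) * GS.Quad.tr (x * Q.gq.sg a) : 𝓞 F) : F) := by
      rw [oc_mul, oc_mul, oc_nat, hc, map_mul Q.c, map_natCast, hξ, GS.Quad.coe_tr, oc_mul,
        GS.Quad.coe_sg]
      have h3 : (x : M) / N * (((N * (N * m) : ℕ) : M) * Q.c (a : M)) =
          ((N * m : ℕ) : F) • ((x : M) * Q.c (a : M)) := by
        rw [Algebra.smul_def, map_natCast]
        push_cast
        field_simp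
      rw [h3, map_smul, smul_eq_mul]
      change _ = (m * b * N) * Algebra.trace F M ((x : M) * Q.c (a : M))
      push_cast
      ring
    have h4 : b * nrm (F := F) (((N * (N * m) : ℕ) : M) * (a : M)) =
        ((c * (N : 𝓞 F) ^ 4 * (m : 𝓞 F) * GS.Quad.nm a : 𝓞 F) : F) := by
      rw [oc_mul, oc_mul, oc_mul, hc, oc_nat, GS.Quad.coe_nm]
      have h5 : (((N : 𝓞 F) ^ 4 : 𝓞 F) : F) = (N : F) ^ 4 := by
        have := oc_nat (M := F) (N ^ 4)
        push_cast at this
        exact this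
      rw [h5, nrm_mul]
      have h6 : nrm (F := F) (((N * (N * m) : ℕ) : M)) = ((N * (N * m) : ℕ) : F) ^ 2 := by
        have h7 : (((N * (N * m) : ℕ) : M)) = algebraMap F M ((N * (N * m) : ℕ) : F) := by
          rw [map_natCast]
        rw [h7, nrm, Algebra.norm_algebraMap, Q.deg]
      rw [h6]
      unfold nrm
      push_cast
      ring
    rw [h2, h4, ef_int, ef_int, mul_one, mul_one]

end Fermat.Agent.LT.I
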