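import Fermat.Agent.LT.I.FSch
import Fermat.Agent.LT.I.Data

/-!
# LT, piece I: the theta function and its transformation under the inversion
-/

set_option autoImplicit false
set_option linter.unusedSectionVars false

open NumberField IsDedekindDomain Matrix WithZero Module MeasureTheory
open scoped Real ComplexConjugate

namespace Fermat.Agent.LT.I

open Fermat.LT

theorem gs_scale (z : ℂ) (t k r : ℝ) (v : ℂ × ℂ) :
    gs z t k (r • v) = gs (((r ^ 2 : ℝ) : ℂ) * z) (r ^ 2 * t) k v := by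
  unfold gs
  simp only [Prod.smul_fst, Prod.smul_snd, Complex.real_smul, norm_mul, Complex.norm_real,
    mul_pow, Real.norm_eq_abs, sq_abs]
  have h : (z * ((r : ℂ) * v.1) * ((r : ℂ) * v.2)).re = (((r ^ 2 : ℝ) : ℂ) * z * v.1 * v.2).re := by
    congr 1; push_cast; ring
  rw [h]
  congr 3
  ring

theorem gp_scale {I : Type} [Fintype I] (z : I → ℂ) (t k : I → ℝ) (r : ℝ) (v : I → ℂ × ℂ) :
    gp z t k (r • v) = gp (fun i => ((r ^ 2 : ℝ) : ℂ) * z i) (fun i => r ^ 2 * t i) k v := by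
  unfold gp
  exact Finset.prod_congr rfl fun i _ => gs_scale _ _ _ _ _

variable {F M : Type} [Field F] [NumberField F] [Field M] [NumberField M] [Algebra F M]
  (Q : Quad F M)

theorem Quad.finrank_M : finrank ℚ M = 4 * Fintype.card Q.A.I := by
  have : FiniteDimensional F M := Module.Finite.of_restrictScalars_finite ℚ F M
  rw [← Module.finrank_mul_finrank ℚ F M, card_emb Q.A, Q.deg]
  ring

theorem Quad.io_nat_mul (n : ℕ) (ξ : M) : Q.io ((n : M) * ξ) = (n : ℝ) • Q.io ξ := by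
  have := Q.io_int_mul n ξ
  simpa using this

theorem Quad.io_div_nat {n : ℕ} (hn : n ≠ 0) (ξ : M) : Q.io (ξ / n) = ((n : ℝ)⁻¹) • Q.io ξ := by
  have h := Q.io_nat_mul n (ξ / n)
  have hn' : (n : M) ≠ 0 := Nat.cast_ne_zero.mpr hn
  have hn'' : (n : ℝ) ≠ 0 := Nat.cast_ne_zero.mpr hn
  rw [mul_div_cancel₀ _ hn'] at h
  rw [h, smul_smul, inv_mul_cancel₀ hn'', one_smul]

theorem Quad.B_div_nat (n : ℕ) (ξ η : M) : Q.B (ξ / n) η = Q.B ξ (η / n) := by
  unfold Quad.B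
  rw [map_div₀, map_natCast]
  congr 1
  ring

/-- **Poisson summation** for `N 𝓞`. -/
theorem hasSum_N {N : ℕ} (hN : N ≠ 0) (z : Q.A.I → ℂ) {t k : Q.A.I → ℝ} (ht : ∀ i, 0 < t i)
    (hk : ∀ i, 0 < k i) (ξ : M) :
    HasSum (fun η : Q.Dl => ((N : ℂ) ^ finrank ℚ M)⁻¹ * (((fac z t : ℝ) : ℂ) *
        gp (jz z t) (jt z t) k (Q.io ((η : M) / N)) * eQ (Q.B ξ ((η : M) / N))))
      ((Q.cov : ℂ) * ∑' a : 𝓞 M, gp z t k (Q.io (ξ + N * (a : M)))) := by
  have hN1 : (N : M) ≠ 0 := Nat.cast_ne_zero.mpr hN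
  have hN2 : (N : ℝ) ≠ 0 := Nat.cast_ne_zero.mpr hN
  have hN3 : 0 < (N : ℝ) := Nat.cast_pos.mpr (Nat.pos_of_ne_zero hN)
  set z' : Q.A.I → ℂ := fun i => (((N : ℝ) ^ 2 : ℝ) : ℂ) * z i with hz'
  set t' : Q.A.I → ℝ := fun i => (N : ℝ) ^ 2 * t i with ht'
  have ht'0 : ∀ i, 0 < t' i := fun i => mul_pos (by positivity) (ht i)
  have h := hasSum_O Q z' ht'0 hk (ξ / N)
  have h1 : ∀ a : 𝓞 M, gp z' t' k (Q.io (ξ / N + (a : M))) = gp z t k (Q.io (ξ + N * (a : M))) := by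
    intro a
    rw [hz', ht', ← gp_scale, ← Q.io_nat_mul]
    congr 2
    field_simp
  have hnorm : ∀ i, ‖z' i‖ ^ 2 + t' i ^ 2 = (N : ℝ) ^ 4 * (‖z i‖ ^ 2 + t i ^ 2) := by
    intro i
    simp only [hz', ht', norm_mul, Complex.norm_real, Real.norm_eq_abs, mul_pow, sq_abs]
    ring
  have h2 : fac z' t' = ((N : ℝ) ^ finrank ℚ M)⁻¹ * fac z t := by
    unfold fac
    simp_rw [hnorm]
    rw [Q.finrank_M, pow_mul]
    have : ∀ i, 1 / (4 * ((N : ℝ) ^ 4 * (‖z i‖ ^ 2 + t i ^ 2))) =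
        ((N : ℝ) ^ 4)⁻¹ * (1 / (4 * (‖z i‖ ^ 2 + t i ^ 2))) := by
      intro i
      have := ht i
      field_simp
    simp_rw [this]
    rw [Finset.prod_mul_distrib, Finset.prod_const, Finset.card_univ, inv_pow]
  have h3 : ∀ η : M, gp (jz z' t') (jt z' t') k (Q.io η) = gp (jz z t) (jt z t) k (Q.io (η / N)) := by
    intro η
    rw [Q.io_div_nat hN, gp_scale]
    congr 1
    · funext i
      unfold jz
      rw [hnorm]
      simp only [hz', map_mul, Complex.conj_ofReal]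
      push_cast
      have h4 : (‖z i‖ : ℂ) ^ 2 + (t i : ℂ) ^ 2 ≠ 0 := by
        have := ht i
        have h5 : (‖z i‖ ^ 2 + t i ^ 2 : ℝ) ≠ 0 := by positivity
        exact_mod_cast h5
      have h6 : (N : ℂ) ≠ 0 := Nat.cast_ne_zero.mpr hN
      field_simp
    · funext i
      unfold jt
      rw [hnorm]
      have := ht i
      simp only [ht']
      field_simp
  simp_rw [h1, h2, h3, Q.B_div_nat] at h
  refine h.congr_fun fun η => ?_
  push_cast
  ring

theorem summable_gp {N : ℕ} (hN : N ≠ 0) (z : Q.A.I → ℂ) {t k : Q.A.I → ℝ} (ht : ∀ i, 0 < t i)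
    (hk : ∀ i, 0 < k i) (ξ : M) :
    Summable fun a : 𝓞 M => gp z t k (Q.io (ξ + N * (a : M))) := by
  have h1 := (expDecay_gp z ht hk)
  have hN2 : (N : ℝ) ≠ 0 := Nat.cast_ne_zero.mpr hN
  have hN3 : 0 < (N : ℝ) := Nat.cast_pos.mpr (Nat.pos_of_ne_zero hN)
  set z' : Q.A.I → ℂ := fun i => (((N : ℝ) ^ 2 : ℝ) : ℂ) * z i with hz'
  set t' : Q.A.I → ℝ := fun i => (N : ℝ) ^ 2 * t i with ht'
  have ht'0 : ∀ i, 0 < t' i := fun i => mul_pos (by positivity) (ht i)
  have h2 := (expDecay_gp z' ht'0 hk).summable (Q.rb (integralBasis M)) (Q.io (ξ / N))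
  rw [← (RingOfIntegers.basis M).equivFun.symm.toEquiv.summable_iff]
  refine h2.congr fun m => ?_
  rw [Function.comp_apply]
  have h3 : Q.io (ξ / N) + ∑ i, (m i : ℝ) • (Q.rb (integralBasis M)) i =
      Q.io (ξ / N + ∑ i, (m i : M) * integralBasis M i) := by
    rw [Q.io_add, Q.io_sum]
    congr 1
    refine Finset.sum_congr rfl fun i _ => ?_
    rw [Q.io_int_mul, Q.rb_apply]
  rw [h3, hz', ht', ← gp_scale, ← Q.io_nat_mul]
  change _ = gp z t k (Q.io (ξ + (N : M) * (((RingOfIntegers.basis M).equivFun.symm m : 𝓞 M) : M)))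
  rw [coe_equivFun_symm]
  congr 2
  have hN1 : (N : M) ≠ 0 := Nat.cast_ne_zero.mpr hN
  field_simp

/-! ### Decomposition into cosets -/

/-- cosets of `N² 𝓞` in `𝓞` -/
abbrev cs (M : Type) [Field M] [NumberField M] (N : ℕ) : Type := 𝓞 M ⧸ nsub M (N * N)

theorem coset_injective {N : ℕ} (hN : N ≠ 0) (c : 𝓞 M) :
    Function.Injective fun b : 𝓞 M => c + ((N * N : ℕ) : 𝓞 M) * b := by
  intro x y h
  simp only at h
  have h1 := add_left_cancel h
  have h2 : ((N * N : ℕ) : 𝓞 M) ≠ 0 := Nat.cast_ne_zero.mpr (mul_ne_zero hN hN)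
  exact mul_left_cancel₀ h2 h1

theorem mem_coset_iff {N : ℕ} (q : cs M N) (a : 𝓞 M) :
    (∃ b, q.out + ((N * N : ℕ) : 𝓞 M) * b = a) ↔ (QuotientAddGroup.mk a : cs M N) = q := by
  constructor
  · rintro ⟨b, rfl⟩
    have h : (QuotientAddGroup.mk (q.out) : cs M N) = q := Quotient.out_eq' q
    rw [QuotientAddGroup.mk_add, h, add_eq_left, QuotientAddGroup.eq_zero_iff, mem_nsub]
    exact ⟨b, rfl⟩
  · intro h
    have h1 : (QuotientAddGroup.mk (q.out) : cs M N) = q := Quotient.out_eq' q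
    rw [← h1, eq_comm, QuotientAddGroup.eq, mem_nsub] at h
    obtain ⟨b, hb⟩ := h
    refine ⟨b, ?_⟩
    rw [hb]; ring

/-- summation over `𝓞` by cosets -/
theorem hasSum_cosets {N : ℕ} (hN : N ≠ 0) [Fintype (cs M N)] {g : 𝓞 M → ℂ} {s : cs M N → ℂ}
    (h : ∀ q : cs M N, HasSum (fun b : 𝓞 M => g (q.out + ((N * N : ℕ) : 𝓞 M) * b)) (s q)) :
    HasSum g (∑ q, s q) := by
  classical
  have h1 : ∀ q : cs M N, HasSum (fun a : 𝓞 M => if (QuotientAddGroup.mk a : cs M N) = q then g a else 0)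
      (s q) := by
    intro q
    rw [← (coset_injective hN q.out).hasSum_iff]
    · refine (h q).congr_fun fun b => ?_
      rw [Function.comp_apply, if_pos ((mem_coset_iff q _).mp ⟨b, rfl⟩)]
    · intro a ha
      rw [if_neg]
      intro h2
      exact ha ((mem_coset_iff q a).mpr h2)
  have h2 := hasSum_sum (s := Finset.univ) fun q _ => h1 q
  refine h2.congr_fun fun a => ?_
  rw [Finset.sum_ite_eq]
  simp

theorem Sch.out_add {N : ℕ} {f : M → ℂ} (h : Sch N f) (c b : 𝓞 M) :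
    (((c + ((N * N : ℕ) : 𝓞 M) * b : 𝓞 M)) : M) / N = (c : M) / N + N * (b : M) := by
  have := h.cast_ne
  rw [oc_add, oc_mul, oc_nat]
  push_cast
  field_simp

theorem Sch.hasSum_iff {N : ℕ} {f : M → ℂ} (h : Sch N f) (G : M → ℂ) (s : ℂ) :
    HasSum (fun a : 𝓞 M => f ((a : M) / N) * G ((a : M) / N)) s ↔ HasSum (fun ξ : M => f ξ * G ξ) s := by
  have hinj : Function.Injective fun a : 𝓞 M => (a : M) / N := by
    intro x y hxy
    simp only at hxy
    rw [div_left_inj' h.cast_ne] at hxy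
    exact RingOfIntegers.ext hxy
  refine hinj.hasSum_iff (f := fun ξ : M => f ξ * G ξ) fun ξ hξ => ?_
  by_contra h0
  apply hξ
  obtain ⟨a, ha⟩ := h.supp ξ (left_ne_zero_of_mul h0)
  refine ⟨a, ?_⟩
  simp only
  rw [ha, mul_div_cancel_left₀ _ h.cast_ne]

/-- the finite Schwartz function times a character -/
theorem Sch.mul_char {N : ℕ} {f : M → ℂ} (h : Sch N f) {η : M} (hη : (N : M) * η ∈ Q.Dl) :
    Sch N (fun ξ => f ξ * eQ (Q.B ξ η)) := by
  refine ⟨h.ne, fun ξ a => ?_, fun ξ hξ => h.supp ξ (left_ne_zero_of_mul hξ)⟩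
  obtain ⟨n, hn⟩ := hη a
  have h1 : Q.B ((N : M) * (a : M)) η = n := by
    rw [← hn]
    unfold Quad.B
    rw [map_mul Q.c, map_natCast]
    congr 1
    ring
  rw [h.per, Q.B_add_left, h1, eQ_add, eQ_int, mul_one]

theorem Quad.int_mem_Dl (b : 𝓞 M) : (b : M) ∈ Q.Dl := by
  intro a
  have h1 : IsIntegral ℤ ((a : M) * Q.c (b : M)) := a.isIntegral_coe.mul (b.isIntegral_coe.map Q.c)
  have h2 : IsIntegral ℤ (Algebra.trace ℚ M ((a : M) * Q.c (b : M))) := Algebra.isIntegral_trace h1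
  obtain ⟨n, hn⟩ := IsIntegrallyClosed.isIntegral_iff.mp h2
  exact ⟨n, hn.symm⟩

theorem Sch.mul_char' {N : ℕ} {f : M → ℂ} (h : Sch N f) (η : M) :
    FSch (fun ξ => f ξ * eQ (Q.B ξ η)) := by
  obtain ⟨m, hm, b, hb⟩ := exists_den η
  refine ⟨N * m, (h.mul hm).mul_char Q ?_⟩
  have : ((N * m : ℕ) : M) * η = (((N : 𝓞 M) * b : 𝓞 M) : M) := by
    rw [oc_mul, oc_nat, hb]; push_cast; ring
  rw [this]
  exact Q.int_mem_Dl _

/-- vanishing of the Fourier coefficient outside the dual lattice -/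
theorem Sch.haar_char_eq_zero {N : ℕ} {f : M → ℂ} (h : Sch N f) {η : M} (hη : (N : M) * η ∉ Q.Dl) :
    haar (fun ξ => f ξ * eQ (Q.B ξ η)) = 0 := by
  have h1 : ∃ a : 𝓞 M, ∀ n : ℤ, Q.B (a : M) ((N : M) * η) ≠ n := by
    by_contra hc
    push Not at hc
    exact hη hc
  obtain ⟨a, ha⟩ := h1
  have hfs := h.mul_char' Q η
  have h2 := haar_shift hfs ((N : M) * (a : M))
  have h3 : Q.B ((N : M) * (a : M)) η = Q.B (a : M) ((N : M) * η) := by
    unfold Quad.B
    rw [map_mul Q.c, map_natCast]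
    congr 1
    ring
  simp only [h.per, Q.B_add_left, h3, eQ_add] at h2
  have h4 : haar (fun ξ => eQ (Q.B (a : M) ((N : M) * η)) * (f ξ * eQ (Q.B ξ η))) =
      haar (fun ξ => f ξ * eQ (Q.B ξ η)) := by
    rw [← h2]
    congr 1
    funext ξ
    ring
  rw [haar_const_mul hfs] at h4
  have h5 : eQ (Q.B (a : M) ((N : M) * η)) ≠ 1 := by
    intro h6
    obtain ⟨n, hn⟩ := eQ_eq_one h6
    exact ha n hn
  have h6 : (eQ (Q.B (a : M) ((N : M) * η)) - 1) * haar (fun ξ => f ξ * eQ (Q.B ξ η)) = 0 := by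
    rw [sub_mul, h4, one_mul, sub_self]
  exact (mul_eq_zero.mp h6).resolve_left (sub_ne_zero.mpr h5)

/-- **Poisson summation** for finite Schwartz functions. -/
theorem hasSum_sch {f : M → ℂ} (hf : FSch f) (z : Q.A.I → ℂ) {t k : Q.A.I → ℝ}
    (ht : ∀ i, 0 < t i) (hk : ∀ i, 0 < k i) :
    ∃ S : ℂ, HasSum (fun ξ : M => f ξ * gp z t k (Q.io ξ)) S ∧
      HasSum (fun η : M => haar (fun ξ => f ξ * eQ (Q.B ξ η)) *
        (((fac z t : ℝ) : ℂ) * gp (jz z t) (jt z t) k (Q.io η))) ((Q.cov : ℂ) * S) := by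
  obtain ⟨N, hN⟩ := hf
  have hfin := finiteIndex_nsub (M := M) (mul_ne_zero hN.ne hN.ne)
  have : Fintype (cs M N) := AddSubgroup.fintypeQuotientOfFiniteIndex
  have hN0 : (N : ℂ) ≠ 0 := Nat.cast_ne_zero.mpr hN.ne
  have hNM : (N : M) ≠ 0 := hN.cast_ne
  set S0 : cs M N → ℂ := fun q => ∑' a : 𝓞 M, gp z t k (Q.io (((q.out : 𝓞 M) : M) / N + N * (a : M)))
  refine ⟨∑ q : cs M N, f (((q.out : 𝓞 M) : M) / N) * S0 q, ?_, ?_⟩
  · rw [← hN.hasSum_iff]
    refine hasSum_cosets hN.ne fun q => ?_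
    simp_rw [hN.out_add, hN.per]
    exact ((summable_gp Q hN.ne z ht hk _).hasSum).mul_left _
  · have h1 : HasSum (fun η : Q.Dl => ∑ q : cs M N, f (((q.out : 𝓞 M) : M) / N) *
        (((N : ℂ) ^ finrank ℚ M)⁻¹ * (((fac z t : ℝ) : ℂ) *
        gp (jz z t) (jt z t) k (Q.io ((η : M) / N)) * eQ (Q.B (((q.out : 𝓞 M) : M) / N) ((η : M) / N)))))
        (∑ q : cs M N, f (((q.out : 𝓞 M) : M) / N) * ((Q.cov : ℂ) * S0 q)) :=
      hasSum_sum fun q _ => (hasSum_N Q hN.ne z ht hk (((q.out : 𝓞 M) : M) / N)).mul_left _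
    have h2 : ∀ η : Q.Dl, ∑ q : cs M N, f (((q.out : 𝓞 M) : M) / N) *
        (((N : ℂ) ^ finrank ℚ M)⁻¹ * (((fac z t : ℝ) : ℂ) *
        gp (jz z t) (jt z t) k (Q.io ((η : M) / N)) * eQ (Q.B (((q.out : 𝓞 M) : M) / N) ((η : M) / N)))) =
        haar (fun ξ => f ξ * eQ (Q.B ξ ((η : M) / N))) *
        (((fac z t : ℝ) : ℂ) * gp (jz z t) (jt z t) k (Q.io ((η : M) / N))) := by
      intro η
      have hη : (N : M) * ((η : M) / N) ∈ Q.Dl := by
        rw [mul_div_cancel₀ _ hNM]; exact η.2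
      have h3 := hN.mul_char Q hη
      rw [h3.haar_eq, mean_eq _ h3.perMod, avg_def]
      have hcard : (Fintype.card (cs M N) : ℂ) = (N : ℂ) ^ finrank ℚ M * (N : ℂ) ^ finrank ℚ M := by
        have := index_nsub (M := M) (N * N)
        rw [AddSubgroup.index, Nat.card_eq_fintype_card] at this
        rw [this]
        push_cast
        rw [mul_pow]
      rw [hcard, Finset.mul_sum, Finset.mul_sum, Finset.sum_mul]
      refine Finset.sum_congr rfl fun q _ => ?_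
      unfold desc
      have : (N : ℂ) ^ finrank ℚ M ≠ 0 := pow_ne_zero _ hN0
      field_simp
    simp_rw [h2] at h1
    have h3 : ∑ q : cs M N, f (((q.out : 𝓞 M) : M) / N) * ((Q.cov : ℂ) * S0 q) =
        (Q.cov : ℂ) * ∑ q : cs M N, f (((q.out : 𝓞 M) : M) / N) * S0 q := by
      rw [Finset.mul_sum]
      exact Finset.sum_congr rfl fun q _ => by ring
    rw [h3] at h1
    have hinj : Function.Injective fun η : Q.Dl => (η : M) / N := by
      intro x y hxy
      simp only at hxy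
      rw [div_left_inj' hNM] at hxy
      exact Subtype.ext hxy
    refine (hinj.hasSum_iff (f := fun η : M => haar (fun ξ => f ξ * eQ (Q.B ξ η)) *
        (((fac z t : ℝ) : ℂ) * gp (jz z t) (jt z t) k (Q.io η))) fun η hη => ?_).mp h1
    have h4 : (N : M) * η ∉ Q.Dl := by
      intro h5
      apply hη
      refine ⟨⟨(N : M) * η, h5⟩, ?_⟩
      simp only
      rw [mul_div_cancel_left₀ _ hNM]
    rw [hN.haar_char_eq_zero Q h4, zero_mul]

/-! ### The theta function -/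

theorem ef_eq (x : F) : ef x = eQ (Algebra.trace ℚ F x) := by
  unfold ef eQ
  congr 1
  push_cast
  ring

theorem ef_add (x y : F) : ef (x + y) = ef x * ef y := by
  rw [ef_eq, ef_eq, ef_eq, map_add, eQ_add]

theorem ef_zero : ef (0 : F) = 1 := by rw [ef_eq, map_zero, eQ_zero]

theorem norm_ef (x : F) : ‖ef x‖ = 1 := by rw [ef_eq]; exact norm_eQ _

/-- the theta function attached to a finite Schwartz function -/
noncomputable def Quad.theta (f : M → ℂ) (P : XI Q.A) (k : Q.A.I → ℝ) : ℂ :=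
  (∏ i, ((P i).t : ℂ)) * ∑' ξ : M, f ξ * ∏ i, gs (P i).z (P i).t (k i) (Q.vv i ξ)

/-- the constant in the Fourier transform -/
noncomputable def Quad.C : ℝ := (4 ^ Fintype.card Q.A.I * Q.cov)⁻¹

theorem Quad.C_pos : 0 < Q.C := by
  have := Q.cov_pos
  unfold Quad.C; positivity

/-- the Fourier transform of finite Schwartz functions -/
noncomputable def Quad.ft (f : M → ℂ) (η : M) : ℂ := Q.C * haar fun ξ => f ξ * eQ (Q.B ξ η)

/-- multiplication by the character of second degree -/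
noncomputable def chu (b : F) (f : M → ℂ) (ξ : M) : ℂ := ef (b * nrm ξ) * f ξ

theorem summable_theta' {f : M → ℂ} (hf : FSch f) (P : XI Q.A) {k : Q.A.I → ℝ} (hk : ∀ i, 0 < k i) :
    Summable fun ξ : M => f ξ * ∏ i, gs (P i).z (P i).t (k i) (Q.vv i ξ) := by
  obtain ⟨S, h1, _⟩ := hasSum_sch Q hf (fun i => (P i).z) (fun i => (P i).t_pos) hk
  exact h1.summable

/-- The inversion. -/
noncomputable def JJ (F : Type) [Field F] : G2 F :=
  Matrix.GeneralLinearGroup.mkOfDetNeZero !![(0 : F), -1; 1, 0] (by simp)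

theorem JJ_smul (A : Arch F) (P : XI A) (i : A.I) :
    ((JJ F • P) i).z = -conj (P i).z / ((‖(P i).z‖ ^ 2 + (P i).t ^ 2 : ℝ) : ℂ) ∧
      ((JJ F • P) i).t = (P i).t / (‖(P i).z‖ ^ 2 + (P i).t ^ 2) := by
  rw [XI_smul_apply]
  set g := Matrix.GeneralLinearGroup.map (n := Fin 2) (A.emb i) (JJ F) with hg
  have e : ∀ a b, g a b = A.emb i ((JJ F).1 a b) := fun a b => rfl
  have h00 : g 0 0 = 0 := by rw [e]; simp [JJ, Matrix.GeneralLinearGroup.mkOfDetNeZero]
  have h01 : g 0 1 = -1 := by rw [e]; simp [JJ, Matrix.GeneralLinearGroup.mkOfDetNeZero]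
  have h10 : g 1 0 = 1 := by rw [e]; simp [JJ, Matrix.GeneralLinearGroup.mkOfDetNeZero]
  have h11 : g 1 1 = 0 := by rw [e]; simp [JJ, Matrix.GeneralLinearGroup.mkOfDetNeZero]
  have hden : H3.den g (P i) = ‖(P i).z‖ ^ 2 + (P i).t ^ 2 := by
    rw [H3.den, h10, h11, Complex.normSq_eq_norm_sq, Complex.normSq_eq_norm_sq]
    simp
  have hdet : (g : Matrix (Fin 2) (Fin 2) ℂ).det = 1 := by
    rw [Matrix.det_fin_two, h00, h01, h10, h11]; ring
  constructor
  · rw [H3.smul_z, hden, h00, h01, h10, h11]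
    simp
  · rw [H3.smul_t, hden, hdet]
    simp

theorem JJ_JJ_smul (A : Arch F) (P : XI A) : JJ F • JJ F • P = P := by
  rw [← mul_smul]
  have h : JJ F * JJ F = sc (-1 : Fˣ) := by
    apply Units.ext
    rw [Units.val_mul, sc_val]
    ext i j
    fin_cases i <;> fin_cases j <;> simp [JJ, Matrix.GeneralLinearGroup.mkOfDetNeZero]
  rw [h, sc_smul_XI]

theorem theta_J_aux {f : M → ℂ} (hf : FSch f) (P : XI Q.A) {k : Q.A.I → ℝ} (hk : ∀ i, 0 < k i) :
    Q.theta f P k = Q.theta (Q.ft f) (JJ F • P) k := by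
  set z : Q.A.I → ℂ := fun i => (P i).z with hz
  set t : Q.A.I → ℝ := fun i => (P i).t with ht
  have ht0 : ∀ i, 0 < t i := fun i => (P i).t_pos
  obtain ⟨S, h1, h2⟩ := hasSum_sch Q hf z ht0 hk
  have e1 : Q.theta f P k = (∏ i, ((t i : ℝ) : ℂ)) * S := by
    unfold Quad.theta
    rw [← h1.tsum_eq]
    rfl
  have e2 : ∀ i, ((JJ F • P) i).z = jz z t i := fun i => (JJ_smul Q.A P i).1
  have e3 : ∀ i, ((JJ F • P) i).t = jt z t i := fun i => (JJ_smul Q.A P i).2
  have hfac : ((fac z t : ℝ) : ℂ) ≠ 0 := by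
    have : fac z t ≠ 0 := by
      unfold fac
      refine Finset.prod_ne_zero_iff.mpr fun i _ => ?_
      have := ht0 i
      positivity
    exact_mod_cast this
  have hcov : (Q.cov : ℂ) ≠ 0 := by exact_mod_cast Q.cov_pos.ne'
  have h3 : HasSum (fun η : M => Q.ft f η * ∏ i, gs ((JJ F • P) i).z ((JJ F • P) i).t (k i) (Q.vv i η))
      ((Q.C : ℂ) * ((fac z t : ℝ) : ℂ)⁻¹ * ((Q.cov : ℂ) * S)) := by
    refine (h2.mul_left ((Q.C : ℂ) * ((fac z t : ℝ) : ℂ)⁻¹)).congr_fun fun η => ?_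
    simp_rw [e2, e3]
    unfold Quad.ft gp Quad.io
    field_simp
  have e4 : Q.theta (Q.ft f) (JJ F • P) k = (∏ i, ((jt z t i : ℝ) : ℂ)) *
      ((Q.C : ℂ) * ((fac z t : ℝ) : ℂ)⁻¹ * ((Q.cov : ℂ) * S)) := by
    unfold Quad.theta
    rw [h3.tsum_eq]
    simp_rw [e3]
  rw [e1, e4]
  have e5 : (∏ i, jt z t i) = (∏ i, t i) * (4 ^ Fintype.card Q.A.I * fac z t) := by
    unfold fac jt
    rw [← Finset.card_univ, ← Finset.prod_const, ← Finset.prod_mul_distrib, ← Finset.prod_mul_distrib]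
    refine Finset.prod_congr rfl fun i _ => ?_
    have := ht0 i
    field_simp
  have e6 : (∏ i, ((jt z t i : ℝ) : ℂ)) = (∏ i, ((t i : ℝ) : ℂ)) *
      (4 ^ Fintype.card Q.A.I * ((fac z t : ℝ) : ℂ)) := by
    rw [← Complex.ofReal_prod, e5]
    push_cast
    rfl
  rw [e6]
  unfold Quad.C
  push_cast
  field_simp

/-- **The theta function and the inversion.** -/
theorem theta_J {f : M → ℂ} (hf : FSch f) (P : XI Q.A) {k : Q.A.I → ℝ} (hk : ∀ i, 0 < k i) :
    Q.theta f (JJ F • P) k = Q.theta (Q.ft f) P k := by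
  rw [theta_J_aux Q hf (JJ F • P) hk, JJ_JJ_smul]

theorem un_smul (A : Arch F) (b : F) (P : XI A) (i : A.I) :
    ((un b • P) i).z = (P i).z + A.emb i b ∧ ((un b • P) i).t = (P i).t := by
  rw [XI_smul_apply]
  set g := Matrix.GeneralLinearGroup.map (n := Fin 2) (A.emb i) (un b) with hg
  have e : ∀ c d, g c d = A.emb i ((un b).1 c d) := fun c d => rfl
  have h00 : g 0 0 = 1 := by rw [e]; simp [un, Matrix.GeneralLinearGroup.mkOfDetNeZero]
  have h01 : g 0 1 = A.emb i b := by rw [e]; simp [un, Matrix.GeneralLinearGroup.mkOfDetNeZero]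
  have h10 : g 1 0 = 0 := by rw [e]; simp [un, Matrix.GeneralLinearGroup.mkOfDetNeZero]
  have h11 : g 1 1 = 1 := by rw [e]; simp [un, Matrix.GeneralLinearGroup.mkOfDetNeZero]
  have hden : H3.den g (P i) = 1 := by
    rw [H3.den, h10, h11]; simp
  have hdet : (g : Matrix (Fin 2) (Fin 2) ℂ).det = 1 := by
    rw [Matrix.det_fin_two, h00, h01, h10, h11]; ring
  constructor
  · rw [H3.smul_z, hden, h00, h01, h10, h11]
    simp
  · rw [H3.smul_t, hden, hdet]
    simp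

theorem gs_add (z β : ℂ) (t k : ℝ) (v : ℂ × ℂ) :
    gs (z + β) t k v = Complex.exp ((4 * π * (β * v.1 * v.2).re : ℝ) * Complex.I) * gs z t k v := by
  unfold gs
  rw [← Complex.exp_add]
  congr 1
  have : ((z + β) * v.1 * v.2).re = (z * v.1 * v.2).re + (β * v.1 * v.2).re := by
    rw [← Complex.add_re]; congr 1; ring
  rw [this]
  push_cast
  ring

/-- Translations. -/
theorem theta_un (f : M → ℂ) (b : F) (P : XI Q.A) (k : Q.A.I → ℝ) :
    Q.theta f (un b • P) k = Q.theta (chu b f) P k := by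
  unfold Quad.theta
  simp_rw [fun i => (un_smul Q.A b P i).2]
  congr 1
  refine tsum_congr fun ξ => ?_
  simp_rw [fun i => (un_smul Q.A b P i).1, gs_add]
  rw [Finset.prod_mul_distrib, ← Complex.exp_sum]
  have h : ∑ i, (((4 * π * (Q.A.emb i b * (Q.vv i ξ).1 * (Q.vv i ξ).2).re : ℝ)) : ℂ) * Complex.I =
      ((2 * π * ((Algebra.trace ℚ F (b * nrm ξ) : ℚ) : ℝ) : ℝ) : ℂ) * Complex.I := by
    rw [← Finset.sum_mul, ← Complex.ofReal_sum, ← sum_re_emb Q.A, Finset.mul_sum]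
    congr 2
    refine Finset.sum_congr rfl fun i _ => ?_
    rw [map_mul, Q.emb_nrm, mul_assoc (Q.A.emb i b)]
    ring
  rw [h]
  unfold chu
  rw [ef_eq]
  unfold eQ
  ring

end Fermat.Agent.LT.I
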