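import Fermat.Agent.LT.I.Approx
import Fermat.Agent.LT.I.PoissonExp
import Fermat.Agent.LT.I.Mean

/-!
# LT, piece I: theta functions of finite Schwartz functions and Poisson summation
-/

set_option autoImplicit false
set_option linter.unusedSectionVars false

open NumberField IsDedekindDomain Matrix WithZero Module MeasureTheory
open scoped Real ComplexConjugate

namespace Fermat.Agent.LT.I

open Fermat.LT

section arch

variable {I : Type} [Fintype I]

/-- product Gaussian -/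
noncomputable def gp (z : I → ℂ) (t k : I → ℝ) (v : I → ℂ × ℂ) : ℂ := ∏ i, gs (z i) (t i) (k i) (v i)

/-- the pairing -/
noncomputable def bt (v w : I → ℂ × ℂ) : ℝ := ∑ i, pr (v i) (w i)

theorem continuous_gp (z : I → ℂ) (t k : I → ℝ) : Continuous (gp z t k) := by
  unfold gp
  exact continuous_finsetProd _ fun i _ => (continuous_gs _ _ _).comp (continuous_apply i)

theorem exists_le_all {c : I → ℝ} (hc : ∀ i, 0 < c i) : ∃ c0 : ℝ, 0 < c0 ∧ ∀ i, c0 ≤ c i := by
  have h : 0 < 1 + ∑ i, (c i)⁻¹ :=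
    add_pos_of_pos_of_nonneg one_pos (Finset.sum_nonneg fun i _ => (inv_pos.mpr (hc i)).le)
  refine ⟨(1 + ∑ i, (c i)⁻¹)⁻¹, inv_pos.mpr h, fun i => ?_⟩
  rw [inv_le_comm₀ h (hc i)]
  have h2 := Finset.single_le_sum (f := fun i => (c i)⁻¹) (fun j _ => (inv_pos.mpr (hc j)).le)
    (Finset.mem_univ i)
  linarith

theorem norm_gp_le (z : I → ℂ) {t k : I → ℝ} (ht : ∀ i, 0 < t i) (hk : ∀ i, 0 < k i) :
    ∃ c : ℝ, 0 < c ∧ ∀ v, ‖gp z t k v‖ ≤ Real.exp (-(c * ∑ i, (‖(v i).1‖ ^ 2 + ‖(v i).2‖ ^ 2))) := by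
  choose c hc h using fun i => exists_gs_bound (z i) (ht i) (hk i)
  obtain ⟨c0, hc0, hle⟩ := exists_le_all hc
  refine ⟨c0, hc0, fun v => ?_⟩
  unfold gp
  rw [norm_prod, Finset.mul_sum, ← Finset.sum_neg_distrib, Real.exp_sum]
  refine Finset.prod_le_prod (fun i _ => norm_nonneg _) fun i _ => (h i _).trans ?_
  rw [← Real.exp_add, Real.exp_le_exp]
  have h1 := mul_le_mul_of_nonneg_right (hle i) (sq_nonneg ‖(v i).1‖)
  have h2 := mul_le_mul_of_nonneg_right (hle i) (sq_nonneg ‖(v i).2‖)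
  linarith

theorem expDecay_gp (z : I → ℂ) {t k : I → ℝ} (ht : ∀ i, 0 < t i) (hk : ∀ i, 0 < k i) :
    ExpDecay (gp z t k) := by
  obtain ⟨c, hc, h⟩ := norm_gp_le z ht hk
  refine ⟨Real.exp c, c, hc, fun v => (h v).trans ?_⟩
  rw [← Real.exp_add, Real.exp_le_exp]
  have h1 : ‖v‖ - 1 ≤ ∑ i, (‖(v i).1‖ ^ 2 + ‖(v i).2‖ ^ 2) := by
    have h2 : ‖v‖ ≤ 1 + ∑ i, (‖(v i).1‖ ^ 2 + ‖(v i).2‖ ^ 2) := by
      have h0 : 0 ≤ ∑ i, (‖(v i).1‖ ^ 2 + ‖(v i).2‖ ^ 2) :=
        Finset.sum_nonneg fun i _ => by positivity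
      rw [pi_norm_le_iff_of_nonneg (by positivity)]
      intro i
      have h3 := Finset.single_le_sum (f := fun i => ‖(v i).1‖ ^ 2 + ‖(v i).2‖ ^ 2)
        (fun j _ => by positivity) (Finset.mem_univ i)
      rw [Prod.norm_def, max_le_iff]
      constructor
      · nlinarith [sq_nonneg (‖(v i).1‖ - 1), sq_nonneg ‖(v i).2‖, sq_nonneg ‖(v i).1‖]
      · nlinarith [sq_nonneg (‖(v i).2‖ - 1), sq_nonneg ‖(v i).1‖, sq_nonneg ‖(v i).2‖]
    linarith
  nlinarith [mul_le_mul_of_nonneg_left h1 hc.le]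

/-- Fourier transform of the product Gaussian. -/
theorem ft_gp (z : I → ℂ) {t k : I → ℝ} (ht : ∀ i, 0 < t i) (hk : ∀ i, 0 < k i) (w : I → ℂ × ℂ) :
    ∫ v : I → ℂ × ℂ, gp z t k v * Complex.exp ((-(2 * π * bt v w) : ℝ) * Complex.I) =
      ((∏ i, (1 / (4 * (‖z i‖ ^ 2 + t i ^ 2))) : ℝ) : ℂ) *
        gp (fun i => -conj (z i) / ((‖z i‖ ^ 2 + t i ^ 2 : ℝ) : ℂ))
          (fun i => t i / (‖z i‖ ^ 2 + t i ^ 2)) k w := by
  have h1 : ∀ v : I → ℂ × ℂ, gp z t k v * Complex.exp ((-(2 * π * bt v w) : ℝ) * Complex.I) =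
      ∏ i, (gs (z i) (t i) (k i) (v i) * Complex.exp ((-(2 * π * pr (v i) (w i)) : ℝ) * Complex.I)) := by
    intro v
    unfold gp bt
    rw [Finset.prod_mul_distrib, ← Complex.exp_sum]
    congr 2
    push_cast
    rw [Finset.mul_sum, ← Finset.sum_neg_distrib, Finset.sum_mul]
  simp_rw [h1]
  rw [integral_fintype_prod_volume_eq_prod (fun i (v : ℂ × ℂ) => gs (z i) (t i) (k i) v *
    Complex.exp ((-(2 * π * pr v (w i)) : ℝ) * Complex.I))]
  simp_rw [ft_gs _ (ht _) (hk _)]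
  unfold gp
  rw [Finset.prod_mul_distrib]
  push_cast
  rfl

end arch

section emb

variable {F : Type} [Field F] [NumberField F] (A : Arch F)

/-- the embeddings of a totally complex field -/
noncomputable def embSum : A.I ⊕ A.I → (F →+* ℂ) :=
  Sum.elim A.emb fun i => ComplexEmbedding.conjugate (A.emb i)

theorem embSum_bij : Function.Bijective (embSum A) := by
  have hmk : ∀ x, InfinitePlace.mk (embSum A x) = InfinitePlace.mk (A.emb (x.elim id id)) := by
    rintro (i | i)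
    · rfl
    · exact InfinitePlace.mk_conjugate_eq _
  constructor
  · intro x y hxy
    have h1 : InfinitePlace.mk (A.emb (x.elim id id)) = InfinitePlace.mk (A.emb (y.elim id id)) := by
      rw [← hmk, ← hmk, hxy]
    have h2 : x.elim id id = y.elim id id := A.bij.1 h1
    rcases x with i | i <;> rcases y with j | j
    · simpa using h2
    · exfalso
      have h3 : i = j := by simpa using h2
      subst h3
      exact A.cx i (ComplexEmbedding.isReal_iff.mpr hxy.symm)
    · exfalso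
      have h3 : i = j := by simpa using h2
      subst h3
      exact A.cx i (ComplexEmbedding.isReal_iff.mpr hxy)
    · simpa using h2
  · intro σ
    obtain ⟨i, hi⟩ := A.bij.2 (InfinitePlace.mk σ)
    rw [InfinitePlace.mk_eq_iff] at hi
    rcases hi with h | h
    · exact ⟨Sum.inl i, h⟩
    · exact ⟨Sum.inr i, h⟩

theorem card_emb : finrank ℚ F = 2 * Fintype.card A.I := by
  rw [← Embeddings.card F ℂ, ← Fintype.card_of_bijective (embSum_bij A), Fintype.card_sum]
  ring

theorem sum_re_emb (x : F) : ∑ i, 2 * (A.emb i x).re = (Algebra.trace ℚ F x : ℝ) := by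
  have h1 := trace_eq_sum_embeddings (K := ℚ) (L := F) ℂ (x := x)
  have h2 : ∑ σ : F →ₐ[ℚ] ℂ, σ x = ∑ σ : F →+* ℂ, σ x := by
    refine Fintype.sum_equiv (RingHom.equivRatAlgHom (R := F) (S := ℂ)).symm _ _ fun σ => ?_
    rfl
  have h3 : ∑ σ : F →+* ℂ, σ x = ∑ y : A.I ⊕ A.I, embSum A y x :=
    (Function.Bijective.sum_comp (embSum_bij A) (fun σ : F →+* ℂ => σ x)).symm
  rw [h2, h3, Fintype.sum_sum_type, ← Finset.sum_add_distrib] at h1
  have h4 : ∀ i, embSum A (Sum.inl i) x + embSum A (Sum.inr i) x = ((2 * (A.emb i x).re : ℝ) : ℂ) := by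
    intro i
    change A.emb i x + conj (A.emb i x) = _
    rw [Complex.add_conj]
  simp_rw [h4] at h1
  have h5 : ((Algebra.trace ℚ F x : ℝ) : ℂ) = ((∑ i, 2 * (A.emb i x).re : ℝ) : ℂ) := by
    rw [Complex.ofReal_sum, ← h1]
    simp
  exact_mod_cast h5.symm

end emb

section quad

variable {F M : Type} [Field F] [NumberField F] [Field M] [NumberField M] [Algebra F M]
  (Q : Quad F M)

/-- the embedding `M → (ℂ × ℂ)^I` -/
noncomputable def Quad.io (ξ : M) : Q.A.I → ℂ × ℂ := fun i => Q.vv i ξ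

theorem Quad.io_add (ξ η : M) : Q.io (ξ + η) = Q.io ξ + Q.io η := by
  funext i
  simp only [Quad.io, Quad.vv, map_add, Pi.add_apply, Prod.mk_add_mk]

theorem Quad.io_zero : Q.io 0 = 0 := by
  funext i
  simp only [Quad.io, Quad.vv, map_zero, Pi.zero_apply, Prod.mk_zero_zero]

theorem Quad.io_sum {ι : Type*} (s : Finset ι) (f : ι → M) :
    Q.io (∑ j ∈ s, f j) = ∑ j ∈ s, Q.io (f j) :=
  map_sum ({ toFun := Q.io, map_zero' := Q.io_zero, map_add' := Q.io_add } : M →+ _) f s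

theorem Quad.io_int_mul (n : ℤ) (ξ : M) : Q.io ((n : M) * ξ) = (n : ℝ) • Q.io ξ := by
  funext i
  simp only [Quad.io, Quad.vv, map_mul, map_intCast, Pi.smul_apply, Prod.smul_mk, Complex.real_smul,
    Complex.ofReal_intCast]

/-- the trace form `Tr (ξ η̄)` -/
noncomputable def Quad.B (ξ η : M) : ℚ := Algebra.trace ℚ M (ξ * Q.c η)

theorem Quad.bt_io (ξ η : M) : bt (Q.io ξ) (Q.io η) = (Q.B ξ η : ℝ) := by
  unfold Quad.B
  rw [← Algebra.trace_trace (S := F), ← sum_re_emb Q.A]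
  unfold bt pr
  refine Finset.sum_congr rfl fun i _ => ?_
  rw [← Q.emb_alg, Q.alg_trace, map_mul, Q.c_c, map_add, map_mul, map_mul]
  simp only [Quad.io, Quad.vv]

theorem Quad.B_add_left (ξ ξ' η : M) : Q.B (ξ + ξ') η = Q.B ξ η + Q.B ξ' η := by
  unfold Quad.B; rw [add_mul, map_add]

theorem Quad.B_add_right (ξ η η' : M) : Q.B ξ (η + η') = Q.B ξ η + Q.B ξ η' := by
  unfold Quad.B; rw [map_add, mul_add, map_add]

theorem trace_conj (x : M) : Algebra.trace ℚ M (Q.c x) = Algebra.trace ℚ M x := by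
  rw [← Algebra.trace_trace (S := F), ← Algebra.trace_trace (S := F) x]
  congr 1
  apply (algebraMap F M).injective
  rw [Q.alg_trace, Q.alg_trace, Q.c_c, add_comm]

theorem Quad.B_comm (ξ η : M) : Q.B ξ η = Q.B η ξ := by
  unfold Quad.B
  rw [← trace_conj Q, map_mul, Q.c_c, mul_comm]

theorem Quad.B_mul_left (a ξ η : M) : Q.B (a * ξ) η = Q.B ξ (Q.c a * η) := by
  unfold Quad.B
  rw [map_mul Q.c, Q.c_c]
  congr 1
  ring

theorem Quad.B_zero_right (ξ : M) : Q.B ξ 0 = 0 := by unfold Quad.B; simp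

end quad

section basis

theorem isAddHaar_prod : (volume : Measure (ℂ × ℂ)).IsAddHaarMeasure := by
  rw [Measure.volume_eq_prod]; infer_instance

theorem isAddHaar_pi {I : Type} [Fintype I] : (volume : Measure (I → ℂ × ℂ)).IsAddHaarMeasure := by
  have := isAddHaar_prod
  exact Measure.pi.isAddHaarMeasure (fun _ : I => (volume : Measure (ℂ × ℂ)))

/-- the pairing as a linear form -/
noncomputable def btL {I : Type} [Fintype I] (w : I → ℂ × ℂ) : (I → ℂ × ℂ) →ₗ[ℝ] ℝ where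
  toFun v := bt v w
  map_add' v v' := by
    unfold bt pr
    rw [← Finset.sum_add_distrib]
    refine Finset.sum_congr rfl fun i _ => ?_
    simp only [Pi.add_apply, Prod.fst_add, Prod.snd_add, ← mul_add, ← Complex.add_re]
    congr 2
    ring
  map_smul' r v := by
    unfold bt pr
    rw [RingHom.id_apply, smul_eq_mul, Finset.mul_sum]
    refine Finset.sum_congr rfl fun i _ => ?_
    simp only [Pi.smul_apply, Prod.smul_fst, Prod.smul_snd, Complex.real_smul]
    have : (r : ℂ) * (v i).1 * (w i).2 + (r : ℂ) * (v i).2 * (w i).1 =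
        (r : ℂ) * ((v i).1 * (w i).2 + (v i).2 * (w i).1) := by ring
    rw [this, Complex.re_ofReal_mul]
    ring

theorem btL_apply {I : Type} [Fintype I] (v w : I → ℂ × ℂ) : btL w v = bt v w := rfl

theorem bt_comm {I : Type} [Fintype I] (v w : I → ℂ × ℂ) : bt v w = bt w v := by
  unfold bt pr
  refine Finset.sum_congr rfl fun i _ => ?_
  congr 2
  ring

variable {F M : Type} [Field F] [NumberField F] [Field M] [NumberField M] [Algebra F M]
  (Q : Quad F M) {d : Type} [Fintype d] [DecidableEq d]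

/-- conjugation as a `ℚ`-linear equivalence -/
noncomputable def Quad.cQ : M ≃ₗ[ℚ] M := (AlgEquiv.restrictScalars ℚ Q.c).toLinearEquiv

/-- dual basis with respect to the trace form `Tr (ξ η̄)` -/
noncomputable def Quad.dualB (b : Basis d ℚ M) : Basis d ℚ M := b.traceDual.map Q.cQ

theorem Quad.dualB_apply (b : Basis d ℚ M) (j : d) : Q.dualB b j = Q.c (b.traceDual j) := by
  rw [Quad.dualB, Basis.map_apply]
  rfl

theorem Quad.B_dualB (b : Basis d ℚ M) (i j : d) : Q.B (b i) (Q.dualB b j) = if i = j then 1 else 0 := by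
  rw [Quad.B, Q.dualB_apply, Q.c_c, Basis.trace_mul_traceDual]

theorem card_basis (b : Basis d ℚ M) : Fintype.card d = finrank ℝ (Q.A.I → ℂ × ℂ) := by
  have : FiniteDimensional F M := Module.Finite.of_restrictScalars_finite ℚ F M
  rw [← finrank_eq_card_basis b, ← Module.finrank_mul_finrank ℚ F M, card_emb Q.A, Q.deg,
    finrank_pi_fintype]
  simp only [finrank_prod, Complex.finrank_real_complex, Finset.sum_const, Finset.card_univ,
    smul_eq_mul]
  ring

theorem linInd_io (b : Basis d ℚ M) : LinearIndependent ℝ fun i => Q.io (b i) := by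
  rw [Fintype.linearIndependent_iff]
  intro g hg j
  have h1 := congrArg (btL (Q.io (Q.dualB b j))) hg
  rw [map_sum, map_zero] at h1
  simp only [map_smul, btL_apply, Q.bt_io, Q.B_dualB, smul_eq_mul] at h1
  rw [Finset.sum_eq_single j] at h1
  · simpa using h1
  · intro i _ hij
    rw [if_neg hij]; simp
  · intro h; exact absurd (Finset.mem_univ j) h

/-- real basis from a rational basis -/
noncomputable def Quad.rb (b : Basis d ℚ M) : Basis d ℝ (Q.A.I → ℂ × ℂ) :=
  haveI : Nonempty d := b.index_nonempty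
  basisOfLinearIndependentOfCardEqFinrank (linInd_io Q b) (card_basis Q b)

@[simp] theorem Quad.rb_apply (b : Basis d ℚ M) (i : d) : Q.rb b i = Q.io (b i) := by
  have : Nonempty d := b.index_nonempty
  unfold Quad.rb
  rw [coe_basisOfLinearIndependentOfCardEqFinrank]

theorem Quad.rb_repr (b : Basis d ℚ M) (v : Q.A.I → ℂ × ℂ) (j : d) :
    (Q.rb b).repr v j = bt v (Q.io (Q.dualB b j)) := by
  have h : (Q.rb b).coord j = btL (Q.io (Q.dualB b j)) := by
    refine (Q.rb b).ext fun i => ?_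
    rw [Basis.coord_apply, Basis.repr_self, btL_apply, Q.rb_apply, Q.bt_io, Q.B_dualB,
      Finsupp.single_apply]
    split_ifs <;> simp
  exact LinearMap.congr_fun h v

theorem Quad.sum_repr (b : Basis d ℚ M) (v : Q.A.I → ℂ × ℂ) (m : d → ℤ) :
    ∑ i, (m i : ℝ) * (Q.rb b).repr v i = bt v (Q.io (∑ i, (m i : M) * Q.dualB b i)) := by
  rw [bt_comm, ← btL_apply, Q.io_sum, map_sum]
  refine Finset.sum_congr rfl fun i _ => ?_
  rw [Q.io_int_mul, map_smul, btL_apply, smul_eq_mul, bt_comm, ← Q.rb_repr]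

/-- the character `e(q) = exp(2πi q)` of `ℚ` -/
noncomputable def eQ (q : ℚ) : ℂ := Complex.exp ((2 * π * (q : ℝ) : ℝ) * Complex.I)

theorem eQ_add (q r : ℚ) : eQ (q + r) = eQ q * eQ r := by
  unfold eQ; rw [← Complex.exp_add]; congr 1; push_cast; ring

theorem eQ_zero : eQ 0 = 1 := by simp [eQ]

theorem eQ_int (n : ℤ) : eQ n = 1 := by
  unfold eQ
  have : (((2 * π * ((n : ℚ) : ℝ) : ℝ)) : ℂ) * Complex.I = n * (2 * π * Complex.I) := by
    push_cast; ring
  rw [this, Complex.exp_int_mul_two_pi_mul_I]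

theorem norm_eQ (q : ℚ) : ‖eQ q‖ = 1 := Complex.norm_exp_ofReal_mul_I _

theorem eQ_ne_zero (q : ℚ) : eQ q ≠ 0 := Complex.exp_ne_zero _

theorem eQ_eq_one {q : ℚ} (h : eQ q = 1) : ∃ n : ℤ, q = n := by
  unfold eQ at h
  rw [Complex.exp_eq_one_iff] at h
  obtain ⟨n, hn⟩ := h
  refine ⟨n, ?_⟩
  have h1 : ((2 * π * (q : ℝ) : ℝ) : ℂ) = ((2 * π * (n : ℝ) : ℝ) : ℂ) := by
    have h2 : (((2 * π * (q : ℝ) : ℝ)) : ℂ) * Complex.I = ((2 * π * (n : ℝ) : ℝ) : ℂ) * Complex.I := by
      rw [hn]; push_cast; ring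
    exact mul_right_cancel₀ Complex.I_ne_zero h2
  have h3 : 2 * π * (q : ℝ) = 2 * π * (n : ℝ) := by exact_mod_cast h1
  have h4 : (q : ℝ) = (n : ℝ) := mul_left_cancel₀ (by positivity) h3
  exact_mod_cast h4

/-- the archimedean factor of the Fourier transform -/
noncomputable def fac {I : Type} [Fintype I] (z : I → ℂ) (t : I → ℝ) : ℝ :=
  ∏ i, (1 / (4 * (‖z i‖ ^ 2 + t i ^ 2)))

/-- the first coordinate of the inversion -/
noncomputable def jz {I : Type} (z : I → ℂ) (t : I → ℝ) : I → ℂ :=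
  fun i => -conj (z i) / ((‖z i‖ ^ 2 + t i ^ 2 : ℝ) : ℂ)

/-- the second coordinate of the inversion -/
noncomputable def jt {I : Type} (z : I → ℂ) (t : I → ℝ) : I → ℝ :=
  fun i => t i / (‖z i‖ ^ 2 + t i ^ 2)

theorem jt_pos {I : Type} (z : I → ℂ) {t : I → ℝ} (ht : ∀ i, 0 < t i) (i : I) : 0 < jt z t i := by
  have := ht i
  unfold jt; positivity

/-- **Poisson summation** for the lattice spanned by a rational basis of `M`. -/
theorem hasSum_basis (b : Basis d ℚ M) (z : Q.A.I → ℂ) {t k : Q.A.I → ℝ} (ht : ∀ i, 0 < t i)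
    (hk : ∀ i, 0 < k i) (ξ : M) :
    HasSum (fun m : d → ℤ => ((fac z t : ℝ) : ℂ) *
        gp (jz z t) (jt z t) k (Q.io (∑ i, (m i : M) * Q.dualB b i)) *
        eQ (Q.B ξ (∑ i, (m i : M) * Q.dualB b i)))
      (((volume : Measure (Q.A.I → ℂ × ℂ)).real (ZSpan.fundamentalDomain (Q.rb b)) : ℂ) *
        ∑' m : d → ℤ, gp z t k (Q.io (ξ + ∑ i, (m i : M) * b i))) := by
  have := isAddHaar_pi (I := Q.A.I)
  have hcoef : ∀ m : d → ℤ, ∫ v : Q.A.I → ℂ × ℂ, gp z t k v *
      Complex.exp ((-(2 * π * ∑ i, (m i : ℝ) * (Q.rb b).repr v i) : ℝ) * Complex.I) =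
      ((fac z t : ℝ) : ℂ) * gp (jz z t) (jt z t) k (Q.io (∑ i, (m i : M) * Q.dualB b i)) := by
    intro m
    simp_rw [Q.sum_repr]
    exact ft_gp z ht hk _
  have hsum : Summable fun m : d → ℤ => ∫ v : Q.A.I → ℂ × ℂ, gp z t k v *
      Complex.exp ((-(2 * π * ∑ i, (m i : ℝ) * (Q.rb b).repr v i) : ℝ) * Complex.I) := by
    simp_rw [hcoef]
    refine Summable.mul_left _ ?_
    have h1 := (expDecay_gp (jz z t) (jt_pos z ht) hk).summable (Q.rb (Q.dualB b)) 0
    refine h1.congr fun m => ?_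
    congr 1
    rw [zero_add, Q.io_sum]
    refine Finset.sum_congr rfl fun i _ => ?_
    rw [Q.io_int_mul, Q.rb_apply]
  have h := hasSum_poisson_basis (volume : Measure (Q.A.I → ℂ × ℂ)) (Q.rb b)
    (continuous_gp z t k) (expDecay_gp z ht hk) (Q.io ξ) hsum
  simp_rw [hcoef, Q.sum_repr, Q.bt_io] at h
  have h2 : ∀ m : d → ℤ, Q.io (ξ + ∑ i, (m i : M) * b i) = Q.io ξ + ∑ i, (m i : ℝ) • (Q.rb b) i := by
    intro m
    rw [Q.io_add, Q.io_sum]
    congr 1
    refine Finset.sum_congr rfl fun i _ => ?_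
    rw [Q.io_int_mul, Q.rb_apply]
  simp_rw [h2]
  exact h

theorem Quad.B_sum_right {ι : Type*} (s : Finset ι) (ξ : M) (f : ι → M) :
    Q.B ξ (∑ j ∈ s, f j) = ∑ j ∈ s, Q.B ξ (f j) := by
  unfold Quad.B
  rw [map_sum, Finset.mul_sum, map_sum]

theorem Quad.B_int_mul_right (n : ℤ) (ξ η : M) : Q.B ξ ((n : M) * η) = n * Q.B ξ η := by
  unfold Quad.B
  rw [map_mul Q.c, map_intCast]
  have : ξ * ((n : M) * Q.c η) = (n : ℚ) • (ξ * Q.c η) := by
    rw [Algebra.smul_def, map_intCast]; ring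
  rw [this, map_smul, smul_eq_mul]

/-- the trace form as a linear map in the second variable -/
noncomputable def Quad.BL (ξ : M) : M →ₗ[ℚ] ℚ :=
  (Algebra.trace ℚ M) ∘ₗ (LinearMap.mulLeft ℚ ξ) ∘ₗ (Q.cQ : M →ₗ[ℚ] M)

theorem Quad.BL_apply (ξ η : M) : Q.BL ξ η = Q.B ξ η := rfl

theorem Quad.dualB_repr (b : Basis d ℚ M) (η : M) (j : d) : (Q.dualB b).repr η j = Q.B (b j) η := by
  have h : (Q.dualB b).coord j = Q.BL (b j) := by
    refine (Q.dualB b).ext fun i => ?_
    rw [Basis.coord_apply, Basis.repr_self, Q.BL_apply, Q.B_dualB, Finsupp.single_apply]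
    simp only [eq_comm]
  exact LinearMap.congr_fun h η

theorem Quad.B_dualB_right (b : Basis d ℚ M) (x : M) (j : d) : Q.B x (Q.dualB b j) = b.repr x j := by
  have h : b.coord j = Q.BL (Q.dualB b j) := by
    refine b.ext fun i => ?_
    rw [Basis.coord_apply, Basis.repr_self, Q.BL_apply, Q.B_comm, Q.B_dualB, Finsupp.single_apply]
  rw [Q.B_comm, ← Q.BL_apply, ← h]
  rfl

end basis

section ring

variable {F M : Type} [Field F] [NumberField F] [Field M] [NumberField M] [Algebra F M]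
  (Q : Quad F M)

/-- the lattice dual to `𝓞 M` with respect to `Tr (ξ η̄)` -/
def Quad.Dl : AddSubgroup M where
  carrier := {η | ∀ a : 𝓞 M, ∃ n : ℤ, Q.B (a : M) η = n}
  add_mem' := by
    intro x y hx hy a
    obtain ⟨n, hn⟩ := hx a
    obtain ⟨m, hm⟩ := hy a
    exact ⟨n + m, by rw [Q.B_add_right, hn, hm]; push_cast; ring⟩
  zero_mem' := fun a => ⟨0, by rw [Q.B_zero_right]; simp⟩
  neg_mem' := by
    intro x hx a
    obtain ⟨n, hn⟩ := hx a
    refine ⟨-n, ?_⟩
    have h := Q.B_add_right (a : M) x (-x)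
    rw [add_neg_cancel, Q.B_zero_right, hn] at h
    push_cast
    linarith

theorem Quad.mem_Dl {η : M} : η ∈ Q.Dl ↔ ∀ a : 𝓞 M, ∃ n : ℤ, Q.B (a : M) η = n := Iff.rfl

/-- index set -/
abbrev ix (M : Type) [Field M] [NumberField M] : Type := Free.ChooseBasisIndex ℤ (𝓞 M)

noncomputable instance : DecidableEq (ix M) := Classical.decEq _

theorem coe_equivFun_symm (m : ix M → ℤ) :
    (((RingOfIntegers.basis M).equivFun.symm m : 𝓞 M) : M) = ∑ i, (m i : M) * integralBasis M i := by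
  rw [Basis.equivFun_symm_apply]
  simp only [map_sum, zsmul_eq_mul, map_mul, map_intCast, integralBasis_apply]

/-- the dual lattice in coordinates -/
noncomputable def Quad.eD : (ix M → ℤ) ≃ Q.Dl :=
  Equiv.ofBijective (fun m => ⟨∑ i, (m i : M) * Q.dualB (integralBasis M) i, by
    intro a
    refine ⟨∑ i, m i * (RingOfIntegers.basis M).repr a i, ?_⟩
    rw [Q.B_sum_right]
    push_cast
    refine Finset.sum_congr rfl fun i _ => ?_
    rw [Q.B_int_mul_right, Q.B_dualB_right]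
    congr 1
    exact integralBasis_repr_apply M a i⟩) (by
    constructor
    · intro m m' h
      have h1 := congrArg Subtype.val h
      simp only at h1
      funext j
      have h2 := congrArg (Q.B (integralBasis M j)) h1
      rw [Q.B_sum_right, Q.B_sum_right] at h2
      simp only [Q.B_int_mul_right, Q.B_dualB, mul_ite, mul_one, mul_zero, Finset.sum_ite_eq,
        Finset.mem_univ, if_true] at h2
      exact_mod_cast h2
    · rintro ⟨η, hη⟩
      choose n hn using fun j : ix M => hη (RingOfIntegers.basis M j)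
      refine ⟨n, Subtype.ext ?_⟩
      simp only
      rw [← (Q.dualB (integralBasis M)).sum_repr η]
      refine Finset.sum_congr rfl fun j _ => ?_
      rw [Q.dualB_repr, integralBasis_apply, hn j, Algebra.smul_def]
      simp)

theorem Quad.coe_eD (m : ix M → ℤ) :
    ((Q.eD m : Q.Dl) : M) = ∑ i, (m i : M) * Q.dualB (integralBasis M) i := rfl

/-- covolume of the ring of integers in `(ℂ × ℂ)^I` -/
noncomputable def Quad.cov : ℝ :=
  (volume : Measure (Q.A.I → ℂ × ℂ)).real (ZSpan.fundamentalDomain (Q.rb (integralBasis M)))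

theorem Quad.cov_pos : 0 < Q.cov := by
  have := isAddHaar_pi (I := Q.A.I)
  refine lt_of_le_of_ne measureReal_nonneg (Ne.symm ?_)
  rw [Quad.cov, measureReal_ne_zero_iff (Bornology.IsBounded.measure_lt_top
    (ZSpan.fundamentalDomain_isBounded _)).ne]
  exact ZSpan.measure_fundamentalDomain_ne_zero _

/-- **Poisson summation** for the ring of integers. -/
theorem hasSum_O (z : Q.A.I → ℂ) {t k : Q.A.I → ℝ} (ht : ∀ i, 0 < t i) (hk : ∀ i, 0 < k i) (ξ : M) :
    HasSum (fun η : Q.Dl => ((fac z t : ℝ) : ℂ) * gp (jz z t) (jt z t) k (Q.io (η : M)) *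
        eQ (Q.B ξ (η : M)))
      ((Q.cov : ℂ) * ∑' a : 𝓞 M, gp z t k (Q.io (ξ + (a : M)))) := by
  have h := hasSum_basis Q (integralBasis M) z ht hk ξ
  have h2 : ∑' a : 𝓞 M, gp z t k (Q.io (ξ + (a : M))) =
      ∑' m : ix M → ℤ, gp z t k (Q.io (ξ + ∑ i, (m i : M) * integralBasis M i)) := by
    rw [← (RingOfIntegers.basis M).equivFun.symm.toEquiv.tsum_eq]
    refine tsum_congr fun m => ?_
    change gp z t k (Q.io (ξ + (((RingOfIntegers.basis M).equivFun.symm m : 𝓞 M) : M))) = _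
    rw [coe_equivFun_symm]
  rw [h2]
  exact (Q.eD.hasSum_iff (f := fun η : Q.Dl => ((fac z t : ℝ) : ℂ) *
    gp (jz z t) (jt z t) k (Q.io (η : M)) * eQ (Q.B ξ (η : M)))).mp h

end ring

end Fermat.Agent.LT.I
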