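import Mathlib

/-!
# Abstract unfolding over a torus `V / Λ`, `Λ ≃ E ⊂ G`
-/

set_option autoImplicit false

open MeasureTheory Set

namespace Fermat.Agent.LT.I

/-- `(q, e) ↦ q.out * e` -/
noncomputable def quotProdEquiv {G : Type*} [Group G] (E : Subgroup G) : (G ⧸ E) × E ≃ G :=
  Equiv.ofBijective (fun p => p.1.out * (p.2 : G)) (by
    constructor
    · rintro ⟨q, e⟩ ⟨q', e'⟩ h
      simp only at h
      have hq : q = q' := by
        have h1 : ((q.out * (e : G) : G) : G ⧸ E) = ((q'.out * (e' : G) : G) : G ⧸ E) := by rw [h]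
        rwa [QuotientGroup.mk_mul_of_mem _ e.2, QuotientGroup.mk_mul_of_mem _ e'.2,
          QuotientGroup.out_eq', QuotientGroup.out_eq'] at h1
      subst hq
      have := mul_left_cancel h
      rw [Subtype.ext this]
    · intro g
      refine ⟨((g : G ⧸ E), ⟨((g : G ⧸ E).out)⁻¹ * g, ?_⟩), by simp⟩
      rw [← QuotientGroup.eq, QuotientGroup.out_eq'])

@[simp] theorem quotProdEquiv_apply {G : Type*} [Group G] (E : Subgroup G) (p : (G ⧸ E) × E) :
    quotProdEquiv E p = p.1.out * (p.2 : G) := rfl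

/-- Unfolding. -/
theorem unfold_abstract {V : Type*} [AddCommGroup V] [MeasurableSpace V] [MeasurableAdd V]
    {μ : Measure V} {Λ : AddSubgroup V} [Countable Λ] [VAddInvariantMeasure Λ V μ]
    [MeasurableConstVAdd Λ V] {D : Set V}
    (hD : IsAddFundamentalDomain Λ D μ) {G : Type*} [Group G] [Countable G] (E : Subgroup G)
    (ℓ : E ≃ Λ) (F : V → G → ℂ) (hF : ∀ (e : E) (v : V) (ξ : G), F ((ℓ e : V) + v) ξ = F v (ξ * e))
    (hint : ∀ ξ, Integrable (fun v => F v ξ) μ)
    (hsum : Summable fun ξ : G => ∫ v in D, ‖F v ξ‖ ∂μ) :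
    HasSum (fun q : G ⧸ E => ∫ v, F v q.out ∂μ) (∫ v in D, ∑' ξ, F v ξ ∂μ) := by
  have h1 : HasSum (fun ξ : G => ∫ v in D, F v ξ ∂μ) (∫ v in D, ∑' ξ, F v ξ ∂μ) :=
    hasSum_integral_of_summable_integral_norm (fun ξ => (hint ξ).integrableOn) hsum
  have h2 : HasSum (fun p : (G ⧸ E) × E => ∫ v in D, F v (p.1.out * p.2) ∂μ)
      (∫ v in D, ∑' ξ, F v ξ ∂μ) := (quotProdEquiv E).hasSum_iff.mpr h1
  refine h2.prod_fiberwise fun q => ?_
  have h3 : Summable fun e : E => ∫ v in D, F v (q.out * e) ∂μ := h2.summable.prod_factor q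
  rw [hD.integral_eq_tsum'' _ (hint _), ← ℓ.tsum_eq]
  have h5 : ∀ e : E, ∫ v in D, F (ℓ e +ᵥ v) q.out ∂μ = ∫ v in D, F v (q.out * e) ∂μ := by
    intro e
    refine integral_congr_ae (Filter.Eventually.of_forall fun v => ?_)
    simp only
    rw [← hF]
    rfl
  simp_rw [h5]
  exact h3.hasSum

/-- Unfolding of a sum over `G ⧸ E` to a sum over `G ⧸ E'`, for `E ≤ E'` of finite index: sums of
functions on `G ⧸ E'`. -/
theorem hasSum_quot_le {G : Type*} [CommGroup G] {E E' : Subgroup G} (hE : E ≤ E')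
    (hfin : E.relIndex E' ≠ 0) {f : G → ℂ} (hf : ∀ g, ∀ e ∈ E', f (g * e) = f g) {s : ℂ}
    (h : HasSum (fun q : G ⧸ E => f q.out) s) :
    HasSum (fun q : G ⧸ E' => (E.relIndex E' : ℂ) * f q.out) s := by
  -- the projection `G ⧸ E → G ⧸ E'`
  have hout : ∀ (H : Subgroup G), H ≤ E' → ∀ g : G, f ((g : G ⧸ H).out) = f g := by
    intro H hH g
    have h1 : g⁻¹ * ((g : G ⧸ H).out) ∈ H := by
      rw [← QuotientGroup.eq, QuotientGroup.out_eq']
    have h2 := hf g _ (hH h1)
    rwa [mul_inv_cancel_left] at h2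
  set π : G ⧸ E → G ⧸ E' := Subgroup.quotientMapOfLE hE with hπ
  have hπ1 : ∀ g : G, π (g : G ⧸ E) = (g : G ⧸ E') := fun g => rfl
  have hfib : ∀ q' : G ⧸ E', Nat.card {q : G ⧸ E // π q = q'} = E.relIndex E' := by
    intro q'
    rw [Subgroup.relIndex, Subgroup.index]
    refine Nat.card_congr ?_
    refine Equiv.symm (Equiv.ofBijective (fun x : E' ⧸ E.subgroupOf E' =>
      (⟨(Quotient.mk'' (q'.out * (x.out : G)) : G ⧸ E), ?_⟩ : {q : G ⧸ E // π q = q'})) ?_)
    · change ((q'.out * (x.out : G) : G) : G ⧸ E') = q'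
      rw [QuotientGroup.mk_mul_of_mem _ x.out.2, QuotientGroup.out_eq']
    · constructor
      · intro x y hxy
        have h1 : ((q'.out * (x.out : G) : G) : G ⧸ E) = ((q'.out * (y.out : G) : G) : G ⧸ E) :=
          congrArg Subtype.val hxy
        rw [QuotientGroup.eq] at h1
        have h2 : (x.out)⁻¹ * y.out ∈ E.subgroupOf E' := by
          rw [Subgroup.mem_subgroupOf]
          push_cast
          convert h1 using 1
          group
        rw [← QuotientGroup.eq, QuotientGroup.out_eq', QuotientGroup.out_eq'] at h2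
        exact h2
      · rintro ⟨q, hq⟩
        obtain ⟨g, rfl⟩ := QuotientGroup.mk_surjective q
        have h1 : (q'.out)⁻¹ * g ∈ E' := by
          rw [← QuotientGroup.eq, QuotientGroup.out_eq']
          exact hq.symm
        refine ⟨((⟨_, h1⟩ : E') : E' ⧸ E.subgroupOf E'), Subtype.ext ?_⟩
        change ((q'.out * ((((⟨_, h1⟩ : E') : E' ⧸ E.subgroupOf E').out : E') : G) : G) : G ⧸ E) = (g : G ⧸ E)
        rw [QuotientGroup.eq]
        have h2 : (((⟨_, h1⟩ : E') : E' ⧸ E.subgroupOf E').out)⁻¹ * (⟨_, h1⟩ : E') ∈ E.subgroupOf E' := by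
          rw [← QuotientGroup.eq, QuotientGroup.out_eq']
        rw [Subgroup.mem_subgroupOf] at h2
        convert h2 using 1
        push_cast
        group
  have h1 : HasSum (fun p : Σ q' : G ⧸ E', {q : G ⧸ E // π q = q'} => f (p.2.1).out) s :=
    (Equiv.sigmaFiberEquiv π).hasSum_iff.mpr h
  refine h1.sigma fun q' => ?_
  have : Finite {q : G ⧸ E // π q = q'} := Nat.finite_of_card_ne_zero (by rw [hfib]; exact hfin)
  have := Fintype.ofFinite {q : G ⧸ E // π q = q'}
  have h2 : ∀ p : {q : G ⧸ E // π q = q'}, f (p.1).out = f q'.out := by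
    rintro ⟨q, rfl⟩
    obtain ⟨g, rfl⟩ := QuotientGroup.mk_surjective q
    exact (hout E hE g).trans (hout E' le_rfl g).symm
  simp_rw [h2]
  have h3 := hasSum_fintype (fun _ : {q : G ⧸ E // π q = q'} => f q'.out)
  rw [Finset.sum_const, Finset.card_univ, ← Nat.card_eq_fintype_card, hfib, nsmul_eq_mul] at h3
  exact h3

end Fermat.Agent.LT.I
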