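import Fermat.Agent.LT.I.K0Int
import Fermat.Agent.LT.I.NormOne
import Fermat.Agent.LT.I.LatSum
import Fermat.Agent.LT.I.UnfoldAbs

/-!
# The torus attached to norm one units, and unfolding of theta series
-/

set_option autoImplicit false

open NumberField Module MeasureTheory Set
open scoped Real

namespace Fermat.Agent.LT.I

variable {M : Type*} [Field M] [NumberField M] {I : Type*}

/-- archimedean Gaussians: dependence on the torus variable -/
theorem gs_smul (z : ℂ) (t k : ℝ) {a : ℂ} (ha : a ≠ 0) (v : ℂ × ℂ) :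
    gs z t (‖a‖ ^ 2 * k) v = gs z t k (v.1 * a, v.2 * a⁻¹) := by
  unfold gs
  have h1 : z * (v.1 * a) * (v.2 * a⁻¹) = z * v.1 * v.2 := by field_simp
  have h2 : ‖a‖ ≠ 0 := norm_ne_zero_iff.mpr ha
  simp only [h1, norm_mul, norm_inv, mul_pow, inv_pow]
  congr 4
  by_cases hk : k = 0
  · subst hk; simp
  field_simp

/-- A system of norm one units with independent logarithm vectors. -/
structure Tor (Q : QArch M I) where
  /-- the units -/
  ε : I → (𝓞 M)ˣ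
  /-- the logarithm vectors -/
  b : Basis I ℝ (I → ℝ)
  norm1 : ∀ j, ε j * Q.cu (ε j) = 1
  hb : ∀ j, b j = Q.lg ((ε j : 𝓞 M) : M)

theorem QArch.exists_tor [Fintype I] (Q : QArch M I) (𝔣 : Ideal (𝓞 M)) (h𝔣 : 𝔣 ≠ ⊥) :
    ∃ T : Tor Q, ∀ j, (T.ε j : 𝓞 M) - 1 ∈ 𝔣 := by
  obtain ⟨ε, b, h1, h2, h3⟩ := Q.exists_torus 𝔣 h𝔣
  exact ⟨⟨ε, b, h1, h3⟩, h2⟩

namespace QArch

variable (Q : QArch M I)

theorem lg_one' : Q.lg ((1 : Mˣ) : M) = 0 := Q.lg_one

theorem lg_zpow {x : M} (n : ℤ) : Q.lg (x ^ n) = n • Q.lg x := by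
  funext i; simp only [lg, map_zpow₀, norm_zpow, Real.log_zpow, Pi.smul_apply, zsmul_eq_mul]; ring

theorem lg_prod {ι : Type*} (s : Finset ι) (f : ι → Mˣ) :
    Q.lg ((∏ j ∈ s, f j : Mˣ) : M) = ∑ j ∈ s, Q.lg (f j : M) := by
  classical
  induction s using Finset.induction_on with
  | empty => simp [lg_one]
  | insert a s ha ih =>
    rw [Finset.prod_insert ha, Finset.sum_insert ha, Units.val_mul, Q.lg_mul (Units.ne_zero _)
      (Units.ne_zero _), ih]

/-- the point of `(ℂ × ℂ)^I` attached to an element of `M` -/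
noncomputable def pt (ξ : M) : I → ℂ × ℂ := fun i => (Q.e i ξ, Q.e i (Q.c ξ))

end QArch

namespace Tor

variable {Q : QArch M I} (T : Tor Q)

/-- the units as elements of `Mˣ` -/
noncomputable def η (j : I) : Mˣ := Units.map (algebraMap (𝓞 M) M : 𝓞 M →* M) (T.ε j)

theorem η_coe (j : I) : (T.η j : M) = ((T.ε j : 𝓞 M) : M) := rfl

theorem lg_η (j : I) : Q.lg (T.η j : M) = T.b j := (T.hb j).symm

theorem η_norm (j : I) : (T.η j : M) * Q.c (T.η j : M) = 1 := by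
  have h := congrArg (fun u : (𝓞 M)ˣ => ((u : 𝓞 M) : M)) (T.norm1 j)
  exact h

variable [Fintype I]

/-- the parametrisation of the unit group -/
noncomputable def hom : Multiplicative (I → ℤ) →* Mˣ where
  toFun n := ∏ j, T.η j ^ (n.toAdd j)
  map_one' := by simp
  map_mul' a b := by simp [zpow_add, Finset.prod_mul_distrib]

/-- The group of units. -/
noncomputable def E0 : Subgroup Mˣ := T.hom.range

theorem lg_hom (n : Multiplicative (I → ℤ)) : Q.lg (T.hom n : M) = ∑ j, (n.toAdd j) • T.b j := by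
  change Q.lg ((∏ j, T.η j ^ (n.toAdd j) : Mˣ) : M) = _
  rw [Q.lg_prod]
  refine Finset.sum_congr rfl fun j _ => ?_
  rw [Units.val_zpow_eq_zpow_val, Q.lg_zpow, lg_η]

theorem η_mem (j : I) : T.η j ∈ T.E0 := by
  classical
  refine ⟨Multiplicative.ofAdd (Pi.single j 1), ?_⟩
  change ∏ i, T.η i ^ ((Pi.single j 1 : I → ℤ) i) = _
  rw [Finset.prod_eq_single j]
  · simp
  · intro i _ hi; simp [hi]
  · intro h; exact absurd (Finset.mem_univ _) h

theorem E0_induction {P : Mˣ → Prop} (h1 : P 1) (hm : ∀ x y, P x → P y → P (x * y))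
    (hinv : ∀ x, P x → P x⁻¹) (hη : ∀ j, P (T.η j)) {x : Mˣ} (hx : x ∈ T.E0) : P x := by
  obtain ⟨n, rfl⟩ := hx
  change P (∏ j, T.η j ^ (n.toAdd j))
  refine Finset.prod_induction _ P hm h1 fun j _ => ?_
  have hp : ∀ m : ℕ, P (T.η j ^ m) := by
    intro m
    induction m with
    | zero => simpa using h1
    | succ m ih => rw [pow_succ]; exact hm _ _ ih (hη j)
  rcases (n.toAdd j) with m | m
  · simpa using hp m
  · rw [zpow_negSucc]; exact hinv _ (hp _)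

/-- The units have norm one. -/
theorem E0_norm {x : Mˣ} (hx : x ∈ T.E0) : (x : M) * Q.c (x : M) = 1 := by
  refine T.E0_induction (P := fun x => (x : M) * Q.c (x : M) = 1) ?_ ?_ ?_ T.η_norm hx
  · simp
  · intro x y hx hy
    rw [Units.val_mul, map_mul, mul_mul_mul_comm, hx, hy, one_mul]
  · intro x hx
    rw [Units.val_inv_eq_inv_val, map_inv₀, ← mul_inv, hx, inv_one]

theorem E0_unit {x : Mˣ} (hx : x ∈ T.E0) : ∃ u : (𝓞 M)ˣ, (x : M) = ((u : 𝓞 M) : M) := by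
  refine T.E0_induction (P := fun x => ∃ u : (𝓞 M)ˣ, (x : M) = ((u : 𝓞 M) : M)) ?_ ?_ ?_
    (fun j => ⟨T.ε j, rfl⟩) hx
  · exact ⟨1, by simp⟩
  · rintro x y ⟨u, hu⟩ ⟨v, hv⟩
    refine ⟨u * v, ?_⟩
    rw [Units.val_mul, hu, hv]; rfl
  · rintro x ⟨u, hu⟩
    refine ⟨u⁻¹, ?_⟩
    have hu' : x = Units.map (algebraMap (𝓞 M) M : 𝓞 M →* M) u := Units.ext hu
    rw [hu', ← map_inv]; rfl

/-- The units are congruent to `1` modulo `𝔣` if the generators are. -/
theorem E0_congr {𝔣 : Ideal (𝓞 M)} (h : ∀ j, (T.ε j : 𝓞 M) - 1 ∈ 𝔣) {x : Mˣ} (hx : x ∈ T.E0) :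
    ∃ u : (𝓞 M)ˣ, (x : M) = ((u : 𝓞 M) : M) ∧ (u : 𝓞 M) - 1 ∈ 𝔣 := by
  refine T.E0_induction (P := fun x => ∃ u : (𝓞 M)ˣ, (x : M) = ((u : 𝓞 M) : M) ∧ (u : 𝓞 M) - 1 ∈ 𝔣)
    ?_ ?_ ?_ (fun j => ⟨T.ε j, rfl, h j⟩) hx
  · exact ⟨1, by simp, by simp⟩
  · rintro x y ⟨u, hu, hu'⟩ ⟨v, hv, hv'⟩
    refine ⟨u * v, ?_, ?_⟩
    · rw [Units.val_mul, hu, hv]; rfl
    · have : ((u * v : (𝓞 M)ˣ) : 𝓞 M) - 1 = (v : 𝓞 M) * ((u : 𝓞 M) - 1) + ((v : 𝓞 M) - 1) := by
        rw [Units.val_mul]; ring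
      rw [this]
      exact 𝔣.add_mem (𝔣.mul_mem_left _ hu') hv'
  · rintro x ⟨u, hu, hu'⟩
    refine ⟨u⁻¹, ?_, ?_⟩
    · have hu' : x = Units.map (algebraMap (𝓞 M) M : 𝓞 M →* M) u := Units.ext hu
      rw [hu', ← map_inv]; rfl
    · have : ((u⁻¹ : (𝓞 M)ˣ) : 𝓞 M) - 1 = -((u⁻¹ : (𝓞 M)ˣ) : 𝓞 M) * ((u : 𝓞 M) - 1) := by
        have := Units.inv_mul u
        linear_combination this
      rw [this]
      exact 𝔣.mul_mem_left _ hu'

/-- the lattice -/
noncomputable def Λ : AddSubgroup (I → ℝ) := (Submodule.span ℤ (Set.range T.b)).toAddSubgroup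

/-- the fundamental domain -/
noncomputable def D : Set (I → ℝ) := ZSpan.fundamentalDomain T.b

theorem lg_mem {x : Mˣ} (hx : x ∈ T.E0) : Q.lg (x : M) ∈ T.Λ := by
  obtain ⟨n, rfl⟩ := hx
  rw [lg_hom]
  refine sum_mem fun j _ => ?_
  have h : T.b j ∈ T.Λ := Submodule.subset_span (Set.mem_range_self j)
  exact zsmul_mem h _

/-- the logarithm as a bijection `E0 ≃ Λ` -/
noncomputable def ℓ : T.E0 ≃ T.Λ := Equiv.ofBijective (fun x => ⟨Q.lg (x : Mˣ), T.lg_mem x.2⟩) (by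
  constructor
  · rintro ⟨_, ⟨n, rfl⟩⟩ ⟨_, ⟨m, rfl⟩⟩ h
    have h1 := congrArg Subtype.val h
    simp only [lg_hom] at h1
    have h2 : n.toAdd = m.toAdd := by
      have h3 : ∀ j, ((n.toAdd j : ℤ) : ℝ) = ((m.toAdd j : ℤ) : ℝ) := by
        have h4 := T.b.linearIndependent
        rw [Fintype.linearIndependent_iff] at h4
        intro j
        have h5 := h4 (fun j => ((n.toAdd j : ℤ) : ℝ) - ((m.toAdd j : ℤ) : ℝ)) (by
          simp only [sub_smul, Finset.sum_sub_distrib, sub_eq_zero, Int.cast_smul_eq_zsmul]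
          exact h1) j
        exact sub_eq_zero.mp h5
      funext j
      exact_mod_cast h3 j
    have h3 : n = m := Multiplicative.toAdd.injective h2
    subst h3; rfl
  · rintro ⟨y, hy⟩
    obtain ⟨n, hn⟩ := (Submodule.mem_span_range_iff_exists_fun ℤ).mp hy
    refine ⟨⟨T.hom (Multiplicative.ofAdd n), ⟨_, rfl⟩⟩, Subtype.ext ?_⟩
    change Q.lg (T.hom (Multiplicative.ofAdd n) : M) = y
    rw [lg_hom, ← hn]; rfl)

theorem ℓ_apply (e : T.E0) : ((T.ℓ e : T.Λ) : I → ℝ) = Q.lg ((e : Mˣ) : M) := rfl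

instance : Countable T.E0 := by
  have h0 : Countable (Multiplicative (I → ℤ)) := inferInstanceAs (Countable (I → ℤ))
  have : Function.Surjective T.hom.rangeRestrict := T.hom.rangeRestrict_surjective
  exact this.countable

instance : Countable T.Λ := T.ℓ.symm.injective.countable

theorem isFund : IsAddFundamentalDomain T.Λ T.D (volume : Measure (I → ℝ)) :=
  ZSpan.isAddFundamentalDomain' T.b volume

end Tor

end Fermat.Agent.LT.I
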