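import Fermat.Agent.LT.I.FtCoset

/-!
# LT, piece I: additivity of means and integrals; local trace bound; norms of divisors
-/

set_option autoImplicit false
set_option linter.unusedSectionVars false

open NumberField IsDedekindDomain Matrix WithZero Module MeasureTheory
open scoped Real ComplexConjugate nonZeroDivisors

namespace Fermat.Agent.LT.I

open Fermat.LT Fermat.Agent.CFT

section add

theorem mean_add {G : Type*} [AddCommGroup G] {f g : G → ℂ} (hf : Per f) (hg : Per g) :
    mean (fun x => f x + g x) = mean f + mean g := by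
  obtain ⟨H, h1, h2⟩ := hf
  obtain ⟨K, h3, h4⟩ := hg
  have h5 : PerMod (H ⊓ K) f := h2.mono inf_le_left
  have h6 : PerMod (H ⊓ K) g := h4.mono inf_le_right
  have h7 : PerMod (H ⊓ K) (fun x => f x + g x) := fun h hh x => by
    simp only
    rw [h5 h hh, h6 h hh]
  have : Fintype (G ⧸ (H ⊓ K)) := AddSubgroup.fintypeQuotientOfFiniteIndex
  rw [mean_eq _ h5, mean_eq _ h6, mean_eq _ h7, avg_def, avg_def, avg_def, ← mul_add,
    ← Finset.sum_add_distrib]
  rfl

variable {K : Type} [Field K] [NumberField K]

theorem haar_add {f g : K → ℂ} (hf : FSch f) (hg : FSch g) :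
    haar (fun x => f x + g x) = haar f + haar g := by
  obtain ⟨N, hN⟩ := hf
  obtain ⟨N', hN'⟩ := hg
  have h1 := hN.mul hN'.ne
  have h2 := hN'.mul' hN.ne
  have h3 : Sch (N * N') (fun x => f x + g x) :=
    ⟨h1.ne, fun ξ a => by rw [h1.per, h2.per], fun ξ hξ => by
      by_cases h0 : f ξ = 0
      · refine h2.supp ξ fun h => hξ ?_
        simp only [h0, h, add_zero]
      · exact h1.supp ξ h0⟩
  rw [h1.haar_eq, h2.haar_eq, h3.haar_eq, ← mul_add, ← mean_add h1.perf h2.perf]

theorem FSch.zero : FSch (fun _ : K => (0 : ℂ)) :=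
  ⟨1, one_ne_zero, fun _ _ => rfl, fun _ h => absurd rfl h⟩

theorem haar_zero : haar (fun _ : K => (0 : ℂ)) = 0 := by
  have h := haar_const_mul (FSch.zero (K := K)) 0
  simpa using h

theorem FSch.sum {ι : Type*} (s : Finset ι) {f : ι → K → ℂ} (hf : ∀ i ∈ s, FSch (f i)) :
    FSch (fun x => ∑ i ∈ s, f i x) := by
  classical
  induction s using Finset.induction_on with
  | empty => simpa using FSch.zero
  | insert i s hi ih =>
    have h1 : (fun x => ∑ j ∈ insert i s, f j x) = fun x => f i x + ∑ j ∈ s, f j x := by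
      funext x; rw [Finset.sum_insert hi]
    rw [h1]
    exact (hf i (Finset.mem_insert_self _ _)).add (ih fun j hj => hf j (Finset.mem_insert_of_mem hj))

theorem haar_sum {ι : Type*} (s : Finset ι) {f : ι → K → ℂ} (hf : ∀ i ∈ s, FSch (f i)) :
    haar (fun x => ∑ i ∈ s, f i x) = ∑ i ∈ s, haar (f i) := by
  classical
  induction s using Finset.induction_on with
  | empty => simpa using haar_zero
  | insert i s hi ih =>
    have h1 : (fun x => ∑ j ∈ insert i s, f j x) = fun x => f i x + ∑ j ∈ s, f j x := by
      funext x; rw [Finset.sum_insert hi]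
    rw [h1, haar_add (hf i (Finset.mem_insert_self _ _))
      (FSch.sum s fun j hj => hf j (Finset.mem_insert_of_mem hj)), Finset.sum_insert hi,
      ih fun j hj => hf j (Finset.mem_insert_of_mem hj)]

end add

variable {F M : Type} [Field F] [NumberField F] [Field M] [NumberField M] [Algebra F M]
  (Q : Quad F M)

theorem FSch.mul_char {f : M → ℂ} (hf : FSch f) (η : M) : FSch (fun ξ => f ξ * eQ (Q.B ξ η)) := by
  obtain ⟨N, hN⟩ := hf
  exact hN.mul_char' Q η

theorem Quad.ft_sum {ι : Type*} (s : Finset ι) (c : ι → ℂ) {f : ι → M → ℂ} (hf : ∀ i ∈ s, FSch (f i))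
    (η : M) : Q.ft (fun x => ∑ i ∈ s, c i * f i x) η = ∑ i ∈ s, c i * Q.ft (f i) η := by
  unfold Quad.ft
  have h1 : (fun ξ => (∑ i ∈ s, c i * f i ξ) * eQ (Q.B ξ η)) =
      fun ξ => ∑ i ∈ s, c i * (f i ξ * eQ (Q.B ξ η)) := by
    funext ξ
    rw [Finset.sum_mul]
    exact Finset.sum_congr rfl fun i _ => mul_assoc _ _ _
  rw [h1, haar_sum s fun i hi => ((hf i hi).mul_char Q η).const_mul (c i), Finset.mul_sum]
  refine Finset.sum_congr rfl fun i hi => ?_
  rw [haar_const_mul ((hf i hi).mul_char Q η)]
  ring

section trace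

theorem exists_dom (l : Dv M) : ∃ m : Dv F, 0 ≤ m ∧ ∀ P, l P ≤ m (SUH.below F P) := by
  classical
  refine ⟨∑ P ∈ l.support, Finsupp.single (SUH.below F P) |l P|, ?_, fun P => ?_⟩
  · refine Finset.sum_nonneg fun P _ => ?_
    rw [Finsupp.single_nonneg]
    exact abs_nonneg _
  · rw [Finsupp.finsetSum_apply]
    by_cases hP : P ∈ l.support
    · refine le_trans ?_ (Finset.single_le_sum (f := fun P' : Pl M =>
        (Finsupp.single (SUH.below F P') |l P'| : Dv F) (SUH.below F P)) (fun P' _ => ?_) hP)
      · simp only [Finsupp.single_eq_same]; exact le_abs_self _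
      · simp only [Finsupp.single_apply]
        split_ifs
        · exact abs_nonneg _
        · exact le_rfl
    · rw [Finsupp.notMem_support_iff.mp hP]
      refine Finset.sum_nonneg fun P' _ => ?_
      simp only [Finsupp.single_apply]
      split_ifs
      · exact abs_nonneg _
      · exact le_rfl

theorem val_alg_le (P : Pl M) {x : F} {n : ℤ} (hn : 0 ≤ n)
    (h : (SUH.below F P).valuation F x ≤ exp (-n)) : P.valuation M (algebraMap F M x) ≤ exp (-n) := by
  rw [← HeightOneSpectrum.valuation_liesOver M (SUH.below F P) P x]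
  have h1 : (SUH.below F P).valuation F x ≤ 1 := h.trans (by
    rw [← WithZero.exp_zero, WithZero.exp_le_exp]; omega)
  refine (pow_le_of_le_one zero_le h1 ?_).trans h
  exact Ideal.IsDedekindDomain.ramificationIdx'_ne_zero_of_liesOver P.asIdeal (SUH.below F P).ne_bot

/-- the trace maps the inverse different to the inverse different, locally -/
theorem val_trace_le {z : M} {w : Pl F}
    (h : ∀ P : Pl M, SUH.below F P = w → P.valuation M z ≤ exp (dF M P)) :
    w.valuation F (Algebra.trace F M z) ≤ exp (dF F w) := by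
  by_cases hz : z = 0
  · subst hz; rw [map_zero, map_zero]; exact zero_le
  obtain ⟨m, hm0, hm⟩ := exists_dom (F := F) (-dv z)
  obtain ⟨a, ha0, ha1, ha2⟩ := exists_val_eq w 0 m
  have h1 : algebraMap F M a * z ∈ InL (-dF M) := by
    intro P
    rw [Finsupp.neg_apply, neg_neg, map_mul]
    by_cases hP : SUH.below F P = w
    · have h2 : P.valuation M (algebraMap F M a) ≤ 1 := by
        apply val_alg_le_one
        rw [hP, val_eq w ha0, ha1, neg_zero, WithZero.exp_zero]
      calc _ ≤ 1 * exp (dF M P) := mul_le_mul' h2 (h P hP)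
        _ = _ := one_mul _
    · have h2 := val_alg_le P (hm0 _) (ha2 _ hP)
      have h3 := hm P
      rw [Finsupp.neg_apply, dv_apply] at h3
      have h4 := dF_apply_nonneg P
      calc _ ≤ exp (-(m (SUH.below F P))) * exp (-(ov P z)) := mul_le_mul' h2 (val_eq P hz).le
        _ ≤ _ := by
          rw [← WithZero.exp_add, WithZero.exp_le_exp]
          omega
  have h2 : a * Algebra.trace F M z ∈ InL (-dF F) := by
    have h3 := (mem_dual_iff (0 : Dv F) (a * Algebra.trace F M z)).mp (fun b hb => by
      obtain ⟨b, rfl⟩ := exists_coe_of_mem hb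
      have h5 := (mem_dual_iff (0 : Dv M) (algebraMap F M a * z)).mpr
        (by rwa [neg_zero, zero_sub]) ((algebraMap (𝓞 F) (𝓞 M) b : 𝓞 M) : M) (coe_mem_InL _)
      obtain ⟨n, hn⟩ := h5
      refine ⟨n, ?_⟩
      rw [← hn]
      have h6 : ((algebraMap (𝓞 F) (𝓞 M) b : 𝓞 M) : M) * (algebraMap F M a * z) =
          z * algebraMap F M (a * (b : F)) := by
        rw [map_mul]
        change algebraMap F M (b : F) * _ = _
        ring
      rw [h6, trace_mul_alg]
      congr 1
      ring)
    rwa [neg_zero, zero_sub] at h3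
  have h3 := h2 w
  rwa [map_mul, val_eq w ha0, ha1, neg_zero, WithZero.exp_zero, one_mul, Finsupp.neg_apply,
    neg_neg] at h3

end trace

section norm

theorem Quad.qv_inert (P : Pl M) (hw : Unr M (SUH.below F P)) (h : Q.cP P = P) :
    qv P = qv (SUH.below F P) ^ 2 := by
  have h1 := GS.absNorm_ext Q.gq (SUH.below F P).asIdeal
  rw [Q.ext_inert P hw h] at h1
  rw [qv, qv, h1]
  push_cast
  rfl

theorem Quad.qv_split (P : Pl M) (hw : Unr M (SUH.below F P)) (h : Q.cP P ≠ P) :
    qv P = qv (SUH.below F P) := by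
  have h1 := GS.absNorm_split Q.gq (Q.ext_split P hw h)
  rw [qv, qv, h1]

open Classical in
theorem Quad.Nm_single (P : Pl M) (n : ℤ) :
    Q.Nm (Finsupp.single P n) = if Q.cP P = P then Finsupp.single (SUH.below F P) (2 * n) else
      Finsupp.single (SUH.below F P) n := by
  classical
  ext w
  obtain ⟨P', rfl⟩ := SUH.exists_above (F := M) w
  rw [Q.Nm_below]
  by_cases hb : SUH.below F P = SUH.below F P'
  · rcases Q.eq_or_eq_cP hb with h1 | h1
    · subst h1
      by_cases h : Q.cP P' = P'
      · rw [if_pos h, h, Finsupp.single_eq_same, Finsupp.single_eq_same]; ring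
      · rw [if_neg h, Finsupp.single_eq_same, Finsupp.single_eq_same,
          Finsupp.single_eq_of_ne (fun h2 => h h2), add_zero]
    · subst h1
      by_cases h : Q.cP P = P
      · rw [if_pos h, h, h, Finsupp.single_eq_same, Finsupp.single_eq_same]; ring
      · rw [if_neg h, Q.cP_cP, Finsupp.single_eq_same, Finsupp.single_eq_of_ne (fun h2 => h h2),
          Q.below_cP, Finsupp.single_eq_same, zero_add]
  · have h1 : P ≠ P' := fun h => hb (by rw [h])
    have h2 : P ≠ Q.cP P' := fun h => hb (by rw [h, Q.below_cP])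
    rw [Finsupp.single_eq_of_ne (Ne.symm h1), Finsupp.single_eq_of_ne (Ne.symm h2)]
    split_ifs
    · rw [Finsupp.single_eq_of_ne (fun h => hb h.symm), add_zero]
    · rw [Finsupp.single_eq_of_ne (fun h => hb h.symm), add_zero]

theorem absN_single {K : Type} [Field K] [NumberField K] (P : Pl K) (n : ℤ) :
    absN (Finsupp.single P n) = qv P ^ n := by
  rw [absN, Finsupp.prod_single_index (by simp)]

/-- norms of divisors supported at unramified places -/
theorem Quad.absN_Nm (l : Dv M) (hl : ∀ P, l P ≠ 0 → Unr M (SUH.below F P)) :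
    absN (Q.Nm l) = absN l := by
  classical
  induction l using Finsupp.induction with
  | zero => rw [map_zero, absN_zero, absN_zero]
  | single_add P n l hPl hn ih =>
    have hP : Unr M (SUH.below F P) := hl P (by
      rw [Finsupp.add_apply, Finsupp.single_eq_same, Finsupp.notMem_support_iff.1 hPl, add_zero]
      exact hn)
    have hl' : ∀ P', l P' ≠ 0 → Unr M (SUH.below F P') := by
      intro P' hP'
      apply hl P'
      have h1 : P' ≠ P := by
        rintro rfl
        exact hPl (Finsupp.mem_support_iff.mpr hP')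
      rwa [Finsupp.add_apply, Finsupp.single_eq_of_ne h1, zero_add]
    rw [map_add, absN_add, absN_add, ih hl', Q.Nm_single]
    congr 1
    by_cases h : Q.cP P = P
    · rw [if_pos h, absN_single, absN_single, Q.qv_inert P hP h, _root_.zpow_mul]
      rfl
    · rw [if_neg h, absN_single, absN_single, Q.qv_split P hP h]

end norm

end Fermat.Agent.LT.I
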