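import Fermat.Agent.LT.I.Conorm
import Fermat.Agent.LT.I.Dual

/-!
# LT, piece I: the trace at the bad places; `IsSch` is stable under `e_S(b · nrm)`
-/

set_option autoImplicit false
set_option linter.unusedSectionVars false

open NumberField IsDedekindDomain Matrix WithZero Module
open scoped Real nonZeroDivisors

namespace Fermat.Agent.LT.I

open Fermat.LT Fermat.Agent.CFT

variable {F M : Type} [Field F] [NumberField F] [Field M] [NumberField M] [Algebra F M]
variable (Z : Setup F M)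

theorem Quad.val_le_one_of_alg (Q : Quad F M) (P : Pl M) {x : F} (h : P.valuation M (algebraMap F M x) ≤ 1) :
    (SUH.below F P).valuation F x ≤ 1 := by
  by_cases hx : x = 0
  · rw [hx, map_zero]; exact zero_le
  have h0 : algebraMap F M x ≠ 0 := (map_ne_zero _).2 hx
  rw [← WithZero.exp_zero, ← neg_zero, le_exp_iff _ hx]
  rw [← WithZero.exp_zero, ← neg_zero, le_exp_iff _ h0] at h
  exact Q.ov_pos P le_rfl (by simpa using h)

theorem mem_InL_trace (Q : Quad F M) {x : M} (hx : x ∈ InL (-dF M)) :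
    Algebra.trace F M x ∈ InL (-dF F) := by
  have : FiniteDimensional F M := Module.finite_of_finrank_pos (by rw [Q.deg]; norm_num)
  rw [mem_InL_neg_dF] at hx ⊢
  intro y
  obtain ⟨n, hn⟩ := hx (algebraMap (𝓞 F) (𝓞 M) y)
  refine ⟨n, ?_⟩
  rw [← hn, ← Algebra.trace_trace (R := ℚ) (S := F) (T := M)]
  congr 1
  have h1 : ((algebraMap (𝓞 F) (𝓞 M) y : 𝓞 M) : M) = algebraMap F M (y : F) := rfl
  rw [h1, mul_comm x, ← Algebra.smul_def, map_smul, smul_eq_mul, mul_comm]

namespace Setup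

/-- **the trace at the bad places** -/
theorem trace_S {x : M} (hx : ∀ P, Z.Bad P → P.valuation M x ≤ exp (dF M P)) {w : Pl F}
    (hw : w ∈ Z.S) : w.valuation F (Algebra.trace F M x) ≤ exp (dF F w) := by
  obtain ⟨x', h1, h2⟩ := strong_approx Z.SM (fun _ => x) (fun _ => 0) (-dF M)
  have h3 : x' ∈ InL (-dF M) := by
    intro P
    rw [Finsupp.neg_apply, neg_neg]
    by_cases hP : Z.Bad P
    · have e : x' = (x' - x) + x := by ring
      rw [e]
      refine ((P.valuation M).map_add _ _).trans (max_le ((h1 P (Z.mem_SM.2 hP)).trans ?_) (hx P hP))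
      rw [WithZero.exp_le_exp]
      have := dF_apply_nonneg (F := M) P
      omega
    · have := h2 P (fun h => hP (Z.mem_SM.1 h))
      simpa using this
  have h4 := mem_InL_trace Z.toQuad h3 w
  rw [Finsupp.neg_apply, neg_neg] at h4
  have e : Algebra.trace F M x = Algebra.trace F M x' + Algebra.trace F M (x - x') := by
    rw [map_sub]; ring
  rw [e]
  refine ((w.valuation F).map_add _ _).trans (max_le h4 ?_)
  have h5 : w.valuation F (Algebra.trace F M (x - x')) ≤ 1 := by
    obtain ⟨P, rfl⟩ := SUH.exists_above (F := M) w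
    apply Z.val_le_one_of_alg P
    rw [Z.alg_trace]
    have g1 := h1 P (Z.mem_SM.2 hw)
    have g2 := h1 (Z.cP P) (Z.mem_SM.2 (Z.bad_cP.2 hw))
    rw [Z.val_cP] at g2
    have g3 : P.valuation M (x - x') ≤ 1 := by
      rw [Valuation.map_sub_swap]; simpa using g1
    have g4 : P.valuation M (Z.c (x - x')) ≤ 1 := by
      rw [← Valuation.map_neg, ← map_neg Z.c, neg_sub]; simpa using g2
    exact ((P.valuation M).map_add _ _).trans (max_le g3 g4)
  refine h5.trans ?_
  rw [← WithZero.exp_zero, WithZero.exp_le_exp]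
  exact dF_apply_nonneg w

theorem trace_S' {ξ η : M} (h : ∀ P, Z.Bad P →
    P.valuation M ξ * (Z.cP P).valuation M η ≤ exp (dF M P)) {w : Pl F} (hw : w ∈ Z.S) :
    w.valuation F (Z.BF ξ η) ≤ exp (dF F w) := by
  refine Z.trace_S (fun P hP => ?_) hw
  rw [map_mul, ← Z.val_cP]
  exact h P hP

/-- pairing of `Lam` with its dual -/
theorem BF_mem {ξ η : M} (hξ : ξ ∈ Z.Lam) (hη : η ∈ Z.LamD) {w : Pl F} (hw : w ∈ Z.S) :
    w.valuation F (Z.BF ξ η) ≤ exp (dF F w) := by
  refine Z.trace_S' (fun P hP => ?_) hw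
  calc P.valuation M ξ * (Z.cP P).valuation M η
      ≤ exp (Z.N : ℤ) * exp (-(Z.N - dF M (Z.cP P) : ℤ)) :=
        mul_le_mul' (hξ P hP) (hη _ (Z.bad_cP.2 hP))
    _ = exp (dF M P) := by
        rw [← WithZero.exp_add, Z.toQuad.dF_cP]; congr 1; ring

theorem nrm_add (ξ η : M) : nrm (F := F) (ξ + η) = nrm ξ + Z.BF ξ η + nrm η := by
  apply (algebraMap F M).injective
  rw [map_add, map_add, Z.alg_nrm, Z.alg_nrm, Z.alg_nrm, BF, Z.alg_trace, map_add, map_mul, Z.c_c]
  ring

theorem IsSch.mul_eS {s : M → ℂ} (hs : Z.IsSch s) {b : F} (hb : ∀ w ∈ Z.S, w.valuation F b ≤ 1) :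
    Z.IsSch fun ξ => s ξ * Z.eS (b * nrm ξ) := by
  refine ⟨fun ξ h => hs.supp ξ (left_ne_zero_of_mul h), fun ξ η hη => ?_⟩
  rw [hs.per ξ η hη]
  by_cases h0 : s ξ = 0
  · rw [h0, zero_mul, zero_mul]
  congr 1
  have hξ := hs.supp ξ h0
  refine Z.eS_congr fun w hw => ?_
  have e : b * nrm (ξ + η) - b * nrm ξ = b * (Z.BF ξ η + nrm η) := by
    rw [Z.nrm_add]; ring
  rw [e, map_mul]
  have h1 := Z.BF_mem hξ hη hw
  have h2 : w.valuation F (nrm η) ≤ exp (dF F w) := by
    refine le_trans ?_ (show (1 : WithZero (Multiplicative ℤ)) ≤ _ by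
      rw [← WithZero.exp_zero, WithZero.exp_le_exp]; exact dF_apply_nonneg w)
    obtain ⟨P, rfl⟩ := SUH.exists_above (F := M) w
    apply Z.val_le_one_of_alg P
    rw [Z.alg_nrm, map_mul, ← Z.val_cP]
    have g1 := hη P hw
    have g2 := hη (Z.cP P) (Z.bad_cP.2 hw)
    have g3 := Z.dM_le P hw
    have g4 := Z.dM_le (Z.cP P) (Z.bad_cP.2 hw)
    calc P.valuation M η * (Z.cP P).valuation M η ≤ exp 0 * exp 0 := by
          refine mul_le_mul' (g1.trans ?_) (g2.trans ?_) <;> rw [WithZero.exp_le_exp] <;> omega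
      _ = 1 := by simp
  calc w.valuation F b * w.valuation F (Z.BF ξ η + nrm η) ≤ 1 * exp (dF F w) :=
        mul_le_mul' (hb w hw) (((w.valuation F).map_add _ _).trans (max_le h1 h2))
    _ = _ := one_mul _

end Setup

end Fermat.Agent.LT.I
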