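import Fermat.Agent.LT.I.Dual

/-!
# LT, piece I: unramified places of a quadratic extension
-/

set_option autoImplicit false
set_option linter.unusedSectionVars false

open NumberField IsDedekindDomain Matrix WithZero Module MeasureTheory
open scoped Real ComplexConjugate nonZeroDivisors

namespace Fermat.Agent.LT.I

open Fermat.LT Fermat.Agent.CFT

section general

variable {K : Type} [Field K] [NumberField K]

theorem fid_single (P : Pl K) (n : ℤ) :
    fid (Finsupp.single P n) = (P.asIdeal : FractionalIdeal (𝓞 K)⁰ K) ^ n := by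
  rw [fid, Finsupp.prod_single_index (by simp)]

theorem mem_asIdeal_iff (P : Pl K) (a : 𝓞 K) : a ∈ P.asIdeal ↔ P.valuation K (a : K) < 1 :=
  (HeightOneSpectrum.valuation_lt_one_iff_mem (K := K) P a).symm

theorem lt_one_iff (P : Pl K) {x : K} (hx : x ≠ 0) : P.valuation K x < 1 ↔ 1 ≤ ov P x := by
  rw [val_eq P hx, ← WithZero.exp_zero, WithZero.exp_lt_exp]
  omega

theorem ov_nonneg (P : Pl K) (a : 𝓞 K) : 0 ≤ ov P (a : K) := by
  by_cases ha : (a : K) = 0
  · rw [ha, ov_zero]
  · have := P.valuation_le_one (K := K) a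
    change P.valuation K (a : K) ≤ 1 at this
    rw [val_eq P ha, ← WithZero.exp_zero, WithZero.exp_le_exp] at this
    omega

/-- a uniformiser which is integral -/
theorem exists_int_unif (w : Pl K) : ∃ a : 𝓞 K, ov w (a : K) = 1 ∧ (a : K) ≠ 0 := by
  obtain ⟨x, hx⟩ := w.valuation_exists_uniformizer K
  obtain ⟨u, hu1, hu2⟩ := strong_approx {w} (fun _ => x) (fun _ => 2) (0 : Dv K)
  have hx1 : w.valuation K x = exp (-(1 : ℤ)) := hx
  have h1 := hu1 w (Finset.mem_singleton_self w)
  have h2 : w.valuation K u = exp (-(1 : ℤ)) := by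
    have h3 : u = x + (u - x) := by ring
    rw [h3, Valuation.map_add_eq_of_lt_left, hx1]
    rw [hx1]
    refine lt_of_le_of_lt h1 ?_
    rw [WithZero.exp_lt_exp]; norm_num
  have h0 : u ≠ 0 := by
    rintro rfl
    rw [map_zero] at h2
    exact WithZero.exp_ne_zero h2.symm
  have h4 : u ∈ InL (0 : Dv K) := by
    intro w'
    by_cases hw : w' = w
    · subst hw
      rw [h2, WithZero.exp_le_exp]; simp
    · exact hu2 w' (by simpa using hw)
  obtain ⟨a, ha⟩ := exists_coe_of_mem h4
  refine ⟨a, ?_, by rw [ha]; exact h0⟩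
  rw [ha]
  exact ov_of_val w h2

end general

section quad

variable {F M : Type} [Field F] [NumberField F] [Field M] [NumberField M] [Algebra F M]
  (Q : Quad F M)

theorem mem_below_iff (P : Pl M) (a : 𝓞 F) :
    a ∈ (SUH.below F P).asIdeal ↔ algebraMap (𝓞 F) (𝓞 M) a ∈ P.asIdeal := Iff.rfl

theorem Quad.cj_asIdeal (P : Pl M) : Q.gq.cj P.asIdeal = (Q.cP P).asIdeal := by
  ext x
  rw [GS.Quad.mem_cj, mem_asIdeal_iff, mem_asIdeal_iff, Q.val_cP]
  rfl

theorem ext_le (P : Pl M) : (GS.Quad.ext (SUH.below F P).asIdeal : Ideal (𝓞 M)) ≤ P.asIdeal := by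
  rw [GS.Quad.ext, Ideal.map_le_iff_le_comap]
  intro a ha
  exact (mem_below_iff P a).mp ha

include Q in
/-- the prime factorisation of an unramified prime -/
theorem Quad.ext_eq_fid (P : Pl M) (hw : Unr M (SUH.below F P)) :
    ((GS.Quad.ext (SUH.below F P).asIdeal : Ideal (𝓞 M)) : FractionalIdeal (𝓞 M)⁰ M) =
      fid (Finsupp.single P 1 ⊔ Finsupp.single (Q.cP P) 1) := by
  classical
  set w := SUH.below F P with hw'
  have h0 : (GS.Quad.ext w.asIdeal : Ideal (𝓞 M)) ≠ ⊥ := GS.Quad.ext_ne_bot w.ne_bot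
  obtain ⟨m, hm⟩ := exists_fid (FractionalIdeal.coeIdeal_ne_zero (K := M).2 h0)
  rw [← hm]
  congr 1
  -- elements
  have hmem : ∀ a : 𝓞 F, (a : F) ≠ 0 → a ∈ w.asIdeal → ∀ P' : Pl M, m P' ≤ ov P' (algebraMap F M (a : F)) := by
    intro a ha0 ha P'
    have h1 : algebraMap F M (a : F) ∈ fid m := by
      rw [hm]
      have : algebraMap F M (a : F) = algebraMap (𝓞 M) M (algebraMap (𝓞 F) (𝓞 M) a) := rfl
      rw [this]
      exact FractionalIdeal.mem_coeIdeal_of_mem _ (Ideal.mem_map_of_mem _ ha)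
    rw [mem_fid, mem_InL_iff ((map_ne_zero _).mpr ha0)] at h1
    exact h1 P'
  have hge : ∀ P' : Pl M, SUH.below F P' = w → 1 ≤ m P' := by
    intro P' hP'
    have h1 : fid m ≤ fid (Finsupp.single P' 1) := by
      rw [hm, fid_single, zpow_one, FractionalIdeal.coeIdeal_le_coeIdeal]
      rw [← hP']
      exact ext_le P'
    have h2 := (fid_le_fid.mp h1) P'
    simpa using h2
  have hnn : ∀ P' : Pl M, 0 ≤ m P' := by
    intro P'
    have h1 : fid m ≤ fid (0 : Dv M) := by
      rw [hm, fid_zero]; exact FractionalIdeal.coeIdeal_le_one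
    exact (fid_le_fid.mp h1) P'
  obtain ⟨a, ha1, ha0⟩ := exists_int_unif w
  have haw : a ∈ w.asIdeal := by
    rw [mem_asIdeal_iff, lt_one_iff _ ha0, ha1]
  ext P'
  rw [Finsupp.sup_apply, Finsupp.single_apply, Finsupp.single_apply]
  by_cases hP' : SUH.below F P' = w
  · have h1 := hmem a ha0 haw P'
    rw [Unr.ov_eq hw hP', ha1] at h1
    have h2 := hge P' hP'
    have h3 : P = P' ∨ Q.cP P = P' := by
      rcases Q.eq_or_eq_cP (P := P) (P' := P') (by rw [hP', hw']) with h | h
      · exact Or.inl h.symm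
      · exact Or.inr h.symm
    rcases h3 with h3 | h3
    · rw [if_pos h3]
      split_ifs <;> simp <;> omega
    · rw [if_pos h3]
      split_ifs <;> simp <;> omega
  · have h3 : P ≠ P' := by rintro rfl; exact hP' rfl
    have h4 : Q.cP P ≠ P' := by rintro rfl; exact hP' (by rw [Q.below_cP])
    rw [if_neg h3, if_neg h4, sup_idem]
    refine le_antisymm ?_ (hnn P')
    -- an element of `w` outside `P'`
    have h5 : ∃ b ∈ w.asIdeal, b ∉ (SUH.below F P').asIdeal := by
      by_contra hc
      push Not at hc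
      have h6 : w.asIdeal ≤ (SUH.below F P').asIdeal := hc
      have h7 := w.isMaximal.eq_of_le (SUH.below F P').isPrime.ne_top h6
      exact hP' (HeightOneSpectrum.ext h7.symm)
    obtain ⟨b, hb1, hb2⟩ := h5
    have hb0 : (b : F) ≠ 0 := by
      intro h
      apply hb2
      have : b = 0 := RingOfIntegers.ext (by rw [h]; rfl)
      rw [this]; exact zero_mem _
    have h6 := hmem b hb0 hb1 P'
    have h7 : ov P' (algebraMap F M (b : F)) = 0 := by
      have h8 : ¬ P'.valuation M (algebraMap F M (b : F)) < 1 := by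
        have h9 := mem_asIdeal_iff P' (algebraMap (𝓞 F) (𝓞 M) b)
        rw [← mem_below_iff] at h9
        exact fun h => hb2 (h9.mpr h)
      have h10 := ov_nonneg P' (algebraMap (𝓞 F) (𝓞 M) b)
      have h11 : (algebraMap F M (b : F)) ≠ 0 := (map_ne_zero _).mpr hb0
      rw [lt_one_iff _ h11] at h8
      change 0 ≤ ov P' (algebraMap F M (b : F)) at h10
      omega
    omega

theorem Quad.ext_inert (P : Pl M) (hw : Unr M (SUH.below F P)) (h : Q.cP P = P) :
    (GS.Quad.ext (SUH.below F P).asIdeal : Ideal (𝓞 M)) = P.asIdeal := by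
  have h1 := Q.ext_eq_fid P hw
  rw [h, sup_idem, fid_single, zpow_one] at h1
  exact FractionalIdeal.coeIdeal_injective (K := M) h1

theorem Quad.ext_split (P : Pl M) (hw : Unr M (SUH.below F P)) (h : Q.cP P ≠ P) :
    (GS.Quad.ext (SUH.below F P).asIdeal : Ideal (𝓞 M)) = P.asIdeal * Q.gq.cj P.asIdeal := by
  have h1 := Q.ext_eq_fid P hw
  have h2 : (Finsupp.single P 1 ⊔ Finsupp.single (Q.cP P) 1 : Dv M) =
      Finsupp.single P 1 + Finsupp.single (Q.cP P) 1 := by
    classical
    ext P'
    rw [Finsupp.sup_apply, Finsupp.add_apply, Finsupp.single_apply, Finsupp.single_apply]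
    by_cases h3 : P = P'
    · have h4 : Q.cP P ≠ P' := by rw [← h3]; exact h
      rw [if_pos h3, if_neg h4]; simp
    · rw [if_neg h3]
      split_ifs <;> simp
  rw [h2, fid_add, fid_single, fid_single, zpow_one, zpow_one, ← FractionalIdeal.coeIdeal_mul] at h1
  rw [Q.cj_asIdeal]
  exact FractionalIdeal.coeIdeal_injective (K := M) h1

theorem Quad.inert_or_split (P : Pl M) (hw : Unr M (SUH.below F P)) :
    (Q.cP P = P ∧ GS.Inert M (SUH.below F P).asIdeal) ∨
      (Q.cP P ≠ P ∧ GS.Split Q.gq (SUH.below F P).asIdeal) := by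
  by_cases h : Q.cP P = P
  · left
    refine ⟨h, ?_⟩
    unfold GS.Inert
    rw [Q.ext_inert P hw h]
    exact P.isPrime
  · right
    refine ⟨h, P.asIdeal, P.isPrime, ?_, Q.ext_split P hw h⟩
    rw [Q.cj_asIdeal]
    intro h2
    exact h (HeightOneSpectrum.ext h2.symm)

theorem val_alg_le_one (P : Pl M) {x : F} (h : (SUH.below F P).valuation F x ≤ 1) :
    P.valuation M (algebraMap F M x) ≤ 1 := by
  rw [← HeightOneSpectrum.valuation_liesOver M (SUH.below F P) P x]
  exact pow_le_one₀ zero_le h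

/-- an element with prescribed valuation at `w`, and in a given lattice elsewhere -/
theorem exists_val_eq {K : Type} [Field K] [NumberField K] (w : Pl K) (n : ℤ) (l : Dv K) :
    ∃ a : K, a ≠ 0 ∧ ov w a = n ∧ ∀ w' ≠ w, w'.valuation K a ≤ exp (-(l w')) := by
  obtain ⟨p0, hp1, hp0⟩ := exists_int_unif w
  obtain ⟨u, hu1, hu2⟩ := strong_approx {w} (fun _ => (p0 : K) ^ n) (fun _ => n + 1) l
  have hx0 : (p0 : K) ^ n ≠ 0 := zpow_ne_zero _ hp0
  have hx1 : w.valuation K ((p0 : K) ^ n) = exp (-n) := by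
    rw [map_zpow₀, val_eq w hp0, hp1, ← WithZero.exp_zsmul]
    simp
  have h1 := hu1 w (Finset.mem_singleton_self w)
  have h2 : w.valuation K u = exp (-n) := by
    have h3 : u = (p0 : K) ^ n + (u - (p0 : K) ^ n) := by ring
    rw [h3, Valuation.map_add_eq_of_lt_left, hx1]
    rw [hx1]
    refine lt_of_le_of_lt h1 ?_
    rw [WithZero.exp_lt_exp]; omega
  have h0 : u ≠ 0 := by
    rintro rfl
    rw [map_zero] at h2
    exact WithZero.exp_ne_zero h2.symm
  exact ⟨u, h0, ov_of_val w h2, fun w' hw' => hu2 w' (by simpa using hw')⟩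

theorem trace_mul_alg (y : M) (a : F) :
    Algebra.trace ℚ M (y * algebraMap F M a) = Algebra.trace ℚ F (Algebra.trace F M y * a) := by
  rw [← Algebra.trace_trace (S := F)]
  congr 1
  rw [mul_comm, ← Algebra.smul_def, map_smul, smul_eq_mul, mul_comm]

include Q in
/-- The different does not change at unramified places. -/
theorem Quad.dF_unr (P : Pl M) (hw : Unr M (SUH.below F P)) : dF M P = dF F (SUH.below F P) := by
  set w := SUH.below F P with hw'
  refine le_antisymm ?_ ?_
  · by_contra hlt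
    push Not at hlt
    obtain ⟨a, ha0, ha1, ha2⟩ := exists_val_eq w (-(dF F w) - 1) (0 : Dv F)
    have haM : algebraMap F M a ≠ 0 := (map_ne_zero _).mpr ha0
    have h1 : algebraMap F M a ∈ InL (-dF M) := by
      intro P'
      by_cases hP' : SUH.below F P' = w
      · rw [val_eq P' haM, Unr.ov_eq hw hP', ha1, WithZero.exp_le_exp]
        have h3 : dF M P' = dF M P := by
          rcases Q.eq_or_eq_cP (P := P) (P' := P') (by rw [hP', hw']) with h | h
          · rw [h]
          · rw [h, Q.dF_cP]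
        rw [Finsupp.neg_apply, h3]
        omega
      · have h3 := ha2 _ hP'
        rw [Finsupp.zero_apply, neg_zero, WithZero.exp_zero] at h3
        refine (val_alg_le_one P' h3).trans ?_
        rw [← WithZero.exp_zero, WithZero.exp_le_exp, Finsupp.neg_apply, neg_neg]
        exact dF_apply_nonneg P'
    have h2 : ∀ y : 𝓞 M, GS.Quad.tr y ∈ w.asIdeal := by
      intro y
      have h3 : a * Algebra.trace F M (y : M) ∈ InL (-dF F) := by
        have h4 := (mem_dual_iff (0 : Dv F) (a * Algebra.trace F M (y : M))).mp (fun b hb => by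
          obtain ⟨b, rfl⟩ := exists_coe_of_mem hb
          have h5 := (mem_dual_iff (0 : Dv M) (algebraMap F M a)).mpr
            (by rwa [neg_zero, zero_sub]) ((algebraMap (𝓞 F) (𝓞 M) b * y : 𝓞 M) : M) (coe_mem_InL _)
          obtain ⟨n, hn⟩ := h5
          refine ⟨n, ?_⟩
          rw [← hn, trace_mul_alg, oc_mul]
          congr 1
          have h6 : ((algebraMap (𝓞 F) (𝓞 M) b : 𝓞 M) : M) * (y : M) = (b : F) • (y : M) := by
            rw [Algebra.smul_def]; rfl
          rw [h6, map_smul, smul_eq_mul]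
          ring)
        rwa [neg_zero, zero_sub] at h4
      rw [mem_asIdeal_iff, GS.Quad.coe_tr]
      by_cases h0 : Algebra.trace F M (y : M) = 0
      · rw [h0, map_zero]; exact zero_lt_one
      · rw [lt_one_iff _ h0]
        rw [mem_InL_iff (mul_ne_zero ha0 h0)] at h3
        have := h3 w
        rw [ov_mul w ha0 h0, ha1, Finsupp.neg_apply] at this
        omega
    have hwp : w.asIdeal.IsPrime := w.isPrime
    rcases Q.inert_or_split P hw with ⟨_, hin⟩ | ⟨_, P0, hP0, hne, hsp⟩
    · have h3 := GS.nd_inert Q.gq w.asIdeal hin w.ne_bot 1 (fun y => by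
        rw [one_mul]; exact h2 _)
      exact (Ideal.ne_top_iff_one _).mp (Ideal.IsPrime.ne_top hin) h3
    · have h3 := GS.nd_split Q.gq w.ne_bot hP0 hne hsp 1 (fun y _ => by
        rw [one_mul]; exact h2 _)
      exact (Ideal.ne_top_iff_one _).mp hP0.ne_top h3
  · obtain ⟨a, ha0, ha1, ha2⟩ := exists_val_eq w (-(dF F w)) (-dF F)
    have haM : algebraMap F M a ≠ 0 := (map_ne_zero _).mpr ha0
    have h1 : a ∈ InL (-dF F) := by
      intro w'
      by_cases h : w' = w
      · rw [h, val_eq w ha0, ha1]; simp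
      · exact ha2 w' h
    have h2 : algebraMap F M a ∈ InL (-dF M) := by
      have h3 := (mem_dual_iff (0 : Dv M) (algebraMap F M a)).mp (fun y hy => by
        obtain ⟨y, rfl⟩ := exists_coe_of_mem hy
        have h4 := (mem_dual_iff (0 : Dv F) a).mpr (by rwa [neg_zero, zero_sub])
          ((GS.Quad.tr y : 𝓞 F) : F) (coe_mem_InL _)
        obtain ⟨n, hn⟩ := h4
        exact ⟨n, by rw [← hn, trace_mul_alg]; rfl⟩)
      rwa [neg_zero, zero_sub] at h3
    rw [mem_InL_iff haM] at h2
    have h3 := h2 P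
    rw [Unr.ov_eq hw hw'.symm, ha1, Finsupp.neg_apply] at h3
    omega

end quad

end Fermat.Agent.LT.I
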